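import Fermat.Agent.SemistableRed.NormMaps
import Fermat.Agent.SemistableRed.Toric
import Fermat.Agent.Engine.TRep.TraceMat
import Fermat.Agent.SemistableRed.Templates
import Mathlib.NumberTheory.Padics.PadicNumbers
import Mathlib.RingTheory.Localization.Integer

/-!
# The two norms `J₀(M q) → J₀(M)` as `p`-adic matrices

They intertwine Galois, hence the trace matrices, and on their common kernel the trace `t` of a
Frobenius at `q` satisfies `t ^ 2 = (q + 1) ^ 2`, also after extension of scalars to any field of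
characteristic zero.
-/

set_option linter.unusedSectionVars false

noncomputable section

namespace Fermat.Agent.Engine.Lifting

open ModularCurve AlgebraicCurve Matrix EigenRep SemistableRed TRep

local notation "Qbar" => AlgebraicClosure ℚ
local notation "Jtors" N:max n:max => Pic0.torsion (AlgebraicClosure ℚ) (modularFunctionFieldBar N) n

section General

variable {N N' p : ℕ} [NeZero N] [NeZero N'] [Fact p.Prime] (M : TorsionHeckeModel N p)
  (M' : TorsionHeckeModel N' p)

/-- The matrices of a map of Jacobians are compatible. -/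
theorem mapMat_compat (ν : JZero N →+ JZero N') (n : ℕ) (i : Fin M'.d) (j : Fin M.d) :
    ZMod.castHom (pow_dvd_pow p n.le_succ) (ZMod (p ^ n)) (mapMat M M' ν (n + 1) i j) =
      mapMat M M' ν n i j := by
  let c := ZMod.castHom (pow_dvd_pow p n.le_succ) (ZMod (p ^ n))
  have key : (mapMat M M' ν (n + 1)).map c = mapMat M M' ν n := by
    refine Matrix.ext_of_mulVec_single fun k => ?_
    obtain ⟨y, hy⟩ := (M.e n).surjective (Pi.single k 1)
    choose v hv using fun l => ZMod.castHom_surjective (pow_dvd_pow p n.le_succ) (M.e n y l)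
    let x := (M.e (n + 1)).symm v
    have hxy : mulTors n x = y := (M.e n).injective (funext fun l => by
      rw [M.e_compat n x _ rfl l, AddEquiv.apply_symm_apply, hv l])
    have hν : ((torsMap ν (p ^ n) (mulTors n x) : Jtors N' (p ^ n)) : JZero N') =
        p • ((torsMap ν (p ^ (n + 1)) x : Jtors N' (p ^ (n + 1))) : JZero N') :=
      ν.map_nsmul p x
    have hcv : c ∘ v = M.e n y := funext hv
    rw [← hy, mapMat_mulVec]
    funext l
    rw [← hcv, ← RingHom.map_mulVec c, ← hxy, M'.e_compat n _ _ hν l,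
      ← mapMat_mulVec M M' ν (n + 1) x, AddEquiv.apply_symm_apply]
  exact congr($key i j)

/-- The `p`-adic matrix of a map of Jacobians. -/
def mapPadic (ν : JZero N →+ JZero N') : Matrix (Fin M'.d) (Fin M.d) ℤ_[p] :=
  Matrix.of fun i j => (exists_toZModPow_eq (fun n => mapMat M M' ν n i j)
    fun n => mapMat_compat M M' ν n i j).choose

/-- The `p`-adic matrix modulo `p ^ n`. -/
theorem mapPadic_mod (ν : JZero N →+ JZero N') (n : ℕ) :
    (mapPadic M M' ν).map (PadicInt.toZModPow n) = mapMat M M' ν n := by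
  ext i j
  exact (exists_toZModPow_eq (fun n => mapMat M M' ν n i j)
    fun n => mapMat_compat M M' ν n i j).choose_spec n

/-- An equivariant map intertwines the Galois matrices. -/
theorem mapPadic_mul_galMat {ν : JZero N →+ JZero N'} (hν : IsGaloisEquivariant ν)
    (σ : Qbar ≃ₐ[ℚ] Qbar) :
    mapPadic M M' ν * galMat M σ = galMat M' σ * mapPadic M M' ν := by
  ext i j
  refine PadicInt.ext_of_toZModPow.mp fun n => ?_
  have e1 : (galMat M σ).map (PadicInt.toZModPow n) = levelMat M n σ := matMod_galMat M n σ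
  have e2 : (galMat M' σ).map (PadicInt.toZModPow n) = levelMat M' n σ := matMod_galMat M' n σ
  have h : (mapPadic M M' ν * galMat M σ).map (PadicInt.toZModPow n) =
      (galMat M' σ * mapPadic M M' ν).map (PadicInt.toZModPow n) := by
    rw [Matrix.map_mul, Matrix.map_mul, mapPadic_mod, e1, e2, mapMat_mul_levelMat M M' hν n σ]
  exact congr($h i j)

variable (R : RepInputs N p) (R' : RepInputs N' p)

/-- An equivariant map intertwines the trace matrices. -/
theorem mapPadic_mul_tMat {ν : JZero N →+ JZero N'} (hν : IsGaloisEquivariant ν)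
    (g : Qbar ≃ₐ[ℚ] Qbar) :
    mapPadic R.model R'.model ν * tMat R g = tMat R' g * mapPadic R.model R'.model ν := by
  rw [tMat, tMat, Matrix.mul_add, Matrix.add_mul, Matrix.mul_smul, Matrix.smul_mul,
    mapPadic_mul_galMat _ _ hν, mapPadic_mul_galMat _ _ hν]

/-- An equivariant map intertwines the Hecke matrices. -/
theorem mapPadic_mul_heckeMat {ν : JZero N →+ JZero N'} (hν : IsGaloisEquivariant ν) {ℓ : ℕ}
    (hℓ : ℓ.Prime) (hℓN : ¬ ℓ ∣ N * p) (hℓN' : ¬ ℓ ∣ N' * p) :
    mapPadic R.model R'.model ν * heckeMat R.model ⟨ℓ, hℓ⟩ =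
      heckeMat R'.model ⟨ℓ, hℓ⟩ * mapPadic R.model R'.model ν := by
  obtain ⟨A, σ, hA, hσ⟩ := Frobenius.exists_liesOverPrime_and_isFrobeniusAt_qbar hℓ
  rw [← tMat_frobenius R hℓ hℓN hA hσ, ← tMat_frobenius R' hℓ hℓN' hA hσ]
  exact mapPadic_mul_tMat R R' hν σ

end General

section Kernel

/-- `(φ² - q²) (φ² - 1)`, expanded. -/
def quartic {A : Type*} [Ring A] (q : ℕ) (G : A) : A :=
  G * G * G * G - (q ^ 2 + 1) • (G * G) + q ^ 2 • 1

/-- `quartic` commutes with ring maps. -/
theorem map_quartic {A B : Type*} [Ring A] [Ring B] (F : A →+* B) (q : ℕ) (G : A) :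
    F (quartic q G) = quartic q (F G) := by
  simp [quartic]

/-- `(G + q G⁻¹) ^ 2 - (q + 1) ^ 2` as a multiple of `quartic q G`. -/
theorem sq_eq_mul_quartic {A : Type*} [Ring A] (q : ℕ) {G Gi : A} (h1 : Gi * G = 1)
    (h2 : G * Gi = 1) :
    (G + q • Gi) * (G + q • Gi) - (q + 1) ^ 2 • 1 = Gi * Gi * quartic q G := by
  have e1 : Gi * Gi * (G * G) = 1 := by rw [mul_assoc, ← mul_assoc Gi G G, h1, one_mul, h1]
  have e2 : Gi * Gi * (G * G * G * G) = G * G := by
    rw [mul_assoc (G * G), ← mul_assoc, e1, one_mul]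
  rw [quartic, mul_add (Gi * Gi), mul_sub (Gi * Gi), mul_smul_comm, mul_smul_comm, e1, e2, mul_one]
  simp only [mul_add, add_mul, smul_mul_assoc, mul_smul_comm, h1, h2]
  module

/-- Homomorphisms from `ℤ_p` into fields of characteristic zero are injective. -/
theorem padicInt_hom_injective {p : ℕ} [Fact p.Prime] {K : Type*} [Field K] [CharZero K]
    (ι : ℤ_[p] →+* K) : Function.Injective ι := by
  refine (injective_iff_map_eq_zero ι).mpr fun x hx => ?_
  by_contra h
  rw [PadicInt.unitCoeff_spec h, map_mul, map_pow, map_natCast] at hx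
  exact mul_ne_zero ((PadicInt.unitCoeff h).isUnit.map ι).ne_zero
    (pow_ne_zero _ (Nat.cast_ne_zero.mpr (Fact.out : p.Prime).ne_zero)) hx

/-- A matrix vanishing on the kernel of another one is, up to a scalar, a multiple of it. -/
theorem exists_smul_eq_mul {R : Type*} [CommRing R] [IsDomain R] {a b c : Type*} [Fintype a]
    [DecidableEq a] [Fintype b] [Finite c] (A : Matrix b a R) (B : Matrix c a R)
    (h : ∀ v, A *ᵥ v = 0 → B *ᵥ v = 0) :
    ∃ (s : R) (X : Matrix c b R), s ≠ 0 ∧ s • B = X * A := by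
  classical
  let F := FractionRing R
  let f := algebraMap R F
  have hinj : Function.Injective f := IsFractionRing.injective R F
  let A' := A.map f
  let B' := B.map f
  have hF : ∀ v : a → F, A' *ᵥ v = 0 → B' *ᵥ v = 0 := fun v hv => by
    obtain ⟨d, hd⟩ := IsLocalization.exist_integer_multiples_of_finite (nonZeroDivisors R) v
    choose w hw using hd
    have hwv : f ∘ w = f (d : R) • v := funext fun i => by
      show f (w i) = f (d : R) * v i
      rw [hw i, Algebra.smul_def]
    have hd0 : f (d : R) ≠ 0 := fun h0 =>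
      nonZeroDivisors.coe_ne_zero d (hinj (h0.trans (map_zero f).symm))
    have h1 : A *ᵥ w = 0 := funext fun i => hinj (by
      rw [RingHom.map_mulVec, hwv, mulVec_smul, hv, smul_zero, Pi.zero_apply, Pi.zero_apply,
        map_zero])
    have h2 : B' *ᵥ (f (d : R) • v) = 0 := funext fun i => by
      rw [← hwv, ← RingHom.map_mulVec, h w h1, Pi.zero_apply, Pi.zero_apply, map_zero]
    rw [mulVec_smul] at h2
    exact (smul_eq_zero.mp h2).resolve_left hd0
  have := Fintype.ofFinite c
  let P := LinearMap.ker A'.mulVecLin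
  have hle : P ≤ LinearMap.ker B'.mulVecLin := fun v hv => by
    simp only [P, LinearMap.mem_ker, Matrix.mulVecLin_apply] at hv ⊢
    exact hF v hv
  let g₀ : LinearMap.range A'.mulVecLin →ₗ[F] (c → F) :=
    (P.liftQ B'.mulVecLin hle) ∘ₗ A'.mulVecLin.quotKerEquivRange.symm.toLinearMap
  obtain ⟨g, hg⟩ := g₀.exists_extend
  have hgA : ∀ v, g (A' *ᵥ v) = B' *ᵥ v := fun v => by
    have h1 := LinearMap.congr_fun hg ⟨A'.mulVecLin v, LinearMap.mem_range_self _ v⟩
    refine h1.trans ?_
    show P.liftQ B'.mulVecLin hle (A'.mulVecLin.quotKerEquivRange.symm _) = _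
    rw [LinearMap.quotKerEquivRange_symm_apply_image]
    rfl
  let X' : Matrix c b F := LinearMap.toMatrix' g
  obtain ⟨d, hd⟩ := IsLocalization.exist_integer_multiples_of_finite (nonZeroDivisors R)
    fun x : c × b => X' x.1 x.2
  choose w hw using hd
  refine ⟨(d : R), Matrix.of fun i j => w (i, j), nonZeroDivisors.coe_ne_zero d, ?_⟩
  refine Matrix.map_injective hinj ?_
  show ((d : R) • B).map f = ((Matrix.of fun i j => w (i, j)) * A).map f
  have hW : (Matrix.of fun i j => w (i, j)).map f = f (d : R) • X' := by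
    ext i j
    show f (w (i, j)) = f (d : R) * X' i j
    rw [hw (i, j), Algebra.smul_def]
  have hXA : X' * A' = B' := Matrix.ext_of_mulVec_single fun j => by
    rw [← mulVec_mulVec, ← hgA]
    exact LinearMap.toMatrix'_mulVec g _
  rw [Matrix.map_mul, hW, Matrix.smul_mul, hXA]
  ext i j
  show f ((d : R) * B i j) = f (d : R) * f (B i j)
  rw [map_mul]

variable {M q p : ℕ} [NeZero M] [NeZero q] [hq : Fact q.Prime] [Fact p.Prime]
  (R : RepInputs (M * q) p) (R' : RepInputs M p)

/-- The norm matrices. -/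
def normPadic (b : Bool) : Matrix (Fin R'.model.d) (Fin R.model.d) ℤ_[p] :=
  mapPadic R.model R'.model (normMaps M q b)

/-- The norms intertwine the Hecke matrices. -/
theorem normPadic_mul_heckeMat (b : Bool) {ℓ : ℕ} (hℓ : ℓ.Prime) (hℓN : ¬ ℓ ∣ M * q * p) :
    normPadic R R' b * heckeMat R.model ⟨ℓ, hℓ⟩ = heckeMat R'.model ⟨ℓ, hℓ⟩ * normPadic R R' b :=
  mapPadic_mul_heckeMat R R' (normMaps_equivariant M q b) hℓ hℓN
    fun h => hℓN (h.trans (mul_dvd_mul_right (dvd_mul_right M q) p))

/-- `t ^ 2 = (q + 1) ^ 2` on the common kernel. -/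
theorem sq_tMat_mulVec_eq_zero (hfacts : SemistableRed.GoodReductionFacts) (hqM : ¬ q ∣ M) (hqp : q ≠ p)
    {A : ValuationSubring Qbar} (hA : A.LiesOverPrime q) {φ : Qbar ≃ₐ[ℚ] Qbar}
    (hφ : A.IsFrobeniusAt φ q) {v : Fin R.model.d → ℤ_[p]}
    (hv : ∀ b, normPadic R R' b *ᵥ v = 0) :
    (tMat R φ * tMat R φ - ((q : ℤ_[p]) + 1) ^ 2 • 1) *ᵥ v = 0 := by
  have hquart : QuarticOnKernel p q (normMaps M q) φ :=
    quarticOnKernel_of_frobeniusToric M q (frobeniusToric_of_facts hqM (hfacts M q hqM))
      ((Nat.coprime_primes Fact.out hq.out).mpr hqp.symm) hA hφ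
  set G := galMat R.model φ
  set Gi := galMat R.model φ⁻¹
  have hGiG : Gi * G = 1 := by rw [← map_mul, inv_mul_cancel, map_one]
  have hGGi : G * Gi = 1 := by rw [← map_mul, mul_inv_cancel, map_one]
  have hε : (epsilonPadic p φ : ℤ_[p]) = q := epsilon_frobenius hq.out hqp hA hφ
  have ht : tMat R φ = G + q • Gi := by rw [tMat, hε, Nat.cast_smul_eq_nsmul]
  have h4 : quartic q G *ᵥ v = 0 := by
    funext i
    refine PadicInt.ext_of_toZModPow.mp fun n => ?_
    obtain ⟨y, hy⟩ := (R.model.e n).surjective (PadicInt.toZModPow n ∘ v)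
    have hker : ∀ b, normMaps M q b (y : JZero (M * q)) = 0 := fun b => by
      have h1 : mapMat R.model R'.model (normMaps M q b) n *ᵥ (PadicInt.toZModPow n ∘ v) = 0 := by
        funext j
        rw [← mapPadic_mod, ← RingHom.map_mulVec,
          show mapPadic R.model R'.model (normMaps M q b) *ᵥ v = 0 from hv b]
        exact map_zero _
      rw [← hy, mapMat_mulVec] at h1
      exact congrArg Subtype.val ((R'.model.e n).injective (h1.trans (R'.model.e n).map_zero.symm))
    have h := hquart y (exists_pow_nsmul_eq_zero y) hker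
    have hG : (quartic q G).map (PadicInt.toZModPow n) = quartic q (levelMat R.model n φ) :=
      (map_quartic (PadicInt.toZModPow n).mapMatrix q G).trans
        (congrArg (quartic q) (matMod_galMat R.model n φ))
    have h0 : quartic q (levelMat R.model n φ) *ᵥ R.model.e n y = 0 := by
      rw [quartic, add_mulVec, sub_mulVec, Matrix.smul_mulVec, Matrix.smul_mulVec, one_mulVec]
      simp only [← mulVec_mulVec, levelMat_mulVec]
      have hns : ∀ (k : ℕ) a, R.model.e n (k • a) = k • R.model.e n a :=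
        (R.model.e n).toAddMonoidHom.map_nsmul
      refine Eq.trans (Eq.symm (((R.model.e n).map_add _ _).trans (congrArg₂ (· + ·)
        (((R.model.e n).map_sub _ _).trans (congrArg₂ (· - ·) rfl (hns _ _))) (hns _ _)))) ?_
      exact (congrArg (R.model.e n) (Subtype.ext h)).trans (R.model.e n).map_zero
    rw [RingHom.map_mulVec, hG, ← hy, h0]
    exact (map_zero _).symm
  rw [ht, show ((q : ℤ_[p]) + 1) ^ 2 = (((q + 1) ^ 2 : ℕ) : ℤ_[p]) by push_cast; ring,
    Nat.cast_smul_eq_nsmul, sq_eq_mul_quartic q hGiG hGGi, ← mulVec_mulVec, h4, mulVec_zero]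

/-- The same after extension of scalars. -/
theorem sq_tMat_mulVec_eq_zero_field (hfacts : SemistableRed.GoodReductionFacts) (hqM : ¬ q ∣ M) (hqp : q ≠ p)
    {A : ValuationSubring Qbar} (hA : A.LiesOverPrime q) {φ : Qbar ≃ₐ[ℚ] Qbar}
    (hφ : A.IsFrobeniusAt φ q) {K : Type*} [Field K] [CharZero K] (ι : ℤ_[p] →+* K)
    {v : Fin R.model.d → K} (hv : ∀ b, (normPadic R R' b).map ι *ᵥ v = 0) :
    (tMat R φ * tMat R φ - ((q : ℤ_[p]) + 1) ^ 2 • 1).map ι *ᵥ v = 0 := by
  classical
  let A₂ : Matrix (Bool × Fin R'.model.d) (Fin R.model.d) ℤ_[p] :=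
    Matrix.of fun x j => normPadic R R' x.1 x.2 j
  obtain ⟨s, X, hs, hX⟩ := exists_smul_eq_mul A₂
    (tMat R φ * tMat R φ - ((q : ℤ_[p]) + 1) ^ 2 • 1) fun w hw =>
      sq_tMat_mulVec_eq_zero R R' hfacts hqM hqp hA hφ fun b => funext fun i => congrFun hw (b, i)
  have hv' : A₂.map ι *ᵥ v = 0 := funext fun x => congrFun (hv x.1) x.2
  have h := congrArg (fun Y => Y.map ι *ᵥ v) hX
  simp only [Matrix.map_mul, ← mulVec_mulVec, hv', mulVec_zero,
    Matrix.map_smul' ι _ _ (map_mul ι), Matrix.smul_mulVec] at h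
  exact (smul_eq_zero.mp h).resolve_left fun h0 =>
    hs (padicInt_hom_injective ι (h0.trans (map_zero ι).symm))

end Kernel

end Fermat.Agent.Engine.Lifting
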