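import Fermat.Agent.Engine.Lifting.ActExists
import Fermat.Agent.HeckeModule.LevelFree

/-!
# The levels over the base level

Every level `N₀ ∏ qv v` has non-zero localised classes (they contain two copies of those of the
level below), with a basis in which the base ring acts through its Hecke algebra.
-/

set_option linter.unusedSectionVars false

noncomputable section

namespace Fermat.Agent.Engine

open EigenRep HeckeModule IsLocalRing DefRing Deform EigenSystems TRep Lifting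

local notation "Qbar" => AlgebraicClosure ℚ

variable {p : ℕ} [Fact p.Prime] {O : Type} [CommRing O] [IsDomain O]
  [IsDiscreteValuationRing O] [IsAdicComplete (maximalIdeal O) O] [Finite (ResidueField O)]
  [CharZero O] {ι₀ : ℤ_[p] →+* O} {N₀ : ℕ} {lam : ℕ → O} {L₀ : LevelData O}

variable (H : BaseSetting p ι₀ N₀ lam L₀)

include H

/-- The arithmetic of a level over the base level, without auxiliary primes. -/
theorem BaseSetting.arith_base {N : ℕ} (hN : LevelOK p N₀ L₀ N) :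
    LevelArith p N₀ L₀ L₀.Sigma ∅ N (fun q => (1 : (ZMod q)ˣ →* O)) := by
  simpa using hN.arith Fact.out H.p_mem_sigma (S := L₀.Sigma) (Q := ∅) (by simp) (by simp)
    (fun q hq => ⟨(H.smin q hq).1, (H.smin q hq).2.2.2⟩)
    (ψ := fun q => (1 : (ZMod q)ˣ →* O)) (by simp)

/-- Exactness at the levels over the base level. -/
theorem BaseSetting.exactHyp_base (N : ℕ) [NeZero N] (h3 : ThreeOK p N) :
    ExactHyp (awayMonoid (lamIdeal (Λ := O) (residue_surjective (R := O)) L₀.Sigma lam))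
      (1 : (ZMod N)ˣ →* O) :=
  H.exactHyp (Λ := O) (residue_surjective (R := O)) subset_rfl (fun q => 1) ∅ N h3 (by simp)

/-- Adding a prime keeps the classes non-zero. -/
theorem BaseSetting.nontrivial_mul {N v : ℕ} [NeZero N] [hv : Fact v.Prime] [NeZero (v * N)]
    (hN' : LevelOK p N₀ L₀ (v * N)) (h3 : ThreeOK p N) (hvN : ¬ v ∣ N)
    (h : Nontrivial (CohLoc (awayMonoid (lamIdeal (Λ := O) (residue_surjective (R := O)) L₀.Sigma lam))
      (scalarRep (1 : (ZMod N)ˣ →* O) O))) :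
    Nontrivial (CohLoc (awayMonoid (lamIdeal (Λ := O) (residue_surjective (R := O)) L₀.Sigma lam))
      (scalarRep (1 : (ZMod (v * N))ˣ →* O) O)) := by
  set hsO : Function.Surjective (residue O ∘ algebraMap O O) := residue_surjective (R := O)
  have : CharP (ResidueField O) p := H.charP_residue (Λ := O)
  obtain ⟨hih⟩ := H.exists_iharaPrimes (Λ := O) hsO (S := L₀.Sigma) subset_rfl N v
  have hS : ∀ ℓ : ℕ, ℓ.Prime → ℓ ∣ v * N → ℓ ∈ (↑L₀.Sigma : Set ℕ) := fun ℓ hℓ hd =>
    hN'.mem ℓ hℓ (hd.mul_right p)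
  obtain ⟨l, hl⟩ := exists_leftInverse_locRes_add_locDegen (q := v)
    (maximalIdeal_le_lamIdeal hsO L₀.Sigma lam) hS
    (χ := (1 : (ZMod N)ˣ →* O)) (H.exactHyp_base N h3) (H.exactHyp_base (v * N) (h3.of_dvd (dvd_mul_left N v))) hih hvN
    (fun u => by simp)
  obtain ⟨x, hx⟩ := exists_ne (0 : CohLoc
    (awayMonoid (lamIdeal hsO L₀.Sigma lam)) (scalarRep (1 : (ZMod N)ˣ →* O) O))
  have h1 := LinearMap.congr_fun hl (x, 0)
  refine ⟨⟨locRes (isAway_awayMonoid _) hS (scalarRep (1 : (ZMod N)ˣ →* O) O) x, 0, fun h0 => hx ?_⟩⟩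
  rw [LinearMap.comp_apply, LinearMap.coprod_apply, map_zero, add_zero] at h1
  refine (congrArg Prod.fst h1).symm.trans ?_
  erw [h0, map_zero]
  rfl

/-- The base ring acts at every level with non-zero classes. -/
theorem BaseSetting.exists_baseAct (hplace : TopPlaceHyp p ι₀ N₀ lam L₀) {N : ℕ} [NeZero N]
    (hN : LevelOK p N₀ L₀ N) (PB : L₀.RepRing)
    (hnt : Nontrivial (CohLoc (awayMonoid (lamIdeal (Λ := O) (residue_surjective (R := O)) L₀.Sigma lam))
      (scalarRep (1 : (ZMod N)ˣ →* O) O))) :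
    ∃ (d : ℕ) (_ : d ≠ 0) (b₀ : Module.Basis (Fin d) O (CohLoc
        (awayMonoid (lamIdeal (Λ := O) (residue_surjective (R := O)) L₀.Sigma lam))
        (scalarRep (1 : (ZMod N)ˣ →* O) O)))
      (act₀ : PB.R →+* Matrix (Fin d) (Fin d) O),
      IsLevelAct ι₀ (Λ := O) (residue_surjective (R := O)) L₀.Sigma lam (fun _ => 1) ∅ N PB b₀ act₀ ∧
      ∀ ℓ : ℕ, ∀ hℓ : ℓ.Prime, ℓ ∉ L₀.Sigma → ∀ A : ValuationSubring Qbar, A.LiesOverPrime ℓ →
        ∀ σ : GQ, A.IsFrobeniusAt σ ℓ → ∀ x,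
          (b₀.repr ((MvPolynomial.X ⟨ℓ, hℓ⟩ : HeckePoly O) • x) : Fin d → O) =
            Matrix.mulVec (act₀ (PB.rep σ).trace) (b₀.repr x) := by
  classical
  set hsO : Function.Surjective (residue O ∘ algebraMap O O) := residue_surjective (R := O)
  obtain ⟨hfin, hfree⟩ := free_cohChar_of_complete (lamIdeal hsO L₀.Sigma lam)
    (1 : (ZMod N)ˣ →* O) (maximalIdeal_le_lamIdeal hsO L₀.Sigma lam) (H.exactHyp_base N (H.three.of_dvd hN.dvd))
  let b₀ := Module.finBasis O (CohLoc (awayMonoid (lamIdeal hsO L₀.Sigma lam))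
    (scalarRep (1 : (ZMod N)ˣ →* O) O))
  have hd : Module.finrank O (CohLoc (awayMonoid (lamIdeal hsO L₀.Sigma lam))
      (scalarRep (1 : (ZMod N)ˣ →* O) O)) ≠ 0 := Module.finrank_pos.ne'
  obtain ⟨act₀, hact₀, -⟩ := H.exists_isLevelAct (Λ := O) hsO hplace (H.arith_base hN)
    (Sig := L₀.Sigma) (fun ℓ hℓ h => hN.mem ℓ hℓ (by simpa using h)) PB le_rfl hd b₀
  refine ⟨_, hd, b₀, act₀, hact₀, fun ℓ hℓ hℓS A hA σ hσ x => ?_⟩
  have h := hact₀.frobenius ℓ hℓ (fun h => hℓS (hN.mem ℓ hℓ (by simpa using h))) A hA σ hσ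
  rw [show charProd (fun q => ((1 : (ZMod q)ˣ →* O)).comp invMonoidHom) ∅ ℓ = 1 from
    Finset.prod_empty, map_one, one_mul] at h
  rw [h]
  exact (LinearMap.toMatrix_mulVec_repr b₀ b₀ (Algebra.lsmul O O _ (A := HeckePoly O)
    (MvPolynomial.X ⟨ℓ, hℓ⟩)) x).symm

end Fermat.Agent.Engine

namespace Fermat.Agent.Engine

open EigenRep HeckeModule IsLocalRing DefRing Deform EigenSystems TRep Lifting

variable {p : ℕ} [Fact p.Prime] {O : Type} [CommRing O] [IsDomain O]
  [IsDiscreteValuationRing O] [IsAdicComplete (maximalIdeal O) O] [Finite (ResidueField O)]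
  [CharZero O] {ι₀ : ℤ_[p] →+* O} {N₀ : ℕ} {lam : ℕ → O} {T : Type} {qv : T → ℕ}
  {L₀ : LevelData O} {frob tame : T → GQ} (H : LevelSetting p ι₀ N₀ lam qv L₀ frob tame)

include H

/-- The classes of every level are non-zero. -/
theorem LevelSetting.nontrivial_level (L : Finset T) :
    Nontrivial (CohLoc (awayMonoid (lamIdeal (Λ := O) (residue_surjective (R := O)) L₀.Sigma lam))
      (scalarRep (1 : (ZMod (liftLevel N₀ qv L))ˣ →* O) O)) := by
  classical
  induction L using Finset.induction_on with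
  | empty =>
    have e : liftLevel N₀ qv (∅ : Finset T) = N₀ := by simp [liftLevel]
    rw [e]
    exact H.base
  | insert v L hv ih =>
    have hok := H.levelOK (insert v L)
    rw [liftLevel_insert _ _ hv] at hok ⊢
    have : Fact (qv v).Prime := ⟨H.framed.prime v⟩
    have : NeZero (liftLevel N₀ qv L) := ⟨(H.levelOK L).ne_zero⟩
    have : NeZero (qv v * liftLevel N₀ qv L) := ⟨hok.ne_zero⟩
    exact H.toBaseSetting.nontrivial_mul hok (H.three.of_dvd (H.levelOK L).dvd)
      (not_dvd_liftLevel H.framed.prime H.qv_inj H.not_dvd hv) ih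

end Fermat.Agent.Engine
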