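import Fermat.Agent.Engine.TRep.ChangeRing
import Fermat.Agent.EigenRep.Cyclotomic
import Mathlib.RingTheory.Finiteness.Prod

/-!
# One Hecke polynomial for the trace of a Galois element at several levels
-/

noncomputable section

namespace Fermat.Agent.Engine.Lifting

open EigenRep TRep HeckeModule

local notation "Qbar" => AlgebraicClosure ℚ
local notation "GQ" => AlgebraicClosure ℚ ≃ₐ[ℚ] AlgebraicClosure ℚ

variable {p : ℕ} [Fact p.Prime]

/-- Finitely many torsion modules share a Frobenius congruent to a given element. -/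
theorem exists_frobenius_congr_family {J : Type} [Fintype J] (N : J → ℕ) [∀ j, NeZero (N j)]
    (I : ∀ j, RepInputs (N j) p) (n : ℕ) (g : GQ) (S : Finset ℕ) :
    ∃ ℓ : ℕ, ∃ _ : ℓ.Prime, ℓ ∉ S ∧ (∀ j, ¬ ℓ ∣ N j * p) ∧ ∃ A : ValuationSubring Qbar,
      A.LiesOverPrime ℓ ∧ ∃ σ : GQ, A.IsFrobeniusAt σ ℓ ∧
        ∀ j, matMod p (I j).model.d n (galMat (I j).model g) =
            matMod p (I j).model.d n (galMat (I j).model σ) ∧
          PadicInt.toZModPow n (epsilonPadic p g : ℤ_[p]) =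
            PadicInt.toZModPow n (epsilonPadic p σ : ℤ_[p]) := by
  classical
  choose L hL H using fun j => exists_level (I j) n
  have := hL
  have : FiniteDimensional ℚ ↥(⨆ j, L j) := IntermediateField.finiteDimensional_iSup_of_finite
  obtain ⟨ℓ, hℓ, hℓS, A, hA, σ, hσ, hg⟩ := frobeniusDense (⨆ j, L j) inferInstance g
    (S ∪ Finset.univ.biUnion fun j => (N j * p).primeFactors)
  rw [Finset.mem_union, not_or] at hℓS
  refine ⟨ℓ, hℓ, hℓS.1, fun j h => hℓS.2 (Finset.mem_biUnion.mpr ⟨j, Finset.mem_univ j,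
    Nat.mem_primeFactors.mpr ⟨hℓ, h, mul_ne_zero (NeZero.ne _) (Fact.out : p.Prime).ne_zero⟩⟩),
    A, hA, σ, hσ, fun j => ?_⟩
  obtain ⟨h₁, h₂⟩ := H j _ fun a ha => inv_mul_fixes hg a (le_iSup L j ha)
  have hgσ : g = σ * (σ⁻¹ * g) := (mul_inv_cancel_left σ g).symm
  constructor
  · rw [hgσ, map_mul, map_mul, h₁, mul_one]
  · rw [hgσ, map_mul, Units.val_mul, map_mul, h₂, mul_one]

/-- **A common polynomial.** -/
theorem exists_poly_tMat {J : Type} [Fintype J] (N : J → ℕ) [∀ j, NeZero (N j)]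
    (I : ∀ j, RepInputs (N j) p) (S : Finset ℕ) (g : GQ) :
    ∃ P : AwayPoly ℤ_[p] (↑S : Set ℕ), ∀ j,
      (latHom (I j) (RingHom.id ℤ_[p]) S P :
          Module.End ℤ_[p] (Lat (I j) ℤ_[p])) = matEnd (I j) (RingHom.id ℤ_[p]) (tMat (I j) g) := by
  classical
  let X := ∀ j, Matrix (Fin (I j).model.d) (Fin (I j).model.d) ℤ_[p]
  let F : AwayPoly ℤ_[p] (↑S : Set ℕ) →ₗ[ℤ_[p]] X := LinearMap.pi fun j =>
    (LinearMap.toMatrix'.toLinearMap.comp (LatAlg (I j) (RingHom.id ℤ_[p]) S).val.toLinearMap).comp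
      (latHom (I j) (RingHom.id ℤ_[p]) S).toLinearMap
  have hM : ∀ j (A : Matrix (Fin (I j).model.d) (Fin (I j).model.d) ℤ_[p]),
      LinearMap.toMatrix' (matEnd (I j) (RingHom.id ℤ_[p]) A) = A := fun j A => by
    refine Matrix.ext_of_mulVec_single fun k => ?_
    rw [LinearMap.toMatrix'_mulVec, matEnd_apply]
    congr 1
  suffices h : (fun j => tMat (I j) g) ∈ LinearMap.range F by
    obtain ⟨P, hP⟩ := h
    refine ⟨P, fun j => LinearMap.toMatrix'.injective ?_⟩
    rw [hM]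
    exact congrFun hP j
  rw [← Submodule.Quotient.mk_eq_zero, ← Submodule.mem_bot ℤ_[p],
    ← Ideal.iInf_pow_smul_eq_bot_of_isLocalRing (R := ℤ_[p]) (M := X ⧸ LinearMap.range F)
      (IsLocalRing.maximalIdeal ℤ_[p]) (IsLocalRing.maximalIdeal.isMaximal ℤ_[p]).ne_top,
    Submodule.mem_iInf]
  intro n
  obtain ⟨ℓ, hℓ, hℓS, hd, A, hA, σ, hσ, h⟩ := exists_frobenius_congr_family N I n g S
  let l : AwayIndex (↑S : Set ℕ) := ⟨⟨ℓ, hℓ⟩, by simpa using hℓS⟩
  have hl : ∀ j, F (MvPolynomial.X l) j = tMat (I j) σ := fun j => by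
    show LinearMap.toMatrix' (latHom (I j) (RingHom.id ℤ_[p]) S (MvPolynomial.X l) :
      Module.End ℤ_[p] (Lat (I j) ℤ_[p])) = _
    rw [latHom_X, latOp, hM, tMat_frobenius (I j) hℓ (hd j) hA hσ]
  have hdvd : ∀ j i k, ∃ c, tMat (I j) g i k - tMat (I j) σ i k = (p : ℤ_[p]) ^ n * c :=
    fun j i k => by
      have h' := congr($(matMod_tMat_eq (I j) (h j).1 (h j).2) i k)
      rw [matMod_apply, matMod_apply, ← sub_eq_zero, ← map_sub, ← RingHom.mem_ker,
        PadicInt.ker_toZModPow, Ideal.mem_span_singleton] at h'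
      exact h'
  choose c hc using hdvd
  let C : X := fun j => Matrix.of (c j)
  have e : (fun j => tMat (I j) g) = F (MvPolynomial.X l) + (p : ℤ_[p]) ^ n • C := by
    funext j
    refine Matrix.ext fun i k => ?_
    show tMat (I j) g i k = F (MvPolynomial.X l) j i k + (p : ℤ_[p]) ^ n * c j i k
    rw [hl, ← hc]
    ring
  rw [e, Submodule.Quotient.mk_add, Submodule.Quotient.mk_smul,
    (Submodule.Quotient.mk_eq_zero _).mpr (LinearMap.mem_range_self F _), zero_add]
  exact Submodule.smul_mem_smul (Ideal.pow_mem_pow (by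
    rw [PadicInt.maximalIdeal_eq_span_p]; exact Ideal.mem_span_singleton_self _) n)
    Submodule.mem_top

/-- The polynomial with coefficients in `O`. -/
theorem latHom_tMat {N : ℕ} [NeZero N] (I : RepInputs N p) {O : Type} [CommRing O]
    (ι : ℤ_[p] →+* O) (S : Finset ℕ) {g : GQ} {P : AwayPoly ℤ_[p] (↑S : Set ℕ)}
    (hP : (latHom I (RingHom.id ℤ_[p]) S P : Module.End ℤ_[p] (Lat I ℤ_[p])) =
      matEnd I (RingHom.id ℤ_[p]) (tMat I g)) :
    (latHom I ι S (MvPolynomial.map ι P) : Module.End O (Lat I O)) = matEnd I ι (tMat I g) := by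
  classical
  refine (Pi.basisFun O (Fin I.model.d)).ext fun k => ?_
  rw [Pi.basisFun_apply]
  have h := latHom_map_apply I ι (RingHom.id ℤ_[p]) S P (Pi.single k 1)
  rw [RingHom.comp_id, hP] at h
  have e : ι ∘ (Pi.single k 1 : Fin I.model.d → ℤ_[p]) = Pi.single k 1 := by
    funext i
    rcases eq_or_ne i k with rfl | hik <;> simp [*]
  rw [e] at h
  rw [h]
  funext i
  simp [matEnd_apply, Matrix.map_apply]

end Fermat.Agent.Engine.Lifting
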