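import Fermat.Agent.Engine.Lifting.NewPart
import Fermat.Agent.Engine.LocalType.Defs

/-!
# The degeneracy maps at a finer localisation

Between the classes of levels `M` and `v M`, localised at a prime `n` over the residual system of
the polynomials away from a set containing `v`: two maps up, for each sign one map down, all
commuting with the operators away from `S`; split injection, surjection, the composites, and the
new part.  `exists_degenMaps` allows `v = p`.
-/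

set_option linter.unusedSectionVars false

noncomputable section

namespace Fermat.Agent.Engine.Lifting

open EigenRep HeckeModule EigenSystems TRep IsLocalRing

local notation "Qbar" => AlgebraicClosure ℚ

variable {p : ℕ} [Fact p.Prime] {O : Type} [CommRing O] [IsLocalRing O] {Λ : Type} [CommRing Λ]
  [IsLocalRing Λ] [IsNoetherianRing Λ] [IsAdicComplete (maximalIdeal Λ) Λ] [Algebra O Λ]
  [IsLocalHom (algebraMap O Λ)]
  (hsΛ : Function.Surjective (residue Λ ∘ algebraMap O Λ))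
  {S : Finset ℕ} {lam : ℕ → O} {ψ : ∀ q : ℕ, (ZMod q)ˣ →* Λ} {Q : Finset ℕ}
  {M v : ℕ} [NeZero M] [hv : Fact v.Prime]

/-- The degeneracy data between the levels `M` and `M' = v M` at the localisation `n`. -/
structure DegenPair (ψ : ∀ q : ℕ, (ZMod q)ˣ →* Λ) (Q : Finset ℕ) (S : Finset ℕ) (M : ℕ) {M' : ℕ}
    (χ' : (ZMod M')ˣ →* Λ) (v : ℕ) [Fact v.Prime] (P : Submonoid (HeckePoly Λ)) where
  /-- the first map up -/
  up₁ : CohLoc P (scalarRep (charSq ψ Q M) Λ) →ₗ[Λ] CohLoc P (scalarRep χ' Λ)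
  /-- the second map up -/
  up₂ : CohLoc P (scalarRep (charSq ψ Q M) Λ) →ₗ[Λ] CohLoc P (scalarRep χ' Λ)
  /-- the map down, for each sign -/
  down : ℤˣ → (CohLoc P (scalarRep χ' Λ) →ₗ[Λ] CohLoc P (scalarRep (charSq ψ Q M) Λ))
  up₁_smul : ∀ (X : AwayPoly Λ (↑S : Set ℕ)) z,
    up₁ (awayIncl Λ (↑S : Set ℕ) X • z) = awayIncl Λ (↑S : Set ℕ) X • up₁ z
  up₂_smul : ∀ (X : AwayPoly Λ (↑S : Set ℕ)) z,
    up₂ (awayIncl Λ (↑S : Set ℕ) X • z) = awayIncl Λ (↑S : Set ℕ) X • up₂ z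
  down_smul : ∀ (ε : ℤˣ) (X : AwayPoly Λ (↑S : Set ℕ)) z,
    down ε (awayIncl Λ (↑S : Set ℕ) X • z) = awayIncl Λ (↑S : Set ℕ) X • down ε z
  split : ∃ l₁ l₂ : CohLoc P (scalarRep χ' Λ) →ₗ[Λ]
      CohLoc P (scalarRep (charSq ψ Q M) Λ),
    ∀ z, l₁ (up₁ z) = z ∧ l₁ (up₂ z) = 0 ∧ l₂ (up₁ z) = 0 ∧ l₂ (up₂ z) = z
  down_section : ∀ ε : ℤˣ, ∃ s : CohLoc P (scalarRep (charSq ψ Q M) Λ) →ₗ[Λ] CohLoc P (scalarRep χ' Λ),
    ∀ z, down ε (s z) = z
  down_up₁ : ∀ (ε : ℤˣ) (z : CohLoc P (scalarRep (charSq ψ Q M) Λ)), down ε (up₁ z) = ((v : Λ) + 1) • z + (signCast ε : Λ) •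
    (charProd (fun q => (ψ q).comp invMonoidHom) Q v •
      (MvPolynomial.X ⟨v, (Fact.out : v.Prime)⟩ : HeckePoly Λ) • z)
  down_up₂ : ∀ (ε : ℤˣ) (z : CohLoc P (scalarRep (charSq ψ Q M) Λ)), down ε (up₂ z) = (signCast ε : Λ) • (((v : Λ) + 1) • z + (signCast ε : Λ) •
    (charProd (fun q => (ψ q).comp invMonoidHom) Q v •
      (MvPolynomial.X ⟨v, (Fact.out : v.Prime)⟩ : HeckePoly Λ) • z))

/-- The character of level `M`, read at level `v M`. -/
theorem upChar_charSq (ψ : ∀ q : ℕ, (ZMod q)ˣ →* Λ) (hQ : ∀ q ∈ Q, q ∣ M) :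
    upChar v (charSq ψ Q M) = charSq ψ Q (v * M) :=
  MonoidHom.ext fun u => charSq_unitsMap ψ hQ (dvd_mul_left M v) u

/-- The square of a sign is one. -/
theorem signCast_mul_self (ε : ℤˣ) : (signCast ε : Λ) * signCast ε = 1 := by
  rw [signCast, ← Int.cast_mul, ← Units.val_mul, Int.units_mul_self, Units.val_one, Int.cast_one]

variable [IsReduced Λ] [Module.IsTorsionFree ℤ Λ] [CharP (ResidueField Λ) p] {S' : Set ℕ} (n : Ideal (AwayPoly Λ S')) [n.IsPrime]

/-- **The degeneracy data exist**; if a polynomial `E` kills the common kernel of the traces up to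
powers and is reached by the composites, a power of `E` maps into the image from below.  The prime
`v` may be `p`. -/
theorem exists_degenMaps [NeZero (v * M)]
    (H : TwistData p S lam ψ Q (fun _ : Unit => v * M) (v * (M * ∏ q ∈ Q, q)))
    (hQ : ∀ q ∈ Q, q.Prime ∧ q ∣ M ∧ ¬ q * q ∣ M) (hvM : ¬ v ∣ M)
    (hE : ExactHyp (awayMonoid (lamIdeal hsΛ S lam)) (charSq ψ Q M))
    (hE' : ExactHyp (awayMonoid (lamIdeal hsΛ S lam)) (charSq ψ Q (v * M)))
    (hlift : Liftable (ResidueField Λ) M)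
    (hih : IharaPrimes (awayMonoid (lamIdeal hsΛ S lam)) M v p)
    (hχ : ∀ u, charSq ψ Q M u - 1 ∈ maximalIdeal Λ) (hvS' : v ∈ S')
    (hn : (maximalIdeal Λ).map (algebraMap Λ (AwayPoly Λ S')) ≤ n)
    (hnm : awayMonoid (lamIdeal hsΛ S lam) ≤ awayMonoid n) :
    ∃ D : DegenPair ψ Q S M (charSq ψ Q (v * M)) v (awayMonoid n),
      ∀ E : AwayPoly Λ (↑S : Set ℕ),
        (∃ k : ℕ, ∀ x : CohLoc (awayMonoid (lamIdeal hsΛ S lam))
            (pullRep (scalarRep (charSq ψ Q M) Λ) (dvd_mul_left M v)),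
          locTrace (isAway_awayMonoid _) (mem_of_dvd_level H) (scalarRep (charSq ψ Q M) Λ) hvM
            x = 0 →
          locTraceTwist (isAway_awayMonoid _) (mem_of_dvd_level H) (scalarRep (charSq ψ Q M) Λ)
            hvM x = 0 →
          awayIncl Λ (↑S : Set ℕ) E ^ k • x = 0) →
        (∀ (ε : ℤˣ) (z : CohLoc (awayMonoid n) (scalarRep (charSq ψ Q M) Λ)),
          ∃ u, D.down ε (D.up₁ u) = awayIncl Λ (↑S : Set ℕ) E • z) →
        ∀ d : ℕ, Module.finrank Λ (CohLoc (awayMonoid n) (scalarRep (charSq ψ Q (v * M)) Λ)) ≤ d →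
          ∀ x, ∃ a b, awayIncl Λ (↑S : Set ℕ) E ^ (d + 1) • x = D.up₁ a + D.up₂ b := by
  have hmS := mem_of_dvd_level H
  have hup : upChar v (charSq ψ Q M) = charSq ψ Q (v * M) := upChar_charSq ψ fun q hq => (hQ q hq).2.1
  rw [← hup] at hE' ⊢
  set m := lamIdeal hsΛ S lam
  have hm := maximalIdeal_le_lamIdeal hsΛ S lam
  let ρ := scalarRep (charSq ψ Q M) Λ
  have : Module.Finite Λ (CohLoc (awayMonoid m) ρ) := finite_cohLoc _ _ hm
  have : Module.Finite Λ (CohLoc (awayMonoid m) (pullRep ρ (dvd_mul_left M v))) :=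
    finite_cohLoc _ _ hm
  have hmS' : ∀ ℓ : ℕ, ℓ.Prime → ℓ ∣ v * M → ℓ ∈ (↑S : Set ℕ) := hmS
  have hvS : v ∈ (↑S : Set ℕ) := hmS' v hv.out (dvd_mul_right v M)
  let tr := locTrace (isAway_awayMonoid m) hmS' ρ hvM
  let tt := locTraceTwist (isAway_awayMonoid m) hmS' ρ hvM
  let re := locRes (isAway_awayMonoid m) hmS' ρ
  let de := locDegen (isAway_awayMonoid m) hmS' ρ
  have htr : ∀ (T : Set ℕ), v ∈ T →
      ∀ (X : AwayPoly Λ T) z, tr (awayIncl Λ T X • z) = awayIncl Λ T X • tr z :=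
    fun T hvT X z => locLift_smul _ _ _ (trace_smul ρ (dvd_of_dvd_level hvT) hvT hvM X) z
  have htt : ∀ (T : Set ℕ), v ∈ T →
      ∀ (X : AwayPoly Λ T) z, tt (awayIncl Λ T X • z) = awayIncl Λ T X • tt z :=
    fun T hvT X z => locLift_smul _ _ _ (traceTwist_smul ρ (dvd_of_dvd_level hvT) hvT hvM X) z
  have hre : ∀ (T : Set ℕ), v ∈ T →
      ∀ (X : AwayPoly Λ T) z, re (awayIncl Λ T X • z) = awayIncl Λ T X • re z :=
    fun T hvT X z => locLift_smul _ _ _ (degen_smul ρ (dvd_of_dvd_level hvT) hvT one_ne_zero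
      (by rw [one_mul]; exact dvd_mul_left M v) (one_dvd v) X) z
  have hde : ∀ (T : Set ℕ), v ∈ T →
      ∀ (X : AwayPoly Λ T) z, de (awayIncl Λ T X • z) = awayIncl Λ T X • de z :=
    fun T hvT X z => locLift_smul _ _ _
      (degen_smul ρ (dvd_of_dvd_level hvT) hvT hv.out.ne_zero dvd_rfl dvd_rfl X) z
  -- transport to the finer localisation
  have hmon : ∀ {U U' : Type} [AddCommGroup U] [Module (HeckePoly Λ) U] [AddCommGroup U']
      [Module (HeckePoly Λ) U'] (f : U → U'),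
      (∀ (X : AwayPoly Λ S') z, f (awayIncl Λ S' X • z) = awayIncl Λ S' X • f z) →
      ∀ s ∈ awayMonoid n, ∀ z, f (s • z) = s • f z := by
    rintro U U' _ _ _ _ f hf s hs z
    obtain ⟨X, hX⟩ := isAway_awayMonoid n s hs
    rw [← hX]
    exact hf X z
  have hftr := hmon tr (htr S' hvS')
  have hftt := hmon tt (htt S' hvS')
  have hfre := hmon re (hre S' hvS')
  have hfde := hmon de (hde S' hvS')
  have hrel : ∀ {N₁ N₂ : ℕ} [NeZero N₁] [NeZero N₂] {ρ₁ : Representation Λ (ZMod N₁)ˣ Λ}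
      {ρ₂ : Representation Λ (ZMod N₂)ˣ Λ} [Module.Finite Λ (CohLoc (awayMonoid m) ρ₁)]
      [Module.Finite Λ (CohLoc (awayMonoid m) ρ₂)]
      (f : CohLoc (awayMonoid m) ρ₁ →ₗ[Λ] CohLoc (awayMonoid m) ρ₂),
      (∀ (X : AwayPoly Λ (↑S : Set ℕ)) z, f (awayIncl Λ (↑S : Set ℕ) X • z) =
        awayIncl Λ (↑S : Set ℕ) X • f z) →
      ∀ (X : AwayPoly Λ (↑S : Set ℕ)) z, relMap hn hnm f (awayIncl Λ (↑S : Set ℕ) X • z) =
        awayIncl Λ (↑S : Set ℕ) X • relMap hn hnm f z := by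
    intro N₁ N₂ _ _ ρ₁ ρ₂ _ _ f hf X z
    show TwoAdic.locMono hnm (f (relIncl hn hnm _)) =
      _ • TwoAdic.locMono hnm (f (relIncl hn hnm z))
    rw [relIncl_smul, hf, map_smul]
  set dv : Λ := charProd (fun q => (ψ q).comp invMonoidHom) Q v with hdv
  set cv : Λ := charProd ψ Q v with hcv
  have hdvc : dv * cv = 1 := invChar_mul ψ Q ∅ ⟨⟨v, hv.out⟩, by simp⟩
  set Xv : HeckePoly Λ := MvPolynomial.X ⟨v, (Fact.out : v.Prime)⟩ with hXv
  set c : Λ := (v : Λ) + 1 with hc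
  set χv : Λ := (charSq ψ Q M) (qUnit hvM)⁻¹ with hχvdef
  have hχv : χv = dv * dv := by
    have h1 : χv * (charSq ψ Q M) (qUnit hvM) = 1 := by
      rw [hχvdef, ← map_mul, inv_mul_cancel, map_one]
    have h2 : (charSq ψ Q M) (qUnit hvM) = cv ^ 2 := charSq_qUnit ψ (fun q hq => (hQ q hq).2.1) hvM
    calc χv = χv * ((dv * cv) * (dv * cv)) := by rw [hdvc]; ring
      _ = (χv * (charSq ψ Q M) (qUnit hvM)) * (dv * dv) := by rw [h2]; ring
      _ = dv * dv := by rw [h1, one_mul]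
  let W := CohLoc (awayMonoid n) ρ
  let V := CohLoc (awayMonoid n) (pullRep ρ (dvd_mul_left M v))
  let Re : W →ₗ[Λ] V := relMap hn hnm re
  let De : W →ₗ[Λ] V := relMap hn hnm de
  let Tr : V →ₗ[Λ] W := relMap hn hnm tr
  let Tt : V →ₗ[Λ] W := relMap hn hnm tt
  have e1 : ∀ z : W, Tr (Re z) = c • z := fun z => by
    show TwoAdic.locMono hnm (tr (relIncl hn hnm (relMap hn hnm re z))) = _
    rw [relIncl_relMap hn hnm re hfre, show tr (re (relIncl hn hnm z)) = c • relIncl hn hnm z from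
      locTrace_locRes _ hmS' ρ hvM _, LinearMap.map_smul_of_tower, locMono_relIncl]
  have e2 : ∀ z : W, Tr (De z) = χv • Xv • z := fun z => by
    show TwoAdic.locMono hnm (tr (relIncl hn hnm (relMap hn hnm de z))) = _
    rw [relIncl_relMap hn hnm de hfde, show tr (de (relIncl hn hnm z)) =
      χv • Xv • relIncl hn hnm z from locTrace_locDegen _ hmS' hvM (charSq ψ Q M) _,
      LinearMap.map_smul_of_tower, map_smul, locMono_relIncl]
  have e3 : ∀ z : W, Tt (Re z) = Xv • z := fun z => by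
    show TwoAdic.locMono hnm (tt (relIncl hn hnm (relMap hn hnm re z))) = _
    rw [relIncl_relMap hn hnm re hfre, show tt (re (relIncl hn hnm z)) = Xv • relIncl hn hnm z from
      locTraceTwist_locRes _ hmS' ρ hvM _, map_smul, locMono_relIncl]
  have e4 : ∀ z : W, Tt (De z) = c • z := fun z => by
    show TwoAdic.locMono hnm (tt (relIncl hn hnm (relMap hn hnm de z))) = _
    rw [relIncl_relMap hn hnm de hfde, show tt (de (relIncl hn hnm z)) = c • relIncl hn hnm z from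
      locTraceTwist_locDegen _ hmS' ρ hvM _, LinearMap.map_smul_of_tower, locMono_relIncl]
  -- the split injection
  obtain ⟨left, hleft⟩ := exists_leftInverse_locRes_add_locDegen hm hmS' hE hE' hih hvM hχ
  let l₁ : V →ₗ[Λ] W := ((TwoAdic.locMono (ρ := ρ) hnm).restrictScalars Λ).comp
    ((LinearMap.fst Λ _ _).comp (left.comp (relIncl hn hnm)))
  let l₂ : V →ₗ[Λ] W := ((TwoAdic.locMono (ρ := ρ) hnm).restrictScalars Λ).comp
    ((LinearMap.snd Λ _ _).comp (left.comp (relIncl hn hnm)))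
  have hl₁ : ∀ z, left (re z) = (z, 0) := fun z => by
    simpa using LinearMap.congr_fun hleft (z, 0)
  have hl₂ : ∀ z, left (de z) = (0, z) := fun z => by
    simpa using LinearMap.congr_fun hleft (0, z)
  have hs₁ : ∀ z, l₁ (Re z) = z ∧ l₂ (Re z) = 0 := fun z => by
    constructor
    · show TwoAdic.locMono hnm (left (relIncl hn hnm (relMap hn hnm re z))).1 = z
      rw [relIncl_relMap hn hnm re hfre, hl₁, locMono_relIncl]
    · show TwoAdic.locMono hnm (left (relIncl hn hnm (relMap hn hnm re z))).2 = 0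
      rw [relIncl_relMap hn hnm re hfre, hl₁, map_zero]
  have hs₂ : ∀ z, l₁ (De z) = 0 ∧ l₂ (De z) = z := fun z => by
    constructor
    · show TwoAdic.locMono hnm (left (relIncl hn hnm (relMap hn hnm de z))).1 = 0
      rw [relIncl_relMap hn hnm de hfde, hl₂, map_zero]
    · show TwoAdic.locMono hnm (left (relIncl hn hnm (relMap hn hnm de z))).2 = z
      rw [relIncl_relMap hn hnm de hfde, hl₂, locMono_relIncl]
  -- the section
  have hEn : ExactHyp (awayMonoid n) (charSq ψ Q M) :=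
    ⟨by obtain ⟨r, hr, h1, h2⟩ := hE.nonEisenstein; exact ⟨r, hr, h1, hnm h2⟩, hE.liftable, hE.even⟩
  obtain ⟨hfinW, hfreeW⟩ := free_cohChar_of_complete n (charSq ψ Q M) hn hEn
  have : Module.Free Λ W := hfreeW
  have hDe' : ∀ (X : AwayPoly Λ (↑S : Set ℕ)) (z : W),
      (cv • De) (awayIncl Λ (↑S : Set ℕ) X • z) = awayIncl Λ (↑S : Set ℕ) X • (cv • De) z :=
    fun X z => by
      show cv • De (_ • z) = _ • cv • De z
      rw [show De (awayIncl Λ (↑S : Set ℕ) X • z) = awayIncl Λ (↑S : Set ℕ) X • De z from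
        hrel de (hde _ hvS) X z, smul_comm]
  have hD' : ∀ (a : Λ) (X : AwayPoly Λ (↑S : Set ℕ)) (z : V),
      (Tr + a • Tt) (awayIncl Λ (↑S : Set ℕ) X • z) =
        awayIncl Λ (↑S : Set ℕ) X • (Tr + a • Tt) z := fun a X z => by
    show Tr (_ • z) + a • Tt (_ • z) = _ • (Tr z + a • Tt z)
    rw [show Tr (awayIncl Λ (↑S : Set ℕ) X • z) = awayIncl Λ (↑S : Set ℕ) X • Tr z from
        hrel tr (htr _ hvS) X z,
      show Tt (awayIncl Λ (↑S : Set ℕ) X • z) = awayIncl Λ (↑S : Set ℕ) X • Tt z from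
        hrel tt (htt _ hvS) X z, smul_add, smul_comm]
  obtain ⟨hfinW', -⟩ := free_cohChar_of_complete n (charSq ψ Q M) hn hEn
  have hdu : ∀ (ε : ℤˣ) (z : W), (Tr + ((signCast ε : Λ) * dv) • Tt) (Re z) =
      c • z + (signCast ε : Λ) • (dv • Xv • z) := fun ε z => by
    show Tr (Re z) + (signCast ε * dv) • Tt (Re z) = _
    rw [e1, e3, mul_smul]
  have hdu' : ∀ (ε : ℤˣ) (z : W), (Tr + ((signCast ε : Λ) * dv) • Tt) ((cv • De) z) =
      (signCast ε : Λ) • (c • z + (signCast ε : Λ) • (dv • Xv • z)) := fun ε z => by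
    show Tr (cv • De z) + (signCast ε * dv) • Tt (cv • De z) = _
    rw [map_smul, map_smul, e2, e4, hχv, smul_smul cv, ← mul_assoc, mul_comm cv dv, hdvc, one_mul,
      smul_smul _ cv, mul_assoc, hdvc, mul_one, add_comm, smul_add]
    congr 1
    rw [smul_smul, signCast_mul_self, one_smul]
  refine ⟨⟨Re, cv • De, fun ε => Tr + ((signCast ε : Λ) * dv) • Tt,
    fun X z => hrel re (hre _ hvS) X z, fun X z => hDe' X z, fun ε X z => hD' _ X z,
    ⟨l₁, dv • l₂, fun z => ⟨(hs₁ z).1, ?_, ?_, ?_⟩⟩, fun ε => ?_,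
    hdu, hdu'⟩, fun E ⟨k₀, hk₀⟩ hadj d hd x => ?_⟩
  · show l₁ (cv • De z) = 0
    rw [map_smul, (hs₂ z).1, smul_zero]
  · show dv • l₂ (Re z) = 0
    rw [(hs₁ z).2, smul_zero]
  · show dv • l₂ (cv • De z) = z
    rw [map_smul, (hs₂ z).2, smul_smul, hdvc, one_smul]
  · have hsurj : Function.Surjective (Tr + ((signCast ε : Λ) * dv) • Tt) := fun w => by
      obtain ⟨y, hy⟩ := surjective_locTrace_prod hm hmS' hE hih hvM hχ hlift hE'
        (relIncl hn hnm w, 0)
      refine ⟨TwoAdic.locMono (ρ := pullRep ρ (dvd_mul_left M v)) hnm y, ?_⟩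
      show relMap hn hnm tr _ + (signCast ε * dv) • relMap hn hnm tt _ = w
      rw [relMap_locMono hn hnm tr hftr, relMap_locMono hn hnm tt hftt,
        show tr y = relIncl hn hnm w from congrArg Prod.fst hy,
        show tt y = 0 from congrArg Prod.snd hy, map_zero, smul_zero, add_zero, locMono_relIncl]
    obtain ⟨s, hs⟩ := LinearMap.exists_rightInverse_of_surjective (Tr + ((signCast ε : Λ) * dv) • Tt)
      (LinearMap.range_eq_top.mpr hsurj)
    exact ⟨s, fun z => LinearMap.congr_fun hs z⟩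
  · have : Module.Finite Λ W := hfinW'
    have hEn' : ExactHyp (awayMonoid n) (upChar v (charSq ψ Q M)) :=
      ⟨by obtain ⟨r, hr, h1, h2⟩ := hE'.nonEisenstein; exact ⟨r, hr, h1, hnm h2⟩, hE'.liftable,
        hE'.even⟩
    obtain ⟨hfinV, hfreeV⟩ := free_cohChar_of_complete n (upChar v (charSq ψ Q M)) hn hEn'
    have : Module.Free Λ V := hfreeV
    have : Module.Finite Λ V := hfinV
    obtain ⟨h, hh⟩ : ∃ h : Λ, 2 * h = 1 := by
      have h2 : IsUnit (2 : Λ) := by
        by_contra h2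
        have h0 : ((2 : ℕ) : ResidueField Λ) = 0 := by
          rw [← map_natCast (residue Λ), residue_eq_zero_iff]
          exact_mod_cast h2
        have := Nat.le_of_dvd two_pos ((CharP.cast_eq_zero_iff (ResidueField Λ) p 2).mp h0)
        have := H.three_le
        omega
      exact h2.exists_right_inv
    set Y := awayIncl Λ (↑S : Set ℕ) E with hY
    let Tn : V →ₗ[Λ] W × W :=
      (Tr + ((signCast (1 : ℤˣ) : Λ) * dv) • Tt).prod (Tr + ((signCast (-1 : ℤˣ) : Λ) * dv) • Tt)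
    let up : W × W →ₗ[Λ] V := Re.coprod (cv • De)
    have hs1 : (signCast (1 : ℤˣ) : Λ) = 1 := by simp [signCast]
    have hs2 : (signCast (-1 : ℤˣ) : Λ) = -1 := by simp [signCast]
    have hTn : ∀ y : V, Tn y = (Tr y + dv • Tt y, Tr y - dv • Tt y) := fun y => by
      show (Tr y + (signCast (1 : ℤˣ) * dv) • Tt y, Tr y + (signCast (-1 : ℤˣ) * dv) • Tt y) = _
      rw [hs1, hs2, one_mul, neg_one_mul, neg_smul, ← sub_eq_add_neg]
    have hTsurj : Function.Surjective Tn := by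
      rintro ⟨a, b⟩
      obtain ⟨y, hy⟩ := surjective_locTrace_prod hm hmS' hE hih hvM hχ hlift hE'
        (relIncl hn hnm (h • (a + b)), relIncl hn hnm ((cv * h) • (a - b)))
      refine ⟨TwoAdic.locMono (ρ := pullRep ρ (dvd_mul_left M v)) hnm y, ?_⟩
      have h1 : Tr (TwoAdic.locMono (ρ := pullRep ρ (dvd_mul_left M v)) hnm y) = h • (a + b) :=
        (relMap_locMono hn hnm tr hftr y).trans
          (by rw [show tr y = _ from congrArg Prod.fst hy, locMono_relIncl])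
      have h2 : Tt (TwoAdic.locMono (ρ := pullRep ρ (dvd_mul_left M v)) hnm y) =
          (cv * h) • (a - b) :=
        (relMap_locMono hn hnm tt hftt y).trans
          (by rw [show tt y = _ from congrArg Prod.snd hy, locMono_relIncl])
      rw [hTn, h1, h2, smul_smul, ← mul_assoc, hdvc, one_mul, ← smul_add, ← smul_sub]
      refine Prod.ext ?_ ?_
      · show h • ((a + b) + (a - b)) = a
        rw [show (a + b) + (a - b) = (2 : Λ) • a by rw [two_smul]; abel, smul_smul, mul_comm, hh,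
          one_smul]
      · show h • ((a + b) - (a - b)) = b
        rw [show (a + b) - (a - b) = (2 : Λ) • b by rw [two_smul]; abel, smul_smul, mul_comm, hh,
          one_smul]
    have hker : ∀ y : V, Tn y = 0 → Tr y = 0 ∧ Tt y = 0 := fun y hy => by
      rw [hTn] at hy
      have h1 : Tr y + dv • Tt y = 0 := congrArg Prod.fst hy
      have h2 : Tr y - dv • Tt y = 0 := congrArg Prod.snd hy
      have h3 : (2 : Λ) • Tr y = 0 := by
        rw [two_smul]
        linear_combination (norm := module) h1 + h2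
      have h4 : Tr y = 0 := by rw [← one_smul Λ (Tr y), ← hh, mul_comm, mul_smul, h3, smul_zero]
      rw [h4, zero_add] at h1
      exact ⟨h4, by rw [← one_smul Λ (Tt y), ← hdvc, mul_comm, mul_smul, h1, smul_zero]⟩
    obtain ⟨a, ha⟩ := exists_pow_mem_range (Algebra.lsmul Λ Λ V Y) (Algebra.lsmul Λ Λ (W × W) Y) Tn
      hTsurj (fun z => Prod.ext (hD' _ E z) (hD' _ E z)) up
      (fun w => by
        show Y • (Re w.1 + (cv • De) w.2) = Re (Y • w.1) + (cv • De) (Y • w.2)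
        rw [smul_add, hY, hrel re (hre _ hvS), hDe' E w.2])
      ⟨k₀, fun z hz => by
        obtain ⟨hz1, hz2⟩ := hker z hz
        rw [← map_pow]
        show Y ^ k₀ • z = 0
        have h1 : tr (relIncl hn hnm z) = 0 := by
          rw [← relIncl_relMap hn hnm tr hftr, show relMap hn hnm tr z = 0 from hz1, map_zero]
        have h2 : tt (relIncl hn hnm z) = 0 := by
          rw [← relIncl_relMap hn hnm tt hftt, show relMap hn hnm tt z = 0 from hz2, map_zero]
        rw [← locMono_relIncl hn hnm (Y ^ k₀ • z), relIncl_smul, hk₀ _ h1 h2, map_zero]⟩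
      (fun w => by
        obtain ⟨u₁, hu₁⟩ := hadj 1 w.1
        obtain ⟨u₂, hu₂⟩ := hadj (-1) w.2
        refine ⟨(h • (u₁ + u₂), h • (u₁ - u₂)), ?_⟩
        have e : ∀ (ε : ℤˣ) (a b : W), (Tr + ((signCast ε : Λ) * dv) • Tt) (up (a, b)) =
            (Tr + ((signCast ε : Λ) * dv) • Tt) (Re (a + (signCast ε : Λ) • b)) := fun ε a b => by
          show (Tr + ((signCast ε : Λ) * dv) • Tt) (Re a + (cv • De) b) = _
          rw [map_add, hdu', map_add Re, map_add, map_smul Re, map_smul, hdu, hdu]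
        refine Prod.ext ?_ ?_
        · refine (e 1 _ _).trans (Eq.trans ?_ hu₁)
          show _ = (Tr + ((signCast (1 : ℤˣ) : Λ) * dv) • Tt) (Re u₁)
          rw [hs1, one_smul, ← smul_add, show (u₁ + u₂) + (u₁ - u₂) = (2 : Λ) • u₁ by
            rw [two_smul]; abel, smul_smul, mul_comm h, hh, one_smul]
        · refine (e (-1) _ _).trans (Eq.trans ?_ hu₂)
          show _ = (Tr + ((signCast (-1 : ℤˣ) : Λ) * dv) • Tt) (Re u₂)
          rw [hs2, neg_one_smul, ← sub_eq_add_neg, ← smul_sub,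
            show (u₁ + u₂) - (u₁ - u₂) = (2 : Λ) • u₂ by rw [two_smul]; abel, smul_smul,
            mul_comm h, hh, one_smul])
      hd x
    rw [← map_pow] at ha
    exact ⟨a.1, a.2, ha⟩

/-- **The degeneracy data exist, with the new part.** -/
theorem exists_degenPair (ι₀ : ℤ_[p] →+* O) [NeZero (v * M)]
    (H : TwistData p S lam ψ Q (fun _ : Unit => v * M) (v * (M * ∏ q ∈ Q, q)))
    (H₀ : TwistData p S lam ψ Q (fun _ : Unit => M) (M * ∏ q ∈ Q, q))
    (hQ : ∀ q ∈ Q, q.Prime ∧ q ∣ M ∧ ¬ q * q ∣ M) (hvM : ¬ v ∣ M) (hvp : v ≠ p)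
    {A : ValuationSubring Qbar} (hA : A.LiesOverPrime v) {φ : Qbar ≃ₐ[ℚ] Qbar}
    (hφ : A.IsFrobeniusAt φ v) {P₀ : AwayPoly ℤ_[p] (↑S : Set ℕ)}
    (hP : ∀ Q' ⊆ Q, ∀ (L : ℕ) [NeZero L],
      (L = M * ∏ q ∈ Q', q ∨ L = v * (M * ∏ q ∈ Q', q)) →
      (latHom (stdInputs (eichlerShimuraRelations (N := L) (p := p))) (RingHom.id ℤ_[p]) S P₀ :
        Module.End ℤ_[p] (Lat (stdInputs (eichlerShimuraRelations (N := L) (p := p))) ℤ_[p])) =
      matEnd (stdInputs (eichlerShimuraRelations (N := L) (p := p))) (RingHom.id ℤ_[p])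
        (tMat (stdInputs (eichlerShimuraRelations (N := L) (p := p))) φ))
    (hE : ExactHyp (awayMonoid (lamIdeal hsΛ S lam)) (charSq ψ Q M))
    (hE' : ExactHyp (awayMonoid (lamIdeal hsΛ S lam)) (charSq ψ Q (v * M)))
    (hlift : Liftable (ResidueField Λ) M)
    (hih : IharaPrimes (awayMonoid (lamIdeal hsΛ S lam)) M v p)
    (hχ : ∀ u, charSq ψ Q M u - 1 ∈ maximalIdeal Λ) (hvS' : v ∈ S')
    (hn : (maximalIdeal Λ).map (algebraMap Λ (AwayPoly Λ S')) ≤ n)
    (hnm : awayMonoid (lamIdeal hsΛ S lam) ≤ awayMonoid n) :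
    ∃ D : DegenPair ψ Q S M (charSq ψ Q (v * M)) v (awayMonoid n),
      ∀ d : ℕ, Module.finrank Λ (CohLoc (awayMonoid n) (scalarRep (charSq ψ Q (v * M)) Λ)) ≤ d →
        ∀ x, ∃ a b, awayIncl Λ (↑S : Set ℕ) (sqTwist ι₀ S ψ Q v P₀) ^ (d + 1) • x =
          D.up₁ a + D.up₂ b := by
  obtain ⟨D, hD⟩ := exists_degenMaps hsΛ n H hQ hvM hE hE' hlift hih hχ hvS' hn hnm
  refine ⟨D, hD _ (exists_pow_smul_eq_zero_loc hsΛ ι₀ H hQ (H₀.three ()) hvM hvp hA hφ hP) fun ε z => ?_⟩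
  have : NeZero (M * ∏ q ∈ Q, q) := ⟨mul_ne_zero (NeZero.ne M)
    (Finset.prod_ne_zero_iff.mpr fun q hq => (hQ q hq).1.ne_zero)⟩
  have hvQ : ¬ v ∣ (M * ∏ q ∈ Q, q) * p := fun h => (hv.out.dvd_mul.mp h).elim
    (not_dvd_mul_prod hv.out (fun q hq => ⟨(hQ q hq).1, (hQ q hq).2.1⟩) hvM)
    fun h => hvp ((Nat.prime_dvd_prime_iff_eq hv.out Fact.out).mp h)
  have : Module.Finite Λ (CohLoc (awayMonoid (lamIdeal hsΛ S lam))
      (scalarRep (charSq ψ Q M) Λ)) := finite_cohLoc _ _ (maximalIdeal_le_lamIdeal hsΛ S lam)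
  set Pt : AwayPoly Λ (↑S : Set ℕ) := MvPolynomial.map ((algebraMap O Λ).comp ι₀) P₀ with hPt
  have hlat : latHom (stdInputs (eichlerShimuraRelations (N := M * ∏ q ∈ Q, q) (p := p)))
      ((algebraMap O Λ).comp ι₀) S Pt =
      latTrace (stdInputs (eichlerShimuraRelations (N := M * ∏ q ∈ Q, q) (p := p))) _ S φ :=
    Subtype.ext (latHom_tMat _ _ S (hP Q subset_rfl _ (Or.inl rfl)))
  set dv : Λ := charProd (fun q => (ψ q).comp invMonoidHom) Q v with hdv
  set Xv : HeckePoly Λ := MvPolynomial.X ⟨v, hv.out⟩ with hXv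
  have ht : ∀ w : CohLoc (awayMonoid (lamIdeal hsΛ S lam)) (scalarRep (charSq ψ Q M) Λ),
      awayIncl Λ (↑S : Set ℕ) (twistPoly (invChar ψ Q S) Pt) • w = dv • Xv • w := fun w => by
    rcases subsingleton_or_nontrivial (TwAlg hsΛ S lam ψ Q fun _ : Unit => M) with hsub | hnt
    · have h1 : w = 0 := LinearMap.congr_fun (congrFun (congrArg Subtype.val
        (Subsingleton.elim (1 : TwAlg hsΛ S lam ψ Q fun _ : Unit => M) 0)) ()) w
      rw [h1, smul_zero, smul_zero, smul_zero]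
    have h := H₀.latTrace_eq hsΛ _ ι₀ hv.out hvQ hA hφ hlat () w
    rw [twClass_apply] at h
    rw [h, mul_smul, algebraMap_smul]
  have htW : ∀ w : CohLoc (awayMonoid n) (scalarRep (charSq ψ Q M) Λ),
      awayIncl Λ (↑S : Set ℕ) (twistPoly (invChar ψ Q S) Pt) • w = dv • Xv • w := fun w => by
    conv_lhs => rw [← locMono_relIncl hn hnm w, ← map_smul, ht, LinearMap.map_smul_of_tower,
      map_smul, locMono_relIncl]
  refine ⟨(signCast ε : Λ) • (dv • Xv • z) - ((v : Λ) + 1) • z, ?_⟩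
  rw [D.down_up₁, sqTwist, sqPoly, map_sub, map_pow, ← MvPolynomial.algebraMap_eq, AlgHom.commutes,
    map_sub, map_pow, AlgHom.commutes, sub_smul, algebraMap_smul, pow_two, mul_smul, htW, htW]
  simp only [← hdv, ← hXv, smul_sub, smul_comm Xv ((v : Λ) + 1), smul_comm dv ((v : Λ) + 1),
    smul_comm Xv (signCast ε : Λ), smul_comm dv (signCast ε : Λ),
    smul_comm ((v : Λ) + 1) (signCast ε : Λ)]
  rw [smul_smul (signCast ε : Λ) (signCast ε : Λ), signCast_mul_self, one_smul,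
    pow_two ((v : Λ) + 1), mul_smul]
  abel

end Fermat.Agent.Engine.Lifting
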