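import Fermat.Agent.Engine.Lifting.ActCommute
import Fermat.Agent.Engine.Lifting.DegeneracyMaps
import Fermat.Agent.Engine.Lifting.CommonPoly

/-!
# The degeneracy matrices between the levels `M` and `v M`
-/

set_option linter.unusedSectionVars false

noncomputable section

namespace Fermat.Agent.Engine

open EigenRep HeckeModule IsLocalRing DefRing Deform EigenSystems TRep TwoAdic Lifting

local notation "Qbar" => AlgebraicClosure ℚ

namespace Lifting

section OpHom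

variable {Λ : Type} [CommRing Λ] {N d : ℕ} {P : Submonoid (HeckePoly Λ)} {χ : (ZMod N)ˣ →* Λ}
  (b : Module.Basis (Fin d) Λ (CohLoc P (scalarRep χ Λ)))

/-- Matrices of Hecke polynomials, as a homomorphism. -/
def opHom : HeckePoly Λ →ₐ[Λ] Matrix (Fin d) (Fin d) Λ :=
  (algEquivMatrix b).toAlgHom.comp
    (Algebra.lsmul Λ Λ (CohLoc P (scalarRep χ Λ)) (A := HeckePoly Λ))

/-- `opMat` is the value of `opHom`. -/
theorem opMat_eq (a : HeckePoly Λ) : opMat b a = opHom b a := rfl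

/-- The matrix of a map acting as a Hecke polynomial. -/
theorem toMatrix_lsmul (a : HeckePoly Λ) (f : Module.End Λ (CohLoc P (scalarRep χ Λ)))
    (hf : ∀ z, f z = a • z) : LinearMap.toMatrix b b f = opHom b a := by
  rw [show f = Algebra.lsmul Λ Λ (CohLoc P (scalarRep χ Λ)) (A := HeckePoly Λ) a from
    LinearMap.ext hf]
  rfl

/-- `c + 1 + ε c' X` on the classes. -/
theorem add_signCast_mul_smul (a : ℕ) (ε : ℤˣ) (c : Λ) (l : Nat.Primes)
    (z : CohLoc P (scalarRep χ Λ)) :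
    ((a : HeckePoly Λ) + 1 + signCast ε * (algebraMap Λ (HeckePoly Λ) c * MvPolynomial.X l)) • z =
      ((a : Λ) + 1) • z + (signCast ε : Λ) • (c • (MvPolynomial.X l : HeckePoly Λ) • z) := by
  rw [add_smul, mul_smul, mul_smul, algebraMap_smul]
  congr 1
  · rw [show ((a : HeckePoly Λ) + 1) = algebraMap Λ (HeckePoly Λ) ((a : Λ) + 1) by
      rw [map_add, map_natCast, map_one], algebraMap_smul]
  · rw [signCast, ← map_intCast (algebraMap Λ (HeckePoly Λ)), algebraMap_smul]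
    rfl

end OpHom

section Pair

variable {Λ : Type} [CommRing Λ] [IsLocalRing Λ] [IsNoetherianRing Λ]
  [IsAdicComplete (maximalIdeal Λ) Λ] {S Q : Finset ℕ} {ψ : ∀ q : ℕ, (ZMod q)ˣ →* Λ}
  {M M' v d d' : ℕ} [Fact v.Prime] {χ' : (ZMod M')ˣ →* Λ} {P : Submonoid (HeckePoly Λ)}
  (D : DegenPair ψ Q S M χ' v P)
  (b : Module.Basis (Fin d) Λ (CohLoc P (scalarRep (charSq ψ Q M) Λ)))
  (b' : Module.Basis (Fin d') Λ (CohLoc P (scalarRep χ' Λ)))

/-- The matrices of the maps up split, those of the maps down have sections. -/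
theorem DegenPair.matrix_split :
    (∃ l₁ l₂ : Matrix (Fin d) (Fin d') Λ, l₁ * LinearMap.toMatrix b b' D.up₁ = 1 ∧
      l₁ * LinearMap.toMatrix b b' D.up₂ = 0 ∧ l₂ * LinearMap.toMatrix b b' D.up₁ = 0 ∧
      l₂ * LinearMap.toMatrix b b' D.up₂ = 1) ∧
    ∀ ε, ∃ s : Matrix (Fin d') (Fin d) Λ, LinearMap.toMatrix b' b (D.down ε) * s = 1 := by
  refine ⟨?_, fun ε => ?_⟩
  · obtain ⟨l₁, l₂, hl⟩ := D.split
    refine ⟨LinearMap.toMatrix b' b l₁, LinearMap.toMatrix b' b l₂, ?_, ?_, ?_, ?_⟩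
    · rw [← LinearMap.toMatrix_comp b b' b, show l₁.comp D.up₁ = LinearMap.id from
        LinearMap.ext fun z => (hl z).1]
      exact LinearMap.toMatrix_id b
    · rw [← LinearMap.toMatrix_comp b b' b, show l₁.comp D.up₂ = 0 from
        LinearMap.ext fun z => (hl z).2.1, map_zero]
    · rw [← LinearMap.toMatrix_comp b b' b, show l₂.comp D.up₁ = 0 from
        LinearMap.ext fun z => (hl z).2.2.1, map_zero]
    · rw [← LinearMap.toMatrix_comp b b' b, show l₂.comp D.up₂ = LinearMap.id from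
        LinearMap.ext fun z => (hl z).2.2.2]
      exact LinearMap.toMatrix_id b
  · obtain ⟨s, hs⟩ := D.down_section ε
    refine ⟨LinearMap.toMatrix b b' s, ?_⟩
    rw [← LinearMap.toMatrix_comp b b' b, show (D.down ε).comp s = LinearMap.id from
      LinearMap.ext hs]
    exact LinearMap.toMatrix_id b

/-- A polynomial mapping the classes into the image from below, as matrices. -/
theorem DegenPair.matrix_range (E : HeckePoly Λ)
    (h : ∀ x, ∃ a c, E • x = D.up₁ a + D.up₂ c) :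
    ∃ k₁ k₂ : Matrix (Fin d) (Fin d') Λ, opHom b' E =
      LinearMap.toMatrix b b' D.up₁ * k₁ + LinearMap.toMatrix b b' D.up₂ * k₂ := by
  choose a c hac using fun i : Fin d' => h (b' i)
  refine ⟨LinearMap.toMatrix b' b (b'.constr Λ a), LinearMap.toMatrix b' b (b'.constr Λ c), ?_⟩
  rw [← LinearMap.toMatrix_comp b' b b', ← LinearMap.toMatrix_comp b' b b', ← map_add]
  refine (toMatrix_lsmul b' _ _ fun z => ?_).symm
  refine LinearMap.congr_fun (b'.ext (f₂ := Algebra.lsmul Λ Λ (CohLoc P (scalarRep χ' Λ))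
    (A := HeckePoly Λ) E) fun i => ?_) z
  rw [Algebra.lsmul_coe]
  simpa using (hac i).symm

end Pair

end Lifting

variable {p : ℕ} [Fact p.Prime] {O : Type} [CommRing O] [IsDomain O]
  [IsDiscreteValuationRing O] [IsAdicComplete (maximalIdeal O) O] [Finite (ResidueField O)]
  [CharZero O] {ι₀ : ℤ_[p] →+* O} {N₀ : ℕ} {lam : ℕ → O} {L₀ : LevelData O}
  (H : BaseSetting p ι₀ N₀ lam L₀)
  {Λ : Type} [CommRing Λ] [IsLocalRing Λ] [IsNoetherianRing Λ]
  [IsAdicComplete (maximalIdeal Λ) Λ] [Algebra O Λ] [IsLocalHom (algebraMap O Λ)]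
  [Module.Finite O Λ] [IsReduced Λ] [Module.IsTorsionFree ℤ Λ]
  (hsΛ : Function.Surjective (residue Λ ∘ algebraMap O Λ))
  {S Q : Finset ℕ} {ψ : ∀ q : ℕ, (ZMod q)ˣ →* Λ} {M v : ℕ} [NeZero M] [hv : Fact v.Prime]
  [NeZero (v * M)] {α : ℕ → O}

include H

/-- The character of a level is residually trivial. -/
theorem BaseSetting.charSq_sub_one_mem (hA : LevelArith p N₀ L₀ S Q M ψ) (u : (ZMod M)ˣ) :
    charSq ψ Q M u - 1 ∈ maximalIdeal Λ := by
  rw [← residue_eq_zero_iff, map_sub, map_one, sub_eq_zero, charSq_apply, map_prod]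
  refine Finset.prod_eq_one fun q hq => ?_
  rw [map_pow]
  have h : residue Λ (charOn ψ q M u) = 1 := by
    rw [← map_one (residue Λ), ← sub_eq_zero, ← map_sub, residue_eq_zero_iff, charOn,
      dif_pos (hA.aux q hq).2.1]
    exact (H.twistData hA).one q hq _
  rw [h, one_pow]

/-- **The degeneracy data between the levels `M` and `v M`.** -/
theorem BaseSetting.exists_degeneracy (hplace : TopPlaceHyp p ι₀ N₀ lam L₀)
    (hA : LevelArith p N₀ L₀ S Q M ψ) (hA' : LevelArith p N₀ L₀ S Q (v * M) ψ)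
    (hvM : ¬ v ∣ M) (hvp : v ≠ p) (hvS : v ∈ L₀.Sigma)
    {Sig : Finset ℕ} (hSig : ∀ ℓ : ℕ, ℓ.Prime → ℓ ∣ v * M * (∏ q ∈ Q, q) * p → ℓ ∈ Sig)
    (PR : (L₀.withSigma Sig).RepRing) {d d' : ℕ} (hd : d ≠ 0) (hd' : d' ≠ 0)
    {b : Module.Basis (Fin d) Λ
      (CohLoc (relMonoid hsΛ S lam L₀.Sigma α) (scalarRep (charSq ψ Q M) Λ))}
    {b' : Module.Basis (Fin d') Λ
      (CohLoc (relMonoid hsΛ S lam L₀.Sigma α) (scalarRep (charSq ψ Q (v * M)) Λ))}
    {act : PR.R →+* Matrix (Fin d) (Fin d) Λ} {act' : PR.R →+* Matrix (Fin d') (Fin d') Λ}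
    (hact : IsLevelAct ι₀ hsΛ S lam ψ Q M PR b act)
    (hact' : IsLevelAct ι₀ hsΛ S lam ψ Q (v * M) PR b' act')
    {A : ValuationSubring Qbar} (hPl : A.LiesOverPrime v) {σ : GQ} (hσ : A.IsFrobeniusAt σ v) :
    ∃ (U₁ U₂ : Matrix (Fin d') (Fin d) Λ) (D : ℤˣ → Matrix (Fin d) (Fin d') Λ),
      (∀ x, act' x * U₁ = U₁ * act x) ∧ (∀ x, act' x * U₂ = U₂ * act x) ∧
      (∀ ε x, act x * D ε = D ε * act' x) ∧
      (∃ l₁ l₂ : Matrix (Fin d) (Fin d') Λ,
        l₁ * U₁ = 1 ∧ l₁ * U₂ = 0 ∧ l₂ * U₁ = 0 ∧ l₂ * U₂ = 1) ∧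
      (∀ ε, ∃ s : Matrix (Fin d') (Fin d) Λ, D ε * s = 1) ∧
      (∀ ε, D ε * U₁ = act ((v : PR.R) + 1 + signCast ε * (PR.rep σ).trace) ∧
        D ε * U₂ = act (signCast ε * ((v : PR.R) + 1 + signCast ε * (PR.rep σ).trace))) ∧
      ∃ k₁ k₂ : Matrix (Fin d) (Fin d') Λ,
        act' (((PR.rep σ).trace ^ 2 - ((v : PR.R) + 1) ^ 2) ^ (d' + 1)) = U₁ * k₁ + U₂ * k₂ := by
  classical
  have := H.charP_residue (Λ := Λ)
  have hQ : ∀ q ∈ Q, q.Prime ∧ q ∣ M ∧ ¬ q * q ∣ M := hA.aux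
  have hne : ∀ Q' : Finset ℕ, Q' ⊆ Q → M * ∏ q ∈ Q', q ≠ 0 := fun Q' hQ' =>
    mul_ne_zero (NeZero.ne M) (Finset.prod_ne_zero_iff.mpr fun q hq => (hQ q (hQ' hq)).1.ne_zero)
  -- one polynomial for the trace at the levels below the two top levels
  let N : Q.powerset × Bool → ℕ := fun j =>
    cond j.2 (v * (M * ∏ q ∈ j.1.1, q)) (M * ∏ q ∈ j.1.1, q)
  have : ∀ j, NeZero (N j) := fun j => ⟨by
    obtain ⟨⟨Q', hQ'⟩, j⟩ := j
    have h0 := hne Q' (Finset.mem_powerset.mp hQ')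
    cases j
    exacts [h0, mul_ne_zero hv.out.ne_zero h0]⟩
  obtain ⟨P₀, hP₀⟩ := exists_poly_tMat N
    (fun j => stdInputs (eichlerShimuraRelations (N := N j) (p := p))) S σ
  have hP : ∀ Q' ⊆ Q, ∀ (L : ℕ) [NeZero L],
      (L = M * ∏ q ∈ Q', q ∨ L = v * (M * ∏ q ∈ Q', q)) →
      (latHom (stdInputs (eichlerShimuraRelations (N := L) (p := p))) (RingHom.id ℤ_[p]) S P₀ :
        Module.End ℤ_[p] (Lat (stdInputs (eichlerShimuraRelations (N := L) (p := p))) ℤ_[p])) =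
      matEnd (stdInputs (eichlerShimuraRelations (N := L) (p := p))) (RingHom.id ℤ_[p])
        (tMat (stdInputs (eichlerShimuraRelations (N := L) (p := p))) σ) := by
    intro Q' hQ' L _ hL
    rcases hL with rfl | rfl
    · exact hP₀ (⟨Q', Finset.mem_powerset.mpr hQ'⟩, false)
    · exact hP₀ (⟨Q', Finset.mem_powerset.mpr hQ'⟩, true)
  -- the maps
  have HT := H.twistData hA'
  rw [Nat.mul_assoc] at HT
  obtain ⟨D, hnew⟩ : ∃ D : DegenPair ψ Q S M (charSq ψ Q (v * M)) v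
      (relMonoid hsΛ S lam L₀.Sigma α),
      ∀ d : ℕ, Module.finrank Λ
          (CohLoc (relMonoid hsΛ S lam L₀.Sigma α) (scalarRep (charSq ψ Q (v * M)) Λ)) ≤ d →
        ∀ x, ∃ a b, awayIncl Λ (↑S : Set ℕ) (sqTwist ι₀ S ψ Q v P₀) ^ (d + 1) • x =
          D.up₁ a + D.up₂ b := exists_degenPair hsΛ
    (relaxIdeal (lamIdeal hsΛ S lam) (↑L₀.Sigma : Set ℕ) fun x => algebraMap O Λ (α x))
    ι₀ HT (H.twistData hA) hQ hvM hvp hPl hσ hP (H.exactHyp_family hsΛ hA)
    (H.exactHyp_family hsΛ hA') (H.liftable_residue (H.three_level hA)) (H.exists_iharaPrimes hsΛ hA.sub M v).some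
    (H.charSq_sub_one_mem hA) hvS (le_relaxIdeal _ _ (maximalIdeal_le_lamIdeal hsΛ S lam))
    (lamIdeal_le_relMonoid hsΛ S lam L₀.Sigma α hA.sub)
  have hcomm := H.act_commute hsΛ hplace hA' (dvd_mul_left M v) (fun q hq => (hQ q hq).2.1)
    (H.three_level hA)
    (lamIdeal_le_relMonoid hsΛ S lam L₀.Sigma α hA.sub) hSig PR hd hd' hact hact'
  refine ⟨LinearMap.toMatrix b b' D.up₁, LinearMap.toMatrix b b' D.up₂,
    fun ε => LinearMap.toMatrix b' b (D.down ε),
    hcomm.1 _ fun X => opMat_mul_toMatrix b b' D.up₁ _ (D.up₁_smul X),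
    hcomm.1 _ fun X => opMat_mul_toMatrix b b' D.up₂ _ (D.up₂_smul X),
    fun ε => hcomm.2 _ fun X => opMat_mul_toMatrix b' b (D.down ε) _ (D.down_smul ε X),
    (D.matrix_split b b').1, (D.matrix_split b b').2, ?_, ?_⟩
  · intro ε
    have hvd : ¬ v ∣ M * (∏ q ∈ Q, q) * p := fun h => (hv.out.dvd_mul.mp h).elim
      (not_dvd_mul_prod hv.out (fun q hq => ⟨(hQ q hq).1, (hQ q hq).2.1⟩) hvM)
      fun h => hvp ((Nat.prime_dvd_prime_iff_eq hv.out Fact.out).mp h)
    have ht := (hact.frobenius v hv.out hvd A hPl σ hσ).trans (opMat_eq b _)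
    set a : HeckePoly Λ :=
      algebraMap Λ (HeckePoly Λ) (charProd (fun q => (ψ q).comp invMonoidHom) Q v) *
        MvPolynomial.X ⟨v, hv.out⟩ with ha
    have hbr : act ((v : PR.R) + 1 + signCast ε * (PR.rep σ).trace) =
        opHom b ((v : HeckePoly Λ) + 1 + signCast ε * a) := by
      simp only [signCast, map_add, map_mul, map_natCast, map_one, map_intCast, ht]
    have hsm : ∀ z : CohLoc (relMonoid hsΛ S lam L₀.Sigma α) (scalarRep (charSq ψ Q M) Λ),
        ((v : HeckePoly Λ) + 1 + signCast ε * a) • z = ((v : Λ) + 1) • z + (signCast ε : Λ) •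
          (charProd (fun q => (ψ q).comp invMonoidHom) Q v •
            (MvPolynomial.X ⟨v, hv.out⟩ : HeckePoly Λ) • z) :=
      add_signCast_mul_smul v ε _ _
    constructor
    · rw [← LinearMap.toMatrix_comp b b' b, hbr]
      refine toMatrix_lsmul b _ _ fun z => ?_
      rw [LinearMap.comp_apply, D.down_up₁, hsm]
    · rw [← LinearMap.toMatrix_comp b b' b, map_mul, hbr,
        show act (signCast ε) = opHom b (signCast ε) by rw [signCast, signCast, map_intCast,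
          map_intCast], ← map_mul]
      refine toMatrix_lsmul b _ _ fun z => ?_
      rw [LinearMap.comp_apply, D.down_up₂, mul_smul, hsm, signCast, signCast,
        ← map_intCast (algebraMap Λ (HeckePoly Λ)), algebraMap_smul]
  · have : NeZero (v * M * ∏ q ∈ Q, q) := ⟨by
      rw [Nat.mul_assoc]; exact mul_ne_zero hv.out.ne_zero (hne Q subset_rfl)⟩
    have hlat := hact'.lattice (eichlerShimuraRelations (N := v * M * ∏ q ∈ Q, q) (p := p)) σ
      (MvPolynomial.map ((algebraMap O Λ).comp ι₀) P₀)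
      (Subtype.ext (latHom_tMat _ _ S (hP Q subset_rfl _ (Or.inr (Nat.mul_assoc _ _ _)))))
    set P := awayIncl Λ (↑S : Set ℕ) (sqTwist ι₀ S ψ Q v P₀) with hPdef
    have hPact : act' (((PR.rep σ).trace ^ 2 - ((v : PR.R) + 1) ^ 2) ^ (d' + 1)) =
        opHom b' (P ^ (d' + 1)) := by
      rw [hPdef, sqTwist, sqPoly, map_sub (twistPoly _), map_sub (awayIncl Λ (↑S : Set ℕ)),
        map_pow (twistPoly _), map_pow (awayIncl Λ (↑S : Set ℕ)), ← MvPolynomial.algebraMap_eq,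
        AlgHom.commutes, AlgHom.commutes]
      simp only [map_pow, map_sub, map_add, map_natCast, map_one, hlat, opMat_eq]
    have hfin : Module.finrank Λ
        (CohLoc (relMonoid hsΛ S lam L₀.Sigma α) (scalarRep (charSq ψ Q (v * M)) Λ)) ≤ d' := by
      rw [Module.finrank_eq_card_basis b', Fintype.card_fin]
    rw [hPact]
    exact D.matrix_range b b' _ (hnew d' hfin)

end Fermat.Agent.Engine
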