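import Fermat.Agent.Engine.Lifting.BaseLevels
import Fermat.Agent.Engine.Lifting.Degeneracy

/-!
# The Hecke side for lifting

`LevelSetting.exists_liftingLevels`: the auxiliary levels carry the actions required by
`LiftingLevels`.  Exported: for each `L` a basis of the base classes for `act₀`, and for each `L`
and `n` a basis of the relaxed classes in which `act` is the action of the Hecke algebra.
-/

set_option linter.unusedSectionVars false

noncomputable section

namespace Fermat.Agent.Engine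

open EigenRep HeckeModule IsLocalRing DefRing Deform EigenSystems TRep Lifting

local notation "Qbar" => AlgebraicClosure ℚ

namespace Lifting

/-- From the two roots to the square of the variable. -/
theorem pow_square_eq_zero {R : Type} [CommRing R] {d k : ℕ} {u u' S : R} (hu : u = 1 + S)
    (huu : u * u' = 1) (A : Matrix (Fin d) (Fin d) R)
    (h : (A - algebraMap R _ (u + u')) ^ k = 0) :
    (S ^ 2 • (1 : Matrix (Fin d) (Fin d) R) - (1 + S) • (A - 2)) ^ k = 0 := by
  have e : S ^ 2 • (1 : Matrix (Fin d) (Fin d) R) - (1 + S) • (A - 2) =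
      (-(1 + S)) • (A - algebraMap R _ (u + u')) := by
    ext i j
    rcases eq_or_ne i j with rfl | hij
    · simp [Matrix.algebraMap_matrix_apply, Matrix.ofNat_apply]
      rw [hu] at huu ⊢
      linear_combination -huu
    · simp [Matrix.algebraMap_matrix_apply, Matrix.ofNat_apply, hij]
      ring
  rw [e, smul_pow, h, smul_zero]

/-- The new prime is unique. -/
theorem eq_of_insert {T : Type} {L : Finset T} {v w : T} {L' : Finset T} (hw : w ∉ L)
    (h : ∀ x, x ∈ L' ↔ x = v ∨ x ∈ L) (h' : ∀ x, x ∈ L' ↔ x = w ∨ x ∈ L) : w = v :=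
  ((h w).mp ((h' w).mpr (Or.inl rfl))).resolve_right hw

end Lifting

variable {p : ℕ} [Fact p.Prime] {O : Type} [CommRing O] [IsDomain O]
  [IsDiscreteValuationRing O] [IsAdicComplete (maximalIdeal O) O] [Finite (ResidueField O)]
  [CharZero O] [Fact ((p : O) ∈ maximalIdeal O)] {ι₀ : ℤ_[p] →+* O} {N₀ : ℕ} {lam : ℕ → O}
  {T : Type} [Fintype T] {qv : T → ℕ} {L₀ : LevelData O} {frob tame : T → GQ}
  (H : LevelSetting p ι₀ N₀ lam qv L₀ frob tame) {r : ℕ} {r₀ : T}
  {Φ₀ : T → Matrix (Fin 2) (Fin 2) O} {PB : L₀.RepRing}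
  {X : AuxLevels r r₀ frob tame Φ₀ L₀ PB} {Q : ℕ → Fin r → ℕ}

include H

/-- **The Hecke side for lifting exists.** -/
theorem LevelSetting.exists_liftingLevels (hX : AuxPrimes p X Q)
    (hplace : TopPlaceHyp p ι₀ N₀ lam L₀) {α : ℕ → ℕ → O}
    {ψ : ∀ n q : ℕ, (ZMod q)ˣ →* TwQuot O p r n} (hTW : TWData p lam Q X.tw α ψ) :
    ∃ B : LiftingLevels p qv X,
      (∀ (L : Finset T) [NeZero (liftLevel N₀ qv L)],
        ∃ e : Module.Basis (Fin (B.rank L)) O (CohLoc
            (awayMonoid (lamIdeal (Λ := O) (residue_surjective (R := O)) L₀.Sigma lam))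
            (scalarRep (1 : (ZMod (liftLevel N₀ qv L))ˣ →* O) O)),
          IsLevelAct ι₀ (Λ := O) (residue_surjective (R := O)) L₀.Sigma lam (fun _ => 1) ∅
            (liftLevel N₀ qv L) PB e (B.act₀ L) ∧
          ∀ ℓ : ℕ, ∀ hℓ : ℓ.Prime, ℓ ∉ L₀.Sigma → ∀ A : ValuationSubring Qbar,
            A.LiesOverPrime ℓ → ∀ σ : GQ, A.IsFrobeniusAt σ ℓ → ∀ x,
              (e.repr ((MvPolynomial.X ⟨ℓ, hℓ⟩ : HeckePoly O) • x) : Fin (B.rank L) → O) =
                Matrix.mulVec (B.act₀ L (PB.rep σ).trace) (e.repr x)) ∧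
      ∀ (L : Finset T) (n : ℕ) (M : ℕ) [NeZero M],
        M = liftLevel N₀ qv L * ∏ q ∈ Finset.univ.image (Q n), q →
        ∃ b : Module.Basis (Fin (B.rank L)) (TwQuot O p r n) (CohLoc
            (relMonoid (surjective_residue_twQuot O p r n) (X.Sigma n) lam L₀.Sigma (α n))
            (scalarRep (charSq (ψ n) (Finset.univ.image (Q n)) M) (TwQuot O p r n))),
          IsLevelAct ι₀ (surjective_residue_twQuot O p r n) (X.Sigma n) lam (ψ n)
            (Finset.univ.image (Q n)) M (X.P n) b (B.act L n) := by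
  classical
  have hprime := H.framed.prime
  have hlev : ∀ L : Finset T, NeZero (liftLevel N₀ qv L) := fun L => ⟨(H.levelOK L).ne_zero⟩
  choose d hd b₀ act₀ hact₀ hrepr using fun L : Finset T =>
    have := hlev L
    H.toBaseSetting.exists_baseAct hplace (H.levelOK L) PB (H.nontrivial_level L)
  -- the auxiliary primes
  have hQ := hX.mem_image
  have hne : ∀ n, ∀ L : Finset T,
      liftLevel N₀ qv L * ∏ q ∈ Finset.univ.image (Q n), q ≠ 0 := fun n L =>
    mul_ne_zero (H.levelOK L).ne_zero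
      (Finset.prod_ne_zero_iff.mpr fun q hq => (hQ n q hq).1.ne_zero)
  let M : Finset T → ℕ → ℕ := fun L n => liftLevel N₀ qv L * ∏ q ∈ Finset.univ.image (Q n), q
  have hM : ∀ L n, NeZero (M L n) := fun L n => ⟨hne n L⟩
  choose b act hact hconst hbase using fun (L : Finset T) (n : ℕ) =>
    have := hlev L
    H.toBaseSetting.exists_auxAct (surjective_residue_twQuot O p r n) hplace (H.levelOK L)
      (twAugAlg O p r n) (twAugAlg_surjective O p r n) (hQ n) (α n)
      (fun q hq => by
        obtain ⟨i, -, rfl⟩ := Finset.mem_image.mp hq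
        exact hTW.roots n i)
      (ψ := ψ n) (fun q _ => hTW.pow_one n q)
      (fun q hq u => by
        obtain ⟨i, -, rfl⟩ := Finset.mem_image.mp hq
        exact hTW.aug n i u)
      (hX.sigma_eq n) subset_rfl (X.P n) PB (X.toBase n) (X.toBase_isLocalHom n)
      (X.toBase_rep n) (M L n) rfl (hd L) (hact₀ L)
  -- the arithmetic of the levels
  have hA : ∀ L n, LevelArith p N₀ L₀ (X.Sigma n) (Finset.univ.image (Q n)) (M L n) (ψ n) :=
    fun L n => (H.levelOK L).arith Fact.out H.toBaseSetting.p_mem_sigma (hX.sigma_eq n)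
      (fun q hq => ⟨(hQ n q hq).1, (hQ n q hq).2.2.1⟩)
      (fun q hq => ⟨(H.smin q hq).1, (H.smin q hq).2.2.2⟩) fun q _ => hTW.pow_one n q
  have hSig : ∀ L n (ℓ : ℕ), ℓ.Prime → ℓ ∣ M L n * (∏ q ∈ Finset.univ.image (Q n), q) * p →
      ℓ ∈ X.Sigma n := fun L n => (hA L n).mem_S
  have hfree : ∀ v n, ∀ L : Finset T, v ∉ L →
      ¬ qv v ∣ M L n * (∏ q ∈ Finset.univ.image (Q n), q) * p := fun v n L hv hdvd => by
    have hQv : ¬ qv v ∣ ∏ q ∈ Finset.univ.image (Q n), q := fun h => by
      obtain ⟨q, hq, hd'⟩ := (Prime.dvd_finsetProd_iff (hprime v).prime _).mp h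
      exact (hQ n q hq).2.2.1
        ((Nat.prime_dvd_prime_iff_eq (hprime v) (hQ n q hq).1).mp hd' ▸ H.sigma_qv v)
    rcases (hprime v).dvd_mul.mp hdvd with h | h
    · rcases (hprime v).dvd_mul.mp h with h | h
      · rcases (hprime v).dvd_mul.mp h with h | h
        · exact not_dvd_liftLevel hprime H.qv_inj H.not_dvd hv h
        · exact hQv h
      · exact hQv h
    · exact H.framed.ne_p v ((Nat.prime_dvd_prime_iff_eq (hprime v) Fact.out).mp h)
  -- the degeneracy data
  have hdeg : ∀ (L L' : Finset T) (n : ℕ), ∃ (U₁ U₂ : Matrix (Fin (d L')) (Fin (d L)) (TwQuot O p r n))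
      (D : ℤˣ → Matrix (Fin (d L)) (Fin (d L')) (TwQuot O p r n)),
      (∀ x, act L' n x * U₁ = U₁ * act L n x) ∧ (∀ x, act L' n x * U₂ = U₂ * act L n x) ∧
      (∀ ε x, act L n x * D ε = D ε * act L' n x) ∧
      ∀ v, v ∉ L → (∀ w, w ∈ L' ↔ w = v ∨ w ∈ L) →
        (∃ l₁ l₂ : Matrix (Fin (d L)) (Fin (d L')) (TwQuot O p r n),
          l₁ * U₁ = 1 ∧ l₁ * U₂ = 0 ∧ l₂ * U₁ = 0 ∧ l₂ * U₂ = 1) ∧
        (∀ ε, ∃ s : Matrix (Fin (d L')) (Fin (d L)) (TwQuot O p r n), D ε * s = 1) ∧
        (∀ ε, D ε * U₁ = act L n ((qv v : (X.P n).R) + 1 + signCast ε * ((X.P n).rep (frob v)).trace) ∧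
          D ε * U₂ = act L n (signCast ε * ((qv v : (X.P n).R) + 1 +
            signCast ε * ((X.P n).rep (frob v)).trace))) ∧
        ∃ k₁ k₂ : Matrix (Fin (d L)) (Fin (d L')) (TwQuot O p r n),
          act L' n ((((X.P n).rep (frob v)).trace ^ 2 - ((qv v : (X.P n).R) + 1) ^ 2) ^ (d L' + 1)) =
            U₁ * k₁ + U₂ * k₂ := by
    intro L L' n
    by_cases h : ∃ v, v ∉ L ∧ ∀ w, w ∈ L' ↔ w = v ∨ w ∈ L
    swap
    · exact ⟨0, 0, 0, fun x => by rw [Matrix.mul_zero, Matrix.zero_mul],
        fun x => by rw [Matrix.mul_zero, Matrix.zero_mul],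
        fun ε x => by rw [Pi.zero_apply, Matrix.mul_zero, Matrix.zero_mul],
        fun v hv hw => absurd ⟨v, hv, hw⟩ h⟩
    obtain ⟨v, hv, hw⟩ := h
    obtain ⟨A, hPl, hσ, -⟩ := H.framed.place v
    have : Fact (qv v).Prime := ⟨hprime v⟩
    have hins : L' = insert v L := Finset.ext fun w => by rw [hw, Finset.mem_insert]
    have hM' : M L' n = qv v * M L n := by
      show liftLevel N₀ qv L' * _ = _
      rw [hins, liftLevel_insert _ _ hv, mul_assoc]
    have key : ∀ (M' : ℕ) [NeZero M'], M' = qv v * M L n →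
        ∀ (_ : LevelArith p N₀ L₀ (X.Sigma n) (Finset.univ.image (Q n)) M' (ψ n))
        (b' : Module.Basis (Fin (d L')) (TwQuot O p r n) (CohLoc
          (relMonoid (surjective_residue_twQuot O p r n) (X.Sigma n) lam L₀.Sigma (α n))
          (scalarRep (charSq (ψ n) (Finset.univ.image (Q n)) M') (TwQuot O p r n))))
        (act' : (X.P n).R →+* Matrix (Fin (d L')) (Fin (d L')) (TwQuot O p r n)),
        IsLevelAct ι₀ (surjective_residue_twQuot O p r n) (X.Sigma n) lam (ψ n)
          (Finset.univ.image (Q n)) M' (X.P n) b' act' →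
        ∃ (U₁ U₂ : Matrix (Fin (d L')) (Fin (d L)) (TwQuot O p r n))
          (D : ℤˣ → Matrix (Fin (d L)) (Fin (d L')) (TwQuot O p r n)),
          (∀ x, act' x * U₁ = U₁ * act L n x) ∧ (∀ x, act' x * U₂ = U₂ * act L n x) ∧
          (∀ ε x, act L n x * D ε = D ε * act' x) ∧
          (∃ l₁ l₂ : Matrix (Fin (d L)) (Fin (d L')) (TwQuot O p r n),
            l₁ * U₁ = 1 ∧ l₁ * U₂ = 0 ∧ l₂ * U₁ = 0 ∧ l₂ * U₂ = 1) ∧
          (∀ ε, ∃ s : Matrix (Fin (d L')) (Fin (d L)) (TwQuot O p r n), D ε * s = 1) ∧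
          (∀ ε, D ε * U₁ = act L n ((qv v : (X.P n).R) + 1 +
              signCast ε * ((X.P n).rep (frob v)).trace) ∧
            D ε * U₂ = act L n (signCast ε * ((qv v : (X.P n).R) + 1 +
              signCast ε * ((X.P n).rep (frob v)).trace))) ∧
          ∃ k₁ k₂ : Matrix (Fin (d L)) (Fin (d L')) (TwQuot O p r n),
            act' ((((X.P n).rep (frob v)).trace ^ 2 - ((qv v : (X.P n).R) + 1) ^ 2) ^ (d L' + 1)) =
              U₁ * k₁ + U₂ * k₂ := by
      intro M' _ hM'' hA' b' act' hact'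
      subst hM''
      exact H.toBaseSetting.exists_degeneracy (surjective_residue_twQuot O p r n) hplace (hA L n) hA'
        (fun h => hfree v n L hv ((h.mul_right _).mul_right p)) (H.framed.ne_p v) (H.sigma_qv v)
        hA'.mem_S (X.P n) (hd L) (hd L') (hact L n) hact' hPl hσ
    obtain ⟨U₁, U₂, D, h1, h2, h3, h4⟩ :=
      key (M L' n) hM' (hA L' n) (b L' n) (act L' n) (hact L' n)
    refine ⟨U₁, U₂, D, h1, h2, h3, fun w hwL hw' => ?_⟩
    rw [eq_of_insert hwL hw hw']
    exact h4
  choose U₁ U₂ D hU₁ hU₂ hD hspec using hdeg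
  let B : LiftingLevels p qv X :=
    { rank := d
      rank_ne_zero := hd ∅
      act := act
      act₀ := act₀
      act_const := fun L n o => by
        rw [hconst, Algebra.algebraMap_eq_smul_one, algebraMap_twQuot]
      act_base := fun L n x => hbase L n x
      square := fun L => ⟨d L, fun n i => by
        obtain ⟨e, he, hψe⟩ := hTW.var n i
        obtain ⟨A, hA', hgen⟩ := hX.tame_generator n i
        have hq : Q n i ∈ Finset.univ.image (Q n) := Finset.mem_image_of_mem _ (Finset.mem_univ i)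
        have h := H.toBaseSetting.isNilpotent_square (surjective_residue_twQuot O p r n) (hA L n)
          (X.P n) (hd L) (hact L n) hq (hX.ne_p n i) hA' hgen.1 he
        rw [map_sub, map_ofNat]
        exact pow_square_eq_zero hψe (by rw [← map_mul, mul_inv_cancel, map_one]) _ h⟩
      unramified := fun L n v hv => by
        obtain ⟨A, hPl, -, ht, -⟩ := H.framed.place v
        exact (hact L n).inertia (qv v) (hprime v) (hfree v n L hv) A hPl _ ht
      unipotent := fun L n v hv => by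
        obtain ⟨A, hPl, -, ht, -⟩ := H.framed.place v
        refine (hact L n).unipotent (qv v) (hprime v) (H.framed.ne_p v) (fun h => ?_) A hPl _ ht
        have e : M L n = qv v * M (L.erase v) n := by
          show liftLevel N₀ qv L * _ = _ * (liftLevel N₀ qv (L.erase v) * _)
          conv_lhs => rw [← Finset.insert_erase hv, liftLevel_insert _ _ (Finset.notMem_erase v L)]
          rw [mul_assoc]
        rw [e, mul_assoc (qv v) (M (L.erase v) n)] at h
        exact hfree v n _ (Finset.notMem_erase v L)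
          (((Nat.mul_dvd_mul_iff_left (hprime v).pos).mp h).mul_right p)
      up₁ := U₁
      up₂ := U₂
      down := fun L L' ε n => D L L' n ε
      up₁_comm := hU₁
      up₂_comm := hU₂
      down_comm := fun L L' ε n x => hD L L' n ε x
      split := fun L v L' hv hw n => (hspec L L' n v hv hw).1
      down_section := fun L v L' ε hv hw n => (hspec L L' n v hv hw).2.1 ε
      down_up := fun L v L' ε hv hw n => (hspec L L' n v hv hw).2.2.1 ε
      new_part := fun L v L' hv hw => ⟨d L' + 1, fun n => (hspec L L' n v hv hw).2.2.2⟩ }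
  refine ⟨B, fun L _ => ⟨b₀ L, hact₀ L, hrepr L⟩, fun L n M' _ hM' => ?_⟩
  subst hM'
  exact ⟨b L n, hact L n⟩

end Fermat.Agent.Engine
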