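import Fermat.Agent.Engine.Lifting.TraceCommute

/-!
# Twisting the levels `M` and `v M` to trivial character, compatibly with the trace at `v`
-/

noncomputable section

open CongruenceSubgroup
open scoped MatrixGroups

namespace Fermat.Agent.Engine.Lifting

open HeckeJ0 LevelRaising HeckeModule EigenSystems TRep

variable {K : Type} [Field K] [CharZero K] (ψ : ∀ q : ℕ, (ZMod q)ˣ →* K) {v : ℕ}
  [hv : Fact v.Prime]

omit [CharZero K] in
/-- No auxiliary prime gives the trivial character. -/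
theorem charSq_empty (M : ℕ) : charSq ψ ∅ M = 1 := by
  refine MonoidHom.ext fun u => ?_
  rw [charSq_apply, Finset.prod_empty]
  rfl

/-- The value of a character at a prime different from its modulus. -/
theorem charAt_of_coprime {R : Type} [CommMonoid R] (ψ : ∀ q : ℕ, (ZMod q)ˣ →* R) {q ℓ : ℕ}
    [hq : Fact q.Prime] [hℓ : Fact ℓ.Prime] (hne : ℓ ≠ q) :
    charAt ψ q ℓ = ψ q (primeUnit hne) := by
  rw [charAt, dif_pos ((Nat.coprime_primes hℓ.out hq.out).mpr hne)]
  rfl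

section Up

variable {M M' s : ℕ} [hs : Fact s.Prime] {χ : (ZMod M)ˣ →* K} {χ' : (ZMod M')ˣ →* K}
  {φ : (ZMod s)ˣ →* K} {hq : s ∣ M} {hM : M * s ∣ M'}

/-- The twist at the level times `v`. -/
def twistUp (hχ : TwistChar χ χ' φ hq hM) :
    Coh1 (pullRep (scalarRep χ K) (dvd_mul_left M v)) →ₗ[K]
      Coh1 (pullRep (scalarRep χ' K) (dvd_mul_left M' v)) :=
  let f : Coh1 (scalarRep (upChar v χ) K) →ₗ[K] Coh1 (scalarRep (upChar v χ') K) :=
    twist K (twistChar_up (v := v) hχ)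
  f

omit [CharZero K] hv in
/-- `twistUp` and the Hecke operators. -/
theorem twistUp_heckeOp (hχ : TwistChar χ χ' φ hq hM) {ℓ : ℕ} [Fact ℓ.Prime] (hne : ℓ ≠ s)
    (hℓ : ℓ ∣ v * M' → ℓ ∣ v * M) (u : Coh1 (pullRep (scalarRep χ K) (dvd_mul_left M v))) :
    twistUp hχ (heckeOp _ ℓ u) = φ (primeUnit hne) • heckeOp _ ℓ (twistUp hχ u) :=
  twist_heckeOp (twistChar_up (v := v) hχ) hne hℓ u

omit [CharZero K] in
/-- The trace turns `twistUp` into the twist. -/
theorem trace_twistUp (hχ : TwistChar χ χ' φ hq hM) (hvM : ¬ v ∣ M) (hvM' : ¬ v ∣ M')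
    (u : Coh1 (pullRep (scalarRep χ K) (dvd_mul_left M v))) :
    trace (scalarRep χ' K) hvM' (twistUp hχ u) = twist K hχ (trace (scalarRep χ K) hvM u) :=
  trace_twist hχ hvM hvM' u

end Up

/-- **All the characters removed at both levels.** -/
theorem exists_twistPair (Q : Finset ℕ) : ∀ (M M' : ℕ) [NeZero M], M' = M * ∏ q ∈ Q, q →
    (∀ q ∈ Q, q.Prime ∧ q ∣ M ∧ ¬ q * q ∣ M) → (∀ q ∈ Q, ψ q ^ 2 ≠ 1) →
    ∀ (hvM : ¬ v ∣ M) (hvM' : ¬ v ∣ M'),
    ∃ (Φ : Coh1 (scalarRep (charSq ψ Q M) K) →ₗ[K]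
        Coh1 (scalarRep (1 : (ZMod M')ˣ →* K) K))
      (Φv : Coh1 (pullRep (scalarRep (charSq ψ Q M) K) (dvd_mul_left M v)) →ₗ[K]
        Coh1 (pullRep (scalarRep (1 : (ZMod M')ˣ →* K) K) (dvd_mul_left M' v))),
      Function.Injective Φ ∧ Function.Injective Φv ∧
      (∀ (ℓ : ℕ) [Fact ℓ.Prime], ¬ ℓ ∣ M' → ∀ u,
        Φ (heckeOp _ ℓ u) = charProd ψ Q ℓ • heckeOp _ ℓ (Φ u)) ∧
      (∀ (ℓ : ℕ) [Fact ℓ.Prime], ¬ ℓ ∣ M' → ∀ u,
        Φv (heckeOp _ ℓ u) = charProd ψ Q ℓ • heckeOp _ ℓ (Φv u)) ∧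
      ∀ u, trace (scalarRep (1 : (ZMod M')ˣ →* K) K) hvM' (Φv u) =
        Φ (trace (scalarRep (charSq ψ Q M) K) hvM u) := by
  classical
  induction Q using Finset.induction_on with
  | empty =>
    intro M M' _ hM' _ _ hvM hvM'
    obtain rfl : M' = M := by rw [hM', Finset.prod_empty, mul_one]
    rw [charSq_empty]
    exact ⟨LinearMap.id, LinearMap.id, fun _ _ h => h, fun _ _ h => h,
      fun ℓ _ _ u => by rw [charProd, Finset.prod_empty, one_smul]; rfl,
      fun ℓ _ _ u => by rw [charProd, Finset.prod_empty, one_smul]; rfl, fun u => rfl⟩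
  | insert q Q hqQ ih =>
    intro M M' _ hM' hQ hne hvM hvM'
    obtain ⟨hqp, ⟨N, rfl⟩, hq2⟩ := hQ q (Finset.mem_insert_self q Q)
    revert hq2 hM' hvM
    rw [mul_comm q N]
    intro hM' hvM hq2
    have := Fact.mk hqp
    have : NeZero q := ⟨hqp.ne_zero⟩
    have : NeZero N := ⟨fun h => NeZero.ne (q * N) (by rw [h, mul_zero])⟩
    have hqN : ¬ q ∣ N := fun h => hq2 (mul_dvd_mul_right h q)
    have hdvd : ∀ q' ∈ Q, q'.Prime ∧ q' ∣ N ∧ ¬ q' * q' ∣ N * q * q := fun q' hq' => by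
      obtain ⟨hp', hd', hd2⟩ := hQ q' (Finset.mem_insert_of_mem hq')
      have hne : ¬ q' ∣ q := fun h => hqQ ((Nat.prime_dvd_prime_iff_eq hp' hqp).mp h ▸ hq')
      have hcop : Nat.Coprime q' q := (Nat.Prime.coprime_iff_not_dvd hp').mpr hne
      rw [mul_comm q N] at hd' hd2
      refine ⟨hp', hcop.dvd_of_dvd_mul_right hd', fun h => hd2 (dvd_mul_of_dvd_left ?_ q)⟩
      exact (hcop.mul_left hcop).dvd_of_dvd_mul_right ((hcop.mul_left hcop).dvd_of_dvd_mul_right h)
    have hins : ∀ q' ∈ insert q Q, q' ∣ N * q := fun q' h => by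
      rcases Finset.mem_insert.mp h with rfl | h
      · exact dvd_mul_left _ _
      · exact (hdvd q' h).2.1.mul_right q
    have hprod : M' = N * q * q * ∏ x ∈ Q, x := by rw [hM', Finset.prod_insert hqQ]; ring
    have hvq : ¬ v ∣ N * q * q := fun h => hvM' (h.trans ⟨_, hprod⟩)
    have hχ : TwistChar (charSq ψ (insert q Q) (N * q)) (charSq ψ Q (N * q * q)) (ψ q)
        (dvd_mul_left q N) (dvd_refl (N * q * q)) := fun u => by
      rw [charSq_unitsMap ψ hins, charSq_apply, charSq_apply, Finset.prod_insert hqQ, mul_comm]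
      congr 2
      rw [charOn, dif_pos (dvd_mul_left q _)]
      rfl
    obtain ⟨Φ₂, Ψ₂, hi₂, hj₂, hΦ₂, hΨ₂, htr⟩ := ih (N * q * q) M' hprod
      (fun q' h => ⟨(hdvd q' h).1, ((hdvd q' h).2.1.mul_right q).mul_right q, (hdvd q' h).2.2⟩)
      (fun q' h => hne q' (Finset.mem_insert_of_mem h)) hvq hvM'
    have hψ := hne q (Finset.mem_insert_self q Q)
    have hinj₁ : Function.Injective (twist K hχ) := twist_injective hχ hqN hψ fun u hu => by
      rw [← charSq_unitsMap ψ (fun q' h => (hdvd q' h).2.1)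
        ((dvd_mul_right N q).trans (dvd_mul_right (N * q) q)), hu, map_one]
    have hqv : q ≠ v := fun h => hvM (h ▸ dvd_mul_left q N)
    have hinjv : Function.Injective (twist K (twistChar_up (v := v) hχ)) := by
      have : NeZero (v * N) := ⟨mul_ne_zero hv.out.ne_zero (NeZero.ne N)⟩
      have hqvN : ¬ q ∣ v * N := fun h => (hqp.dvd_mul.mp h).elim
        (fun h => hqv ((Nat.prime_dvd_prime_iff_eq hqp hv.out).mp h)) hqN
      have key : ∀ (A B : ℕ) (a : (ZMod A)ˣ →* K) (b : (ZMod B)ˣ →* K) (h1 : q ∣ A)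
          (h2 : A * q ∣ B) (h : TwistChar a b (ψ q) h1 h2), A = v * N * q → B = v * N * q * q →
          (∀ u, (∀ hd : v * N ∣ B, ZMod.unitsMap hd u = 1) → b u = 1) →
          Function.Injective (twist K h) := by
        rintro A B a b h1 h2 h rfl rfl hb
        refine twist_injective h hqvN hψ fun u hu => ?_
        exact hb u fun _ => hu
      refine key _ _ _ _ _ _ _ (by ring) (by ring) fun u hu => ?_
      show charSq ψ Q (N * q * q) (ZMod.unitsMap (dvd_mul_left _ v) u) = 1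
      rw [← charSq_unitsMap ψ (fun q' h => (hdvd q' h).2.1.mul_right q) (dvd_mul_right (N * q) q),
        ← MonoidHom.comp_apply (ZMod.unitsMap _), ZMod.unitsMap_comp]
      rw [← charSq_unitsMap ψ (fun q' h => (hdvd q' h).2.1) (dvd_mul_right N q),
        ← MonoidHom.comp_apply (ZMod.unitsMap _), ZMod.unitsMap_comp]
      have e := congrArg (ZMod.unitsMap (dvd_mul_left N v))
        (hu (mul_dvd_mul_left v ((dvd_mul_right N q).trans (dvd_mul_right (N * q) q))))
      rw [map_one, ← MonoidHom.comp_apply (ZMod.unitsMap _), ZMod.unitsMap_comp] at e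
      rw [e, map_one]
    refine ⟨Φ₂.comp (twist K hχ), Ψ₂.comp (twistUp (v := v) hχ), hi₂.comp hinj₁,
      hj₂.comp hinjv, fun ℓ _ hℓ u => ?_, fun ℓ _ hℓ u => ?_, fun u => ?_⟩
    · have hℓ' : ¬ ℓ ∣ N * q * q := fun h => hℓ (h.trans ⟨_, hprod⟩)
      have hne : ℓ ≠ q := fun h => hℓ' (by rw [h]; exact dvd_mul_left q _)
      rw [LinearMap.comp_apply, LinearMap.comp_apply, twist_heckeOp hχ hne (fun h => absurd h hℓ'),
        map_smul, hΦ₂ ℓ hℓ, smul_smul, charProd, charProd, Finset.prod_insert hqQ,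
        charAt_of_coprime ψ hne]
    · have hℓ' : ¬ ℓ ∣ N * q * q := fun h => hℓ (h.trans ⟨_, hprod⟩)
      have hne : ℓ ≠ q := fun h => hℓ' (by rw [h]; exact dvd_mul_left q _)
      have hdv : ℓ ∣ v * (N * q * q) → ℓ ∣ v * (N * q) := fun h =>
        (((Fact.out : ℓ.Prime).dvd_mul.mp h).resolve_right hℓ').mul_right _
      rw [LinearMap.comp_apply, LinearMap.comp_apply, twistUp_heckeOp hχ hne hdv, map_smul,
        hΨ₂ ℓ hℓ, smul_smul, charProd, charProd, Finset.prod_insert hqQ, charAt_of_coprime ψ hne]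
    · rw [LinearMap.comp_apply, LinearMap.comp_apply, htr, trace_twistUp hχ hvM hvq]

end Fermat.Agent.Engine.Lifting
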