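import Fermat.Agent.HeckeModule.TraceHecke
import Fermat.Agent.TwoAdic.Modules.AtkinOp

/-!
# The transfers commute with `U_ℓ` for `ℓ` dividing the lower level
-/

open CongruenceSubgroup
open scoped MatrixGroups

namespace Fermat.Agent.Engine.Lifting

open HeckeJ0 LevelRaising HeckeModule

/-- Matrices of determinant `ℓ` in the double coset of `U_ℓ`. -/
def uSet (L ℓ : ℕ) : Set Mat := {x | x ∈ DetLevel L (ℓ : ℤ) ∧ ¬ (ℓ : ℤ) ∣ x 0 0}

/-- Representatives of `U_ℓ`. -/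
theorem fact_uSet {L ℓ : ℕ} (hℓ : ℓ.Prime) (hℓL : ℓ ∣ L) :
    IsFact (uSet L ℓ) (Lvl L) fun j : Fin ℓ => heckMat ℓ (some j) where
  det_ne_zero i := by rw [det_heckMat]; exact_mod_cast hℓ.ne_zero
  mem y hy i := by
    have hd : y 0 0 * y 1 1 - y 0 1 * y 1 0 = 1 := by rw [← Matrix.det_fin_two]; exact hy.1
    have hc : (ℓ : ℤ) ∣ y 1 0 := (Int.natCast_dvd_natCast.mpr hℓL).trans hy.2
    refine ⟨⟨by rw [Matrix.det_mul, hy.1, det_heckMat, one_mul], ?_⟩, fun h => ?_⟩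
    · simp only [Matrix.mul_apply, Fin.sum_univ_two]
      simpa [heckMat] using hy.2
    · simp [Matrix.mul_apply, heckMat] at h
      have h1 : (ℓ : ℤ) ∣ 1 := hd ▸ dvd_sub (h.mul_right _) (hc.mul_left _)
      exact hℓ.not_dvd_one (by exact_mod_cast h1)
  fact x hx := by
    obtain ⟨⟨hdet, hL⟩, ha⟩ := hx
    have hd : x 0 0 * x 1 1 - x 0 1 * x 1 0 = ℓ := by rw [← Matrix.det_fin_two]; exact hdet
    have hc : (ℓ : ℤ) ∣ x 1 0 := (Int.natCast_dvd_natCast.mpr hℓL).trans hL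
    obtain ⟨i, u, hu⟩ := exists_fin_dvd hℓ ha (x 0 1)
    obtain ⟨w, hw⟩ : (ℓ : ℤ) ∣ x 1 1 - x 1 0 * (i : ℕ) := by
      refine dvd_sub (((Nat.prime_iff_prime_int.mp hℓ).dvd_or_dvd
        (a := x 0 0) (b := x 1 1) ?_).resolve_left ha) (hc.mul_right _)
      rw [show x 0 0 * x 1 1 = (ℓ : ℤ) + x 0 1 * x 1 0 by linear_combination hd]
      exact dvd_add dvd_rfl (hc.mul_left _)
    refine ⟨i, mm (x 0 0) u (x 1 0) w, mm_mem_detLevel.mpr ⟨?_, hL⟩, ?_⟩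
    · apply mul_right_cancel₀ (show (ℓ : ℤ) ≠ 0 by exact_mod_cast hℓ.ne_zero)
      linear_combination hd - x 0 0 * hw + x 1 0 * hu
    · conv_lhs => rw [mm_eta x]
      simp only [heckMat, mm_mul, mm_inj]
      refine ⟨by ring, ?_, by ring, ?_⟩
      · linear_combination hu
      · linear_combination hw
  unique := by
    intro i j y y' hy hy' e
    have hd : y 0 0 * y 1 1 - y 0 1 * y 1 0 = 1 := by rw [← Matrix.det_fin_two]; exact hy.1
    have hc : (ℓ : ℤ) ∣ y 1 0 := (Int.natCast_dvd_natCast.mpr hℓL).trans hy.2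
    have ha : ¬ (ℓ : ℤ) ∣ y 0 0 := fun h => by
      have h1 : (ℓ : ℤ) ∣ 1 := hd ▸ dvd_sub (h.mul_right _) (hc.mul_left _)
      exact hℓ.not_dvd_one (by exact_mod_cast h1)
    rw [mm_eta y, mm_eta y'] at e
    simp only [heckMat, mm_mul, mm_inj] at e
    obtain ⟨e1, e2, -, -⟩ := e
    refine fin_eq_of_dvd (((Nat.prime_iff_prime_int.mp hℓ).dvd_or_dvd
      (a := y 0 0) ⟨y' 0 1 - y 0 1, ?_⟩).resolve_left ha)
    linear_combination e2 - ((j : ℕ) : ℤ) * e1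

/-- Representatives restricted to a condition they preserve. -/
theorem isFact_restrict {ι : Type*} {X Y : Set Mat} {β : ι → Mat} (h : IsFact X Y β)
    (p p' : Mat → Prop) (hp : ∀ y ∈ Y, ∀ i, p (y * β i) ↔ p' y) :
    IsFact {x | x ∈ X ∧ p x} {y | y ∈ Y ∧ p' y} β where
  det_ne_zero := h.det_ne_zero
  mem y hy i := ⟨h.mem y hy.1 i, (hp y hy.1 i).mpr hy.2⟩
  fact x hx := by
    obtain ⟨i, y, hy, rfl⟩ := h.fact x hx.1
    exact ⟨i, y, ⟨hy, (hp y hy i).mp hx.2⟩, rfl⟩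
  unique hy hy' e := h.unique hy.1 hy'.1 e

variable {O : Type} [CommRing O] {A : Type*} [AddCommGroup A] [Module O A] {N q ℓ : ℕ}
  [hq : Fact q.Prime] [hℓ : Fact ℓ.Prime]

omit hq in
/-- The condition at `ℓ` is preserved by representatives which are unipotent modulo `N`. -/
theorem dvd_mul_apply_iff (hℓN : ℓ ∣ N) {b : Mat} (h0 : (b 0 0 : ZMod N) = 1)
    (h1 : (b 1 0 : ZMod N) = 0) (y : Mat) : (ℓ : ℤ) ∣ (y * b) 0 0 ↔ (ℓ : ℤ) ∣ y 0 0 := by
  have e0 : (b 0 0 : ZMod ℓ) = 1 := by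
    have h := congrArg (ZMod.castHom hℓN (ZMod ℓ)) h0
    rwa [map_intCast, map_one] at h
  have e1 : (b 1 0 : ZMod ℓ) = 0 := by
    have h := congrArg (ZMod.castHom hℓN (ZMod ℓ)) h1
    rwa [map_intCast, map_zero] at h
  rw [← ZMod.intCast_zmod_eq_zero_iff_dvd, ← ZMod.intCast_zmod_eq_zero_iff_dvd]
  simp [Matrix.mul_apply, Fin.sum_univ_two, e0, e1]

variable (ρ : Representation O (ZMod N)ˣ A)

omit hq in
/-- A transfer commutes with `U_ℓ`. -/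
theorem transfer_uOp {ι : Type} [Fintype ι] {X' : Set Mat} {β : ι → Mat}
    (hu : ∀ i, (β i 0 0 : ZMod N) = 1 ∧ (β i 1 0 : ZMod N) = 0)
    (ha : IsFact X' (Lvl (q * N)) fun p : Fin ℓ × ι => β p.2 * heckMat ℓ (some p.1))
    (hb : IsFact X' (Lvl (q * N)) fun p : ι × Fin ℓ => heckMat ℓ (some p.2) * β p.1)
    (hℓN : ℓ ∣ N) (hdet : ∀ i, (β i).det ≠ 0)
    (D : Data (toGL (q * N)) (toGL N) (gammaRep (pullRep ρ (dvd_mul_left N q))) (gammaRep ρ)
      {negOne (q * N)} {negOne N} (ι))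
    (hDα : ∀ i, D.α i = matGL (β i) (hdet i)) (hDε : ∀ i, D.ε i = LinearMap.id)
    (u : Coh1 (pullRep ρ (dvd_mul_left N q))) :
    D.onH1 toGL_injective (heckeOp _ ℓ u) = heckeOp ρ ℓ (D.onH1 toGL_injective u) := by
  have : NeZero ℓ := ⟨hℓ.out.ne_zero⟩
  obtain ⟨E, hE⟩ := TwoAdic.exists_finEquiv (N := q * N) (hℓN.mul_left q)
  obtain ⟨E', hE'⟩ := TwoAdic.exists_finEquiv (N := N) hℓN
  obtain ⟨e0, g0, hg0⟩ := exists_equiv_of_fact hb ha
  let e : Idx (q * N) ℓ × ι ≃ ι × Idx N ℓ :=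
    ((E.symm.prodCongr (Equiv.refl _)).trans (Equiv.prodComm _ _)).trans
      (e0.trans ((Equiv.prodComm _ _).trans ((Equiv.refl _).prodCongr E')))
  have he : ∀ k i, e (E k, i) = ((e0 (i, k)).2, E' (e0 (i, k)).1) :=
    fun k i => by simp [e]; rfl
  refine Data.comp_eq_comp toGL_injective toGL_injective toGL_injective
    (heckeData _ ℓ) D D (heckeData ρ ℓ) e (fun p => g0 (p.2, E.symm p.1)) ?_ ?_ u
  · rintro ⟨x, i⟩
    obtain ⟨k, rfl⟩ := E.surjective x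
    rw [he, Equiv.symm_apply_apply]
    refine Units.ext ?_
    show (rep (E k) : GL (Fin 2) ℝ).val * (D.α i).val =
      (toGL (q * N) _).val * ((D.α _).val * (rep (E' _) : GL (Fin 2) ℝ).val)
    rw [hDα, hDα, val_matGL, val_matGL, val_toGL, (hE k).1, (hE' _).1,
      ← Matrix.map_mul_intCast, ← Matrix.map_mul_intCast, ← Matrix.map_mul_intCast]
    exact congrArg (fun S : Mat => S.map (Int.cast : ℤ → ℝ)) (hg0 (i, k))
  · rintro ⟨x, i⟩
    obtain ⟨k, rfl⟩ := E.surjective x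
    rw [he, Equiv.symm_apply_apply]
    simp only [hDε, LinearMap.id_comp, LinearMap.comp_id]
    show pullRep ρ _ (aUnit _) ∘ₗ pullRep ρ _ (dUnit (q * N) (g0 (i, k)))
      = ρ (aUnit (E' (e0 (i, k)).1))
    rw [← Module.End.mul_eq_comp, pullRep_apply, pullRep_apply, ← map_mul, (hE k).2, (hE' _).2]
    refine congrArg ρ (Units.ext ?_)
    have h := congrArg (Int.cast : ℤ → ZMod N) (congrFun (congrFun (hg0 (i, k)) 0) 0)
    obtain ⟨hj1, hj2⟩ := hu (e0 (i, k)).2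
    obtain ⟨hi1, hi2⟩ := hu i
    simp only [Matrix.mul_apply, Fin.sum_univ_two, heckMat, mm_zero_zero, mm_zero_one,
      mm_one_zero] at h
    push_cast at h
    rw [hj1, hj2, hi1, hi2] at h
    simp only [mul_zero, add_zero, mul_one] at h
    have hg := congrArg (ZMod.castHom (dvd_mul_left N q) (ZMod N)) (gamma0_diag (g0 (i, k)))
    rw [map_mul, map_one, map_intCast] at hg
    rw [map_one, one_mul, ZMod.unitsMap_def, Units.coe_map, MonoidHom.coe_coe, Units.val_one]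
    rwa [← h, one_mul] at hg

variable (hqN : ¬ q ∣ N) (hℓN : ℓ ∣ N)
include hℓN

/-- `trace ∘ U_ℓ = U_ℓ ∘ trace`. -/
theorem trace_uOp (u : Coh1 (pullRep ρ (dvd_mul_left N q))) :
    trace ρ hqN (heckeOp _ ℓ u) = heckeOp ρ ℓ (trace ρ hqN u) := by
  have hr : ¬ (q : ℤ) ∣ (ℓ : ℤ) := by
    exact_mod_cast fun h => hqN (((Nat.prime_dvd_prime_iff_eq hq.out hℓ.out).mp h) ▸ hℓN)
  refine transfer_uOp (X' := uSet N ℓ) ρ (β := traceMat N q) traceMat_apply_zero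
    ((fact_uSet hℓ.out hℓN).comp (fact_traceMat' hqN)) ?_ hℓN (fact_traceMat' hqN).det_ne_zero
    (traceData ρ hqN) (fun _ => rfl) (fun _ => rfl) u
  have h := isFact_restrict (fact_traceMat hq.out hqN hr) (fun x => ¬ (ℓ : ℤ) ∣ x 0 0)
    (fun x => ¬ (ℓ : ℤ) ∣ x 0 0) fun y _ i => (dvd_mul_apply_iff hℓN (traceMat_apply_zero i).1
      (traceMat_apply_zero i).2 y).not
  rw [mul_comm N q] at h
  exact h.comp (fact_uSet hℓ.out (hℓN.mul_left q))

/-- `traceTwist ∘ U_ℓ = U_ℓ ∘ traceTwist`. -/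
theorem traceTwist_uOp (u : Coh1 (pullRep ρ (dvd_mul_left N q))) :
    traceTwist ρ hqN (heckeOp _ ℓ u) = heckeOp ρ ℓ (traceTwist ρ hqN u) := by
  have hr : ¬ (q : ℤ) ∣ (ℓ : ℤ) := by
    exact_mod_cast fun h => hqN (((Nat.prime_dvd_prime_iff_eq hq.out hℓ.out).mp h) ▸ hℓN)
  refine transfer_uOp (X' := (mm 1 0 0 (q : ℤ) * ·) '' uSet N ℓ) ρ (β := degenReps N q)
    (degenReps_apply_zero hqN)
    ((isFact_mul_left (fact_uSet hℓ.out hℓN) (mm 1 0 0 q)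
      (by simp [hq.out.ne_zero])).comp (fact_degenReps hqN)) ?_ hℓN
    (fact_degenReps hqN).det_ne_zero (traceTwistData ρ hqN) (fun _ => rfl) (fun _ => rfl) u
  have h := isFact_restrict (fact_degenReps_det hqN hr) (fun x => ¬ (ℓ : ℤ) ∣ x 0 0)
    (fun x => ¬ (ℓ : ℤ) ∣ x 0 0) fun y _ i => (dvd_mul_apply_iff hℓN (degenReps_apply_zero hqN i).1
      (degenReps_apply_zero hqN i).2 y).not
  have hset : {x | x ∈ (mm 1 0 0 (q : ℤ) * ·) '' DetLevel N (ℓ : ℤ) ∧ ¬ (ℓ : ℤ) ∣ x 0 0} =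
      (mm 1 0 0 (q : ℤ) * ·) '' uSet N ℓ := by
    ext x
    constructor
    · rintro ⟨⟨z, hz, rfl⟩, hx⟩
      exact ⟨z, ⟨hz, by simpa [Matrix.mul_apply] using hx⟩, rfl⟩
    · rintro ⟨z, ⟨hz, hz'⟩, rfl⟩
      exact ⟨⟨z, hz, rfl⟩, by simpa [Matrix.mul_apply] using hz'⟩
  rw [hset] at h
  exact h.comp (fact_uSet hℓ.out (hℓN.mul_left q))

end Fermat.Agent.Engine.Lifting
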