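import Fermat.Agent.Engine.Lifting.FamilyAct

/-!
# Matrices commuting with the Hecke operators commute with the actions
-/

set_option linter.unusedSectionVars false

noncomputable section

namespace Fermat.Agent.Engine.Lifting

open EigenRep HeckeModule IsLocalRing DefRing Deform EigenSystems TRep

local notation "Qbar" => AlgebraicClosure ℚ

/-- The matrix of a map commuting with a Hecke polynomial commutes with its matrices. -/
theorem opMat_mul_toMatrix {Λ : Type} [CommRing Λ] {N N' d d' : ℕ} {P P' : Submonoid (HeckePoly Λ)}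
    {χ : (ZMod N)ˣ →* Λ} {χ' : (ZMod N')ˣ →* Λ}
    (b : Module.Basis (Fin d) Λ (CohLoc P (scalarRep χ Λ)))
    (b' : Module.Basis (Fin d') Λ (CohLoc P' (scalarRep χ' Λ)))
    (f : CohLoc P (scalarRep χ Λ) →ₗ[Λ] CohLoc P' (scalarRep χ' Λ)) (a : HeckePoly Λ)
    (hf : ∀ z, f (a • z) = a • f z) :
    opMat b' a * LinearMap.toMatrix b b' f = LinearMap.toMatrix b b' f * opMat b a := by
  rw [opMat, opMat, ← LinearMap.toMatrix_comp, ← LinearMap.toMatrix_comp]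
  congr 1
  exact LinearMap.ext fun z => (hf z).symm

variable {O : Type} [CommRing O] [IsLocalRing O] {Λ : Type} [CommRing Λ] [IsLocalRing Λ]
  [IsNoetherianRing Λ] [IsAdicComplete (maximalIdeal Λ) Λ] [Algebra O Λ]
  [IsLocalHom (algebraMap O Λ)] (hsΛ : Function.Surjective (residue Λ ∘ algebraMap O Λ))
  (S : Finset ℕ) (lam : ℕ → O) (ψ : ∀ q : ℕ, (ZMod q)ˣ →* Λ) (Q : Finset ℕ) {J : Type} [Fintype J]
  (M : J → ℕ) [∀ j, NeZero (M j)]

/-- Intertwining the classes is intertwining the algebra. -/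
theorem mul_eq_mul_of_twClass {d d' : ℕ}
    (G : TwAlg hsΛ S lam ψ Q M →ₐ[Λ] Matrix (Fin d) (Fin d) Λ)
    (G' : TwAlg hsΛ S lam ψ Q M →ₐ[Λ] Matrix (Fin d') (Fin d') Λ) (U : Matrix (Fin d') (Fin d) Λ)
    (h : ∀ X, G' (twClass hsΛ S lam ψ Q M X) * U = U * G (twClass hsΛ S lam ψ Q M X))
    (y : TwAlg hsΛ S lam ψ Q M) : G' y * U = U * G y := by
  obtain ⟨z, rfl⟩ := actRange_surjective hsΛ S lam ψ Q M y
  obtain ⟨⟨a, s⟩, rfl⟩ := IsLocalization.mk'_surjective (lamIdeal hsΛ S lam).primeCompl z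
  set y := actRange hsΛ S lam ψ Q M (IsLocalization.mk' _ a s) with hy
  have hys : y * twClass hsΛ S lam ψ Q M s = twClass hsΛ S lam ψ Q M a := by
    rw [hy, show twClass hsΛ S lam ψ Q M (s : AwayPoly Λ (↑S : Set ℕ)) = actRange hsΛ S lam ψ Q M
      (algebraMap _ (Localization.AtPrime (lamIdeal hsΛ S lam)) (s : AwayPoly Λ (↑S : Set ℕ)))
      from rfl, ← map_mul, IsLocalization.mk'_spec]
    rfl
  obtain ⟨w, hw⟩ := isUnit_twClass hsΛ S lam ψ Q M (show (s : AwayPoly Λ (↑S : Set ℕ)) ∉ _ from s.2)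
  have h1 : G' y * U * G (twClass hsΛ S lam ψ Q M s) = U * G y * G (twClass hsΛ S lam ψ Q M s) := by
    rw [Matrix.mul_assoc, ← h, ← Matrix.mul_assoc, ← map_mul, hys, h, Matrix.mul_assoc,
      ← map_mul G, hys]
  have h2 := congrArg (· * G (↑w⁻¹ : TwAlg hsΛ S lam ψ Q M)) h1
  simp only [Matrix.mul_assoc, ← map_mul, ← hw, mul_assoc, Units.mul_inv, map_one, Matrix.mul_one,
    mul_one] at h2
  exact h2

end Fermat.Agent.Engine.Lifting

namespace Fermat.Agent.Engine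

open EigenRep HeckeModule IsLocalRing DefRing Deform EigenSystems TRep Lifting

local notation "Qbar" => AlgebraicClosure ℚ

variable {p : ℕ} [Fact p.Prime] {O : Type} [CommRing O] [IsDomain O]
  [IsDiscreteValuationRing O] [IsAdicComplete (maximalIdeal O) O] [Finite (ResidueField O)]
  [CharZero O] {ι₀ : ℤ_[p] →+* O} {N₀ : ℕ} {lam : ℕ → O} {L₀ : LevelData O}
  (H : BaseSetting p ι₀ N₀ lam L₀)
  {Λ : Type} [CommRing Λ] [IsLocalRing Λ] [IsNoetherianRing Λ]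
  [IsAdicComplete (maximalIdeal Λ) Λ] [Algebra O Λ] [IsLocalHom (algebraMap O Λ)]
  [Module.Finite O Λ] [IsReduced Λ] [Module.IsTorsionFree ℤ Λ]
  (hsΛ : Function.Surjective (residue Λ ∘ algebraMap O Λ))
  {S Q : Finset ℕ} {ψ : ∀ q : ℕ, (ZMod q)ˣ →* Λ} {M M' : ℕ} [NeZero M] [NeZero M']
  {P : Submonoid (HeckePoly Λ)}

include H

/-- **Matrices commuting with the Hecke operators commute with the actions.** -/
theorem BaseSetting.act_commute (hplace : TopPlaceHyp p ι₀ N₀ lam L₀)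
    (hA' : LevelArith p N₀ L₀ S Q M' ψ) (hMM' : M ∣ M') (hQ : ∀ q ∈ Q, q ∣ M)
    (h3M : ThreeOK p M)
    (hP : awayMonoid (lamIdeal hsΛ S lam) ≤ P) {Sig : Finset ℕ}
    (hSig : ∀ ℓ : ℕ, ℓ.Prime → ℓ ∣ M' * (∏ q ∈ Q, q) * p → ℓ ∈ Sig)
    (PR : (L₀.withSigma Sig).RepRing) {d d' : ℕ} (hd : d ≠ 0) (hd' : d' ≠ 0)
    {b : Module.Basis (Fin d) Λ (CohLoc P (scalarRep (charSq ψ Q M) Λ))}
    {b' : Module.Basis (Fin d') Λ (CohLoc P (scalarRep (charSq ψ Q M') Λ))}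
    {act : PR.R →+* Matrix (Fin d) (Fin d) Λ} {act' : PR.R →+* Matrix (Fin d') (Fin d') Λ}
    (hact : IsLevelAct ι₀ hsΛ S lam ψ Q M PR b act)
    (hact' : IsLevelAct ι₀ hsΛ S lam ψ Q M' PR b' act') :
    (∀ U : Matrix (Fin d') (Fin d) Λ, (∀ X, opMat b' (awayIncl Λ (↑S : Set ℕ) X) * U =
        U * opMat b (awayIncl Λ (↑S : Set ℕ) X)) → ∀ x, act' x * U = U * act x) ∧
    ∀ D : Matrix (Fin d) (Fin d') Λ, (∀ X, opMat b (awayIncl Λ (↑S : Set ℕ) X) * D =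
        D * opMat b' (awayIncl Λ (↑S : Set ℕ) X)) → ∀ x, act x * D = D * act' x := by
  classical
  let Mf : Bool → ℕ := fun j => cond j M' M
  have : ∀ j, NeZero (Mf j) := fun j => by cases j <;> assumption
  have hdvd : ∀ j, Mf j ∣ M' := fun j => by cases j; exacts [hMM', dvd_rfl]
  have hQ' : ∀ j, ∀ q ∈ Q, q ∣ Mf j := fun j q hq => by
    cases j
    exacts [hQ q hq, (hA'.aux q hq).2.1]
  obtain ⟨G₀, hG₀⟩ := exists_matAction hsΛ S lam ψ Q Mf hP false b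
  obtain ⟨G₁, hG₁⟩ := exists_matAction hsΛ S lam ψ Q Mf hP true b'
  have : NeZero d := ⟨hd⟩
  have : NeZero d' := ⟨hd'⟩
  have : Nontrivial (TwAlg hsΛ S lam ψ Q Mf) := (G₀ : TwAlg hsΛ S lam ψ Q Mf →+*
    Matrix (Fin d) (Fin d) Λ).domain_nontrivial
  obtain ⟨φ, hφl, hfrob, -, -, -⟩ :=
    H.exists_familyAct hsΛ hA' hdvd hQ'
      (fun j => by cases j; exacts [h3M, H.three_level hA']) hplace hSig PR
  obtain ⟨φa, Ga, hla, hfa, hGa, hxa⟩ := hact.family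
  obtain ⟨φb, Gb, hlb, hfb, hGb, hxb⟩ := hact'.family
  have : Nontrivial (TwAlg hsΛ S lam ψ Q fun _ : Unit => M) :=
    (Ga : _ →+* Matrix (Fin d) (Fin d) Λ).domain_nontrivial
  have : Nontrivial (TwAlg hsΛ S lam ψ Q fun _ : Unit => M') :=
    (Gb : _ →+* Matrix (Fin d') (Fin d') Λ).domain_nontrivial
  have e₀ : ∀ x, act x = G₀ (φ x) := fun x => by
    have h := eq_of_frobenius hsΛ hsΛ hsΛ lam hd (AlgHom.id O Λ) (AlgHom.id O Λ)
      Function.surjective_id subset_rfl Ga G₀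
      (fun l hl => by rw [hGa, hG₀]; rfl) (L₀.withSigma Sig) PR H.span φa hla φ hφl S
      (fun ℓ hℓ hℓS A hA τ hτ => by
        rw [hfa ℓ hℓ hℓS A hA τ hτ, hfrob ℓ hℓ hℓS A hA τ hτ, hGa, hG₀]
        rfl) x
    simpa [hxa] using h
  have e₁ : ∀ x, act' x = G₁ (φ x) := fun x => by
    have h := eq_of_frobenius hsΛ hsΛ hsΛ lam hd' (AlgHom.id O Λ) (AlgHom.id O Λ)
      Function.surjective_id subset_rfl Gb G₁
      (fun l hl => by rw [hGb, hG₁]; rfl) (L₀.withSigma Sig) PR H.span φb hlb φ hφl S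
      (fun ℓ hℓ hℓS A hA τ hτ => by
        rw [hfb ℓ hℓ hℓS A hA τ hτ, hfrob ℓ hℓ hℓS A hA τ hτ, hGb, hG₁]
        rfl) x
    simpa [hxb] using h
  constructor
  · intro U hU x
    rw [e₀, e₁]
    exact mul_eq_mul_of_twClass hsΛ S lam ψ Q Mf G₀ G₁ U
      (fun X => by rw [hG₀, hG₁]; exact hU X) _
  · intro D hD x
    rw [e₀, e₁]
    exact mul_eq_mul_of_twClass hsΛ S lam ψ Q Mf G₁ G₀ D
      (fun X => by rw [hG₀, hG₁]; exact hD X) _

end Fermat.Agent.Engine
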