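import Fermat.Agent.Engine.Lifting.Setting
import Fermat.Agent.Engine.LoweringLevelData

/-!
# Coefficients, roots and characters of the auxiliary levels for lifting

`TWData`: at each auxiliary level `n` a root `α n q` of the residual characteristic polynomial at
each auxiliary prime and universal characters `ψ n q` with values in `TwQuot`.
-/

set_option linter.unusedSectionVars false

noncomputable section

namespace Fermat.Agent.Engine.Lifting

open IsLocalRing DefRing Deform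

local notation "Qbar" => AlgebraicClosure ℚ

section Ring

variable (O : Type) [CommRing O] (p r n : ℕ)

/-- The structure map of `TwQuot` is `twConst`. -/
theorem algebraMap_twQuot (o : O) :
    algebraMap O (TwQuot O p r n) o = twConst O p r n o := rfl

/-- The augmentation as a map of algebras. -/
def twAugAlg : TwQuot O p r n →ₐ[O] O :=
  { twAug O p r n with
    commutes' := fun o => by
      show twAug O p r n (twConst O p r n o) = o
      simp [twAug, twConst] }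

/-- The augmentation is surjective. -/
theorem twAugAlg_surjective : Function.Surjective (twAugAlg O p r n) := fun o =>
  ⟨algebraMap O _ o, (twAugAlg O p r n).commutes o⟩

variable [IsLocalRing O]

/-- The structure map of `TwQuot` is local. -/
instance isLocalHom_twQuot : IsLocalHom (algebraMap O (TwQuot O p r n)) :=
  ⟨fun o ho => by
    have h := ho.map (twAugAlg O p r n)
    rwa [(twAugAlg O p r n).commutes] at h⟩

/-- `TwQuot` has the residue field of `O`. -/
theorem surjective_residue_twQuot [IsLocalRing (TwQuot O p r n)] :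
    Function.Surjective (residue (TwQuot O p r n) ∘ algebraMap O (TwQuot O p r n)) := fun y => by
  obtain ⟨x, rfl⟩ := residue_surjective y
  refine ⟨twAugAlg O p r n x, (Ideal.Quotient.mk_eq_mk_iff_sub_mem _ _).mpr fun h => ?_⟩
  have h' := h.map (twAugAlg O p r n)
  rw [map_sub, AlgHom.commutes, Algebra.algebraMap_self_apply, sub_self] at h'
  exact not_isUnit_zero h'

end Ring

/-- Roots and characters at the auxiliary primes `Q n i` with tame generators `tw n i`. -/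
structure TWData {O : Type} [CommRing O] [IsLocalRing O] (p : ℕ) {r : ℕ} (lam : ℕ → O)
    (Q : ℕ → Fin r → ℕ) (tw : ℕ → Fin r → GQ) (α : ℕ → ℕ → O)
    (ψ : ∀ n q : ℕ, (ZMod q)ˣ →* TwQuot O p r n) : Prop where
  roots : ∀ n i, ∃ β : O, α n (Q n i) + β - lam (Q n i) ∈ maximalIdeal O ∧
    α n (Q n i) * β - (Q n i : ℕ) ∈ maximalIdeal O ∧ IsUnit (α n (Q n i) - β) ∧
    IsUnit (α n (Q n i) * α n (Q n i) - 1) ∧
    IsUnit (((Q n i : O) + 1) * ((Q n i : O) + 1) - (α n (Q n i) + β) * (α n (Q n i) + β))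
  pow_one : ∀ n q u, ∃ k : ℕ, ψ n q u ^ p ^ k = 1
  aug : ∀ n i u, twAug O p r n (ψ n (Q n i) u) = 1
  var : ∀ n i, ∃ e : (ZMod (Q n i))ˣ,
    (∀ μ : Qbar, μ ^ Q n i = 1 → tw n i μ = μ ^ (e : ZMod (Q n i)).val) ∧
    ψ n (Q n i) e = 1 + twVar O p r n i

variable (O : Type) [CommRing O] [IsLocalRing O] {p : ℕ} [Fact p.Prime]

/-- The characters of one level. -/
theorem exists_auxChars {r : ℕ} (n : ℕ) (Q : Fin r → ℕ) (hinj : Function.Injective Q)
    (hQ : ∀ i, (Q i).Prime ∧ Q i ≠ p ∧ p ^ (n + 1) ∣ Q i - 1) (tw : Fin r → GQ)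
    (htw : ∀ i, ∃ A : ValuationSubring Qbar, A.LiesOverPrime (Q i) ∧
      TameInertia.IsTameGenerator A p (Q i) (tw i)) :
    ∃ ψ : ∀ q : ℕ, (ZMod q)ˣ →* TwQuot O p r n,
      (∀ q, ∀ u, ∃ k : ℕ, ψ q u ^ p ^ k = 1) ∧
      (∀ i, ∀ u, twAug O p r n (ψ (Q i) u) = 1) ∧
      ∀ i, ∃ e : (ZMod (Q i))ˣ, (∀ μ : Qbar, μ ^ Q i = 1 → tw i μ = μ ^ (e : ZMod (Q i)).val) ∧
        ψ (Q i) e = 1 + twVar O p r n i := by
  classical
  have hone : ∀ q, ∃ χ : (ZMod q)ˣ →* TwQuot O p r n, (∀ u, ∃ k : ℕ, χ u ^ p ^ k = 1) ∧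
      ∀ i, Q i = q → (∀ u, twAug O p r n (χ u) = 1) ∧ ∃ e : (ZMod q)ˣ,
        (∀ μ : Qbar, μ ^ q = 1 → tw i μ = μ ^ (e : ZMod q).val) ∧ χ e = 1 + twVar O p r n i := by
    intro q
    by_cases h : ∃ i, Q i = q
    · obtain ⟨i, rfl⟩ := h
      have : NeZero (Q i) := ⟨(hQ i).1.ne_zero⟩
      obtain ⟨c, hc⟩ := exists_isCycloMod (Q i)
      obtain ⟨A, hA, hτ⟩ := htw i
      obtain ⟨χ, hχ, hpow⟩ := exists_twChar O (r := r) (Fact.out : p.Prime) n (hQ i).1
        (Ne.symm (hQ i).2.1) (hQ i).2.2 hc hA hτ i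
      refine ⟨χ, fun u => ⟨n + 1, hpow u⟩, fun j hj => ?_⟩
      obtain rfl := hinj hj
      refine ⟨fun u => ?_, c (tw j), fun μ hμ => hc _ μ hμ, hχ⟩
      obtain ⟨k, w, rfl⟩ := exists_zpow_mul_pow (Fact.out : p.Prime) (hQ j).1 (Ne.symm (hQ j).2.1)
        hc hA hτ (n + 1) u
      rw [map_mul, map_pow, map_pow, hχ, hpow w, mul_one, map_pow, twAug_one_add, one_pow]
    exact ⟨1, fun u => ⟨0, by simp⟩, fun i hi => absurd ⟨i, hi⟩ h⟩
  choose ψ hψ using hone
  exact ⟨ψ, fun q => (hψ q).1, fun i => ((hψ (Q i)).2 i rfl).1, fun i => ((hψ (Q i)).2 i rfl).2⟩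

end Fermat.Agent.Engine.Lifting

namespace Fermat.Agent.Engine

open IsLocalRing DefRing Deform Lifting

/-- The auxiliary primes of one level. -/
theorem AuxPrimes.mem_image {p : ℕ} {O : Type} [CommRing O] [IsLocalRing O] {r : ℕ} {T : Type}
    [Fintype T] {r₀ : T} {frob tame : T → GQ} {Φ₀ : T → Matrix (Fin 2) (Fin 2) O}
    {L₀ : LevelData O} {PB : L₀.RepRing} {X : AuxLevels r r₀ frob tame Φ₀ L₀ PB}
    {Q : ℕ → Fin r → ℕ} (hX : AuxPrimes p X Q) (n : ℕ) :
    ∀ q ∈ Finset.univ.image (Q n), q.Prime ∧ q ≠ p ∧ q ∉ L₀.Sigma ∧ p ∣ q - 1 := fun q hq => by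
  obtain ⟨i, -, rfl⟩ := Finset.mem_image.mp hq
  exact ⟨hX.prime n i, hX.ne_p n i, hX.not_mem n i,
    (dvd_pow_self p n.succ_ne_zero).trans (hX.dvd_sub_one n i)⟩

variable {p : ℕ} [Fact p.Prime] {O : Type} [CommRing O] [IsDomain O]
  [IsDiscreteValuationRing O] [IsAdicComplete (maximalIdeal O) O] [Finite (ResidueField O)]
  [CharZero O] {ι₀ : ℤ_[p] →+* O} {N₀ : ℕ} {lam : ℕ → O} {L₀ : LevelData O}
  (H : BaseSetting p ι₀ N₀ lam L₀) {r : ℕ} {T : Type} [Fintype T] {r₀ : T} {frob tame : T → GQ}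
  {Φ₀ : T → Matrix (Fin 2) (Fin 2) O} {PB : L₀.RepRing}
  {X : AuxLevels r r₀ frob tame Φ₀ L₀ PB} {Q : ℕ → Fin r → ℕ}

include H

/-- **Roots and characters exist.** -/
theorem BaseSetting.exists_twData (hX : AuxPrimes p X Q) :
    ∃ α ψ, TWData p lam Q X.tw α ψ := by
  classical
  choose ψ h1 h2 h3 using fun n => exists_auxChars O (p := p) n (Q n) (hX.injective n)
    (fun i => ⟨hX.prime n i, hX.ne_p n i, hX.dvd_sub_one n i⟩) (X.tw n)
    fun i => hX.tame_generator n i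
  choose a β hr using fun n i => H.exists_roots (hX.prime n i) (hX.ne_p n i) (hX.not_mem n i)
    ((dvd_pow_self p n.succ_ne_zero).trans (hX.dvd_sub_one n i)) (hX.distinct n i)
  refine ⟨fun n q => if h : ∃ i, Q n i = q then a n h.choose else 0, ψ, fun n i => ?_, h1, h2, h3⟩
  have h : ∃ j, Q n j = Q n i := ⟨i, rfl⟩
  simp only [dif_pos h, hX.injective n h.choose_spec]
  exact ⟨β n i, hr n i⟩

end Fermat.Agent.Engine
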