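import Fermat.Agent.Engine.Lifting.FamilyAct
import Fermat.Agent.Engine.Lifting.TwLevel
import Fermat.Agent.XHLite.Twist.Monodromy

/-!
# Existence of the actions

`exists_isLevelAct`: in any basis the level ring acts through the Hecke algebra of the level.
`exists_auxAct`: a basis at the auxiliary level lifting a given one at the base level, with an
action reducing to the base action.  `isNilpotent_square`: trace of inertia at the auxiliary
primes.
-/

set_option linter.unusedSectionVars false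

noncomputable section

namespace Fermat.Agent.Engine

open EigenRep HeckeModule IsLocalRing DefRing Deform EigenSystems TRep Lifting

local notation "Qbar" => AlgebraicClosure ℚ

variable {p : ℕ} [Fact p.Prime] {O : Type} [CommRing O] [IsDomain O]
  [IsDiscreteValuationRing O] [IsAdicComplete (maximalIdeal O) O] [Finite (ResidueField O)]
  [CharZero O] {ι₀ : ℤ_[p] →+* O} {N₀ : ℕ} {lam : ℕ → O} {L₀ : LevelData O}

/-- The base hypotheses at a level over the base level. -/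
theorem BaseSetting.ofLevel (H : BaseSetting p ι₀ N₀ lam L₀) {N : ℕ} (hN : LevelOK p N₀ L₀ N) :
    BaseSetting p ι₀ N lam L₀ :=
  { H with
    three := H.three.of_dvd hN.dvd
    sigma := hN.mem
    smin := fun q hq => ⟨(H.smin q hq).1, (H.smin q hq).2.1, hN.smin q hq, (H.smin q hq).2.2.2⟩ }

/-- The hypothesis at the places over `p` at a level over the base level. -/
theorem TopPlaceHyp.ofLevel (hplace : TopPlaceHyp p ι₀ N₀ lam L₀) {N : ℕ}
    (hN : LevelOK p N₀ L₀ N) : TopPlaceHyp p ι₀ N lam L₀ := by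
  intro M _ hes hd hpd S hS
  refine hplace M hes (hN.dvd.trans hd) (fun h => ?_) S hS
  obtain ⟨c, rfl⟩ := hd
  rw [Nat.mul_div_cancel_left _ (Nat.pos_of_ne_zero hN.ne_zero)] at hpd
  obtain ⟨e, rfl⟩ := hN.dvd
  have hpos : 0 < N₀ := Nat.pos_of_ne_zero (left_ne_zero_of_mul hN.ne_zero)
  have hp' := hN.p_not_dvd
  rw [Nat.mul_div_cancel_left _ hpos] at hp'
  rw [mul_assoc, Nat.mul_div_cancel_left _ hpos] at h
  exact ((Fact.out : p.Prime).dvd_mul.mp h).elim hp' hpd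

/-- A matrix action through `opMat` on a scalar times a Hecke operator. -/
theorem apply_twClass_C_mul_X {R : Type} [CommRing R] [IsLocalRing R] [IsNoetherianRing R]
    [IsAdicComplete (maximalIdeal R) R] [Algebra O R] [IsLocalHom (algebraMap O R)]
    (hsR : Function.Surjective (residue R ∘ algebraMap O R)) {S Q : Finset ℕ}
    {ψ : ∀ q : ℕ, (ZMod q)ˣ →* R} {J : Type} [Fintype J] {M : J → ℕ} [∀ j, NeZero (M j)]
    {N d : ℕ} {P : Submonoid (HeckePoly R)} {χ : (ZMod N)ˣ →* R}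
    {b : Module.Basis (Fin d) R (CohLoc P (scalarRep χ R))}
    (G : TwAlg hsR S lam ψ Q M →ₐ[R] Matrix (Fin d) (Fin d) R)
    (hG : ∀ X, G (twClass hsR S lam ψ Q M X) = opMat b (awayIncl R (↑S : Set ℕ) X)) (c : R)
    (l : AwayIndex (↑S : Set ℕ)) :
    G (twClass hsR S lam ψ Q M (MvPolynomial.C c * MvPolynomial.X l)) =
      algebraMap R (Matrix (Fin d) (Fin d) R) c *
        opMat b (MvPolynomial.X (l : Nat.Primes)) := by
  rw [map_mul, map_mul, ← MvPolynomial.algebraMap_eq, AlgHom.commutes, AlgHom.commutes, hG,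
    awayIncl_X]

variable (H : BaseSetting p ι₀ N₀ lam L₀)
  {Λ : Type} [CommRing Λ] [IsLocalRing Λ] [IsNoetherianRing Λ]
  [IsAdicComplete (maximalIdeal Λ) Λ] [Algebra O Λ] [IsLocalHom (algebraMap O Λ)]
  [Module.Finite O Λ] [IsReduced Λ] [Module.IsTorsionFree ℤ Λ]
  (hsΛ : Function.Surjective (residue Λ ∘ algebraMap O Λ))

include H

/-- **The level ring acts in every basis.** -/
theorem BaseSetting.exists_isLevelAct (hplace : TopPlaceHyp p ι₀ N₀ lam L₀) {S Q : Finset ℕ}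
    {ψ : ∀ q : ℕ, (ZMod q)ˣ →* Λ} {M : ℕ} [NeZero M] (hA : LevelArith p N₀ L₀ S Q M ψ)
    {Sig : Finset ℕ} (hSig : ∀ ℓ : ℕ, ℓ.Prime → ℓ ∣ M * (∏ q ∈ Q, q) * p → ℓ ∈ Sig)
    (PR : (L₀.withSigma Sig).RepRing) {P : Submonoid (HeckePoly Λ)}
    (hP : awayMonoid (lamIdeal hsΛ S lam) ≤ P) {d : ℕ} (hd : d ≠ 0)
    (b : Module.Basis (Fin d) Λ (CohLoc P (scalarRep (charSq ψ Q M) Λ))) :
    ∃ act : PR.R →+* Matrix (Fin d) (Fin d) Λ, IsLevelAct ι₀ hsΛ S lam ψ Q M PR b act ∧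
      ∀ o : O, act (algebraMap O PR.R o) = algebraMap Λ _ (algebraMap O Λ o) := by
  classical
  have hQ : ∀ (_ : Unit), ∀ q ∈ Q, q ∣ M := fun _ q hq => (hA.aux q hq).2.1
  obtain ⟨G, hG'⟩ := exists_matAction hsΛ S lam ψ Q (fun _ : Unit => M) hP () b
  have hG : ∀ X, G (twClass hsΛ S lam ψ Q (fun _ : Unit => M) X) =
      opMat b (awayIncl Λ (↑S : Set ℕ) X) := hG'
  have : NeZero d := ⟨hd⟩
  have : Nontrivial (TwAlg hsΛ S lam ψ Q fun _ : Unit => M) :=
    (G : _ →+* Matrix (Fin d) (Fin d) Λ).domain_nontrivial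
  obtain ⟨φ, hφl, hfrob, h2, h3, h4⟩ := H.exists_familyAct hsΛ hA (fun _ : Unit => dvd_rfl) hQ (fun _ => H.three_level hA)
    hplace hSig PR
  obtain ⟨F, hF⟩ := exists_relHom hsΛ S lam ψ Q (fun _ : Unit => M) hP ()
  refine ⟨(G : TwAlg hsΛ S lam ψ Q (fun _ : Unit => M) →+* Matrix (Fin d) (Fin d) Λ).comp
      (φ : PR.R →+* TwAlg hsΛ S lam ψ Q (fun _ : Unit => M)),
    ⟨⟨φ, G, hφl, hfrob, hG, fun x => rfl⟩, ?_, ?_, ?_, ?_⟩, fun o => ?_⟩
  · intro w hw hwd A hA' σ hσ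
    obtain ⟨X, hX⟩ : ∃ X, φ (PR.rep σ).trace = twClass hsΛ S lam ψ Q (fun _ : Unit => M) X := by
      have : NeZero (M * ∏ q ∈ Q, q) := ⟨mul_ne_zero (NeZero.ne M)
        (Finset.prod_ne_zero_iff.mpr fun q hq => (hA.aux q hq).1.ne_zero)⟩
      obtain ⟨X, hX⟩ := latHom_surjective
        (stdInputs (SemistableRed.allRelations (M * ∏ q ∈ Q, q) p))
        ((algebraMap O Λ).comp ι₀) S (latTrace _ _ S σ)
      exact ⟨_, h4 _ σ X hX⟩
    refine ((congrArg G hX).trans (hG X)).trans ?_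
    refine congrArg (LinearMap.toMatrix b b) (LinearMap.ext fun z => ?_)
    show awayIncl Λ (↑S : Set ℕ) X • z =
      (algebraMap Λ (HeckePoly Λ) (charProd (fun q => (ψ q).comp invMonoidHom) Q w) *
        MvPolynomial.X ⟨w, hw⟩ : HeckePoly Λ) • z
    induction z using LocalizedModule.induction_on with
    | _ u s =>
      have key : ∀ x : LevelCoh hsΛ S lam ψ Q (fun _ : Unit => M) (), awayIncl Λ (↑S : Set ℕ) X • x =
          (algebraMap Λ (HeckePoly Λ) (charProd (fun q => (ψ q).comp invMonoidHom) Q w) *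
            MvPolynomial.X ⟨w, hw⟩) • x := fun x => by
        rw [← twClass_apply hsΛ S lam ψ Q (fun _ : Unit => M) X () x, ← hX]
        exact (h2 w hw hwd A hA').2 σ hσ () x
      have h1 := congrArg (TwoAdic.locMono (ρ := scalarRep (charSq ψ Q M) Λ) hP)
        (key (toLoc _ _ u))
      rw [map_smul, map_smul, toLoc, LocalizedModule.mkLinearMap_apply,
        TwoAdic.locMono_mk] at h1
      refine (TwoAdic.bijective_smul_of_mem s.2).1 ?_
      dsimp only
      rw [smul_comm, smul_comm (s : HeckePoly Λ) _ (LocalizedModule.mk u s),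
        LocalizedModule.smul'_mk (s : HeckePoly Λ), ← Submonoid.smul_def,
        show LocalizedModule.mk (s • u) s = LocalizedModule.mk u 1 by
          rw [LocalizedModule.mk_cancel]]
      exact h1
  · intro w hw hwd A hA' σ hσ i j
    show G (φ ((PR.rep σ - 1) i j)) = 0
    have h := congrFun (congrFun ((h2 w hw hwd A hA').1 σ hσ) i) j
    rw [Matrix.map_apply] at h
    rw [Matrix.sub_apply, map_sub, h,
      show φ ((1 : Matrix (Fin 2) (Fin 2) PR.R) i j) = (1 : Matrix (Fin 2) (Fin 2) _) i j by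
        rcases eq_or_ne i j with rfl | hij
        · rw [Matrix.one_apply_eq, Matrix.one_apply_eq, map_one]
        · rw [Matrix.one_apply_ne hij, Matrix.one_apply_ne hij, map_zero], sub_self, map_zero]
  · intro q hq hqp hq2 A hA' σ hσ
    show G (φ ((PR.rep σ).trace - 2)) = 0
    rw [map_sub, h3 q hq hqp hq2 A hA' σ hσ, map_ofNat, sub_self, map_zero]
  · intro _ hes σ X hX
    show G (φ (PR.rep σ).trace) = _
    rw [h4 hes σ X hX, hG]
  · show G (φ (algebraMap O PR.R o)) = _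
    rw [φ.commutes]
    exact G.commutes _

/-- **An auxiliary level over the base level.** -/
theorem BaseSetting.exists_auxAct (hplace : TopPlaceHyp p ι₀ N₀ lam L₀) {N : ℕ} [NeZero N]
    (hN : LevelOK p N₀ L₀ N) (σ : Λ →ₐ[O] O) (hσs : Function.Surjective σ) {Q : Finset ℕ}
    (hQ : ∀ q ∈ Q, q.Prime ∧ q ≠ p ∧ q ∉ L₀.Sigma ∧ p ∣ q - 1) (α : ℕ → O)
    (hroots : ∀ q ∈ Q, ∃ β : O, α q + β - lam q ∈ maximalIdeal O ∧
      α q * β - q ∈ maximalIdeal O ∧ IsUnit (α q - β) ∧ IsUnit (α q * α q - 1) ∧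
      IsUnit (((q : O) + 1) * ((q : O) + 1) - (α q + β) * (α q + β)))
    {ψ : ∀ q : ℕ, (ZMod q)ˣ →* Λ} (hψ : ∀ q ∈ Q, ∀ u, ∃ k : ℕ, ψ q u ^ p ^ k = 1)
    (haug : ∀ q ∈ Q, ∀ u, σ (ψ q u) = 1) {S : Finset ℕ} (hS : S = L₀.Sigma ∪ Q)
    {Sig : Finset ℕ} (hSig : S ⊆ Sig) (PR : (L₀.withSigma Sig).RepRing) (PB : L₀.RepRing)
    (toBase : PR.R →ₐ[O] PB.R) (hbl : IsLocalHom (toBase : PR.R →+* PB.R))
    (hrep : ∀ g, (PR.rep g).map toBase = PB.rep g)
    (M : ℕ) [NeZero M] (hM : M = N * ∏ q ∈ Q, q) {d : ℕ} (hd : d ≠ 0)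
    {b₀ : Module.Basis (Fin d) O (CohLoc
      (awayMonoid (lamIdeal (Λ := O) (residue_surjective (R := O)) L₀.Sigma lam))
      (scalarRep (1 : (ZMod N)ˣ →* O) O))}
    {act₀ : PB.R →+* Matrix (Fin d) (Fin d) O}
    (hact₀ : IsLevelAct ι₀ (Λ := O) (residue_surjective (R := O)) L₀.Sigma lam (fun _ => 1) ∅ N
      PB b₀ act₀) :
    ∃ (b : Module.Basis (Fin d) Λ
        (CohLoc (relMonoid hsΛ S lam L₀.Sigma α) (scalarRep (charSq ψ Q M) Λ)))
      (act : PR.R →+* Matrix (Fin d) (Fin d) Λ),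
      IsLevelAct ι₀ hsΛ S lam ψ Q M PR b act ∧
      (∀ o : O, act (algebraMap O PR.R o) = algebraMap Λ _ (algebraMap O Λ o)) ∧
      ∀ x, (act x).map σ = act₀ (toBase x) := by
  classical
  subst hS
  let hsO : Function.Surjective (residue O ∘ algebraMap O O) := residue_surjective (R := O)
  have hA : LevelArith p N₀ L₀ (L₀.Sigma ∪ Q) Q M ψ := hM ▸ hN.arith Fact.out H.p_mem_sigma rfl
    (fun q hq => ⟨(hQ q hq).1, (hQ q hq).2.2.1⟩) (fun q hq => ⟨(H.smin q hq).1, (H.smin q hq).2.2.2⟩)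
    hψ
  choose β' hβ' using hroots
  obtain ⟨c, hc⟩ := (H.ofLevel hN).exists_levelBasis_of_roots (hplace.ofLevel hN) PR Q hQ α
    (fun q => if h : q ∈ Q then β' q h else 0)
    (fun q hq => by rw [dif_pos hq]; exact hβ' q hq) hSig M (hM.trans (mul_comm _ _)) b₀
  have hσl : IsLocalHom (σ : Λ →+* O) := isLocalHom_of_surjective' (σ : Λ →+* O) hσs
  have hχ : ∀ u, σ (charSq ψ Q M u) = (1 : (ZMod M)ˣ →* O) u :=
    map_charSq_eq_one (σ : Λ →* O) haug M
  obtain ⟨b, hb⟩ := exists_liftBasis hsΛ hsO σ hσl hσs (L₀.Sigma ∪ Q) lam L₀.Sigma α hχ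
    (exactHyp_relMonoid hsΛ _ lam _ α Finset.subset_union_left
      (H.exactHyp_member hsΛ hA (fun _ : Unit => dvd_rfl) (fun _ q hq => (hA.aux q hq).2.1) (fun _ => H.three_level hA) ())) c
  obtain ⟨act, hact, hconst⟩ := H.exists_isLevelAct hsΛ hplace hA
    (fun ℓ hℓ h => hSig (hA.mem_S ℓ hℓ h)) PR
    (lamIdeal_le_relMonoid hsΛ _ lam _ α Finset.subset_union_left) hd b
  refine ⟨b, act, hact, hconst, fun x => ?_⟩
  obtain ⟨φ, G, hφl, hφf, hG, hx⟩ := hact.family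
  obtain ⟨φ₀, G₀, hφ₀l, hφ₀f, hG₀, hx₀⟩ := hact₀.family
  have : NeZero d := ⟨hd⟩
  have : Nontrivial (TwAlg hsΛ (L₀.Sigma ∪ Q) lam ψ Q fun _ : Unit => M) :=
    (G : _ →+* Matrix (Fin d) (Fin d) Λ).domain_nontrivial
  have : Nontrivial (TwAlg hsO L₀.Sigma lam (fun _ => 1) ∅ fun _ : Unit => N) :=
    (G₀ : _ →+* Matrix (Fin d) (Fin d) O).domain_nontrivial
  have hinv : ∀ ℓ, σ (invChar ψ Q (L₀.Sigma ∪ Q) ℓ) = 1 := fun ℓ => by
    rw [invChar, charProd, map_prod]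
    refine Finset.prod_eq_one fun q hq => ?_
    unfold charAt
    split
    · exact haug q hq _
    · exact map_one σ
  have hinv₀ : ∀ l, invChar (Λ := O) (fun _ => 1) ∅ L₀.Sigma l = 1 :=
    fun _ => by rw [invChar, charProd, Finset.prod_empty]
  have := hbl
  have := hφ₀l
  have key := eq_of_frobenius (Λ := O) hsΛ hsO hsO lam hd σ (AlgHom.id O O) Function.surjective_id
    (Finset.coe_subset.mpr Finset.subset_union_left) G G₀
    (fun l hl => by
      rw [hG, hG₀, awayIncl_X, awayIncl_X]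
      refine (hb l).trans ((hc l (by simpa using hl)).trans ?_)
      ext i j
      rfl)
    (L₀.withSigma Sig) PR H.span φ hφl (φ₀.comp toBase)
    (RingHom.isLocalHom_comp (φ₀ : PB.R →+* TwAlg hsO L₀.Sigma lam (fun _ => 1) ∅
      fun _ : Unit => N) (toBase : PR.R →+* PB.R)) (L₀.Sigma ∪ Q)
    (fun ℓ hℓ hℓS A hA τ hτ => by
      have ht : toBase (PR.rep τ).trace = (PB.rep τ).trace := by
        rw [← hrep τ]
        exact AddMonoidHom.map_trace toBase.toRingHom.toAddMonoidHom _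
      rw [hφf ℓ hℓ hℓS A hA τ hτ, AlgHom.comp_apply, ht,
        hφ₀f ℓ hℓ (fun h => hℓS (Finset.mem_union_left _ h)) A hA τ hτ,
        apply_twClass_C_mul_X hsΛ G hG, apply_twClass_C_mul_X hsO G₀ hG₀, hinv₀, map_one, one_mul]
      refine Eq.trans ?_ ((hb ⟨ℓ, hℓ⟩).trans ((hc ⟨ℓ, hℓ⟩ (by simpa using hℓS)).trans ?_))
      · ext i j
        simp [Matrix.algebraMap_eq_diagonal, Matrix.diagonal_mul, hinv, opMat]
      · ext i j
        rfl)
    x
  rw [hx, hx₀]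
  refine key.trans ?_
  ext i j
  rfl

/-- **Trace of inertia at an auxiliary prime.** -/
theorem BaseSetting.isNilpotent_square {S Q : Finset ℕ}
    {ψ : ∀ q : ℕ, (ZMod q)ˣ →* Λ} {M : ℕ} [NeZero M] (hA : LevelArith p N₀ L₀ S Q M ψ)
    {Sig : Finset ℕ} (PR : (L₀.withSigma Sig).RepRing) {P : Submonoid (HeckePoly Λ)}
    {d : ℕ} (hd : d ≠ 0)
    {b : Module.Basis (Fin d) Λ (CohLoc P (scalarRep (charSq ψ Q M) Λ))}
    {act : PR.R →+* Matrix (Fin d) (Fin d) Λ}
    (hact : IsLevelAct ι₀ hsΛ S lam ψ Q M PR b act) {q : ℕ} (hq : q ∈ Q) (hqp : q ≠ p)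
    {A : ValuationSubring Qbar} (hPl : A.LiesOverPrime q) {σ : GQ}
    (hσ : σ ∈ A.inertiaSubgroupIn ℚ) {e : (ZMod q)ˣ}
    (he : ∀ μ : Qbar, μ ^ q = 1 → σ μ = μ ^ (e : ZMod q).val) :
    (act (PR.rep σ).trace - algebraMap Λ _ (ψ q e + ψ q e⁻¹)) ^ d = 0 := by
  classical
  obtain ⟨φ, G, hφl, hφf, hG, hx⟩ := hact.family
  have : NeZero d := ⟨hd⟩
  have : Nontrivial (TwAlg hsΛ S lam ψ Q fun _ : Unit => M) :=
    (G : _ →+* Matrix (Fin d) (Fin d) Λ).domain_nontrivial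
  have : NeZero q := ⟨(hA.aux q hq).1.ne_zero⟩
  have : NeZero (M * ∏ q ∈ Q, q) := ⟨mul_ne_zero (NeZero.ne M)
    (Finset.prod_ne_zero_iff.mpr fun q hq => (hA.aux q hq).1.ne_zero)⟩
  have h0 := (H.twistData hA).pow_trace_sub_eq_zero hsΛ
    (fun _ => H.exactHyp_family hsΛ hA) (L₀.withSigma Sig) PR H.span H.cont (H.trace_frob' hA) ι₀
    H.detbar (fun g => by rw [PR.isLift.eqs.det g]; exact congrArg (algebraMap O PR.R) (H.det g))
    φ hφl hφf hq hqp
    (fun O' _ _ _ _ _ _ _ N hN => by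
      have : NeZero N := ⟨hN⟩
      exact XHLite.nebentypusInertia O' p N q)
    hPl hσ he (D := Module.finrank Λ (LevelCoh hsΛ S lam ψ Q (fun _ : Unit => M) ()))
    fun _ => le_rfl
  have h1 : IsNilpotent (act (PR.rep σ).trace -
      algebraMap Λ (Matrix (Fin d) (Fin d) Λ) (ψ q e + ψ q e⁻¹)) := by
    rw [hx, ← G.commutes, ← map_sub G]
    exact IsNilpotent.map ⟨_, h0⟩ G
  have : Nontrivial Λ := inferInstance
  have h2 := pow_eq_zero_of_isNilpotent_end (Λ := Λ) (D := d)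
    (h1.map (Matrix.toLinAlgEquiv' (R := Λ) (n := Fin d))) (by rw [Module.finrank_fin_fun])
  rw [← map_pow] at h2
  exact (map_eq_zero_iff _ (Matrix.toLinAlgEquiv' (R := Λ) (n := Fin d)).injective).mp h2

end Fermat.Agent.Engine
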