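import Fermat.Agent.Engine.Lifting.TrivialKernel
import Fermat.Agent.Engine.Lifting.TwistPair
import Fermat.Agent.Engine.TRep.Twist
import Fermat.Agent.EigenRep.Main
import Fermat.Agent.SemistableRed.AllFacts

/-!
# Products of characters at auxiliary primes
-/

noncomputable section

open CongruenceSubgroup
open scoped MatrixGroups

namespace Fermat.Agent.Engine.Lifting

open EigenRep HeckeModule EigenSystems TRep

local notation "Qbar" => AlgebraicClosure ℚ

section Chars

variable {R : Type} [CommMonoid R] (ψ : ∀ q : ℕ, (ZMod q)ˣ →* R)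

/-- A trivial character stays trivial on the level. -/
theorem charOn_eq_one {q : ℕ} (h : ψ q = 1) (M : ℕ) : charOn ψ q M = 1 := by
  rw [charOn]
  split
  · rw [h]; rfl
  · rfl

/-- A trivial character has trivial values. -/
theorem charAt_eq_one {q : ℕ} (h : ψ q = 1) (a : ℕ) : charAt ψ q a = 1 := by
  rw [charAt]
  split
  · rw [h]; rfl
  · rfl

/-- Only the non-trivial characters contribute to `charSq`. -/
theorem charSq_filter [DecidablePred fun q => ψ q ≠ 1] (Q : Finset ℕ) (M : ℕ) :
    charSq ψ (Q.filter fun q => ψ q ≠ 1) M = charSq ψ Q M :=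
  Finset.prod_filter_of_ne fun q _ h h1 => h (by rw [charOn_eq_one ψ h1, one_pow])

/-- Only the non-trivial characters contribute to `charProd`. -/
theorem charProd_filter [DecidablePred fun q => ψ q ≠ 1] (Q : Finset ℕ) (a : ℕ) :
    charProd ψ (Q.filter fun q => ψ q ≠ 1) a = charProd ψ Q a :=
  Finset.prod_filter_of_ne fun _ _ h h1 => h (charAt_eq_one ψ h1 a)

/-- The square of the product of the characters at a prime outside the level. -/
theorem charSq_qUnit {Q : Finset ℕ} {M v : ℕ} [hv : Fact v.Prime] (hQ : ∀ q ∈ Q, q ∣ M)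
    (hvM : ¬ v ∣ M) : charSq ψ Q M (qUnit hvM) = charProd ψ Q v ^ 2 := by
  rw [charSq_apply, charProd, ← Finset.prod_pow]
  refine Finset.prod_congr rfl fun q hq => ?_
  have hc : v.Coprime q :=
    Nat.Coprime.coprime_dvd_right (hQ q hq) ((Nat.Prime.coprime_iff_not_dvd hv.out).mpr hvM)
  rw [charOn, dif_pos (hQ q hq), charAt, dif_pos hc, MonoidHom.comp_apply]
  refine congrArg (fun u => ψ q u ^ 2) (Units.ext ?_)
  rw [ZMod.unitsMap_def, Units.coe_map, MonoidHom.coe_coe, coe_qUnit, map_natCast,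
    ZMod.coe_unitOfCoprime]

end Chars

/-- A prime not dividing `M` divides no product of `M` with prime divisors of `M`. -/
theorem not_dvd_mul_prod {v M : ℕ} (hv : v.Prime) {Q : Finset ℕ}
    (hQ : ∀ q ∈ Q, q.Prime ∧ q ∣ M) (hvM : ¬ v ∣ M) : ¬ v ∣ M * ∏ q ∈ Q, q := fun h => by
  rcases hv.dvd_mul.mp h with h | h
  · exact hvM h
  · obtain ⟨q, hq, hvq⟩ := (Prime.dvd_finsetProd_iff hv.prime _).mp h
    exact hvM (((Nat.prime_dvd_prime_iff_eq hv (hQ q hq).1).mp hvq) ▸ (hQ q hq).2)

end Fermat.Agent.Engine.Lifting
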