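import Mathlib.LinearAlgebra.FiniteDimensional.Basic
import Mathlib.LinearAlgebra.Eigenspace.Zero
import Mathlib.LinearAlgebra.Prod

/-!
# Injectivity by counting

If a map `P` from `V` is injective where `g` is invertible and `T ∘ A` is, then the kernel of `T` is
killed by a power of `g`.
-/

namespace Fermat.Agent.Engine.Lifting

variable {K V W : Type*} [Field K] [AddCommGroup V] [Module K V] [FiniteDimensional K V]
  [AddCommGroup W] [Module K W] [FiniteDimensional K W]

/-- The kernel of a large power is the kernel of all larger powers. -/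
theorem eq_zero_of_mem_range_pow (g : Module.End K V) {n : ℕ} (hn : Module.finrank K V ≤ n) {v : V}
    (hv : v ∈ LinearMap.range (g ^ n)) {k : ℕ} (h : (g ^ k) v = 0) : v = 0 := by
  obtain ⟨x, rfl⟩ := hv
  rw [← Module.End.mul_apply, ← pow_add] at h
  have h1 : x ∈ LinearMap.ker (g ^ Module.finrank K V) :=
    Module.End.ker_pow_le_ker_pow_finrank g (k + n) (LinearMap.mem_ker.mpr h)
  rw [LinearMap.mem_ker] at h1
  obtain ⟨d, rfl⟩ := Nat.le.dest hn
  rw [add_comm, pow_add, Module.End.mul_apply, h1, map_zero]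

/-- Intertwining is inherited by powers. -/
theorem comm_pow {U U' : Type*} [AddCommGroup U] [Module K U] [AddCommGroup U'] [Module K U']
    (f : U →ₗ[K] U') (a : Module.End K U) (b : Module.End K U') (h : ∀ x, f (a x) = b (f x))
    (k : ℕ) (x : U) : f ((a ^ k) x) = (b ^ k) (f x) := by
  induction k generalizing x with
  | zero => rfl
  | succ k ih => rw [pow_succ, pow_succ, Module.End.mul_apply, Module.End.mul_apply, ih, h]

/-- **Counting.** -/
theorem pow_apply_eq_zero_of_counting (g : Module.End K V) (h : Module.End K W)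
    (A : W →ₗ[K] V) (T P : V →ₗ[K] W) (hA : ∀ w, A (h w) = g (A w))
    (hT : ∀ v, T (g v) = h (T v)) (hP : ∀ v, P (g v) = h (P v))
    (hker : ∀ v, P v = 0 → ∃ k : ℕ, (g ^ k) v = 0)
    (hdet : ∀ w, T (A w) = 0 → ∃ k : ℕ, (h ^ k) w = 0) {v : V} (hv : T v = 0) :
    (g ^ (Module.finrank K V + Module.finrank K W)) v = 0 := by
  set n := Module.finrank K V + Module.finrank K W
  let R := LinearMap.range (g ^ n)
  let S := LinearMap.range (h ^ n)
  have hAS : ∀ w ∈ S, A w ∈ R := by
    rintro _ ⟨x, rfl⟩
    exact ⟨A x, (comm_pow A h g hA n x).symm⟩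
  have hPR : ∀ x ∈ R, P x ∈ S := by
    rintro _ ⟨x, rfl⟩
    exact ⟨P x, (comm_pow P g h hP n x).symm⟩
  let A' : S →ₗ[K] R := A.restrict hAS
  let P' : R →ₗ[K] S := P.restrict hPR
  have hP' : Function.Injective P' := (injective_iff_map_eq_zero _).mpr fun x hx => by
    obtain ⟨k, hk⟩ := hker x (congrArg Subtype.val hx)
    exact Subtype.ext (eq_zero_of_mem_range_pow g (Nat.le_add_right _ _) x.2 hk)
  have hTA : ∀ w : S, T (A w) = 0 → w = 0 := fun w hw => by
    obtain ⟨k, hk⟩ := hdet w hw
    exact Subtype.ext (eq_zero_of_mem_range_pow h (Nat.le_add_left _ _) w.2 hk)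
  have hA' : Function.Injective A' := (injective_iff_map_eq_zero _).mpr fun w hw => hTA w (by
    rw [show A w = 0 from congrArg Subtype.val hw, map_zero])
  obtain ⟨w, hw⟩ : ∃ w, A' w = ⟨(g ^ n) v, v, rfl⟩ := by
    refine (LinearMap.injective_iff_surjective_of_finrank_eq_finrank ?_).mp hA' _
    exact le_antisymm (LinearMap.finrank_le_finrank_of_injective hA')
      (LinearMap.finrank_le_finrank_of_injective hP')
  have hw' : A w = (g ^ n) v := congrArg Subtype.val hw
  have h0 : w = 0 := hTA w (by rw [hw', comm_pow T g h hT, hv, map_zero])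
  rw [← hw', h0]
  exact map_zero A

end Fermat.Agent.Engine.Lifting
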