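import Fermat.Agent.Engine.Lifting.LevelAct

/-!
# The level ring acts on finite families of levels

`exists_familyAct`: for levels `M j` whose top levels `M j ∏ q` divide one level `M₀ ∏ q` of the
kind of `LevelArith`, the level ring maps to the Hecke algebra of the family.
-/

set_option linter.unusedSectionVars false

noncomputable section

namespace Fermat.Agent.Engine

open EigenRep HeckeModule IsLocalRing DefRing Deform EigenSystems TRep

local notation "Qbar" => AlgebraicClosure ℚ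

variable {p : ℕ} [Fact p.Prime] {O : Type} [CommRing O] [IsDomain O]
  [IsDiscreteValuationRing O] [IsAdicComplete (maximalIdeal O) O] [Finite (ResidueField O)]
  [CharZero O] {ι₀ : ℤ_[p] →+* O} {N₀ : ℕ} {lam : ℕ → O} {L₀ : LevelData O}
  (H : BaseSetting p ι₀ N₀ lam L₀)
  {Λ : Type} [CommRing Λ] [IsLocalRing Λ] [IsNoetherianRing Λ]
  [IsAdicComplete (maximalIdeal Λ) Λ] [Algebra O Λ] [IsLocalHom (algebraMap O Λ)]
  [Module.Finite O Λ] [IsReduced Λ] [Module.IsTorsionFree ℤ Λ]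
  (hsΛ : Function.Surjective (residue Λ ∘ algebraMap O Λ))
  {S Q : Finset ℕ} {M₀ : ℕ} [NeZero M₀] {ψ : ∀ q : ℕ, (ZMod q)ˣ →* Λ}
  (hA : LevelArith p N₀ L₀ S Q M₀ ψ) {J : Type} [Fintype J] {M : J → ℕ} [∀ j, NeZero (M j)]
  (hdvd : ∀ j, M j ∣ M₀) (hQ : ∀ j, ∀ q ∈ Q, q ∣ M j) (h3M : ∀ j, ThreeOK p (M j))

include H hA hdvd hQ h3M

/-- The twist data of a family of levels below the top one. -/
theorem BaseSetting.twistData_family : TwistData p S lam ψ Q M (M₀ * ∏ q ∈ Q, q) :=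
  { H.twistData hA with
    dvd_top := fun j => mul_dvd_mul_right (hdvd j) _
    three := h3M
    aux := fun j q hq => ⟨(hA.aux q hq).1, hQ j q hq,
      fun h => (hA.aux q hq).2.2 (h.trans (hdvd j))⟩ }

/-- Exactness at the members of a family. -/
theorem BaseSetting.exactHyp_member (j : J) :
    ExactHyp (awayMonoid (lamIdeal hsΛ S lam)) (charSq ψ Q (M j)) :=
  H.exactHyp hsΛ hA.sub ψ Q (M j) (h3M j) fun q hq => by
    obtain ⟨k, hk⟩ := hA.pow_one q hq (-1)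
    exact neg_one_eq_one_of_pow ((Fact.out : p.Prime).odd_of_ne_two (by have := H.three_le; omega))
      (ψ q) hk

/-- The algebra of a family has no torsion over the base ring. -/
theorem BaseSetting.twAlg_family_torsionFree (o : O) (x : TwAlg hsΛ S lam ψ Q M) (ho : o ≠ 0)
    (hox : algebraMap O _ o * x = 0) : x = 0 := by
  have : ∀ j, Module.Finite Λ (LevelCoh hsΛ S lam ψ Q M j) := fun j =>
    finite_cohLoc _ _ (maximalIdeal_le_lamIdeal hsΛ S lam)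
  have : ∀ j, Module.Free Λ (LevelCoh hsΛ S lam ψ Q M j) := fun j =>
    free_cohChar (H.exactHyp_member hsΛ hA hdvd hQ h3M j)
  refine Subtype.ext (funext fun j => LinearMap.ext fun u => ?_)
  have h1 : algebraMap O Λ o • (x : TwEnd hsΛ S lam ψ Q M) j u = 0 :=
    congrArg (fun z : TwAlg hsΛ S lam ψ Q M => (z : TwEnd hsΛ S lam ψ Q M) j u) hox
  let b := Module.Free.chooseBasis Λ (LevelCoh hsΛ S lam ψ Q M j)
  refine b.repr.injective (Finsupp.ext fun i => ?_)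
  have h2 := congrArg (fun z => b.repr z i) h1
  simp only [map_smul, Finsupp.smul_apply, smul_eq_mul, map_zero, Finsupp.zero_apply] at h2
  simp only [ZeroMemClass.coe_zero, Pi.zero_apply, LinearMap.zero_apply, map_zero,
    Finsupp.zero_apply]
  exact eq_zero_of_algebraMap_mul H.p_mem ho h2

/-- **The level ring acts on a family.** -/
theorem BaseSetting.exists_familyAct (hplace : TopPlaceHyp p ι₀ N₀ lam L₀)
    [Nontrivial (TwAlg hsΛ S lam ψ Q M)] {Sig : Finset ℕ}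
    (hSig : ∀ ℓ : ℕ, ℓ.Prime → ℓ ∣ M₀ * (∏ q ∈ Q, q) * p → ℓ ∈ Sig)
    (P : (L₀.withSigma Sig).RepRing) :
    ∃ φ : P.R →ₐ[O] TwAlg hsΛ S lam ψ Q M,
      IsLocalHom (φ : P.R →+* TwAlg hsΛ S lam ψ Q M) ∧
      (∀ (ℓ : ℕ) (hℓ : ℓ.Prime) (hℓS : ℓ ∉ (↑S : Set ℕ)), ∀ A : ValuationSubring Qbar,
        A.LiesOverPrime ℓ → ∀ σ : GQ, A.IsFrobeniusAt σ ℓ → φ (P.rep σ).trace =
          twClass hsΛ S lam ψ Q M (MvPolynomial.C (invChar ψ Q S ⟨⟨ℓ, hℓ⟩, hℓS⟩) *
            MvPolynomial.X ⟨⟨ℓ, hℓ⟩, hℓS⟩)) ∧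
      (∀ (w : ℕ) (hw : w.Prime), ¬ w ∣ M₀ * (∏ q ∈ Q, q) * p → ∀ A : ValuationSubring Qbar,
        A.LiesOverPrime w → (∀ σ ∈ A.inertiaSubgroupIn ℚ, (P.rep σ).map φ = 1) ∧
          ∀ σ : GQ, A.IsFrobeniusAt σ w → ∀ (j : J) (u : LevelCoh hsΛ S lam ψ Q M j),
            (φ (P.rep σ).trace : TwEnd hsΛ S lam ψ Q M) j u =
              (algebraMap Λ (HeckePoly Λ) (charProd (fun q => (ψ q).comp invMonoidHom) Q w) *
                MvPolynomial.X ⟨w, hw⟩) • u) ∧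
      (∀ q : ℕ, q.Prime → q ≠ p → ¬ q * q ∣ M₀ * ∏ q ∈ Q, q → ∀ A : ValuationSubring Qbar,
        A.LiesOverPrime q → ∀ σ ∈ A.inertiaSubgroupIn ℚ, φ (P.rep σ).trace = 2) ∧
      ∀ [NeZero (M₀ * ∏ q ∈ Q, q)] (hes : EichlerShimuraRelations (M₀ * ∏ q ∈ Q, q) p) (σ : GQ)
        (X : AwayPoly Λ (↑S : Set ℕ)),
        latHom (stdInputs hes) ((algebraMap O Λ).comp ι₀) S X =
            latTrace (stdInputs hes) ((algebraMap O Λ).comp ι₀) S σ →
          φ (P.rep σ).trace = twClass hsΛ S lam ψ Q M (twistPoly (invChar ψ Q S) X) := by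
  have hM0 : M₀ * ∏ q ∈ Q, q ≠ 0 := mul_ne_zero (NeZero.ne M₀)
    (Finset.prod_ne_zero_iff.mpr fun q hq => (hA.aux q hq).1.ne_zero)
  have : NeZero (M₀ * ∏ q ∈ Q, q) := ⟨hM0⟩
  have hes : EichlerShimuraRelations (M₀ * ∏ q ∈ Q, q) p := SemistableRed.allRelations _ p
  obtain ⟨φ, hφl, h1, h2, h3, h4⟩ := (H.twistData_family hA hdvd hQ h3M).exists_twClassify hsΛ hes ι₀
    (L₀.withSigma Sig) P H.span H.cont (H.trace_frob' hA) H.det hSig
    (fun q hq => ⟨(H.smin q hq).1, (H.smin q hq).2.1, hA.smin q hq⟩)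
    fun R hR F g => by
      have := isLocalHom_algebraMap_twAlg hsΛ S lam ψ Q M
      exact hplace _ hes hA.dvd hA.p_not_dvd S hA.mem_S Λ hsΛ R hR _
        (H.twAlg_family_torsionFree hsΛ hA hdvd hQ h3M) F g
  refine ⟨φ, hφl, h1, h2, fun q hq hqp hq2 A hPl σ hσ => ?_, fun {_} _ σ X hX => h4 σ X hX⟩
  by_cases hqd : q ∣ M₀ * ∏ q ∈ Q, q
  · exact h3 q hq hqp hqd hq2 A hPl σ hσ
  have hqp' : ¬ q ∣ M₀ * (∏ q ∈ Q, q) * p := fun h => (hq.dvd_mul.mp h).elim hqd fun h' =>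
    hqp ((Nat.prime_dvd_prime_iff_eq hq Fact.out).mp h')
  have h := (h2 q hq hqp' A hPl).1 σ hσ
  rw [show φ (P.rep σ).trace = ((P.rep σ).map φ).trace from
    AddMonoidHom.map_trace φ.toRingHom.toAddMonoidHom _, h, Matrix.trace_one, Fintype.card_fin,
    Nat.cast_ofNat]

end Fermat.Agent.Engine
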