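import Fermat.Agent.Engine.OrdTop.HeckeP
import Fermat.Agent.Engine.TRep.TwistClassify
import Fermat.Agent.Engine.Top.AtP
import Fermat.Agent.Engine.Crys.Kummer

/-!
# The Hecke operator at `p` on the classes of a family of levels prime to `p`

With `α` the unit root of the classified representation, `α` is a unit and the twisted operator
`ψ(p)⁻¹ X_p` satisfies `α (ψ(p)⁻¹ X_p) = α² + p` on the localised classes.
-/

set_option linter.unusedSectionVars false

noncomputable section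

namespace Fermat.Agent.Engine.TRep

open EigenRep HeckeModule EigenSystems IsLocalRing DefRing Matrix

local notation "Qbar" => AlgebraicClosure ℚ

/-- The unit root of a two-dimensional residual system with trace `1 + det` on inertia is not zero. -/
theorem unitRoot_residual_ne_zero {k : Type} [Field k] (ρ : GQ →* Matrix (Fin 2) (Fin 2) k)
    {σ₀ φ : GQ} (h₀ : (ρ σ₀).trace = 1 + (ρ σ₀).det)
    (h₁ : (ρ (σ₀ * (φ * σ₀ * φ⁻¹))).trace = 1 + (ρ σ₀).det * (ρ σ₀).det)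
    (hχ : (ρ σ₀).det ≠ 1) : (ρ σ₀).det * (ρ φ).trace - (ρ (σ₀ * φ)).trace ≠ 0 := by
  intro h
  set X := ρ σ₀
  set Y := ρ φ
  set D := Y.det
  have hD : D ≠ 0 := ((Matrix.isUnit_iff_isUnit_det _).mp ((Group.isUnit φ).map ρ)).ne_zero
  have hadj : D • ρ φ⁻¹ = Y.trace • 1 - Y := by
    have h2 : Y * Y - Y.trace • Y + D • 1 = 0 := by
      ext i j
      fin_cases i <;> fin_cases j <;>
        simp [D, Matrix.mul_apply, Fin.sum_univ_two, Matrix.trace_fin_two, Matrix.det_fin_two] <;> ring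
    have h3 := congrArg (· * ρ φ⁻¹) h2
    simp only [zero_mul, add_mul, sub_mul, Matrix.smul_mul, one_mul, mul_assoc, Y, ← map_mul,
      mul_inv_cancel, map_one, mul_one] at h3
    show D • ρ φ⁻¹ = (ρ φ).trace • 1 - ρ φ
    exact eq_sub_of_add_eq' (by linear_combination (norm := module) h3)
  have h4 : D * (1 + X.det * X.det) = (X * (Y * X * (Y.trace • 1 - Y))).trace := by
    rw [← hadj, Matrix.mul_smul, Matrix.mul_smul, Matrix.trace_smul, smul_eq_mul, ← h₁]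
    simp only [X, Y, ← map_mul, mul_assoc]
  rw [map_mul] at h
  change X.det * Y.trace - (X * Y).trace = 0 at h
  have e : (X * (Y * X * (Y.trace • 1 - Y))).trace =
      (X * X * Y).trace * Y.trace - ((X * Y) * (X * Y)).trace := by
    simp only [Matrix.mul_sub, Matrix.mul_smul, mul_one, Matrix.trace_sub, Matrix.trace_smul,
      smul_eq_mul, ← mul_assoc]
    rw [Matrix.trace_mul_cycle X Y X, mul_comm]
  rw [e] at h4
  refine hD ((mul_eq_zero.mp ?_).resolve_left (pow_ne_zero 2 (sub_ne_zero.mpr hχ)))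
  simp only [Matrix.trace_fin_two, Matrix.det_fin_two, Matrix.mul_apply, Fin.sum_univ_two, D] at h4 h h₀ ⊢
  linear_combination h4 +
    ((X 0 0 * Y 0 0 + X 0 1 * Y 1 0 + (X 1 0 * Y 0 1 + X 1 1 * Y 1 1)) - (Y 0 0 + Y 1 1)) * h +
    (Y 0 0 + Y 1 1) * (X 0 0 * Y 0 0 + X 0 1 * Y 1 0 + (X 1 0 * Y 0 1 + X 1 1 * Y 1 1)) * h₀

/-- An inverse of `ε σ₀ - 1`, if its image is a unit. -/
theorem exists_mul_epsilon_sub_one {p : ℕ} [Fact p.Prime] {O : Type} [CommRing O] [IsLocalRing O]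
    [CharP (ResidueField O) p] (ι₀ : ℤ_[p] →+* O) {χ : GQ → O}
    (hχ : ∀ σ, χ σ = ι₀ (epsilonPadic p σ : ℤ_[p])) {σ₀ : GQ} (hunit : IsUnit (χ σ₀ - 1)) :
    ∃ c : ℤ_[p], c * ((epsilonPadic p σ₀ : ℤ_[p]) - 1) = 1 := by
  by_contra hne
  have hnu : ¬ IsUnit ((epsilonPadic p σ₀ : ℤ_[p]) - 1) := fun ⟨w, hw⟩ =>
    hne ⟨(↑w⁻¹ : ℤ_[p]), by rw [← hw, Units.inv_mul]⟩
  rw [← mem_nonunits_iff, ← mem_maximalIdeal, PadicInt.maximalIdeal_eq_span_p,
    Ideal.mem_span_singleton] at hnu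
  obtain ⟨x, hx⟩ := hnu
  rw [hχ, ← map_one ι₀, ← map_sub, hx, map_mul, map_natCast] at hunit
  exact (isUnit_of_mul_isUnit_left hunit).map (residue O) |>.ne_zero (by
    rw [map_natCast, CharP.cast_eq_zero])

/-- Its image is the inverse of `χ σ₀ - 1`. -/
theorem ringInverse_sub_one {p : ℕ} [Fact p.Prime] {O : Type} [CommRing O] (ι₀ : ℤ_[p] →+* O)
    {χ : GQ → O} (hχ : ∀ σ, χ σ = ι₀ (epsilonPadic p σ : ℤ_[p])) {σ₀ : GQ} {c : ℤ_[p]}
    (hc : c * ((epsilonPadic p σ₀ : ℤ_[p]) - 1) = 1) : Ring.inverse (χ σ₀ - 1) = ι₀ c := by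
  have h1 : ι₀ c * (χ σ₀ - 1) = 1 := by rw [hχ, ← map_one ι₀, ← map_sub, ← map_mul, hc]
  calc Ring.inverse (χ σ₀ - 1) = ι₀ c * ((χ σ₀ - 1) * Ring.inverse (χ σ₀ - 1)) := by
        rw [← mul_assoc, h1, one_mul]
    _ = ι₀ c := by rw [Ring.mul_inverse_cancel _ (IsUnit.of_mul_eq_one_right _ h1), mul_one]

variable {p : ℕ} [Fact p.Prime] {O : Type} [CommRing O] [IsLocalRing O] [Finite (ResidueField O)]
  [CharP (ResidueField O) p] {Λ : Type} [CommRing Λ]
  [IsLocalRing Λ] [IsNoetherianRing Λ] [IsAdicComplete (maximalIdeal Λ) Λ] [Algebra O Λ]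
  [IsLocalHom (algebraMap O Λ)] [IsReduced Λ] [Module.IsTorsionFree ℤ Λ]
  {S : Finset ℕ} {lam : ℕ → O} {ψ : ∀ q : ℕ, (ZMod q)ˣ →* Λ} {Q : Finset ℕ} {J : Type}
  [Fintype J] {M : J → ℕ} [∀ j, NeZero (M j)] {Mtop : ℕ} [NeZero Mtop]
  (hsΛ : Function.Surjective (residue Λ ∘ algebraMap O Λ))
  (H : TwistData p S lam ψ Q M Mtop) (hes : EichlerShimuraRelations Mtop p) (ι₀ : ℤ_[p] →+* O)
  [Nontrivial (TwAlg hsΛ S lam ψ Q M)]

include H in
/-- **The Hecke operator at `p` on the family**: `α` is a unit and `α (ψ(p)⁻¹ X_p) = α² + p`. -/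
theorem TwistData.heckeP_eq (hpM : ¬ p ∣ Mtop) (rbar : GQ →* Matrix (Fin 2) (Fin 2) (ResidueField O))
    (hspan : Submodule.span (ResidueField O) (Set.range rbar) = ⊤) (hfin : IsCont rbar)
    (htr : ∀ ℓ : ℕ, ℓ.Prime → ℓ ∉ S → ∀ A : ValuationSubring Qbar, A.LiesOverPrime ℓ →
      ∀ σ : GQ, A.IsFrobeniusAt σ ℓ → (rbar σ).trace = residue O (lam ℓ))
    (hdet : ∀ σ, (rbar σ).det = residue O (ι₀ (epsilonPadic p σ : ℤ_[p])))
    {A : ValuationSubring Qbar} (hA : A.LiesOverPrime p)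
    (hinertia : ∀ σ ∈ A.inertiaSubgroupIn ℚ, (rbar σ).trace = 1 + (rbar σ).det)
    {χ : GQ → O} (hχ : ∀ σ, χ σ = ι₀ (epsilonPadic p σ : ℤ_[p]))
    {σ₀ φ : GQ} (hσ₀ : σ₀ ∈ A.inertiaSubgroupIn ℚ) (hunit : IsUnit (χ σ₀ - 1))
    (hφ : A.IsFrobeniusAt φ p) (N : MRep (TwAlg hsΛ S lam ψ Q M))
    (hN : ∀ g X, latHom (stdInputs hes) ((algebraMap O Λ).comp ι₀) S X =
        latTrace (stdInputs hes) ((algebraMap O Λ).comp ι₀) S g →
      (N g).trace = twClass hsΛ S lam ψ Q M (twistPoly (invChar ψ Q S) X)) :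
    IsUnit (Top.unitRoot χ σ₀ φ N) ∧ ∀ (j : J) (u : LevelCoh hsΛ S lam ψ Q M j),
      ((Top.unitRoot χ σ₀ φ N : TwAlg hsΛ S lam ψ Q M) : TwEnd hsΛ S lam ψ Q M) j
        ((algebraMap Λ (HeckePoly Λ) (charProd (fun q => (ψ q).comp invMonoidHom) Q p) *
          MvPolynomial.X ⟨p, Fact.out⟩) • u) =
      ((Top.unitRoot χ σ₀ φ N * Top.unitRoot χ σ₀ φ N +
        (p : TwAlg hsΛ S lam ψ Q M) : TwAlg hsΛ S lam ψ Q M) : TwEnd hsΛ S lam ψ Q M) j u := by
  classical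
  set I := stdInputs hes
  set ι := (algebraMap O Λ).comp ι₀ with hι
  set m := lamIdeal hsΛ S lam with hm
  have hp : p.Prime := Fact.out
  have hker := H.ker_latHom_le hsΛ hes ι₀
  have := isLocalRing_tLoc I ι S m hker
  obtain ⟨res, hres⟩ := exists_residual I ι S m (lamHom O Λ hsΛ S lam) hker rfl
  have hNS : ∀ q : ℕ, q.Prime → q ∣ Mtop * p → q ∈ S := fun q hq h => H.mem_S q hq h
  have htr' := residual_trace I ι S m (lamHom O Λ hsΛ S lam) hNS res hres
    (CharP.cast_eq_zero _ p) rbar hfin.finite_level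
    fun ℓ hℓ hℓS A hA σ hσ => (htr ℓ hℓ hℓS A hA σ hσ).trans
      (lamHom_X hsΛ S lam ⟨⟨ℓ, hℓ⟩, hℓS⟩).symm
  have hresC : ∀ o : O, res (algebraMap Λ (TLoc I ι S m) (algebraMap O Λ o)) = residue O o := by
    intro o
    have h := hres (algebraMap Λ _ (algebraMap O Λ o))
    rwa [AlgHom.commutes, lamHom_algebraMap] at h
  obtain ⟨c, hc⟩ := exists_mul_epsilon_sub_one ι₀ hχ hunit
  have hcO : Ring.inverse (χ σ₀ - 1) = ι₀ c := ringInverse_sub_one ι₀ hχ hc
  obtain ⟨a, ha, hz⟩ := exists_heckeP_eq I ι S m res (by have := H.three_le; omega) hpM hNS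
    (fun b hb => by rw [hres]; exact hb) rbar htr' (fun g => (hresC _).trans (hdet g).symm) hspan hA
    hinertia hσ₀ hφ hc
  obtain ⟨Xφ, hXφ⟩ := latHom_surjective I ι S (latTrace I ι S φ)
  obtain ⟨Xψ, hXψ⟩ := latHom_surjective I ι S (latTrace I ι S (σ₀ * φ))
  set U : AwayPoly Λ (↑S : Set ℕ) := algebraMap Λ _ (ι c) *
    (algebraMap Λ _ (ι (epsilonPadic p σ₀ : ℤ_[p])) * Xφ - Xψ) with hU
  have hUlat : latHom I ι S U = algebraMap Λ (LatAlg I ι S) (ι c) *
      (algebraMap Λ (LatAlg I ι S) (ι (epsilonPadic p σ₀ : ℤ_[p])) * latTrace I ι S φ -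
        latTrace I ι S (σ₀ * φ)) := by
    rw [hU, map_mul, map_sub, map_mul, AlgHom.commutes, AlgHom.commutes, hXφ, hXψ]
  set α := Top.unitRoot χ σ₀ φ N with hαdef
  have hα : α = twClass hsΛ S lam ψ Q M (twistPoly (invChar ψ Q S) U) := by
    rw [hU, map_mul, map_sub, map_mul, AlgHom.commutes, AlgHom.commutes, map_mul, map_sub, map_mul,
      AlgHom.commutes, AlgHom.commutes, ← hN φ Xφ hXφ, ← hN (σ₀ * φ) Xψ hXψ, hαdef, Top.unitRoot,
      hcO, hχ, IsScalarTower.algebraMap_apply O Λ, IsScalarTower.algebraMap_apply O Λ]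
    rfl
  have hUm : U ∉ m := by
    intro hmem
    have hm0 : lamHom O Λ hsΛ S lam U = 0 := hmem
    have hX : ∀ g X, latHom I ι S X = latTrace I ι S g →
        lamHom O Λ hsΛ S lam X = (rbar g).trace := fun g X hX => by
      rw [← hres, ← htr']
      exact congrArg (fun y => res (algebraMap (LatAlg I ι S) (TLoc I ι S m) y)) hX
    rw [hU, map_mul, map_sub, map_mul, hX φ Xφ hXφ, hX _ Xψ hXψ, hι, RingHom.comp_apply,
      lamHom_algebraMap, RingHom.comp_apply, lamHom_algebraMap, ← hdet] at hm0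
    have hcne : residue O (ι₀ c) ≠ 0 := by
      rw [← hcO]
      exact (((IsUnit.ringInverse hunit)).map (residue O)).ne_zero
    refine unitRoot_residual_ne_zero rbar (hinertia σ₀ hσ₀) ?_ ?_
      ((mul_eq_zero.mp hm0).resolve_left hcne)
    · rw [hinertia _ (mul_mem hσ₀ (conj_mem_inertia hφ.mem_decompositionSubgroup hσ₀)), map_mul, Matrix.det_mul, map_mul, map_mul, Matrix.det_mul, Matrix.det_mul,
        mul_comm (rbar φ).det, mul_assoc (rbar σ₀).det, ← Matrix.det_mul (rbar φ), ← map_mul,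
        mul_inv_cancel, map_one, Matrix.det_one, mul_one]
    · rw [hdet, ← sub_ne_zero, ← map_one (residue O), ← map_sub, ← hχ]
      exact (hunit.map (residue O)).ne_zero
  have hunitα : IsUnit α := hα ▸ isUnit_twClass hsΛ S lam ψ Q M fun h =>
    hUm ((H.comap_lamIdeal hsΛ).le h)
  refine ⟨hunitα, fun j u => ?_⟩
  -- one polynomial away from `S` without `p`
  clear_value U
  have hsub : (↑(S.erase p) : Set ℕ) ⊆ ↑S := by simp
  have hpS : p ∉ (↑(S.erase p) : Set ℕ) := by simp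
  let cf : ℕ → Λ := fun a => charProd (fun q => (ψ q).comp invMonoidHom) Q a
  set P' : AwayPoly Λ (↑(S.erase p) : Set ℕ) :=
    awayMono Λ hsub a * (awayMono Λ hsub U * MvPolynomial.X ⟨⟨p, hp⟩, hpS⟩ -
      (awayMono Λ hsub U * awayMono Λ hsub U + (p : AwayPoly Λ (↑(S.erase p) : Set ℕ)))) with hP'def
  have hP' : latHom I ι (S.erase p) P' = 0 := by
    refine Subtype.ext ?_
    rw [hP'def, map_mul, map_sub, map_mul, map_add, map_mul, map_natCast, Subalgebra.coe_mul,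
      Subalgebra.coe_sub, Subalgebra.coe_mul, Subalgebra.coe_add, Subalgebra.coe_mul,
      latHom_awayMono, latHom_awayMono, latHom_X]
    simpa [latOp] using hz (latHom I ι S U) hUlat
  obtain ⟨r, hr, hr1, hrp, hre⟩ := H.exists_eisen hsΛ
  have : Fact r.Prime := ⟨hr⟩
  have h1 : awayIncl Λ (↑(S.erase p) : Set ℕ) (twistPoly (invChar ψ Q (S.erase p)) P') • u = 0 := by
    refine smul_eq_zero_of_eisen_sq hre ?_ u
    intro w
    exact smul_eq_zero_of_twist ψ Q hes _ (S.erase p) (by have := H.three_le; omega)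
      ((H.three j).of_dvd ((dvd_mul_right _ _).trans (H.dvd_top j))) (H.dvd_top j) (H.aux j) H.odd
      (fun ℓ hℓ h => Finset.mem_erase.mpr ⟨fun e => hpM (e ▸ h),
        H.mem_S ℓ hℓ (h.mul_right p)⟩) hr1 hrp hP' w
  set a' := twistPoly (invChar ψ Q S) a
  set U' := twistPoly (invChar ψ Q S) U
  have e : awayIncl Λ (↑(S.erase p) : Set ℕ) (twistPoly (invChar ψ Q (S.erase p)) P') =
      awayIncl Λ (↑S : Set ℕ) a' * (awayIncl Λ (↑S : Set ℕ) U' *
        (algebraMap Λ (HeckePoly Λ) (cf p) * MvPolynomial.X ⟨p, hp⟩) -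
          (awayIncl Λ (↑S : Set ℕ) U' * awayIncl Λ (↑S : Set ℕ) U' + (p : HeckePoly Λ))) := by
    have hmono : ∀ P, twistPoly (invChar ψ Q (S.erase p)) (awayMono Λ hsub P) =
        awayMono Λ hsub (twistPoly (invChar ψ Q S) P) := fun P => twistPoly_awayMono hsub cf P
    simp only [hP'def, map_mul, map_sub, map_add, map_natCast, hmono, twistPoly_X, awayIncl_awayMono,
      awayIncl_X, ← MvPolynomial.algebraMap_eq, AlgHom.commutes]
    rfl
  rw [e, mul_smul] at h1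
  obtain ⟨v, hv⟩ : IsUnit (twClass hsΛ S lam ψ Q M a') :=
    isUnit_twClass hsΛ S lam ψ Q M fun h => ha ((H.comap_lamIdeal hsΛ).le h)
  rw [← twClass_apply hsΛ S lam ψ Q M a', ← hv] at h1
  have h2 := congrArg
    (((↑v⁻¹ : TwAlg hsΛ S lam ψ Q M) : TwEnd hsΛ S lam ψ Q M) j) h1
  rw [map_zero, ← Module.End.mul_apply, ← Pi.mul_apply, ← Subalgebra.coe_mul, Units.inv_mul,
    Subalgebra.coe_one, Pi.one_apply, Module.End.one_apply, sub_smul, sub_eq_zero, mul_smul,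
    add_smul, mul_smul] at h2
  rw [hα, twClass_apply, mul_smul]
  refine h2.trans ?_
  rw [Subalgebra.coe_add, Pi.add_apply, LinearMap.add_apply, Subalgebra.coe_mul, Pi.mul_apply,
    Module.End.mul_apply, twClass_apply, twClass_apply, map_natCast (twClass hsΛ S lam ψ Q M) p |>.symm,
    twClass_apply, map_natCast, mul_smul]

end Fermat.Agent.Engine.TRep
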