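import Fermat.Agent.Engine.TRep.NonEis

/-!
# Primes for Ihara's lemma

An absolutely irreducible two-dimensional representation in odd characteristic has an element `g`
with `(tr g)² ≠ (det g + 1)²`; by Chebotarev there are Frobenius elements of this kind at
arbitrarily large primes.
-/

noncomputable section

namespace Fermat.Agent.Engine.Lifting

open EigenRep DefRing Matrix TRep

local notation "Qbar" => AlgebraicClosure ℚ

/-- Some element has `(tr)² ≠ (det + 1)²`. -/
theorem exists_sq_trace_ne {k : Type*} [Field k] (h2 : (2 : k) ≠ 0) {G : Type*} [Group G]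
    (ρ : G →* Matrix (Fin 2) (Fin 2) k) (hspan : Submodule.span k (Set.range ρ) = ⊤) :
    ∃ g, (ρ g).trace ^ 2 ≠ ((ρ g).det + 1) ^ 2 := by
  by_contra! hall
  have hinv : ∀ g, ρ g * ρ g⁻¹ = 1 := fun g => by rw [← map_mul, mul_inv_cancel, map_one]
  have hdet : ∀ g, (ρ g).det * (ρ g⁻¹).det = 1 := fun g => by
    rw [← Matrix.det_mul, hinv, Matrix.det_one]
  -- elements of determinant one are scalars
  have hscal : ∀ h, (ρ h).det = 1 → ∃ s : k, s * s = 1 ∧ ρ h = s • 1 := by
    intro h hd
    set s := (ρ h).trace / 2 with hs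
    have hts : (ρ h).trace = 2 * s := by rw [hs]; field_simp
    have hss : s * s = 1 := by
      have h4 := hall h
      rw [hd, hts] at h4
      refine mul_left_cancel₀ (mul_ne_zero h2 h2) ?_
      linear_combination h4
    refine ⟨s, hss, sub_eq_zero.mp ?_⟩
    set N : Matrix (Fin 2) (Fin 2) k := ρ h - s • 1 with hN
    have hNt : N.trace = 0 := by
      rw [hN, Matrix.trace_sub, Matrix.trace_smul, Matrix.trace_one, Fintype.card_fin, smul_eq_mul,
        hts]
      push_cast
      ring
    have hNd : N.det = 0 := by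
      have e : (ρ h).trace = ρ h 0 0 + ρ h 1 1 := Matrix.trace_fin_two _
      rw [Matrix.det_fin_two] at hd
      rw [hN, Matrix.det_fin_two]
      simp only [Matrix.sub_apply, Matrix.smul_apply, Matrix.one_apply_eq, ne_eq, zero_ne_one,
        one_ne_zero, not_false_eq_true, Matrix.one_apply_ne, smul_eq_mul, mul_one, mul_zero,
        sub_zero]
      linear_combination hd + s * (hts.symm.trans e) - hss
    have hρh : ρ h = s • 1 + N := by rw [hN, add_sub_cancel]
    have hN2 : N * N = 0 := by
      have h5 := mul_mul_eq_trace_smul N 1 hNd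
      rw [mul_one, hNt, zero_smul] at h5
      exact h5
    have hg : ∀ g, (N * ρ g).trace = 0 := by
      intro g
      set h' := g * h * g⁻¹ with hh'
      have hρ' : ρ h' = s • 1 + ρ g * N * ρ g⁻¹ := by
        rw [hh', map_mul, map_mul, hρh, mul_add, add_mul, Matrix.mul_smul, mul_one,
          Matrix.smul_mul, hinv]
      have hd' : (ρ h').det = 1 := by
        rw [hh', map_mul, map_mul, Matrix.det_mul, Matrix.det_mul, hd, mul_one, hdet]
      have hd1 : (ρ (h * h')).det = 1 := by rw [map_mul, Matrix.det_mul, hd, hd', mul_one]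
      have hd2 : (ρ (h * (h * h'))).det = 1 := by rw [map_mul, Matrix.det_mul, hd, hd1, mul_one]
      have hM : (ρ g * N * ρ g⁻¹).trace = 0 := by
        rw [Matrix.trace_mul_cycle, ← map_mul, inv_mul_cancel, map_one, one_mul, hNt]
      set X := (N * (ρ g * N * ρ g⁻¹)).trace with hX
      have t1 : (ρ (h * h')).trace = 2 + X := by
        rw [map_mul, hρh, hρ']
        simp only [add_mul, mul_add, Matrix.smul_mul, Matrix.mul_smul, one_mul, mul_one, smul_smul,
          Matrix.trace_add, Matrix.trace_smul, Matrix.trace_one, Fintype.card_fin, smul_eq_mul, hM,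
          hNt, ← hX]
        push_cast
        linear_combination (2 : k) * hss
      have t2 : (ρ (h * (h * h'))).trace = 2 * s + 2 * s * X := by
        rw [map_mul, map_mul, ← mul_assoc, hρh, hρ']
        simp only [add_mul, mul_add, Matrix.smul_mul, Matrix.mul_smul, one_mul, mul_one, smul_smul,
          Matrix.trace_add, Matrix.trace_smul, Matrix.trace_one, Fintype.card_fin, smul_eq_mul, hM,
          hNt, hN2, zero_mul, Matrix.trace_zero, ← hX]
        push_cast
        linear_combination (2 * s) * hss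
      have e1 := hall (h * h')
      rw [hd1, t1] at e1
      have e2 := hall (h * (h * h'))
      rw [hd2, t2] at e2
      have e3 : X * X + 4 * X = 0 := by linear_combination e1
      have e4 : X * X + 2 * X = 0 := mul_left_cancel₀ (mul_ne_zero h2 h2)
        (by linear_combination e2 - 4 * (1 + X) ^ 2 * hss)
      have hX0 : X = 0 := (mul_eq_zero.mp (show 2 * X = 0 by linear_combination e3 - e4)).resolve_left h2
      rw [hX, ← mul_assoc, ← mul_assoc, mul_mul_eq_trace_smul N (ρ g) hNd, Matrix.smul_mul,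
        Matrix.trace_smul, smul_eq_mul] at hX0
      rcases mul_eq_zero.mp hX0 with h0 | h0
      · exact h0
      · have e : ρ g⁻¹ = ((ρ g).det)⁻¹ • (ρ g).adjugate := by
          have h9 : ρ g⁻¹ * ρ g = 1 := by rw [← map_mul, inv_mul_cancel, map_one]
          have hg0 : (ρ g).det ≠ 0 := left_ne_zero_of_mul_eq_one (hdet g)
          calc ρ g⁻¹ = ρ g⁻¹ * (((ρ g).det)⁻¹ • (ρ g * (ρ g).adjugate)) := by
                rw [Matrix.mul_adjugate, smul_smul, inv_mul_cancel₀ hg0, one_smul, mul_one]
            _ = _ := by rw [Matrix.mul_smul, ← mul_assoc, h9, one_mul]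
        rw [e, Matrix.mul_smul, Matrix.trace_smul, smul_eq_mul] at h0
        have h7 := (mul_eq_zero.mp h0).resolve_left
          (inv_ne_zero (left_ne_zero_of_mul_eq_one (hdet g)))
        rw [Matrix.trace_fin_two] at hNt
        simp [Matrix.trace_fin_two, Matrix.mul_apply, Fin.sum_univ_two, Matrix.adjugate_fin_two] at h7 ⊢
        linear_combination (ρ g 0 0 + ρ g 1 1) * hNt - h7
    have hallX : ∀ X, (N * X).trace = 0 := fun X => by
      have hX : X ∈ Submodule.span k (Set.range ρ) := hspan ▸ Submodule.mem_top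
      induction hX using Submodule.span_induction with
      | mem x hx => obtain ⟨g, rfl⟩ := hx; exact hg g
      | zero => simp
      | add x y _ _ hx hy => rw [mul_add, Matrix.trace_add, hx, hy, add_zero]
      | smul a x _ hx => rw [Matrix.mul_smul, Matrix.trace_smul, hx, smul_zero]
    ext i j
    simpa [Matrix.trace_mul_single] using hallX (Matrix.single j i 1)
  -- some pair anticommutes
  have hsign : ∀ g g', ∃ c : k, c * c = 1 ∧ ρ g * ρ g' = c • (ρ g' * ρ g) := by
    intro g g'
    obtain ⟨c, hc, hc'⟩ := hscal (g * g' * g⁻¹ * g'⁻¹) (by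
      simp only [map_mul, Matrix.det_mul]
      linear_combination (ρ g').det * (ρ g'⁻¹).det * hdet g + hdet g')
    refine ⟨c, hc, ?_⟩
    calc ρ g * ρ g' = ρ (g * g' * g⁻¹ * g'⁻¹) * (ρ g' * ρ g) := by
          rw [← map_mul, ← map_mul, ← map_mul]
          congr 1
          group
      _ = _ := by rw [hc', Matrix.smul_mul, one_mul]
  obtain ⟨g, g', hne⟩ : ∃ g g', ρ g * ρ g' ≠ ρ g' * ρ g := by
    by_contra! hcomm
    have h1 : ∀ X Y : Matrix (Fin 2) (Fin 2) k, X * Y = Y * X := by
      intro X Y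
      have hX : X ∈ Submodule.span k (Set.range ρ) := hspan ▸ Submodule.mem_top
      induction hX using Submodule.span_induction with
      | zero => simp
      | add x y _ _ hx hy => rw [add_mul, mul_add, hx, hy]
      | smul a x _ hx => rw [Matrix.smul_mul, Matrix.mul_smul, hx]
      | mem x hx =>
        obtain ⟨g, rfl⟩ := hx
        have hY : Y ∈ Submodule.span k (Set.range ρ) := hspan ▸ Submodule.mem_top
        induction hY using Submodule.span_induction with
        | mem y hy => obtain ⟨g', rfl⟩ := hy; exact hcomm g g'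
        | zero => simp
        | add x y _ _ hx hy => rw [add_mul, mul_add, hx, hy]
        | smul a x _ hx => rw [Matrix.smul_mul, Matrix.mul_smul, hx]
    have h3 := congrFun (congrFun (h1 !![0, 1; 0, 0] !![0, 0; 1, 0]) 0) 0
    simp at h3
  obtain ⟨c, hc, hc'⟩ := hsign g g'
  have hc1 : c = -1 := (mul_eq_zero.mp (show (c - 1) * (c + 1) = 0 by linear_combination hc)
    ).elim (fun h => absurd (by rw [hc', sub_eq_zero.mp h, one_smul]) hne) eq_neg_of_add_eq_zero_left
  subst hc1
  rw [neg_one_smul] at hc'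
  have half : ∀ x : k, x = -x → x = 0 := fun x hx =>
    (mul_eq_zero.mp (show 2 * x = 0 by linear_combination hx)).resolve_left h2
  have hanti : ∀ a b, ρ a * ρ b = -(ρ b * ρ a) → (ρ a).det = -1 := by
    intro a b hab
    have ht : (ρ a).trace = 0 := half _ <| by
      calc (ρ a).trace = (ρ a * (ρ b * ρ b⁻¹)).trace := by rw [hinv, mul_one]
        _ = (-(ρ b * ρ a) * ρ b⁻¹).trace := by rw [← mul_assoc, hab]
        _ = -(ρ a).trace := by
          rw [neg_mul, Matrix.trace_neg, Matrix.trace_mul_cycle, ← map_mul, inv_mul_cancel, map_one,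
            one_mul]
    have h := hall a
    rw [ht] at h
    exact eq_neg_of_add_eq_zero_left ((mul_eq_zero.mp (show
      ((ρ a).det + 1) * ((ρ a).det + 1) = 0 by linear_combination -h)).elim id id)
  have d1 := hanti g g' hc'
  have d2 := hanti g' g (by rw [hc', neg_neg])
  have ht : (ρ (g * g')).trace = 0 := half _ <| by
    rw [map_mul]
    nth_rw 1 [hc']
    rw [Matrix.trace_neg, Matrix.trace_mul_comm]
  have h := hall (g * g')
  rw [ht, map_mul, Matrix.det_mul, d1, d2] at h
  exact mul_ne_zero h2 h2 (by linear_combination -h)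

/-- **Large primes with `(tr Frob)² ≠ (ℓ + 1)²`.** -/
theorem exists_prime_sq_trace_ne {k : Type} [CommRing k] [IsLocalRing k] (hk : IsField k)
    (h2 : (2 : k) ≠ 0) (ρ : MRep k)
    (hcont : ∃ L : IntermediateField ℚ Qbar, FiniteDimensional ℚ L ∧
      ∀ σ : AlgebraicClosure ℚ ≃ₐ[ℚ] AlgebraicClosure ℚ, (∀ x ∈ L, σ x = x) → ρ σ = 1)
    (hspan : Submodule.span k (Set.range ρ) = ⊤) (S : Finset ℕ)
    (hdet : ∀ ℓ : ℕ, ℓ.Prime → ℓ ∉ S → ∀ A : ValuationSubring Qbar, A.LiesOverPrime ℓ →
      ∀ σ : AlgebraicClosure ℚ ≃ₐ[ℚ] AlgebraicClosure ℚ, A.IsFrobeniusAt σ ℓ → (ρ σ).det = (ℓ : k))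
    (B : ℕ) :
    ∃ ℓ : ℕ, ℓ.Prime ∧ ℓ ∉ S ∧ B < ℓ ∧ ∃ A : ValuationSubring Qbar, A.LiesOverPrime ℓ ∧
      ∃ σ : AlgebraicClosure ℚ ≃ₐ[ℚ] AlgebraicClosure ℚ,
        A.IsFrobeniusAt σ ℓ ∧ (ρ σ).trace ^ 2 ≠ ((ℓ : k) + 1) ^ 2 := by
  classical
  let : Field k := hk.toField
  obtain ⟨h, htr⟩ := exists_sq_trace_ne h2 ρ hspan
  obtain ⟨L, hL, hfix⟩ := hcont
  have := hL
  obtain ⟨ℓ, hℓ, hℓS, A, hA, σ, hσ, hσL⟩ :=
    Chebotarev.exists_isFrobeniusAt_eqOn L h (S ∪ Finset.range (B + 1))
  rw [Finset.mem_union, not_or, Finset.mem_range] at hℓS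
  have hρ : ρ σ = ρ h := by
    have := hfix (h⁻¹ * σ) fun x hx => by
      rw [AlgEquiv.mul_apply, hσL x hx]
      exact h.symm_apply_apply x
    rw [← mul_inv_cancel_left h σ, map_mul, this, mul_one]
  refine ⟨ℓ, hℓ, hℓS.1, by omega, A, hA, σ, hσ, ?_⟩
  rw [← hdet ℓ hℓ hℓS.1 A hA σ hσ, hρ]
  exact htr

end Fermat.Agent.Engine.Lifting
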