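import Fermat.Agent.Engine.Lifting.CharKernel
import Fermat.Agent.HeckeModule.BaseChange
import Fermat.Agent.HeckeModule.LevelFree

/-!
# Bounding the rank of `H¹` and changing coefficients
-/

noncomputable section

open CongruenceSubgroup
open scoped MatrixGroups

namespace Fermat.Agent.Engine.Lifting

open EigenRep HeckeModule EigenSystems TRep

local notation "Qbar" => AlgebraicClosure ℚ

/-- The rank of `H¹` over fields is bounded by the number of generators. -/
theorem exists_finrank_coh1_le (N : ℕ) [NeZero N] :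
    ∃ n : ℕ, ∀ (K : Type) [Field K] (ρ : Representation K (ZMod N)ˣ K),
      Module.finrank K (Coh1 ρ) ≤ n := by
  classical
  obtain ⟨s, hs, hfin⟩ := Group.fg_iff.mp (fg_Gamma0 (N := N))
  have := hfin.fintype
  refine ⟨Fintype.card s, fun K _ ρ => ?_⟩
  have := finite_cocycle ρ
  let L : Cocycle ρ →ₗ[K] (s → K) :=
    (LinearMap.pi fun g : s => LinearMap.proj (g : Gamma0 N)) ∘ₗ (Submodule.subtype _)
  have hL : Function.Injective L := (injective_iff_map_eq_zero L).mpr fun c hc => by
    have h1 : c.1 1 = 0 := by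
      have h := c.2.1 1 1
      rwa [mul_one, map_one, Module.End.one_apply, left_eq_add] at h
    let G : Subgroup (Gamma0 N) :=
      { carrier := {g | c.1 g = 0}
        one_mem' := h1
        mul_mem' := fun {g h} (hg : c.1 g = 0) (hh : c.1 h = 0) => by
          show c.1 (g * h) = 0
          rw [c.2.1, hg, hh, map_zero, add_zero]
        inv_mem' := fun {g} (hg : c.1 g = 0) => by
          show c.1 g⁻¹ = 0
          have h := c.2.1 g⁻¹ g
          rw [inv_mul_cancel, h1, hg, map_zero, add_zero] at h
          exact h.symm }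
    have hG : G = ⊤ := by
      rw [eq_top_iff, ← hs, Subgroup.closure_le]
      exact fun g hg => congrFun hc ⟨g, hg⟩
    exact Subtype.ext (funext fun g => (hG.symm ▸ Subgroup.mem_top g : g ∈ G))
  calc Module.finrank K (Coh1 ρ)
      ≤ Module.finrank K (Cocycle ρ) :=
        LinearMap.finrank_le_finrank_of_surjective (f := toCoh ρ) (toCoh_surjective ρ)
    _ ≤ Module.finrank K (s → K) := LinearMap.finrank_le_finrank_of_injective hL
    _ = Fintype.card s := Module.finrank_fintype_fun_eq_card K

section Push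

variable {Λ : Type} [CommRing Λ] {K : Type} [CommRing K] {N : ℕ}

/-- Change of coefficients on classes with values in the ring. -/
theorem exists_push (θ : Λ →+* K) (ρ : Representation Λ (ZMod N)ˣ Λ)
    (ρ' : Representation K (ZMod N)ˣ K) (h : ∀ u x, θ (ρ u x) = ρ' u (θ x)) :
    ∃ B : Coh1 ρ →+ Coh1 ρ',
      (∀ (a : HeckePoly Λ) x, B (a • x) = MvPolynomial.map θ a • B x) ∧
      ∀ c : Cocycle ρ, ∃ d : Cocycle ρ', B (toCoh ρ c) = toCoh ρ' d ∧
        ∀ g, d.1 g = θ (c.1 g) := by
  let : Algebra Λ K := θ.toAlgebra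
  let ρ₁ : Representation Λ (ZMod N)ˣ K :=
    { toFun := fun u => (ρ' u).restrictScalars Λ
      map_one' := LinearMap.ext fun k => by simp
      map_mul' := fun u w => LinearMap.ext fun k => by simp }
  let f : Λ →ₗ[Λ] K := Algebra.linearMap Λ K
  have hf : IsIntertwining ρ ρ₁ f := fun u x => h u x
  have hsame : ∀ (u : (ZMod N)ˣ) (x : K), ρ₁ u x = ρ' u x := fun u x => rfl
  refine ⟨(sameCoh hsame).toAddMonoidHom.comp (cohMap f hf).toAddMonoidHom, fun a x => ?_,
    fun c => ?_⟩
  · show sameCoh hsame (cohMap f hf (a • x)) = _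
    rw [map_smul, sameCoh_poly_smul hsame (f := θ) fun _ _ => rfl]
    rfl
  · refine ⟨sameCocycle (fun _ a => hsame _ a) (cocycleMap f hf c), ?_, fun g => rfl⟩
    show sameCoh hsame (cohMap f hf (toCoh ρ c)) = _
    rw [cohMap_toCoh]
    exact sameH1_cls _ _

end Push

end Fermat.Agent.Engine.Lifting
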