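import Fermat.Agent.Engine.Lifting.PolyMat
import Fermat.Agent.Engine.Lifting.RingKernel
import Fermat.Agent.Engine.TRep.TwistClassify
import Fermat.Agent.HeckeModule.LevelLoc

/-!
# The common kernel of the two traces

A class of level `v M` killed by both traces to level `M` is killed by a power of every polynomial
that kills, on the lattices, the common kernel of the two norms and the vectors of level `M'` with
`T_v² = (v + 1)²` (`exists_pow_smul_eq_zero_loc_of_kills`; here `v = p` is allowed).  For `v ≠ p`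
such a polynomial is `t² - (v + 1)²`, `t` the trace of Frobenius at `v`
(`exists_pow_smul_eq_zero_loc`).
-/

set_option linter.unusedSectionVars false

noncomputable section

open CongruenceSubgroup Matrix
open scoped MatrixGroups

namespace Fermat.Agent.Engine.Lifting

open EigenRep HeckeModule EigenSystems TRep IsLocalRing

local notation "Qbar" => AlgebraicClosure ℚ

variable {p : ℕ} [Fact p.Prime]

/-- Killing the common kernel of two norms. -/
def KillsNew {N M : ℕ} [NeZero N] [NeZero M] (R : RepInputs N p) (R' : RepInputs M p) (S : Finset ℕ)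
    (G : AwayPoly ℤ_[p] (↑S : Set ℕ)) : Prop :=
  ∃ B : Bool → Matrix (Fin R'.model.d) (Fin R.model.d) ℤ_[p],
    (∀ b l, ¬ (l : Nat.Primes).1 ∣ N * p →
      B b * heckeMat R.model l = heckeMat R'.model l * B b) ∧
    ∀ (K : Type) [Field K] [CharZero K] (ι : ℤ_[p] →+* K) (x : Lat R K),
      (∀ b, (B b).map ι *ᵥ x = 0) → matEnd R ι (polyMat R S G) x = 0

/-- Killing where `T_v² = (v + 1)²`. -/
def KillsOld {M : ℕ} [NeZero M] (R : RepInputs M p) (S : Finset ℕ) (v : ℕ) [hv : Fact v.Prime]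
    (G : AwayPoly ℤ_[p] (↑S : Set ℕ)) : Prop :=
  ∀ (K : Type) [Field K] [CharZero K] (ι : ℤ_[p] →+* K) (x : Lat R K),
    matEnd R ι (heckeMat R.model (⟨v, hv.out⟩ : Nat.Primes))
        (matEnd R ι (heckeMat R.model (⟨v, hv.out⟩ : Nat.Primes)) x) = ((v : K) + 1) ^ 2 • x →
      matEnd R ι (polyMat R S G) x = 0

/-- Killing at the two levels attached to a set of auxiliary primes. -/
structure KillsFor (M v : ℕ) [Fact v.Prime] (Q' : Finset ℕ) (S : Finset ℕ)
    (G : AwayPoly ℤ_[p] (↑S : Set ℕ)) : Prop where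
  new : ∀ (L : ℕ) [NeZero L] [NeZero (v * L)], L = M * ∏ q ∈ Q', q →
    KillsNew (stdInputs (eichlerShimuraRelations (N := v * L) (p := p)))
      (stdInputs (eichlerShimuraRelations (N := L) (p := p))) S G
  old : ∀ (L : ℕ) [NeZero L], L = M * ∏ q ∈ Q', q →
    KillsOld (stdInputs (eichlerShimuraRelations (N := L) (p := p))) S v G

section Field

variable {K : Type} [Field K] [CharZero K] (ι : ℤ_[p] →+* K) (S : Finset ℕ)

/-- At level `L`, `T_v² = (v + 1)²` forces death. -/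
theorem smul_eq_zero_of_kills {L : ℕ} [NeZero L] (h : EichlerShimuraRelations L p) {r : ℕ}
    [Fact r.Prime] {v : ℕ} [hv : Fact v.Prime] (hp2 : p ≠ 2) (hp3 : ThreeOK p L)
    (hr1 : (r : ZMod L) = 1) (hrp : r ≠ p) {G : AwayPoly ℤ_[p] (↑S : Set ℕ)}
    (hG : KillsOld (stdInputs h) S v G) (a : Coh1 (trivRep L K K))
    (hsq : heckeOp _ v (heckeOp _ v a) = ((v : K) + 1) ^ 2 • a) :
    (awayIncl K (↑S : Set ℕ) (MvPolynomial.map ι G) * eisen K r) • a = 0 := by
  have : NeZero v := ⟨hv.out.ne_zero⟩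
  refine smul_eq_zero_of_coords ι S h hp2 hp3 hr1 hrp _ a ?_
  have hT : ∀ y : Coh1 (trivRep L K K),
      matEnd (stdInputs h) ι (heckeMat (stdInputs h).model (⟨v, hv.out⟩ : Nat.Primes))
        (classCoords (eisen K r • y)) = classCoords (eisen K r • heckeOp _ v y) := fun y => by
    refine (matEnd_heckeMat ι h _ _).trans ?_
    rw [← classCoords_heckeOp ⟨v, hv.out⟩ (onLattice_eisen hp2 hp3 hr1 hrp ι y)]
    refine congrArg classCoords (((X_smul (trivRep L K K) v _).symm.trans ?_))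
    rw [smul_comm]
    exact congrArg _ (X_smul _ v y)
  refine (LinearMap.congr_fun (latHom_polyMat (stdInputs h) S ι G) _).trans (hG K ι _ ?_)
  refine (congrArg _ (hT a)).trans ((hT _).trans ?_)
  rw [hsq, smul_comm (eisen K r), map_smul]
  rfl

variable {M v : ℕ} [NeZero M] [hv : Fact v.Prime]

/-- **The common kernel of the two traces**, for a polynomial killing on the lattices. -/
theorem pow_smul_eq_zero_trivial_of_kills (hp2 : p ≠ 2)
    (hp3 : ThreeOK p M) (hvM : ¬ v ∣ M) [NeZero (v * M)]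
    (hes : EichlerShimuraRelations M p) (hes' : EichlerShimuraRelations (v * M) p)
    (hS : ∀ ℓ : ℕ, ℓ.Prime → ℓ ∉ S → ¬ ℓ ∣ v * M * p) {r : ℕ} [Fact r.Prime] (hrS : r ∉ S)
    (hr1 : (r : ZMod (v * M)) = 1) (hrp : r ≠ p) {G₀ : AwayPoly ℤ_[p] (↑S : Set ℕ)}
    (hG : KillsNew (stdInputs hes') (stdInputs hes) S G₀)
    (hG' : KillsOld (stdInputs hes) S v G₀)
    (ρ : Representation K (ZMod M)ˣ K) (hρ : ρ = trivRep M K K) {n : ℕ}
    (hn : Module.finrank K (Coh1 (trivRep (v * M) K K)) +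
      2 * Module.finrank K (Coh1 (trivRep M K K)) ≤ n)
    (u : Coh1 (pullRep ρ (dvd_mul_left M v))) (hu : trace ρ hvM u = 0)
    (hu' : traceTwist ρ hvM u = 0) :
    (awayIncl K (↑S : Set ℕ) (MvPolynomial.map ι G₀) * eisen K r) ^ n • u = 0 := by
  classical
  subst hρ
  have : FiniteDimensional K (Coh1 (trivRep M K K)) := finite_coh1 _
  have : FiniteDimensional K (Coh1 (trivRep (v * M) K K)) := finite_coh1 _
  set G : AwayPoly K (↑S : Set ℕ) := MvPolynomial.map ι G₀ with hGdef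
  have : NeZero v := ⟨hv.out.ne_zero⟩
  have hr1' : (r : ZMod M) = 1 := by
    have := congrArg (ZMod.castHom (dvd_mul_left M v) (ZMod M)) hr1
    rwa [map_natCast, map_one] at this
  set e : AwayPoly K (↑S : Set ℕ) :=
    awayX K Fact.out (show r ∉ (↑S : Set ℕ) from hrS) - MvPolynomial.C ((r : K) + 1) with hedef
  have hGe := awayIncl_mul_eisen S G hrS
  rw [← hedef] at hGe
  obtain ⟨B, hB, hBker⟩ := hG
  let W₀ := Coh1 (trivRep M K K)
  let V := Coh1 (trivRep (v * M) K K)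
  let toV : Coh1 (pullRep (trivRep M K K) (dvd_mul_left M v)) →ₗ[K] V := LinearMap.id
  let ofV : V →ₗ[K] Coh1 (pullRep (trivRep M K K) (dvd_mul_left M v)) := LinearMap.id
  let ev : V →ₗ[K] (Fin (HeckeJ0.rk (v * M)) → K) :=
    classCoords.comp (Algebra.lsmul K K V (eisen K r))
  let Pm : Bool → V →ₗ[K] W₀ := fun b =>
    toClass.comp ((Matrix.toLin' ((B b).map ι)).comp ev)
  let Ad : W₀ × W₀ →ₗ[K] V := toV.comp (LinearMap.coprod
    (degen (trivRep M K K) one_ne_zero (by rw [one_mul]; exact dvd_mul_left M v))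
    (degen (trivRep M K K) hv.out.ne_zero dvd_rfl))
  let gV : Module.End K V := Algebra.lsmul K K V (awayIncl K (↑S : Set ℕ) (G * e))
  let gW : Module.End K (W₀ × W₀) :=
    Algebra.lsmul K K (W₀ × W₀) (awayIncl K (↑S : Set ℕ) (G * e))
  have hSv : ∀ ℓ : ℕ, ℓ.Prime → ℓ ∉ (↑S : Set ℕ) → ¬ ℓ ∣ v * M := fun ℓ hℓ h hd =>
    hS ℓ hℓ (by simpa using h) (hd.mul_right p)
  have hdeg : ∀ (d : ℕ) (hd : d ≠ 0) (h : d * M ∣ v * M), d ∣ v →
      ∀ (P : AwayPoly K (↑S : Set ℕ)) (a : W₀),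
      degen (trivRep M K K) hd h (awayIncl K _ P • a) =
        awayIncl K _ P • degen (trivRep M K K) hd h a := fun d hd h hdv =>
    map_awayIncl_smul _ fun ℓ hℓ hℓS a => degen_heckeOp _ hd h
      (fun hl => hSv ℓ hℓ.out hℓS (dvd_mul_of_dvd_left (hl.trans hdv) M))
      (fun hl => absurd hl (hSv ℓ hℓ.out hℓS)) a
  have hcnt := pow_apply_eq_zero_of_counting gV gW Ad
    (((trace (trivRep M K K) hvM).comp ofV).prod ((traceTwist (trivRep M K K) hvM).comp ofV))
    ((Pm true).prod (Pm false)) (fun w => ?_) (fun x => ?_) (fun x => ?_) (fun x hx => ?_)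
    (fun w hw => ?_) (v := toV u) (Prod.ext hu hu')
  · rw [Module.finrank_prod, ← two_mul, ← map_pow] at hcnt
    rw [← hGe, ← Nat.sub_add_cancel hn, pow_add, mul_smul]
    exact (congrArg (HSMul.hSMul
      (awayIncl K (↑S : Set ℕ) (G * e) ^ _ : HeckePoly K) : V → V) hcnt).trans
      (smul_zero (A := V) _)
  · show degen _ one_ne_zero _ (awayIncl K _ (G * e) • w.1) +
      degen _ hv.out.ne_zero _ (awayIncl K _ (G * e) • w.2) = _
    rw [hdeg 1 _ _ (one_dvd v), hdeg v _ _ dvd_rfl]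
    exact (smul_add (awayIncl K (↑S : Set ℕ) (G * e)) _ _).symm
  · refine Prod.ext ?_ ?_
    · exact map_awayIncl_smul (trace (trivRep M K K) hvM)
        (fun ℓ hℓ hℓS a => trace_heckeOp _ hvM (hSv ℓ hℓ.out hℓS) a) _ _
    · exact map_awayIncl_smul (traceTwist (trivRep M K K) hvM)
        (fun ℓ hℓ hℓS a => traceTwist_heckeOp _ hvM (hSv ℓ hℓ.out hℓS) a) _ _
  · have key : ∀ b, Pm b (gV x) = awayIncl K (↑S : Set ℕ) (G * e) • Pm b x := fun b => by
      show toClass ((B b).map ι *ᵥ classCoords (eisen K r • awayIncl K _ (G * e) • x)) =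
        awayIncl K _ (G * e) • toClass ((B b).map ι *ᵥ classCoords (eisen K r • x))
      rw [smul_comm, classCoords_smul_self hes' ι S hp2 (hp3.of_dvd (dvd_mul_left M v)) hr1 hrp, smul_toClass hes ι S]
      exact congrArg _ (mulVec_latHom ι S (stdInputs hes') (stdInputs hes) (B b)
        (fun l => hB b _ (hS _ l.1.2 (by simpa using l.2))) _ _)
    exact Prod.ext (key true) (key false)
  · refine ⟨1, ?_⟩
    rw [pow_one]
    refine (congrArg (· • x) hGe).trans (smul_eq_zero_of_coords ι S hes' hp2 (hp3.of_dvd (dvd_mul_left M v)) hr1 hrp G x ?_)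
    refine (LinearMap.congr_fun (latHom_polyMat (stdInputs hes') S ι G₀) _).trans
      (hBker K ι (classCoords (eisen K r • x)) fun b => ?_)
    have h0 : Pm b x = 0 := by
      cases b
      · exact congrArg Prod.snd hx
      · exact congrArg Prod.fst hx
    have h1 := congrArg classCoords h0
    rwa [show classCoords (Pm b x) = classCoords (toClass ((B b).map ι *ᵥ ev x)) from rfl,
      classCoords_toClass, map_zero] at h1
  · refine ⟨1, ?_⟩
    rw [pow_one]
    have hd : ∀ a : W₀, trace (trivRep M K K) hvM (degen _ hv.out.ne_zero dvd_rfl a) =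
        heckeOp _ v a := fun a => by
      rw [trace_degen]
      obtain ⟨c, hc⟩ := toCoh_surjective _ (heckeOp (trivRep M K K) v a)
      rw [← hc, cohMapO_toCoh]
      exact congrArg _ (Subtype.ext (funext fun _ => rfl))
    have h1 := congrArg Prod.fst hw
    have h2 := congrArg Prod.snd hw
    change trace (trivRep M K K) hvM (degen _ one_ne_zero _ w.1 +
      degen _ hv.out.ne_zero dvd_rfl w.2) = 0 at h1
    change traceTwist (trivRep M K K) hvM (degen _ one_ne_zero _ w.1 +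
      degen _ hv.out.ne_zero dvd_rfl w.2) = 0 at h2
    rw [map_add, trace_degen_one, hd] at h1
    rw [map_add, traceTwist_degen_one, traceTwist_degen] at h2
    have hvv : ∀ a b : W₀, ((v : K) + 1) • a + heckeOp _ v b = 0 →
        heckeOp _ v a + ((v : K) + 1) • b = 0 →
        awayIncl K (↑S : Set ℕ) (G * e) • a = 0 := by
      intro a b ha hb
      refine (congrArg (· • a) hGe).trans
        (smul_eq_zero_of_kills ι S hes hp2 hp3 hr1' hrp hG' a ?_)
      rw [eq_neg_of_add_eq_zero_left hb, map_neg, map_smul, eq_neg_of_add_eq_zero_right ha,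
        smul_neg, neg_neg, smul_smul, sq]
    exact Prod.ext (hvv w.1 w.2 h1 h2) (hvv w.2 w.1 (by rw [add_comm]; exact h2)
      (by rw [add_comm]; exact h1))

/-- **The common kernel of the two traces, with characters.** -/
theorem pow_smul_eq_zero_char_of_kills (hp2 : p ≠ 2) (hp3 : ThreeOK p M) (ψ : ∀ q : ℕ, (ZMod q)ˣ →* K)
    (Q : Finset ℕ) (hQ : ∀ q ∈ Q, q.Prime ∧ q ∣ M ∧ ¬ q * q ∣ M)
    (hodd : ∀ q ∈ Q, ∀ u, ∃ k : ℕ, Odd k ∧ ψ q u ^ k = 1) (hvM : ¬ v ∣ M)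
    (hS : ∀ ℓ : ℕ, ℓ.Prime → ℓ ∉ S → ¬ ℓ ∣ v * (M * ∏ q ∈ Q, q) * p)
    {r : ℕ} [Fact r.Prime] (hrS : r ∉ S) (hr1 : (r : ZMod (v * (M * ∏ q ∈ Q, q))) = 1)
    (hrp : r ≠ p) {G₁ : AwayPoly ℤ_[p] (↑S : Set ℕ)}
    (hP : ∀ Q' ⊆ Q, KillsFor M v Q' S G₁)
    {m : ℕ}
    (hm : Module.finrank K (Coh1 (pullRep (scalarRep (charSq ψ Q M) K) (dvd_mul_left M v))) +
      2 * Module.finrank K (Coh1 (scalarRep (charSq ψ Q M) K)) ≤ m)
    (u : Coh1 (pullRep (scalarRep (charSq ψ Q M) K) (dvd_mul_left M v)))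
    (hu : trace (scalarRep (charSq ψ Q M) K) hvM u = 0)
    (hu' : traceTwist (scalarRep (charSq ψ Q M) K) hvM u = 0) :
    (awayIncl K (↑S : Set ℕ)
      (twistPoly (invChar ψ Q S) (MvPolynomial.map ι G₁)) * eisen K r) ^ m • u = 0 := by
  classical
  set Q' := Q.filter fun q => ψ q ≠ 1 with hQ'def
  have hQ'sub : Q' ⊆ Q := Finset.filter_subset _ _
  set M' := M * ∏ q ∈ Q', q with hM'def
  have : NeZero v := ⟨hv.out.ne_zero⟩
  have : NeZero M' := ⟨mul_ne_zero (NeZero.ne M)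
    (Finset.prod_ne_zero_iff.mpr fun q hq => (hQ q (hQ'sub hq)).1.ne_zero)⟩
  have : NeZero (v * M') := ⟨mul_ne_zero hv.out.ne_zero (NeZero.ne M')⟩
  have hdvd : M' ∣ M * ∏ q ∈ Q, q :=
    mul_dvd_mul_left M (Finset.prod_dvd_prod_of_subset _ _ _ hQ'sub)
  have hvM' : ¬ v ∣ M' :=
    not_dvd_mul_prod hv.out (fun q hq => ⟨(hQ q (hQ'sub hq)).1, (hQ q (hQ'sub hq)).2.1⟩) hvM
  have hne : ∀ q ∈ Q', ψ q ^ 2 ≠ 1 := fun q hq h => by
    refine (Finset.mem_filter.mp hq).2 (MonoidHom.ext fun u => ?_)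
    obtain ⟨k, ⟨j, rfl⟩, hk⟩ := hodd q (hQ'sub hq) u
    have h2 : ψ q u ^ 2 = 1 := DFunLike.congr_fun h u
    rwa [pow_succ, pow_mul, h2, one_pow, one_mul] at hk
  have hSM' : ∀ ℓ : ℕ, ℓ.Prime → ℓ ∉ S → ¬ ℓ ∣ v * M' * p := fun ℓ hℓ hℓS h =>
    hS ℓ hℓ hℓS (h.trans (mul_dvd_mul_right (mul_dvd_mul_left v hdvd) p))
  have hr1' : (r : ZMod (v * M')) = 1 := by
    have h := congrArg (ZMod.castHom (mul_dvd_mul_left v hdvd) (ZMod (v * M'))) hr1
    rwa [map_natCast, map_one] at h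
  have hr1M : (r : ZMod M') = 1 := by
    have h := congrArg (ZMod.castHom (dvd_mul_left M' v) (ZMod M')) hr1'
    rwa [map_natCast, map_one] at h
  have hex := exists_twistPair ψ Q' M M' rfl (fun q hq => hQ q (hQ'sub hq)) hne hvM hvM'
  rw [charSq_filter] at hex
  obtain ⟨Φ, Φv, hinj, hinjv, hΦ, hΦv, htr⟩ := hex
  set cv := charProd ψ Q v with hcvdef
  set G₀ : AwayPoly K (↑S : Set ℕ) := MvPolynomial.map ι G₁ with hG₀
  set d := invChar ψ Q S with hd
  set e : AwayPoly K (↑S : Set ℕ) :=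
    awayX K Fact.out (show r ∉ (↑S : Set ℕ) from hrS) - MvPolynomial.C ((r : K) + 1) with hedef
  have hde : twistPoly d e = e := by
    rw [hedef, map_sub, awayX, twistPoly_X, ← MvPolynomial.algebraMap_eq, AlgHom.commutes]
    have h1 : d ⟨⟨r, Fact.out⟩, hrS⟩ = 1 := by
      rw [hd, invChar]
      refine charProd_eq_one _ fun q hq => ?_
      have hqd : q ∣ v * (M * ∏ q ∈ Q, q) :=
        dvd_mul_of_dvd_right (dvd_mul_of_dvd_left (hQ q hq).2.1 _) _
      have h := congrArg (ZMod.castHom hqd (ZMod q)) hr1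
      rwa [map_natCast, map_one] at h
    rw [h1, map_one, one_mul]
  have hGe := awayIncl_mul_eisen S G₀ hrS
  have hGe' := awayIncl_mul_eisen S (twistPoly d G₀) hrS
  rw [← hedef] at hGe hGe'
  rw [← hGe']
  have hinv : ∀ l, d l * charProd ψ Q ((l : Nat.Primes) : ℕ) = 1 := invChar_mul ψ Q S
  have hΦl : ∀ (l : AwayIndex (↑S : Set ℕ)) a, Φ (heckeGen _ (l : Nat.Primes) a) =
      charProd ψ Q ((l : Nat.Primes) : ℕ) • heckeGen _ (l : Nat.Primes) (Φ a) := fun l a => by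
    have : Fact (((l : Nat.Primes) : ℕ)).Prime := ⟨(l : Nat.Primes).2⟩
    rw [← charProd_filter ψ Q]
    exact hΦ _ (fun h => hSM' _ l.1.2 (by simpa using l.2) ((h.mul_left v).mul_right p)) a
  have hΦvl : ∀ (l : AwayIndex (↑S : Set ℕ)) a, Φv (heckeGen _ (l : Nat.Primes) a) =
      charProd ψ Q ((l : Nat.Primes) : ℕ) • heckeGen _ (l : Nat.Primes) (Φv a) := fun l a => by
    have : Fact (((l : Nat.Primes) : ℕ)).Prime := ⟨(l : Nat.Primes).2⟩
    rw [← charProd_filter ψ Q]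
    exact hΦv _ (fun h => hSM' _ l.1.2 (by simpa using l.2) ((h.mul_left v).mul_right p)) a
  have hcv : cv ≠ 0 := Finset.prod_ne_zero_iff.mpr fun q _ => by
    unfold charAt
    split
    · exact ((Group.isUnit _).map (ψ q)).ne_zero
    · exact one_ne_zero
  let W₀ := Coh1 (scalarRep (charSq ψ Q M) K)
  let V := Coh1 (pullRep (scalarRep (charSq ψ Q M) K) (dvd_mul_left M v))
  have : FiniteDimensional K W₀ := finite_coh1 _
  have : NeZero (v * M) := ⟨mul_ne_zero hv.out.ne_zero (NeZero.ne M)⟩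
  have : FiniteDimensional K V := finite_coh1 _
  let Pol : AwayPoly K (↑S : Set ℕ) := twistPoly d G₀ * e
  have hPol : twistPoly d (G₀ * e) = Pol := by rw [map_mul, hde]
  let gV : Module.End K V := Algebra.lsmul K K V (awayIncl K (↑S : Set ℕ) Pol)
  let gW : Module.End K (W₀ × W₀) := Algebra.lsmul K K (W₀ × W₀) (awayIncl K (↑S : Set ℕ) Pol)
  let Ad : W₀ × W₀ →ₗ[K] V := LinearMap.coprod
    (degen (scalarRep (charSq ψ Q M) K) one_ne_zero (by rw [one_mul]; exact dvd_mul_left M v))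
    (degen (scalarRep (charSq ψ Q M) K) hv.out.ne_zero dvd_rfl)
  let tr : V →ₗ[K] W₀ := trace (scalarRep (charSq ψ Q M) K) hvM
  let tt : V →ₗ[K] W₀ := traceTwist (scalarRep (charSq ψ Q M) K) hvM
  let Uv : V →ₗ[K] V := heckeOp _ v
  have hSv : ∀ ℓ : ℕ, ℓ.Prime → ℓ ∉ (↑S : Set ℕ) → ¬ ℓ ∣ v * M := fun ℓ hℓ h hd =>
    hSM' ℓ hℓ (by simpa using h) ((hd.trans (mul_dvd_mul_left v (dvd_mul_right M _))).mul_right p)
  have hdeg : ∀ (d : ℕ) (hd : d ≠ 0) (h : d * M ∣ v * M), d ∣ v →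
      ∀ (P : AwayPoly K (↑S : Set ℕ)) (a : W₀),
      degen (scalarRep (charSq ψ Q M) K) hd h (awayIncl K _ P • a) =
        awayIncl K _ P • degen (scalarRep (charSq ψ Q M) K) hd h a := fun d hd h hdv =>
    map_awayIncl_smul _ fun ℓ hℓ hℓS a => degen_heckeOp _ hd h
      (fun hl => hSv ℓ hℓ.out hℓS (dvd_mul_of_dvd_left (hl.trans hdv) M))
      (fun hl => absurd hl (hSv ℓ hℓ.out hℓS)) a
  have htrP : ∀ (P : AwayPoly K (↑S : Set ℕ)) (x : V),
      tr (awayIncl K _ P • x) = awayIncl K _ P • tr x := fun P x =>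
    map_awayIncl_smul (trace (scalarRep (charSq ψ Q M) K) hvM)
      (fun ℓ hℓ hℓS a => trace_heckeOp _ hvM (hSv ℓ hℓ.out hℓS) a) P x
  have httP : ∀ (P : AwayPoly K (↑S : Set ℕ)) (x : V),
      tt (awayIncl K _ P • x) = awayIncl K _ P • tt x := fun P x =>
    map_awayIncl_smul (traceTwist (scalarRep (charSq ψ Q M) K) hvM)
      (fun ℓ hℓ hℓS a => traceTwist_heckeOp _ hvM (hSv ℓ hℓ.out hℓS) a) P x
  have hUP : ∀ (P : AwayPoly K (↑S : Set ℕ)) (x : V),
      Uv (awayIncl K _ P • x) = awayIncl K _ P • Uv x := fun P x =>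
    (X_smul _ v _).symm.trans ((smul_comm _ _ x).trans (congrArg _ (X_smul _ v x)))
  have hcnt := pow_apply_eq_zero_of_counting gV gW Ad (tr.prod tt) (tr.prod (tr.comp Uv))
    (fun w => ?_) (fun x => ?_) (fun x => ?_) (fun x hx => ?_) (fun w hw => ?_) (v := u)
    (Prod.ext hu hu')
  · rw [Module.finrank_prod, ← two_mul, ← map_pow] at hcnt
    rw [← Nat.sub_add_cancel hm, pow_add, mul_smul]
    exact (congrArg (HSMul.hSMul
      (awayIncl K (↑S : Set ℕ) Pol ^ _ : HeckePoly K) : V → V) hcnt).trans (smul_zero (A := V) _)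
  · show degen _ one_ne_zero _ (awayIncl K _ Pol • w.1) +
      degen _ hv.out.ne_zero _ (awayIncl K _ Pol • w.2) = _
    rw [hdeg 1 _ _ (one_dvd v), hdeg v _ _ dvd_rfl]
    exact (smul_add (awayIncl K (↑S : Set ℕ) Pol) _ _).symm
  · exact Prod.ext (htrP _ x) (httP _ x)
  · refine Prod.ext (htrP _ x) ?_
    show tr (Uv (awayIncl K _ Pol • x)) = awayIncl K _ Pol • tr (Uv x)
    rw [hUP, htrP]
  · have h1 : tr x = 0 := congrArg Prod.fst hx
    have h2 : tr (Uv x) = 0 := congrArg Prod.snd hx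
    have e1 : trace (scalarRep (1 : (ZMod M')ˣ →* K) K) hvM' (Φv x) = 0 :=
      (htr x).trans ((congrArg Φ h1).trans (map_zero Φ))
    have e2 : trace (scalarRep (1 : (ZMod M')ˣ →* K) K) hvM' (heckeOp _ v (Φv x)) = 0 := by
      have h := htr (Uv x)
      rw [show Φv (Uv x) = charProd ψ Q' v • heckeOp _ v (Φv x) from hΦv v hvM' x, map_smul,
        hQ'def, charProd_filter, (show trace (scalarRep (charSq ψ Q M) K) hvM (Uv x) = 0 from h2), map_zero]
        at h
      exact (smul_eq_zero.mp h).resolve_left hcv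
    have h0 := pow_smul_eq_zero_trivial_of_kills ι S hp2 (hp3.of_dvd (dvd_mul_right M _)) hvM'
      (eichlerShimuraRelations (N := M') (p := p)) (eichlerShimuraRelations (N := v * M') (p := p))
      hSM' hrS hr1' hrp ((hP Q' hQ'sub).new M' rfl) ((hP Q' hQ'sub).old M' rfl)
      _ scalarRep_one le_rfl (Φv x) e1 (traceTwist_eq_zero hvM' _ scalarRep_one (Φv x) e1 e2)
    refine ⟨Module.finrank K (Coh1 (trivRep (v * M') K K)) +
      2 * Module.finrank K (Coh1 (trivRep M' K K)), hinjv ?_⟩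
    rw [map_zero, ← map_pow]
    refine Eq.trans ?_ h0
    show Φv (awayIncl K (↑S : Set ℕ) Pol ^ _ • x) = _
    rw [← map_pow, ← hPol, ← map_pow, twisted_smul Φv _ d hΦvl hinv, map_pow, hGe]
  · refine ⟨1, ?_⟩
    rw [pow_one]
    have h1 := congrArg Prod.fst hw
    have h2 := congrArg Prod.snd hw
    change trace (scalarRep (charSq ψ Q M) K) hvM (degen _ one_ne_zero _ w.1 +
      degen _ hv.out.ne_zero dvd_rfl w.2) = 0 at h1
    change traceTwist (scalarRep (charSq ψ Q M) K) hvM (degen _ one_ne_zero _ w.1 +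
      degen _ hv.out.ne_zero dvd_rfl w.2) = 0 at h2
    have hdd : ∀ a : W₀, trace (scalarRep (charSq ψ Q M) K) hvM (degen _ hv.out.ne_zero dvd_rfl a) =
        (charSq ψ Q M) (qUnit hvM)⁻¹ • heckeOp _ v a := fun a => by
      rw [trace_degen]
      obtain ⟨c, hc⟩ := toCoh_surjective _ (heckeOp (scalarRep (charSq ψ Q M) K) v a)
      rw [← hc, cohMapO_toCoh, ← map_smul]
      exact congrArg _ (Subtype.ext (funext fun _ => rfl))
    rw [map_add, trace_degen_one, hdd] at h1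
    rw [map_add, traceTwist_degen_one, traceTwist_degen] at h2
    set c : K := (v : K) + 1 with hcdef
    set ε : K := (charSq ψ Q M) (qUnit hvM)⁻¹ with hεdef
    have hε : ε * cv ^ 2 = 1 := by
      rw [hεdef, hcvdef, ← charSq_qUnit ψ (fun q hq => (hQ q hq).2.1) hvM, ← map_mul,
        inv_mul_cancel, map_one]
    have hsq : ∀ a : W₀, ε • heckeOp _ v (heckeOp _ v a) = c ^ 2 • a →
        awayIncl K (↑S : Set ℕ) Pol • a = 0 := by
      intro a ha
      refine hinj ?_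
      rw [map_zero, ← hPol, twisted_smul Φ _ d hΦl hinv, hGe]
      have hT : ∀ b, Φ (heckeOp _ v b) = cv • heckeOp _ v (Φ b) := fun b => by
        rw [hΦ v hvM' b, hQ'def, charProd_filter]
      have h := congrArg Φ ha
      rw [map_smul, map_smul, hT, hT, map_smul, smul_smul, smul_smul, mul_assoc, ← sq, hε, one_smul] at h
      have key : ∀ (ρ : Representation K (ZMod M')ˣ K), ρ = trivRep M' K K → ∀ b : Coh1 ρ,
          heckeOp _ v (heckeOp _ v b) = c ^ 2 • b →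
            (awayIncl K (↑S : Set ℕ) G₀ * eisen K r) • b = 0 := by
        rintro ρ rfl b hb
        exact smul_eq_zero_of_kills ι S (eichlerShimuraRelations (N := M') (p := p)) hp2 (hp3.of_dvd (dvd_mul_right M _))
          hr1M hrp ((hP Q' hQ'sub).old M' rfl) b hb
      exact key _ scalarRep_one _ h
    refine Prod.ext (hsq w.1 ?_) (hsq w.2 ?_)
    · rw [eq_neg_of_add_eq_zero_left h2, map_neg, map_smul, smul_neg, smul_comm,
        eq_neg_of_add_eq_zero_right h1, smul_neg, neg_neg, smul_smul, sq]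
    · have h3 := congrArg (heckeOp (scalarRep (charSq ψ Q M) K) v) h1
      rw [map_add, map_smul, map_smul, map_zero, eq_neg_of_add_eq_zero_left h2, smul_neg,
        smul_smul, neg_add_eq_zero, ← sq] at h3
      exact h3.symm

end Field

section Ring

variable {Λ : Type} [CommRing Λ] [IsReduced Λ] [Module.IsTorsionFree ℤ Λ]
  (ι : ℤ_[p] →+* Λ) (S : Finset ℕ) {M v : ℕ} [NeZero M] [hv : Fact v.Prime]

/-- **The common kernel of the two traces over `Λ`.** -/
theorem exists_pow_smul_eq_zero_of_kills (hp2 : p ≠ 2) (hp3 : ThreeOK p M) (ψ : ∀ q : ℕ, (ZMod q)ˣ →* Λ)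
    (Q : Finset ℕ) (hQ : ∀ q ∈ Q, q.Prime ∧ q ∣ M ∧ ¬ q * q ∣ M)
    (hodd : ∀ q ∈ Q, ∀ u, ∃ k : ℕ, Odd k ∧ ψ q u ^ k = 1) (hvM : ¬ v ∣ M)
    (hS : ∀ ℓ : ℕ, ℓ.Prime → ℓ ∉ S → ¬ ℓ ∣ v * (M * ∏ q ∈ Q, q) * p)
    {r : ℕ} [Fact r.Prime] (hrS : r ∉ S) (hr1 : (r : ZMod (v * (M * ∏ q ∈ Q, q))) = 1)
    (hrp : r ≠ p) {G₁ : AwayPoly ℤ_[p] (↑S : Set ℕ)}
    (hP : ∀ Q' ⊆ Q, KillsFor M v Q' S G₁) :
    ∃ m : ℕ, ∀ u : Coh1 (pullRep (scalarRep (charSq ψ Q M) Λ) (dvd_mul_left M v)),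
      trace (scalarRep (charSq ψ Q M) Λ) hvM u = 0 →
      traceTwist (scalarRep (charSq ψ Q M) Λ) hvM u = 0 →
      (eisen Λ r * (awayIncl Λ (↑S : Set ℕ)
        (twistPoly (invChar ψ Q S) (MvPolynomial.map ι G₁)) * eisen Λ r) ^ m) • u = 0 := by
  classical
  have : NeZero (v * M) := ⟨mul_ne_zero hv.out.ne_zero (NeZero.ne M)⟩
  obtain ⟨n₁, hn₁⟩ := exists_finrank_coh1_le (v * M)
  obtain ⟨n₂, hn₂⟩ := exists_finrank_coh1_le M
  refine ⟨n₁ + 2 * n₂, fun u hu hu' => ?_⟩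
  set g : HeckePoly Λ := awayIncl Λ (↑S : Set ℕ)
    (twistPoly (invChar ψ Q S) (MvPolynomial.map ι G₁)) * eisen Λ r with hg
  rw [mul_smul]
  obtain ⟨c', hc'⟩ := toCoh_surjective _ (g ^ (n₁ + 2 * n₂) • u)
  rw [← hc']
  have hr1' : (r : ZMod (v * M)) = 1 := by
    have h := congrArg (ZMod.castHom (mul_dvd_mul_left v (dvd_mul_right M _)) (ZMod (v * M))) hr1
    rwa [map_natCast, map_one] at h
  refine eisen_smul_eq_zero_of_fields ((charSq ψ Q M).comp (ZMod.unitsMap (dvd_mul_left M v)))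
    hr1' c' fun K _ _ θ => ?_
  have key : ∀ χ : (ZMod M)ˣ →* K, χ = charSq (fun q => θ.toMonoidHom.comp (ψ q)) Q M →
      ∀ w : Coh1 (pullRep (scalarRep χ K) (dvd_mul_left M v)),
        trace (scalarRep χ K) hvM w = 0 → traceTwist (scalarRep χ K) hvM w = 0 →
        MvPolynomial.map θ g ^ (n₁ + 2 * n₂) • w = 0 := by
    rintro χ rfl w hw hw'
    have hd : (fun l => θ (invChar ψ Q S l)) =
        invChar (fun q => θ.toMonoidHom.comp (ψ q)) Q S :=
      funext fun l => (charProd_map (fun q => (ψ q).comp invMonoidHom) θ.toMonoidHom Q _).symm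
    rw [hg, map_mul, eisen_map, awayIncl_map, twistPoly_map, hd, MvPolynomial.map_map]
    refine pow_smul_eq_zero_char_of_kills (θ.comp ι) S hp2 hp3 _ Q hQ (fun q hq x => ?_) hvM hS hrS hr1
      hrp hP (add_le_add (hn₁ K _) (Nat.mul_le_mul_left 2 (hn₂ K _))) w hw hw'
    obtain ⟨k, hk, hx⟩ := hodd q hq x
    exact ⟨k, hk, by
      show θ (ψ q x) ^ k = 1
      rw [← map_pow, hx, map_one]⟩
  obtain ⟨B, hB, hBc⟩ := exists_push θ (pullRep (scalarRep (charSq ψ Q M) Λ) (dvd_mul_left M v))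
    (pullRep (scalarRep (θ.toMonoidHom.comp (charSq ψ Q M)) K) (dvd_mul_left M v))
    (fun x a => by
      show θ (charSq ψ Q M _ * a) = θ (charSq ψ Q M _) * θ a
      rw [map_mul])
  obtain ⟨B₀, -, hB₀c⟩ := exists_push θ (scalarRep (charSq ψ Q M) Λ)
    (scalarRep (θ.toMonoidHom.comp (charSq ψ Q M)) K)
    (fun x a => by
      show θ (charSq ψ Q M x * a) = θ (charSq ψ Q M x) * θ a
      rw [map_mul])
  -- the two traces commute with the change of coefficients
  have hcomm : ∀ (T₁ : Data (toGL (v * M)) (toGL M)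
        (gammaRep (pullRep (scalarRep (charSq ψ Q M) Λ) (dvd_mul_left M v)))
        (gammaRep (scalarRep (charSq ψ Q M) Λ)) {negOne (v * M)} {negOne M} (Option (Fin v)))
      (T₂ : Data (toGL (v * M)) (toGL M)
        (gammaRep (pullRep (scalarRep (θ.toMonoidHom.comp (charSq ψ Q M)) K) (dvd_mul_left M v)))
        (gammaRep (scalarRep (θ.toMonoidHom.comp (charSq ψ Q M)) K))
        {negOne (v * M)} {negOne M} (Option (Fin v))),
      (∀ x, T₁.α x = T₂.α x) → (∀ x a, θ (T₁.ε x a) = T₂.ε x (θ a)) →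
      ∀ y, B₀ (T₁.onH1 toGL_injective y) = T₂.onH1 toGL_injective (B y) := by
    intro T₁ T₂ hα hε y
    obtain ⟨c, rfl⟩ := toCoh_surjective _ y
    obtain ⟨d, hd, hdc⟩ := hBc c
    rw [show T₁.onH1 toGL_injective (toCoh _ c) = toCoh _ (T₁.onCocycles toGL_injective c) from
      Data.onH1_cls _ _ _, hd, show T₂.onH1 toGL_injective (toCoh _ d) =
      toCoh _ (T₂.onCocycles toGL_injective d) from Data.onH1_cls _ _ _]
    obtain ⟨d', hd', hd'c⟩ := hB₀c (T₁.onCocycles toGL_injective c)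
    rw [hd']
    refine congrArg (toCoh _) (Subtype.ext (funext fun γ => ?_))
    rw [hd'c]
    show θ (T₁.raw c.1 γ) = T₂.raw d.1 γ
    rw [Data.raw_apply, Data.raw_apply, map_sum]
    refine Finset.sum_congr rfl fun x _ => ?_
    have h1 := T₁.mul_spec x γ
    rw [hα, hα] at h1
    rw [(T₂.spec_unique toGL_injective h1).2, hε, hdc]
  obtain ⟨c₀, hc₀⟩ := toCoh_surjective _ u
  have h1 : trace (scalarRep (θ.toMonoidHom.comp (charSq ψ Q M)) K) hvM (B u) = 0 :=
    (hcomm (traceData _ hvM) (traceData _ hvM) (fun _ => rfl) (fun _ _ => rfl) u).symm.trans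
      ((congrArg B₀ hu).trans (map_zero B₀))
  have h2 : traceTwist (scalarRep (θ.toMonoidHom.comp (charSq ψ Q M)) K) hvM (B u) = 0 :=
    (hcomm (traceTwistData _ hvM) (traceTwistData _ hvM) (fun _ => rfl) (fun _ _ => rfl) u).symm.trans
      ((congrArg B₀ hu').trans (map_zero B₀))
  have hz := key _ (charSq_map ψ θ.toMonoidHom Q M).symm (B u) h1 h2
  rw [← map_pow, ← hB, ← hc'] at hz
  obtain ⟨d, hd, hdc⟩ := hBc c'
  rw [hd] at hz
  obtain ⟨b, hb⟩ := (toCoh_eq_zero_iff _).mp hz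
  exact ⟨b, fun γ => (hdc γ).symm.trans (hb γ)⟩

end Ring

variable {O : Type} [CommRing O] [IsLocalRing O] {Λ : Type} [CommRing Λ]
  [IsLocalRing Λ] [IsNoetherianRing Λ] [IsAdicComplete (maximalIdeal Λ) Λ] [Algebra O Λ]
  [IsLocalHom (algebraMap O Λ)] [IsReduced Λ] [Module.IsTorsionFree ℤ Λ]
  (hsΛ : Function.Surjective (residue Λ ∘ algebraMap O Λ)) (ι₀ : ℤ_[p] →+* O)
  {S : Finset ℕ} {lam : ℕ → O} {ψ : ∀ q : ℕ, (ZMod q)ˣ →* Λ} {Q : Finset ℕ}
  {M v : ℕ} [NeZero M] [hv : Fact v.Prime] [NeZero (v * M)]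

/-- The primes of the top level are in `S`. -/
theorem mem_of_dvd_level (H : TwistData p S lam ψ Q (fun _ : Unit => v * M)
    (v * (M * ∏ q ∈ Q, q))) (ℓ : ℕ) (hℓ : ℓ.Prime) (h : ℓ ∣ v * M) :
    ℓ ∈ (↑S : Set ℕ) :=
  H.mem_S ℓ hℓ ((h.trans (mul_dvd_mul_left v (dvd_mul_right M _))).mul_right p)

/-- The polynomial `t² - (v + 1)²` on the twisted classes. -/
def sqTwist (S : Finset ℕ) (ψ : ∀ q : ℕ, (ZMod q)ˣ →* Λ) (Q : Finset ℕ) (v : ℕ)
    (P₀ : AwayPoly ℤ_[p] (↑S : Set ℕ)) : AwayPoly Λ (↑S : Set ℕ) :=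
  twistPoly (invChar ψ Q S) (sqPoly S v (MvPolynomial.map ((algebraMap O Λ).comp ι₀) P₀))

/-- **The common kernel of the localised traces is killed by a power of the polynomial.** -/
theorem exists_pow_smul_eq_zero_loc_of_kills
    (H : TwistData p S lam ψ Q (fun _ : Unit => v * M) (v * (M * ∏ q ∈ Q, q)))
    (hQ : ∀ q ∈ Q, q.Prime ∧ q ∣ M ∧ ¬ q * q ∣ M) (h3 : ThreeOK p M) (hvM : ¬ v ∣ M)
    {G₁ : AwayPoly ℤ_[p] (↑S : Set ℕ)} (hP : ∀ Q' ⊆ Q, KillsFor M v Q' S G₁) :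
    ∃ k : ℕ, ∀ x : CohLoc (awayMonoid (lamIdeal hsΛ S lam))
        (pullRep (scalarRep (charSq ψ Q M) Λ) (dvd_mul_left M v)),
      locTrace (isAway_awayMonoid _) (mem_of_dvd_level H) (scalarRep (charSq ψ Q M) Λ) hvM x = 0 →
      locTraceTwist (isAway_awayMonoid _) (mem_of_dvd_level H) (scalarRep (charSq ψ Q M) Λ) hvM
        x = 0 →
      awayIncl Λ (↑S : Set ℕ) (twistPoly (invChar ψ Q S) (MvPolynomial.map ((algebraMap O Λ).comp ι₀) G₁)) ^ k • x = 0 := by
  have : NeZero (M * ∏ q ∈ Q, q) := ⟨mul_ne_zero (NeZero.ne M)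
    (Finset.prod_ne_zero_iff.mpr fun q hq => (hQ q hq).1.ne_zero)⟩
  have : NeZero (v * (M * ∏ q ∈ Q, q)) := ⟨mul_ne_zero hv.out.ne_zero (NeZero.ne _)⟩
  obtain ⟨r, hr, hr1, hrp, hrS, hne⟩ := H.nonEisenstein
  have : Fact r.Prime := ⟨hr⟩
  set m := lamIdeal hsΛ S lam
  have hre : eisen Λ r ∈ awayMonoid m := by
    refine eisen_mem_awayMonoid (show r ∉ (↑S : Set ℕ) from hrS) fun h => hne ?_
    have h' : lamHom O Λ hsΛ S lam _ = 0 := h
    rw [awayX, map_sub, lamHom_X, lamHom_C, map_add, map_natCast, map_one, sub_eq_zero] at h'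
    exact h'
  have hp3 := H.three_le
  obtain ⟨k, hk⟩ := exists_pow_smul_eq_zero_of_kills ((algebraMap O Λ).comp ι₀) S (by omega) h3 ψ Q
    hQ H.odd hvM (fun ℓ hℓ h hd => h (H.mem_S ℓ hℓ hd)) hrS hr1 hrp hP
  refine ⟨k, fun x hx hx' => ?_⟩
  induction x using LocalizedModule.induction_on with
  | _ u s =>
    rw [locTrace, locLift_mk, IsLocalizedModule.mk_eq_mk', IsLocalizedModule.mk'_eq_zero'] at hx
    rw [locTraceTwist, locLift_mk, IsLocalizedModule.mk_eq_mk',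
      IsLocalizedModule.mk'_eq_zero'] at hx'
    obtain ⟨⟨s₁, hs₁⟩, h₁⟩ := hx
    obtain ⟨⟨s₂, hs₂⟩, h₂⟩ := hx'
    rw [Submonoid.smul_def] at h₁ h₂
    have hmemS := mem_of_dvd_level H
    have htr := (isAway_awayMonoid m).commute (trace (scalarRep (charSq ψ Q M) Λ) hvM)
      fun ℓ hℓ hℓS a => trace_heckeOp _ hvM (fun h => hℓS (hmemS ℓ hℓ.out h)) a
    have htt := (isAway_awayMonoid m).commute (traceTwist (scalarRep (charSq ψ Q M) Λ) hvM)
      fun ℓ hℓ hℓS a => traceTwist_heckeOp _ hvM (fun h => hℓS (hmemS ℓ hℓ.out h)) a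
    have h0 := hk ((s₁ * s₂) • u)
      (by rw [htr _ ((awayMonoid m).mul_mem hs₁ hs₂), mul_comm, mul_smul, h₁, smul_zero])
      (by rw [htt _ ((awayMonoid m).mul_mem hs₁ hs₂), mul_smul, h₂, smul_zero])
    rw [LocalizedModule.smul'_mk, ← LocalizedModule.zero_mk s, LocalizedModule.mk_eq]
    refine ⟨⟨_, (awayMonoid m).mul_mem ((awayMonoid m).mul_mem hre ((awayMonoid m).pow_mem hre k))
      ((awayMonoid m).mul_mem hs₁ hs₂)⟩, ?_⟩
    rw [smul_zero, smul_zero, Submonoid.smul_def, Submonoid.smul_def, ← mul_smul, ← mul_smul]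
    have h1 : ∀ a b : HeckePoly Λ, a = (s : HeckePoly Λ) * b → b • u = 0 → a • u = 0 :=
      fun a b hab hb => by rw [hab, mul_smul, hb, smul_zero]
    refine h1 _ _ ?_ ((mul_smul _ _ _).trans h0)
    rw [mul_pow]
    ring

omit [IsLocalRing O] [IsLocalRing Λ] [IsNoetherianRing Λ] [IsAdicComplete (maximalIdeal Λ) Λ]
  [IsLocalHom (algebraMap O Λ)] [IsReduced Λ] [Module.IsTorsionFree ℤ Λ] [NeZero M]
  [NeZero (v * M)] in
/-- At `v ≠ p` the polynomial `t² - (v + 1)²` kills on the lattices. -/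
theorem killsFor_sqPoly {Q' : Finset ℕ} (hvM' : ¬ v ∣ M * ∏ q ∈ Q', q) (hvp : v ≠ p)
    {A : ValuationSubring Qbar} (hA : A.LiesOverPrime v) {φ : Qbar ≃ₐ[ℚ] Qbar}
    (hφ : A.IsFrobeniusAt φ v) {P₀ : AwayPoly ℤ_[p] (↑S : Set ℕ)}
    (hP : ∀ (L : ℕ) [NeZero L], (L = M * ∏ q ∈ Q', q ∨ L = v * (M * ∏ q ∈ Q', q)) →
      (latHom (stdInputs (eichlerShimuraRelations (N := L) (p := p))) (RingHom.id ℤ_[p]) S P₀ :
        Module.End ℤ_[p] (Lat (stdInputs (eichlerShimuraRelations (N := L) (p := p))) ℤ_[p])) =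
      matEnd (stdInputs (eichlerShimuraRelations (N := L) (p := p))) (RingHom.id ℤ_[p])
        (tMat (stdInputs (eichlerShimuraRelations (N := L) (p := p))) φ)) :
    KillsFor M v Q' S (sqPoly S v P₀) where
  new L _ _ hL := by
    obtain ⟨B, hB, hk⟩ := exists_normMat SemistableRed.goodReductionFacts (mul_comm v L)
      (stdInputs (eichlerShimuraRelations (N := v * L) (p := p)))
      (stdInputs (eichlerShimuraRelations (N := L) (p := p))) (hL ▸ hvM') hvp hA hφ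
    refine ⟨B, hB, fun K _ _ ι x hx => ?_⟩
    rw [← latHom_polyMat, sqPoly_map]
    exact (latHom_sqPoly ι S _ (hP _ (Or.inr (by rw [hL]))) x).trans (hk K ι x hx)
  old L _ hL K _ _ ι x hx := by
    have hvLp : ¬ v ∣ L * p := fun h => (hv.out.dvd_mul.mp h).elim (hL ▸ hvM')
      fun h => hvp ((Nat.prime_dvd_prime_iff_eq hv.out Fact.out).mp h)
    rw [← latHom_polyMat, sqPoly_map]
    refine (latHom_sqPoly ι S _ (hP _ (Or.inl hL)) x).trans ?_
    rw [tMat_frobenius _ hv.out hvLp hA hφ, ← matEnd_apply, map_sub, LinearMap.sub_apply, map_mul,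
      Module.End.mul_apply, hx, matEnd_smul, map_one, LinearMap.smul_apply, Module.End.one_apply,
      map_pow, map_add, map_one, map_natCast, sub_self]

/-- **The common kernel of the localised traces is killed by a power of `t² - (v + 1)²`.** -/
theorem exists_pow_smul_eq_zero_loc
    (H : TwistData p S lam ψ Q (fun _ : Unit => v * M) (v * (M * ∏ q ∈ Q, q)))
    (hQ : ∀ q ∈ Q, q.Prime ∧ q ∣ M ∧ ¬ q * q ∣ M) (h3 : ThreeOK p M) (hvM : ¬ v ∣ M) (hvp : v ≠ p)
    {A : ValuationSubring Qbar} (hA : A.LiesOverPrime v) {φ : Qbar ≃ₐ[ℚ] Qbar}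
    (hφ : A.IsFrobeniusAt φ v) {P₀ : AwayPoly ℤ_[p] (↑S : Set ℕ)}
    (hP : ∀ Q' ⊆ Q, ∀ (L : ℕ) [NeZero L],
      (L = M * ∏ q ∈ Q', q ∨ L = v * (M * ∏ q ∈ Q', q)) →
      (latHom (stdInputs (eichlerShimuraRelations (N := L) (p := p))) (RingHom.id ℤ_[p]) S P₀ :
        Module.End ℤ_[p] (Lat (stdInputs (eichlerShimuraRelations (N := L) (p := p))) ℤ_[p])) =
      matEnd (stdInputs (eichlerShimuraRelations (N := L) (p := p))) (RingHom.id ℤ_[p])
        (tMat (stdInputs (eichlerShimuraRelations (N := L) (p := p))) φ)) :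
    ∃ k : ℕ, ∀ x : CohLoc (awayMonoid (lamIdeal hsΛ S lam))
        (pullRep (scalarRep (charSq ψ Q M) Λ) (dvd_mul_left M v)),
      locTrace (isAway_awayMonoid _) (mem_of_dvd_level H) (scalarRep (charSq ψ Q M) Λ) hvM x = 0 →
      locTraceTwist (isAway_awayMonoid _) (mem_of_dvd_level H) (scalarRep (charSq ψ Q M) Λ) hvM
        x = 0 →
      awayIncl Λ (↑S : Set ℕ) (sqTwist ι₀ S ψ Q v P₀) ^ k • x = 0 := by
  obtain ⟨k, hk⟩ := exists_pow_smul_eq_zero_loc_of_kills hsΛ ι₀ H hQ h3 hvM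
    (G₁ := sqPoly S v P₀) fun Q' hQ' => killsFor_sqPoly
      (not_dvd_mul_prod hv.out (fun q hq => ⟨(hQ q (hQ' hq)).1, (hQ q (hQ' hq)).2.1⟩) hvM)
      hvp hA hφ (hP Q' hQ')
  refine ⟨k, fun x hx hx' => ?_⟩
  rw [sqTwist, ← sqPoly_map]
  exact hk x hx hx'

end Fermat.Agent.Engine.Lifting
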