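import Fermat.Agent.Engine.TRep.Compare
import Fermat.Agent.XHLite.TwistClass.Fricke

/-!
# Classes from lattice coordinates over fields of characteristic zero
-/

noncomputable section

open CongruenceSubgroup
open scoped MatrixGroups

namespace Fermat.Agent.Engine.Lifting

open EigenRep HeckeModule TRep EigenSystems

variable {N p : ℕ} [NeZero N] [Fact p.Prime] {K : Type} [Field K] [CharZero K]

/-- The cocycle with given coordinates. -/
def coordsCocycle (a : Fin (HeckeJ0.rk N) → K) : Cocycle (trivRep N K K) :=
  ⟨fun γ => HeckeJ0.ofCoords N a (Additive.ofMul γ), fun g h => by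
    show HeckeJ0.ofCoords N a (Additive.ofMul (g * h)) =
      HeckeJ0.ofCoords N a (Additive.ofMul g) + HeckeJ0.ofCoords N a (Additive.ofMul h)
    rw [ofMul_mul, map_add],
  fun k hk => by
    rw [Set.mem_singleton_iff] at hk
    subst hk
    exact HeckeJ0.isGoodHom_ofCoords N a _
      (by simp [HeckeJ0.smallTrace, negOne, Matrix.trace_fin_two])⟩

/-- The cocycle with given coordinates, linearly. -/
def coordsLin : (Fin (HeckeJ0.rk N) → K) →ₗ[K] Cocycle (trivRep N K K) where
  toFun := coordsCocycle
  map_add' a b := Subtype.ext (funext fun γ => by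
    show HeckeJ0.ofCoords N (a + b) (Additive.ofMul γ) =
      HeckeJ0.ofCoords N a (Additive.ofMul γ) + HeckeJ0.ofCoords N b (Additive.ofMul γ)
    simp [HeckeJ0.ofCoords_apply, Finset.sum_add_distrib])
  map_smul' c a := Subtype.ext (funext fun γ => by
    show HeckeJ0.ofCoords N (c • a) (Additive.ofMul γ) =
      c * HeckeJ0.ofCoords N a (Additive.ofMul γ)
    simp [HeckeJ0.ofCoords_apply, Finset.mul_sum, mul_left_comm])

/-- The class with given coordinates. -/
def toClass : (Fin (HeckeJ0.rk N) → K) →ₗ[K] Coh1 (trivRep N K K) :=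
  (toCoh (trivRep N K K)).comp coordsLin

omit [CharZero K] in
/-- The homomorphism of the class with given coordinates. -/
theorem classHom_toClass (a : Fin (HeckeJ0.rk N) → K) :
    classHom (toClass (N := N) a) = HeckeJ0.ofCoords N a := by
  rw [toClass, LinearMap.comp_apply]
  refine (classHom_toCoh _).trans ?_
  exact AddMonoidHom.ext fun _ => rfl

omit [CharZero K] in
/-- `toClass` has the given coordinates. -/
theorem classCoords_toClass (a : Fin (HeckeJ0.rk N) → K) :
    classCoords (toClass (N := N) a) = a := by
  show HeckeJ0.coords N (classHom (toClass (N := N) a)) = a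
  rw [classHom_toClass, HeckeJ0.coords_ofCoords]

/-- The Hecke operators on `toClass` act by the Hecke matrices. -/
theorem heckeGen_toClass (l : Nat.Primes) (a : Fin (HeckeJ0.rk N) → K) :
    heckeGen (trivRep N K K) l (toClass a) = toClass (intAct (HeckeJ0.heckeMatAt N l) a) := by
  have : Fact (l : ℕ).Prime := ⟨l.2⟩
  have : NeZero (l : ℕ) := ⟨l.2.ne_zero⟩
  apply classHom_injective
  show classHom (heckeOp (trivRep N K K) (l : ℕ) (toClass a)) = _
  rw [classHom_heckeOp, classHom_toClass, classHom_toClass,
    ← XHLite.ofCoords_coords_field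
      (HeckeJ0.isGoodHom_cohHecke (l : ℕ) (HeckeJ0.isGoodHom_ofCoords N a)),
    coords_cohHecke_ofCoords']
  rfl

variable (hes : EichlerShimuraRelations N p) (ι : ℤ_[p] →+* K) (S : Finset ℕ)

omit [CharZero K] in
/-- An endomorphism of coordinates acts as itself. -/
theorem moduleAct_self (B : Module.End K (Fin (stdInputs hes).model.d → K))
    (a : Fin (stdInputs hes).model.d → K) : moduleAct hes B a = B a := by
  funext i
  conv_rhs => rw [← Finset.univ_sum_single a, map_sum, Finset.sum_apply]
  refine Finset.sum_congr rfl fun k _ => ?_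
  rw [show (Pi.single k (a k) : Fin (stdInputs hes).model.d → K) = a k • Pi.single k 1 by
    rw [← Pi.single_smul, smul_eq_mul, mul_one], map_smul, Pi.smul_apply, smul_eq_mul, smul_eq_mul,
    mul_comm]

/-- Hecke polynomials on the classes with given coordinates. -/
theorem smul_toClass (P : AwayPoly K (↑S : Set ℕ)) (a : Fin (HeckeJ0.rk N) → K) :
    awayIncl K (↑S : Set ℕ) P • toClass (N := N) a = toClass (N := N)
      ((latHom (stdInputs hes) ι S P : Module.End K (Lat (stdInputs hes) K)) a) := by
  induction P using MvPolynomial.induction_on generalizing a with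
  | C c =>
    rw [← MvPolynomial.algebraMap_eq, AlgHom.commutes, AlgHom.commutes, algebraMap_smul,
      ← map_smul]
    rfl
  | add P Q hP hQ =>
    rw [map_add, add_smul, hP, hQ]
    refine (map_add (toClass (N := N)) _ _).symm.trans (congrArg _ ?_)
    rw [map_add]
    rfl
  | mul_X P l hP =>
    rw [map_mul, mul_smul, awayIncl_X, heckePoly_smul_def _ (MvPolynomial.X (l : Nat.Primes)),
      heckeHom_X, heckeGen_toClass, hP]
    refine congrArg _ ?_
    rw [map_mul, Subalgebra.coe_mul]
    refine congrArg (latHom (stdInputs hes) ι S P : Module.End K (Lat (stdInputs hes) K)) ?_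
    rw [latHom_X]
    exact (moduleAct_latOp hes ι S l a).symm.trans (moduleAct_self hes _ a)

omit [CharZero K] in
/-- The coordinates of an Eisenstein multiple, acted on. -/
theorem classCoords_smul_self {r : ℕ} [Fact r.Prime] (hp2 : p ≠ 2) (hp3 : ThreeOK p N)
    (hr1 : (r : ZMod N) = 1) (hrp : r ≠ p) (P : AwayPoly K (↑S : Set ℕ))
    (u : Coh1 (trivRep N K K)) :
    classCoords (awayIncl K (↑S : Set ℕ) P • eisen K r • u) =
      (latHom (stdInputs hes) ι S P : Module.End K (Lat (stdInputs hes) K))
        (classCoords (eisen K r • u)) :=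
  (classCoords_smul hes ι S hp2 hp3 hr1 hrp P u).trans (moduleAct_self hes _ _)

omit [CharZero K] in
/-- An Eisenstein multiple with vanishing coordinates vanishes. -/
theorem eisen_smul_eq_zero {r : ℕ} [Fact r.Prime] (hp2 : p ≠ 2) (hp3 : ThreeOK p N)
    (hr1 : (r : ZMod N) = 1) (hrp : r ≠ p) {u : Coh1 (trivRep N K K)}
    (h : classCoords (eisen K r • u) = 0) (ι : ℤ_[p] →+* K) : eisen K r • u = 0 := by
  refine classHom_injective ?_
  rw [← (onLattice_eisen hp2 hp3 hr1 hrp ι u : HeckeJ0.ofCoords N _ = _), h,
    show (0 : Coh1 (trivRep N K K)) = toClass (N := N) 0 from (map_zero _).symm, classHom_toClass]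

end Fermat.Agent.Engine.Lifting
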