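import Fermat.Agent.Engine.Lifting.Setting

/-!
# Matrix actions of the level ring at the auxiliary levels

`IsLevelAct`: a matrix action of the level ring in a basis of the classes of level `M` localised at
`U_q = α q`, coming from the Hecke algebra of that level, with its values at Frobenius elements and
on inertia.
-/

set_option linter.unusedSectionVars false

noncomputable section

namespace Fermat.Agent.Engine.Lifting

open EigenRep HeckeModule IsLocalRing DefRing Deform EigenSystems TRep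

local notation "Qbar" => AlgebraicClosure ℚ

/-- The matrix of a Hecke polynomial. -/
def opMat {Λ : Type} [CommRing Λ] {N d : ℕ} {P : Submonoid (HeckePoly Λ)}
    {χ : (ZMod N)ˣ →* Λ} (b : Module.Basis (Fin d) Λ (CohLoc P (scalarRep χ Λ)))
    (a : HeckePoly Λ) : Matrix (Fin d) (Fin d) Λ :=
  LinearMap.toMatrix b b (Algebra.lsmul Λ Λ (CohLoc P (scalarRep χ Λ)) (A := HeckePoly Λ) a)

variable {p : ℕ} [Fact p.Prime] {O : Type} [CommRing O] [IsLocalRing O] (ι₀ : ℤ_[p] →+* O)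
  {Λ : Type} [CommRing Λ] [IsLocalRing Λ] [IsNoetherianRing Λ]
  [IsAdicComplete (maximalIdeal Λ) Λ] [Algebra O Λ] [IsLocalHom (algebraMap O Λ)]
  (hsΛ : Function.Surjective (residue Λ ∘ algebraMap O Λ)) (S : Finset ℕ) (lam : ℕ → O)
  (ψ : ∀ q : ℕ, (ZMod q)ˣ →* Λ) (Q : Finset ℕ) (M : ℕ) [NeZero M]

/-- The action `act` is that of the Hecke algebra of level `M` in the basis `b`. -/
structure IsLevelAct {L : LevelData O} (PR : L.RepRing) {P : Submonoid (HeckePoly Λ)} {d : ℕ}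
    (b : Module.Basis (Fin d) Λ (CohLoc P (scalarRep (charSq ψ Q M) Λ)))
    (act : PR.R →+* Matrix (Fin d) (Fin d) Λ) : Prop where
  family : ∃ (φ : PR.R →ₐ[O] TwAlg hsΛ S lam ψ Q (fun _ : Unit => M))
      (G : TwAlg hsΛ S lam ψ Q (fun _ : Unit => M) →ₐ[Λ] Matrix (Fin d) (Fin d) Λ),
    IsLocalHom (φ : PR.R →+* TwAlg hsΛ S lam ψ Q (fun _ : Unit => M)) ∧
    (∀ (ℓ : ℕ) (hℓ : ℓ.Prime) (hℓS : ℓ ∉ (↑S : Set ℕ)), ∀ A : ValuationSubring Qbar,
      A.LiesOverPrime ℓ → ∀ σ : GQ, A.IsFrobeniusAt σ ℓ → φ (PR.rep σ).trace =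
        twClass hsΛ S lam ψ Q (fun _ : Unit => M)
          (MvPolynomial.C (invChar ψ Q S ⟨⟨ℓ, hℓ⟩, hℓS⟩) * MvPolynomial.X ⟨⟨ℓ, hℓ⟩, hℓS⟩)) ∧
    (∀ X, G (twClass hsΛ S lam ψ Q (fun _ : Unit => M) X) = opMat b (awayIncl Λ (↑S : Set ℕ) X)) ∧
    ∀ x, act x = G (φ x)
  frobenius : ∀ (w : ℕ) (hw : w.Prime), ¬ w ∣ M * (∏ q ∈ Q, q) * p → ∀ A : ValuationSubring Qbar,
    A.LiesOverPrime w → ∀ σ : GQ, A.IsFrobeniusAt σ w → act (PR.rep σ).trace =
      opMat b (algebraMap Λ (HeckePoly Λ) (charProd (fun q => (ψ q).comp invMonoidHom) Q w) *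
        MvPolynomial.X ⟨w, hw⟩)
  inertia : ∀ w : ℕ, w.Prime → ¬ w ∣ M * (∏ q ∈ Q, q) * p → ∀ A : ValuationSubring Qbar,
    A.LiesOverPrime w → ∀ σ ∈ A.inertiaSubgroupIn ℚ, ∀ i j, act ((PR.rep σ - 1) i j) = 0
  unipotent : ∀ q : ℕ, q.Prime → q ≠ p → ¬ q * q ∣ M * ∏ q ∈ Q, q → ∀ A : ValuationSubring Qbar,
    A.LiesOverPrime q → ∀ σ ∈ A.inertiaSubgroupIn ℚ, act ((PR.rep σ).trace - 2) = 0
  lattice : ∀ [NeZero (M * ∏ q ∈ Q, q)] (hes : EichlerShimuraRelations (M * ∏ q ∈ Q, q) p) (σ : GQ)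
    (X : AwayPoly Λ (↑S : Set ℕ)),
    latHom (stdInputs hes) ((algebraMap O Λ).comp ι₀) S X =
        latTrace (stdInputs hes) ((algebraMap O Λ).comp ι₀) S σ →
      act (PR.rep σ).trace = opMat b (awayIncl Λ (↑S : Set ℕ) (twistPoly (invChar ψ Q S) X))

end Fermat.Agent.Engine.Lifting
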