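import Fermat.Agent.Engine.Lifting.KernelKills
import Fermat.Agent.Engine.Lifting.TraceAtkin
import Fermat.Agent.Engine.TRep.RelaxSummand
import Fermat.Agent.Engine.TRep.NilPoint
import Fermat.Agent.HeckeModule.LevelFree

/-!
# Maps between the levels `M` and `v M` and operators away from `v`

`exists_pow_mem_range`: the linear algebra of the new part.  The degeneracy maps and the two traces
commute with the operators away from a set containing `v`.
-/

set_option linter.unusedSectionVars false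

noncomputable section

namespace Fermat.Agent.Engine.Lifting

open EigenRep HeckeModule EigenSystems TRep IsLocalRing

local notation "Qbar" => AlgebraicClosure ℚ

/-- A power of `E` lands in the image of `up`, given that it is nilpotent on the kernel of a
surjection `T` and that `T ∘ up` reaches `E`. -/
theorem exists_pow_mem_range {Λ : Type*} [CommRing Λ] [IsReduced Λ] [Nontrivial Λ] {V W : Type*}
    [AddCommGroup V] [Module Λ V] [Module.Free Λ V] [Module.Finite Λ V] [AddCommGroup W]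
    [Module Λ W] [Module.Projective Λ W] (E : Module.End Λ V) (EW : Module.End Λ W)
    (T : V →ₗ[Λ] W) (hT : Function.Surjective T) (hTE : ∀ x, T (E x) = EW (T x)) (up : W →ₗ[Λ] V)
    (hup : ∀ w, E (up w) = up (EW w)) (hnil : ∃ k : ℕ, ∀ x, T x = 0 → (E ^ k) x = 0)
    (hadj : ∀ w, ∃ a, T (up a) = EW w) {d : ℕ} (hd : Module.finrank Λ V ≤ d) (x : V) :
    ∃ a, (E ^ (d + 1)) x = up a := by
  obtain ⟨s, hs⟩ := T.exists_rightInverse_of_surjective (LinearMap.range_eq_top.mpr hT)
  have hs' : ∀ w, T (s w) = w := fun w => LinearMap.congr_fun hs w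
  let π : Module.End Λ V := LinearMap.id - s.comp T
  have hπ : ∀ y, T (π y) = 0 := fun y => by simp [π, hs']
  have hπ' : ∀ y, T y = 0 → π y = y := fun y hy => by simp [π, hy]
  have hker : ∀ (j : ℕ) y, T y = 0 → T ((E ^ j) y) = 0 := by
    intro j
    induction j with
    | zero => exact fun y hy => hy
    | succ j ih =>
      intro y hy
      rw [pow_succ', Module.End.mul_apply, hTE, ih y hy, map_zero]
  have hpow : ∀ (j : ℕ) y, ((E * π) ^ (j + 1)) y = (E ^ (j + 1)) (π y) := by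
    intro j
    induction j with
    | zero => exact fun y => by simp
    | succ j ih =>
      intro y
      rw [pow_succ', Module.End.mul_apply, ih, Module.End.mul_apply, hπ' _ (hker _ _ (hπ y)),
        pow_succ' E (j + 1), Module.End.mul_apply]
  obtain ⟨k, hk⟩ := hnil
  have hnilπ : IsNilpotent (E * π) := ⟨k + 1, LinearMap.ext fun y => by
    rw [hpow, pow_succ', Module.End.mul_apply, hk _ (hπ y), map_zero, LinearMap.zero_apply]⟩
  have hEd : ∀ y, T y = 0 → (E ^ d) y = 0 := fun y hy => by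
    have h1 : (E * π) ^ d = 0 := pow_eq_zero_of_isNilpotent_end hnilπ hd
    rcases d with _ | d
    · exact LinearMap.congr_fun h1 y
    · rw [← hπ' y hy, ← hpow, h1, LinearMap.zero_apply]
  have hup' : ∀ (j : ℕ) w, (E ^ j) (up w) = up ((EW ^ j) w) := by
    intro j
    induction j with
    | zero => exact fun w => rfl
    | succ j ih =>
      intro w
      rw [pow_succ', Module.End.mul_apply, ih, hup, pow_succ', Module.End.mul_apply]
  obtain ⟨a, ha⟩ := hadj (T x)
  refine ⟨(EW ^ d) a, ?_⟩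
  have h0 := hEd (E x - up a) (by rw [map_sub, hTE, ha, sub_self])
  rw [map_sub, sub_eq_zero, hup'] at h0
  rw [pow_succ, Module.End.mul_apply, h0]

variable {p : ℕ} [Fact p.Prime] {O : Type} [CommRing O] [IsLocalRing O] {Λ : Type} [CommRing Λ]
  [IsLocalRing Λ] [IsNoetherianRing Λ] [IsAdicComplete (maximalIdeal Λ) Λ] [Algebra O Λ]
  [IsLocalHom (algebraMap O Λ)] [IsReduced Λ] [Module.IsTorsionFree ℤ Λ]
  (hsΛ : Function.Surjective (residue Λ ∘ algebraMap O Λ)) (ι₀ : ℤ_[p] →+* O)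
  {S : Finset ℕ} {lam : ℕ → O} {ψ : ∀ q : ℕ, (ZMod q)ˣ →* Λ} {Q : Finset ℕ}
  {M v : ℕ} [NeZero M] [hv : Fact v.Prime] [NeZero (v * M)]

section Commute

variable {T : Set ℕ} (ρ : Representation Λ (ZMod M)ˣ Λ)
  (hT : ∀ ℓ : ℕ, ℓ.Prime → ℓ ∉ T → ℓ ∣ v * M → ℓ ∣ M) (hvT : v ∈ T)
include hT hvT

/-- The degeneracy maps commute with polynomials away from `v`. -/
theorem degen_smul {d : ℕ} (hd : d ≠ 0) (h : d * M ∣ v * M) (hdv : d ∣ v) (X : AwayPoly Λ T)
    (u : Coh1 ρ) : degen ρ hd h (awayIncl Λ T X • u) = awayIncl Λ T X • degen ρ hd h u :=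
  map_awayIncl_smul _ (fun ℓ hℓ hℓT a => degen_heckeOp ρ hd h
    (fun hl => hℓT (((Nat.prime_dvd_prime_iff_eq hℓ.out hv.out).mp (hl.trans hdv)) ▸ hvT))
    (hT ℓ hℓ.out hℓT) a) X u

/-- The trace commutes with polynomials away from `v`. -/
theorem trace_smul (hvM : ¬ v ∣ M) (X : AwayPoly Λ T)
    (u : Coh1 (pullRep ρ (dvd_mul_left M v))) :
    trace ρ hvM (awayIncl Λ T X • u) = awayIncl Λ T X • trace ρ hvM u :=
  map_awayIncl_smul _ (fun ℓ hℓ hℓT a => by
    by_cases h : ℓ ∣ v * M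
    · exact trace_uOp ρ hvM (hT ℓ hℓ.out hℓT h) a
    · exact trace_heckeOp ρ hvM h a) X u

/-- The twisted trace commutes with polynomials away from `v`. -/
theorem traceTwist_smul (hvM : ¬ v ∣ M) (X : AwayPoly Λ T)
    (u : Coh1 (pullRep ρ (dvd_mul_left M v))) :
    traceTwist ρ hvM (awayIncl Λ T X • u) = awayIncl Λ T X • traceTwist ρ hvM u :=
  map_awayIncl_smul _ (fun ℓ hℓ hℓT a => by
    by_cases h : ℓ ∣ v * M
    · exact traceTwist_uOp ρ hvM (hT ℓ hℓ.out hℓT h) a
    · exact traceTwist_heckeOp ρ hvM h a) X u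

end Commute

omit [IsLocalRing Λ] [IsNoetherianRing Λ] [IsAdicComplete (maximalIdeal Λ) Λ] in
/-- Away from `v`, a prime dividing `v M` divides `M`. -/
theorem dvd_of_dvd_level {S' : Set ℕ} (hvS' : v ∈ S') (ℓ : ℕ) (hℓ : ℓ.Prime) (hℓS' : ℓ ∉ S')
    (h : ℓ ∣ v * M) : ℓ ∣ M :=
  (hℓ.dvd_mul.mp h).resolve_left fun hl =>
    hℓS' (((Nat.prime_dvd_prime_iff_eq hℓ hv.out).mp hl) ▸ hvS')

end Fermat.Agent.Engine.Lifting
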