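import Fermat.Agent.Engine.Lifting.RootLattice
import Fermat.Agent.Engine.Lifting.KernelKills
import Fermat.Agent.Engine.Lifting.HeckeP

/-!
# The `p`-new classes have unit root squared one

`exists_pow_smul_eq_zero_loc_p`: a class of level `p M` killed by both localised traces is killed by
a power of `u ^ 2 - 1`, `u` a polynomial for the unit root at all the levels; `unitRoot_eq_twClass`
identifies it with the unit root of a classified representation.
-/

set_option linter.unusedSectionVars false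

noncomputable section

namespace Fermat.Agent.Engine.Lifting

open EigenRep HeckeModule EigenSystems TRep IsLocalRing DefRing

local notation "Qbar" => AlgebraicClosure ℚ

variable {p : ℕ} [Fact p.Prime]

/-- A common polynomial for the unit root. -/
theorem exists_poly_root {J : Type} [Fintype J] (N : J → ℕ) [∀ j, NeZero (N j)]
    (I : ∀ j, RepInputs (N j) p) (S : Finset ℕ) (c : ℤ_[p]) (σ₀ φ : GQ) :
    ∃ U : AwayPoly ℤ_[p] (↑S : Set ℕ), ∀ j, polyMat (I j) S U = rootMat (I j) c σ₀ φ := by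
  obtain ⟨P, hP⟩ := exists_poly_tMat N I S φ
  obtain ⟨P', hP'⟩ := exists_poly_tMat N I S (σ₀ * φ)
  refine ⟨MvPolynomial.C c * (MvPolynomial.C (epsilonPadic p σ₀ : ℤ_[p]) * P - P'), fun j => ?_⟩
  rw [map_mul, map_sub, map_mul, polyMat_C, polyMat_C, polyMat_eq _ S (hP j), polyMat_eq _ S (hP' j),
    smul_mul_assoc, smul_mul_assoc, one_mul, one_mul]
  rfl

/-- A multiple of a killing polynomial kills. -/
theorem KillsNew.mul {N M : ℕ} [NeZero N] [NeZero M] {R : RepInputs N p} {R' : RepInputs M p}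
    {S : Finset ℕ} {G : AwayPoly ℤ_[p] (↑S : Set ℕ)} (h : KillsNew R R' S G)
    (a : AwayPoly ℤ_[p] (↑S : Set ℕ)) : KillsNew R R' S (a * G) := by
  obtain ⟨B, hB, hk⟩ := h
  exact ⟨B, hB, fun K _ _ ι x hx => by
    rw [map_mul (polyMat R S), map_mul, Module.End.mul_apply, hk K ι x hx, map_zero]⟩

/-- A multiple of a killing polynomial kills. -/
theorem KillsOld.mul {M : ℕ} [NeZero M] {R : RepInputs M p} {S : Finset ℕ} {v : ℕ}
    [Fact v.Prime] {G : AwayPoly ℤ_[p] (↑S : Set ℕ)} (h : KillsOld R S v G)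
    (a : AwayPoly ℤ_[p] (↑S : Set ℕ)) : KillsOld R S v (a * G) := fun K _ _ ι x hx => by
  rw [map_mul (polyMat R S), map_mul, Module.End.mul_apply, h K ι x hx, map_zero]

variable {O : Type} [CommRing O] [IsLocalRing O] [Finite (ResidueField O)]
  [CharP (ResidueField O) p] {Λ : Type} [CommRing Λ]
  [IsLocalRing Λ] [IsNoetherianRing Λ] [IsAdicComplete (maximalIdeal Λ) Λ] [Algebra O Λ]
  [IsLocalHom (algebraMap O Λ)] [IsReduced Λ] [Module.IsTorsionFree ℤ Λ]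
  (hsΛ : Function.Surjective (residue Λ ∘ algebraMap O Λ)) (ι₀ : ℤ_[p] →+* O)
  {S : Finset ℕ} {lam : ℕ → O} {ψ : ∀ q : ℕ, (ZMod q)ˣ →* Λ} {Q : Finset ℕ}
  {M : ℕ} [NeZero M] [NeZero (p * M)]

/-- **The classes of level `p M` killed by both traces.** -/
theorem exists_pow_smul_eq_zero_loc_p
    (H : TwistData p S lam ψ Q (fun _ : Unit => p * M) (p * (M * ∏ q ∈ Q, q)))
    (hQ : ∀ q ∈ Q, q.Prime ∧ q ∣ M ∧ ¬ q * q ∣ M) (hpM : ¬ p ∣ M)
    (rbar : GQ →* Matrix (Fin 2) (Fin 2) (ResidueField O))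
    (hspan : Submodule.span (ResidueField O) (Set.range rbar) = ⊤) (hfin : IsCont rbar)
    (htr : ∀ ℓ : ℕ, ℓ.Prime → ℓ ∉ S → ∀ A : ValuationSubring Qbar, A.LiesOverPrime ℓ →
      ∀ σ : GQ, A.IsFrobeniusAt σ ℓ → (rbar σ).trace = residue O (lam ℓ))
    (hdet : ∀ σ, (rbar σ).det = residue O (ι₀ (epsilonPadic p σ : ℤ_[p])))
    {A : ValuationSubring Qbar} (hA : A.LiesOverPrime p)
    (hinertia : ∀ σ ∈ A.inertiaSubgroupIn ℚ, (rbar σ).trace = 1 + (rbar σ).det)
    {σ₀ φ : GQ} (hσ₀ : σ₀ ∈ A.inertiaSubgroupIn ℚ) (hφ : A.IsFrobeniusAt φ p) {c : ℤ_[p]}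
    (hc : c * ((epsilonPadic p σ₀ : ℤ_[p]) - 1) = 1) {U₀ : AwayPoly ℤ_[p] (↑S : Set ℕ)}
    (hU : ∀ Q' ⊆ Q, ∀ (L : ℕ) [NeZero L],
      (L = M * ∏ q ∈ Q', q ∨ L = p * (M * ∏ q ∈ Q', q)) →
      polyMat (stdInputs (eichlerShimuraRelations (N := L) (p := p))) S U₀ =
        rootMat (stdInputs (eichlerShimuraRelations (N := L) (p := p))) c σ₀ φ) :
    ∃ k : ℕ, ∀ x : CohLoc (awayMonoid (lamIdeal hsΛ S lam))
        (pullRep (scalarRep (charSq ψ Q M) Λ) (dvd_mul_left M p)),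
      locTrace (isAway_awayMonoid _) (mem_of_dvd_level H) (scalarRep (charSq ψ Q M) Λ) hpM x = 0 →
      locTraceTwist (isAway_awayMonoid _) (mem_of_dvd_level H) (scalarRep (charSq ψ Q M) Λ) hpM
        x = 0 →
      awayIncl Λ (↑S : Set ℕ) (twistPoly (invChar ψ Q S)
        (MvPolynomial.map ((algebraMap O Λ).comp ι₀) (U₀ ^ 2 - 1))) ^ k • x = 0 := by
  classical
  set ι := (algebraMap O Λ).comp ι₀ with hι
  set lam₀ : AwayPoly ℤ_[p] (↑S : Set ℕ) →+* ResidueField O :=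
    (lamHom O Λ hsΛ S lam).comp (MvPolynomial.map ι)
  have hp : p.Prime := Fact.out
  have HR : RootData S lam₀ A σ₀ φ c :=
    { three_le := H.three_le
      exists_rbar := ⟨rbar, hfin.finite_level, hspan, fun ℓ hℓ hℓS B hB σ hσ => by
          rw [htr ℓ hℓ hℓS B hB σ hσ]
          show _ = lamHom O Λ hsΛ S lam (MvPolynomial.map ι _)
          rw [MvPolynomial.map_X, lamHom_X],
        fun g => by
          rw [hdet]
          show _ = lamHom O Λ hsΛ S lam (MvPolynomial.map ι _)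
          rw [MvPolynomial.map_C, ← MvPolynomial.algebraMap_eq, hι, RingHom.comp_apply,
            lamHom_algebraMap],
        hinertia⟩
      above := hA
      inertia := hσ₀
      frob := hφ
      inv := hc }
  have hne : ∀ Q' : Finset ℕ, Q' ∈ Q.powerset → M * ∏ q ∈ Q', q ≠ 0 := fun Q' hQ' =>
    mul_ne_zero (NeZero.ne M) (Finset.prod_ne_zero_iff.mpr fun q hq =>
      (hQ q (Finset.mem_powerset.mp hQ' hq)).1.ne_zero)
  have hdvd : ∀ Q' ∈ Q.powerset, M * ∏ q ∈ Q', q ∣ M * ∏ q ∈ Q, q := fun Q' hQ' =>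
    mul_dvd_mul_left M (Finset.prod_dvd_prod_of_subset _ _ _ (Finset.mem_powerset.mp hQ'))
  have hpL : ∀ Q' ∈ Q.powerset, ¬ p ∣ M * ∏ q ∈ Q', q := fun Q' hQ' =>
    not_dvd_mul_prod hp (fun q hq =>
      ⟨(hQ q (Finset.mem_powerset.mp hQ' hq)).1, (hQ q (Finset.mem_powerset.mp hQ' hq)).2.1⟩) hpM
  have key : ∀ Q' ∈ Q.powerset, ∃ a, lam₀ a ≠ 0 ∧ KillsFor M p Q' S (a * (U₀ ^ 2 - 1)) := by
    intro Q' hQ'
    have : NeZero (M * ∏ q ∈ Q', q) := ⟨hne Q' hQ'⟩
    have : NeZero (p * (M * ∏ q ∈ Q', q)) := ⟨mul_ne_zero hp.ne_zero (hne Q' hQ')⟩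
    obtain ⟨B, a₁, ha₁, hB, h₁⟩ := exists_new_killer S lam₀ HR (mul_comm p (M * ∏ q ∈ Q', q))
      (stdInputs (eichlerShimuraRelations (N := p * (M * ∏ q ∈ Q', q)) (p := p)))
      (stdInputs (eichlerShimuraRelations (N := M * ∏ q ∈ Q', q) (p := p))) (hpL Q' hQ')
      (fun q hq h => H.mem_S q hq (h.trans (mul_dvd_mul_right
        (mul_dvd_mul_left p (hdvd Q' hQ')) p)))
      (hU Q' (Finset.mem_powerset.mp hQ') _ (Or.inr rfl))
    obtain ⟨a₂, ha₂, h₂⟩ := exists_old_killer S lam₀ HR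
      (stdInputs (eichlerShimuraRelations (N := M * ∏ q ∈ Q', q) (p := p))) (hpL Q' hQ')
      (fun q hq h => H.mem_S q hq (h.trans (mul_dvd_mul_right
        ((hdvd Q' hQ').trans (dvd_mul_left _ p)) p)))
      (hU Q' (Finset.mem_powerset.mp hQ') _ (Or.inl rfl))
    refine ⟨a₁ * a₂, by rw [map_mul]; exact mul_ne_zero ha₁ ha₂, ⟨?_, ?_⟩⟩
    · rintro L _ _ rfl
      rw [mul_comm a₁ a₂, mul_assoc]
      exact KillsNew.mul ⟨B, hB, fun K _ _ ι x hx => h₁ K ι x hx⟩ a₂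
    · rintro L _ rfl
      rw [mul_assoc]
      exact KillsOld.mul (fun K _ _ ι x hx => h₂ K ι x hx) a₁
  choose! a ha hkill using key
  have : NeZero (p * (M * ∏ q ∈ Q, q)) :=
    ⟨mul_ne_zero hp.ne_zero (hne Q (Finset.mem_powerset_self Q))⟩
  set Atot := ∏ Q' ∈ Q.powerset, a Q' with hAtot
  obtain ⟨k, hk⟩ := exists_pow_smul_eq_zero_loc_of_kills hsΛ ι₀ H hQ
    ((H.three ()).of_self_mul Fact.out) hpM
    (G₁ := Atot * (U₀ ^ 2 - 1)) fun Q' hQ' => by
      have hm := Finset.mem_powerset.mpr hQ'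
      rw [hAtot, ← Finset.prod_erase_mul _ _ hm, mul_assoc]
      exact ⟨fun L _ _ hL => ((hkill Q' hm).new L hL).mul _, fun L _ hL => ((hkill Q' hm).old L hL).mul _⟩
  refine ⟨k, fun x hx hx' => ?_⟩
  have h := hk x hx hx'
  rw [map_mul, map_mul, map_mul, mul_pow, mul_smul] at h
  set m := lamIdeal hsΛ S lam
  have hA0 : twistPoly (invChar ψ Q S) (MvPolynomial.map ι Atot) ∉ m := fun hmem => by
    have h0 : MvPolynomial.map ι Atot ∈ m := (H.comap_lamIdeal hsΛ).le hmem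
    exact (show lam₀ Atot ≠ 0 by
      rw [hAtot, map_prod]; exact Finset.prod_ne_zero_iff.mpr ha) h0
  have hs := (awayMonoid m).pow_mem
    (mem_awayMonoid (show twistPoly (invChar ψ Q S) (MvPolynomial.map ι Atot) ∈ m.primeCompl from hA0)) k
  have hu := IsLocalization.map_units (Localization (awayMonoid m)) (⟨_, hs⟩ : awayMonoid m)
  rw [← algebraMap_smul (Localization (awayMonoid m))
    (awayIncl Λ (↑S : Set ℕ) (twistPoly (invChar ψ Q S) (MvPolynomial.map ι Atot)) ^ k)] at h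
  exact hu.smul_left_cancel.mp (h.trans (smul_zero _).symm)

omit [NeZero M] [NeZero (p * M)] in
/-- The twisted class of the polynomial is the unit root of a classified representation. -/
theorem unitRoot_eq_twClass {J : Type} [Fintype J] {Ms : J → ℕ} [∀ j, NeZero (Ms j)] {Mtop : ℕ}
    [NeZero Mtop] (H : TwistData p S lam ψ Q Ms Mtop) (hes : EichlerShimuraRelations Mtop p)
    [Nontrivial (TwAlg hsΛ S lam ψ Q Ms)] {χ : GQ → O}
    (hχ : ∀ σ, χ σ = ι₀ (epsilonPadic p σ : ℤ_[p])) {σ₀ φ : GQ} {c : ℤ_[p]}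
    (hc : c * ((epsilonPadic p σ₀ : ℤ_[p]) - 1) = 1) (N : MRep (TwAlg hsΛ S lam ψ Q Ms))
    (hN : ∀ g X, latHom (stdInputs hes) ((algebraMap O Λ).comp ι₀) S X =
        latTrace (stdInputs hes) ((algebraMap O Λ).comp ι₀) S g →
      (N g).trace = twClass hsΛ S lam ψ Q Ms (twistPoly (invChar ψ Q S) X))
    {U₀ : AwayPoly ℤ_[p] (↑S : Set ℕ)}
    (hU : polyMat (stdInputs hes) S U₀ = rootMat (stdInputs hes) c σ₀ φ) :
    Top.unitRoot χ σ₀ φ N = twClass hsΛ S lam ψ Q Ms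
      (twistPoly (invChar ψ Q S) (MvPolynomial.map ((algebraMap O Λ).comp ι₀) U₀)) := by
  set I := stdInputs hes
  set ι := (algebraMap O Λ).comp ι₀ with hι
  obtain ⟨Xφ, hXφ⟩ := latHom_surjective I ι S (latTrace I ι S φ)
  obtain ⟨Xψ, hXψ⟩ := latHom_surjective I ι S (latTrace I ι S (σ₀ * φ))
  set U : AwayPoly Λ (↑S : Set ℕ) := algebraMap Λ _ (ι c) *
    (algebraMap Λ _ (ι (epsilonPadic p σ₀ : ℤ_[p])) * Xφ - Xψ) with hUdef
  have hcO := ringInverse_sub_one ι₀ hχ hc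
  have e1 : Top.unitRoot χ σ₀ φ N = twClass hsΛ S lam ψ Q Ms (twistPoly (invChar ψ Q S) U) := by
    rw [hUdef, map_mul, map_sub, map_mul, AlgHom.commutes, AlgHom.commutes, map_mul, map_sub, map_mul,
      AlgHom.commutes, AlgHom.commutes, ← hN φ Xφ hXφ, ← hN (σ₀ * φ) Xψ hXψ, Top.unitRoot,
      hcO, hχ, IsScalarTower.algebraMap_apply O Λ, IsScalarTower.algebraMap_apply O Λ]
    rfl
  rw [e1, ← sub_eq_zero, ← map_sub, ← map_sub]
  refine H.twClass_eq_zero hsΛ hes ι₀ (Subtype.ext ?_)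
  rw [map_sub, Subalgebra.coe_sub, latHom_polyMat I S ι U₀, hU, rootMat, hUdef, map_mul, map_sub,
    map_mul, AlgHom.commutes, AlgHom.commutes, hXφ, hXψ, Subalgebra.coe_mul, Subalgebra.coe_sub,
    Subalgebra.coe_mul, Subalgebra.coe_algebraMap, Subalgebra.coe_algebraMap]
  simp only [Algebra.algebraMap_eq_smul_one, matEnd_smul, map_sub, smul_mul_assoc, one_mul, latTrace]
  exact sub_self _

end Fermat.Agent.Engine.Lifting
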