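import Fermat.Agent.Engine.TRep.Algebra

/-!
# Matrices of polynomials in the Hecke operators

`polyMat`: the matrix by which a polynomial in the away operators acts on the lattice, with integral
coefficients; it computes the action over every coefficient ring (`latHom_polyMat`).
-/

set_option linter.unusedSectionVars false

noncomputable section

namespace Fermat.Agent.Engine.Lifting

open EigenRep HeckeModule TRep Matrix

section Generic

variable {N p : ℕ} [NeZero N] [Fact p.Prime] (I : RepInputs N p) (S : Finset ℕ)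

/-- The matrix of a polynomial. -/
def polyMat : AwayPoly ℤ_[p] (↑S : Set ℕ) →+* Matrix (Fin I.model.d) (Fin I.model.d) ℤ_[p] :=
  ((Matrix.toLinAlgEquiv' : Matrix (Fin I.model.d) (Fin I.model.d) ℤ_[p] ≃ₐ[ℤ_[p]] _).symm
    ).toAlgHom.toRingHom.comp
      ((LatAlg I (RingHom.id ℤ_[p]) S).val.toRingHom.comp (latHom I (RingHom.id ℤ_[p]) S).toRingHom)

/-- `polyMat` acts as the polynomial. -/
theorem matEnd_polyMat (P : AwayPoly ℤ_[p] (↑S : Set ℕ)) :
    matEnd I (RingHom.id ℤ_[p]) (polyMat I S P) =
      (latHom I (RingHom.id ℤ_[p]) S P : Module.End ℤ_[p] (Lat I ℤ_[p])) := by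
  refine LinearMap.ext fun v => ?_
  rw [matEnd_apply]
  show (polyMat I S P).map id *ᵥ v = _
  rw [Matrix.map_id]
  exact LinearMap.congr_fun ((Matrix.toLinAlgEquiv').apply_symm_apply
    (latHom I (RingHom.id ℤ_[p]) S P : Module.End ℤ_[p] (Lat I ℤ_[p]))) v

/-- A matrix is determined by its action. -/
theorem matEnd_id_injective : Function.Injective (matEnd I (RingHom.id ℤ_[p])) := fun A B h => by
  refine Matrix.ext_of_mulVec_single fun k => ?_
  have := LinearMap.congr_fun h (Pi.single k 1)
  rwa [matEnd_apply, matEnd_apply, RingHom.coe_id, Matrix.map_id, Matrix.map_id] at this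

/-- `polyMat` is determined by the action of the polynomial. -/
theorem polyMat_eq {P : AwayPoly ℤ_[p] (↑S : Set ℕ)} {A : Matrix (Fin I.model.d) (Fin I.model.d) ℤ_[p]}
    (h : (latHom I (RingHom.id ℤ_[p]) S P : Module.End ℤ_[p] (Lat I ℤ_[p])) =
      matEnd I (RingHom.id ℤ_[p]) A) : polyMat I S P = A :=
  matEnd_id_injective I ((matEnd_polyMat I S P).trans h)

/-- The matrix of a variable. -/
theorem polyMat_X (l : AwayIndex (↑S : Set ℕ)) :
    polyMat I S (MvPolynomial.X l) = heckeMat I.model (l : Nat.Primes) :=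
  polyMat_eq I S (latHom_X I _ S l)

/-- The matrix of a constant. -/
theorem polyMat_C (c : ℤ_[p]) : polyMat I S (MvPolynomial.C c) = c • 1 := by
  refine polyMat_eq I S ?_
  rw [← MvPolynomial.algebraMap_eq, AlgHom.commutes, matEnd_smul, map_one, Subalgebra.coe_algebraMap,
    Algebra.algebraMap_eq_smul_one]
  rfl

/-- The polynomial with coefficients in any ring acts by the matrix. -/
theorem latHom_polyMat {O : Type} [CommRing O] (ι : ℤ_[p] →+* O)
    (P : AwayPoly ℤ_[p] (↑S : Set ℕ)) :
    (latHom I ι S (MvPolynomial.map ι P) : Module.End O (Lat I O)) = matEnd I ι (polyMat I S P) := by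
  induction P using MvPolynomial.induction_on with
  | C c =>
    rw [MvPolynomial.map_C, ← MvPolynomial.algebraMap_eq, AlgHom.commutes,
      polyMat_C, matEnd_smul, map_one, Subalgebra.coe_algebraMap, Algebra.algebraMap_eq_smul_one]
  | add P Q hP hQ => rw [map_add, map_add, map_add, map_add, Subalgebra.coe_add, hP, hQ]
  | mul_X P l hP =>
    rw [map_mul, map_mul, map_mul, map_mul, Subalgebra.coe_mul, hP, MvPolynomial.map_X, latHom_X,
      polyMat_X]
    rfl

end Generic

end Fermat.Agent.Engine.Lifting
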