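import Fermat.Agent.Engine.Lifting.RaisePrime

/-!
# Raising at `p`: the matrices and the new part
-/

set_option linter.unusedSectionVars false

noncomputable section

namespace Fermat.Agent.Engine

open EigenRep HeckeModule IsLocalRing DefRing Deform EigenSystems TRep TwoAdic Lifting

local notation "Qbar" => AlgebraicClosure ℚ

variable {p : ℕ} [Fact p.Prime] {O : Type} [CommRing O] [IsDomain O]
  [IsDiscreteValuationRing O] [IsAdicComplete (maximalIdeal O) O] [Finite (ResidueField O)]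
  [CharZero O] {ι₀ : ℤ_[p] →+* O} {N₀ : ℕ} {lam : ℕ → O} {L₀ : LevelData O}
  (H : BaseSetting p ι₀ N₀ lam L₀) (H' : BaseSetting p ι₀ (p * N₀) lam L₀)
  {Λ : Type} [CommRing Λ] [IsLocalRing Λ] [IsNoetherianRing Λ]
  [IsAdicComplete (maximalIdeal Λ) Λ] [Algebra O Λ] [IsLocalHom (algebraMap O Λ)]
  [Module.Finite O Λ] [IsReduced Λ] [Module.IsTorsionFree ℤ Λ]
  (hsΛ : Function.Surjective (residue Λ ∘ algebraMap O Λ))
  {S Q : Finset ℕ} {ψ : ∀ q : ℕ, (ZMod q)ˣ →* Λ} {M : ℕ} [NeZero M] [NeZero (p * M)] {α : ℕ → O}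
  {A : ValuationSubring Qbar} {χ : GQ → O} {σ₀ φF : GQ} {c : ℤ_[p]}

include H H'

omit H' in
/-- One polynomial for the unit root at the levels below the two top levels. -/
theorem BaseSetting.exists_rootLevels (hA : LevelArith p N₀ L₀ S Q M ψ) (c : ℤ_[p]) (σ₀ φF : GQ) :
    ∃ U₀ : AwayPoly ℤ_[p] (↑S : Set ℕ), ∀ Q' ⊆ Q, ∀ (L : ℕ) [NeZero L],
      (L = M * ∏ q ∈ Q', q ∨ L = p * (M * ∏ q ∈ Q', q)) →
      polyMat (stdInputs (eichlerShimuraRelations (N := L) (p := p))) S U₀ =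
        rootMat (stdInputs (eichlerShimuraRelations (N := L) (p := p))) c σ₀ φF := by
  classical
  let N : Q.powerset × Bool → ℕ := fun j =>
    cond j.2 (p * (M * ∏ q ∈ j.1.1, q)) (M * ∏ q ∈ j.1.1, q)
  have : ∀ j, NeZero (N j) := fun j => ⟨by
    obtain ⟨⟨Q', hQ'⟩, j⟩ := j
    have h0 : M * ∏ q ∈ Q', q ≠ 0 := mul_ne_zero (NeZero.ne M)
      (Finset.prod_ne_zero_iff.mpr fun q hq => (hA.aux q (Finset.mem_powerset.mp hQ' hq)).1.ne_zero)
    cases j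
    exacts [h0, mul_ne_zero (Fact.out : p.Prime).ne_zero h0]⟩
  obtain ⟨U₀, hU⟩ := exists_poly_root N
    (fun j => stdInputs (eichlerShimuraRelations (N := N j) (p := p))) S c σ₀ φF
  refine ⟨U₀, fun Q' hQ' L _ hL => ?_⟩
  rcases hL with rfl | rfl
  · exact hU (⟨Q', Finset.mem_powerset.mpr hQ'⟩, false)
  · exact hU (⟨Q', Finset.mem_powerset.mpr hQ'⟩, true)

/-- The degeneracy maps at `v = p`, with the new part for `α² - 1`. -/
theorem BaseSetting.exists_degenCore (hA : LevelArith p N₀ L₀ S Q M ψ)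
    (hA' : LevelArith p (p * N₀) L₀ S Q (p * M) ψ) (hpM : ¬ p ∣ M) (hPl : A.LiesOverPrime p)
    (hinertia : ∀ σ ∈ A.inertiaSubgroupIn ℚ, (L₀.D.rbar σ).trace = 1 + (L₀.D.rbar σ).det)
    (hσ₀ : σ₀ ∈ A.inertiaSubgroupIn ℚ) (hφ : A.IsFrobeniusAt φF p)
    (hc : c * ((epsilonPadic p σ₀ : ℤ_[p]) - 1) = 1) {U₀ : AwayPoly ℤ_[p] (↑S : Set ℕ)}
    (hU : ∀ Q' ⊆ Q, ∀ (L : ℕ) [NeZero L],
      (L = M * ∏ q ∈ Q', q ∨ L = p * (M * ∏ q ∈ Q', q)) →
      polyMat (stdInputs (eichlerShimuraRelations (N := L) (p := p))) S U₀ =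
        rootMat (stdInputs (eichlerShimuraRelations (N := L) (p := p))) c σ₀ φF) :
    ∃ D : DegenPair ψ Q S M (charSq ψ Q (p * M)) p (relMonoid hsΛ S lam L₀.Sigma α),
      (∀ (ε : ℤˣ) (z : CohLoc (relMonoid hsΛ S lam L₀.Sigma α) (scalarRep (charSq ψ Q M) Λ)),
        ∃ u, D.down ε (D.up₁ u) = awayIncl Λ (↑S : Set ℕ) (twistPoly (invChar ψ Q S)
          (MvPolynomial.map ((algebraMap O Λ).comp ι₀) (U₀ ^ 2 - 1))) • z) →
      ∀ d : ℕ, Module.finrank Λ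
          (CohLoc (relMonoid hsΛ S lam L₀.Sigma α) (scalarRep (charSq ψ Q (p * M)) Λ)) ≤ d →
        ∀ x, ∃ a b, awayIncl Λ (↑S : Set ℕ) (twistPoly (invChar ψ Q S)
            (MvPolynomial.map ((algebraMap O Λ).comp ι₀) (U₀ ^ 2 - 1))) ^ (d + 1) • x =
          D.up₁ a + D.up₂ b := by
  have := H.charP_residue_base
  have := H.charP_residue (Λ := Λ)
  have hQ : ∀ q ∈ Q, q.Prime ∧ q ∣ M ∧ ¬ q * q ∣ M := hA.aux
  have HT := H'.twistData hA'
  rw [Nat.mul_assoc] at HT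
  obtain ⟨D, hD⟩ : ∃ D : DegenPair ψ Q S M (charSq ψ Q (p * M)) p
      (relMonoid hsΛ S lam L₀.Sigma α), _ := exists_degenMaps hsΛ
    (relaxIdeal (lamIdeal hsΛ S lam) (↑L₀.Sigma : Set ℕ) fun x => algebraMap O Λ (α x))
    HT hQ hpM (H.exactHyp_family hsΛ hA) (H'.exactHyp_family hsΛ hA') (H.liftable_residue (H.three_level hA))
    (H.exists_iharaPrimes hsΛ hA.sub M p).some (H.charSq_sub_one_mem hA) H.p_mem_sigma
    (le_relaxIdeal _ _ (maximalIdeal_le_lamIdeal hsΛ S lam))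
    (lamIdeal_le_relMonoid hsΛ S lam L₀.Sigma α hA.sub)
  exact ⟨D, hD _ (exists_pow_smul_eq_zero_loc_p hsΛ ι₀ HT hQ hpM L₀.D.rbar H.span H.cont
    (fun ℓ hℓ hℓS => H.trace_frob ℓ hℓ fun h => hℓS (hA.sub h)) H.detbar hPl hinertia hσ₀ hφ hc hU)⟩

variable {Sig : Finset ℕ} (PR : (L₀.withSigma Sig).RepRing) {d d' : ℕ}
  {b : Module.Basis (Fin d) Λ
    (CohLoc (relMonoid hsΛ S lam L₀.Sigma α) (scalarRep (charSq ψ Q M) Λ))}
  {b' : Module.Basis (Fin d') Λ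
    (CohLoc (relMonoid hsΛ S lam L₀.Sigma α) (scalarRep (charSq ψ Q (p * M)) Λ))}
  {act : PR.R →+* Matrix (Fin d) (Fin d) Λ} {act' : PR.R →+* Matrix (Fin d') (Fin d') Λ}

omit H in
/-- The action of `(α² - 1) ^ k` at level `p M`. -/
theorem BaseSetting.act_defect_pow (hplace' : TopPlaceHyp p ι₀ (p * N₀) lam L₀)
    (hA' : LevelArith p (p * N₀) L₀ S Q (p * M) ψ)
    (hSig : ∀ ℓ : ℕ, ℓ.Prime → ℓ ∣ p * M * (∏ q ∈ Q, q) * p → ℓ ∈ Sig) (hd' : d' ≠ 0)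
    (hact' : IsLevelAct ι₀ hsΛ S lam ψ Q (p * M) PR b' act')
    (hχ : ∀ σ, χ σ = ι₀ (epsilonPadic p σ : ℤ_[p]))
    (hc : c * ((epsilonPadic p σ₀ : ℤ_[p]) - 1) = 1) {U₀ : AwayPoly ℤ_[p] (↑S : Set ℕ)}
    (hU : ∀ Q' ⊆ Q, ∀ (L : ℕ) [NeZero L],
      (L = M * ∏ q ∈ Q', q ∨ L = p * (M * ∏ q ∈ Q', q)) →
      polyMat (stdInputs (eichlerShimuraRelations (N := L) (p := p))) S U₀ =
        rootMat (stdInputs (eichlerShimuraRelations (N := L) (p := p))) c σ₀ φF) (k : ℕ) :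
    act' ((Top.unitRoot χ σ₀ φF PR.rep ^ 2 - 1) ^ k) =
      opHom b' (awayIncl Λ (↑S : Set ℕ) (twistPoly (invChar ψ Q S)
        (MvPolynomial.map ((algebraMap O Λ).comp ι₀) (U₀ ^ 2 - 1))) ^ k) := by
  have : NeZero (p * M * ∏ q ∈ Q, q) := ⟨mul_ne_zero (NeZero.ne _)
    (Finset.prod_ne_zero_iff.mpr fun q hq => (hA'.aux q hq).1.ne_zero)⟩
  have h := H'.act_unitRoot hsΛ hplace' hA' hSig PR hd' hact' hχ hc
    (hU Q subset_rfl _ (Or.inr (Nat.mul_assoc _ _ _)))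
  simp only [map_pow, map_sub, map_one, h]

/-- **The degeneracy matrices between the levels `M` and `p M`.** -/
theorem BaseSetting.exists_degeneracyP (hplace : TopPlaceHyp p ι₀ N₀ lam L₀)
    (hplace' : TopPlaceHyp p ι₀ (p * N₀) lam L₀) (hA : LevelArith p N₀ L₀ S Q M ψ)
    (hA' : LevelArith p (p * N₀) L₀ S Q (p * M) ψ) (hpM : ¬ p ∣ M)
    (hSig : ∀ ℓ : ℕ, ℓ.Prime → ℓ ∣ p * M * (∏ q ∈ Q, q) * p → ℓ ∈ Sig) (hd : d ≠ 0) (hd' : d' ≠ 0)
    (hact : IsLevelAct ι₀ hsΛ S lam ψ Q M PR b act)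
    (hact' : IsLevelAct ι₀ hsΛ S lam ψ Q (p * M) PR b' act') (hPl : A.LiesOverPrime p)
    (hinertia : ∀ σ ∈ A.inertiaSubgroupIn ℚ, (L₀.D.rbar σ).trace = 1 + (L₀.D.rbar σ).det)
    (hχ : ∀ σ, χ σ = ι₀ (epsilonPadic p σ : ℤ_[p])) (hσ₀ : σ₀ ∈ A.inertiaSubgroupIn ℚ)
    (hunit : IsUnit (χ σ₀ - 1)) (hφ : A.IsFrobeniusAt φF p) :
    ∃ (U₁ U₂ : Matrix (Fin d') (Fin d) Λ) (D : ℤˣ → Matrix (Fin d) (Fin d') Λ),
      (∀ x, act' x * U₁ = U₁ * act x) ∧ (∀ x, act' x * U₂ = U₂ * act x) ∧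
      (∀ ε x, act x * D ε = D ε * act' x) ∧
      (∃ l₁ l₂ : Matrix (Fin d) (Fin d') Λ,
        l₁ * U₁ = 1 ∧ l₁ * U₂ = 0 ∧ l₂ * U₁ = 0 ∧ l₂ * U₂ = 1) ∧
      (∀ ε, ∃ s : Matrix (Fin d') (Fin d) Λ, D ε * s = 1) ∧
      (∀ ε : ℤˣ, Top.unitRoot χ σ₀ φF PR.rep + signCast ε ∈ maximalIdeal PR.R →
        ∃ K : PR.R, D ε * U₁ = act ((Top.unitRoot χ σ₀ φF PR.rep ^ 2 - 1) * K) ∧
          D ε * U₂ = act ((Top.unitRoot χ σ₀ φF PR.rep ^ 2 - 1) * (signCast ε * K))) ∧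
      ∃ k₁ k₂ : Matrix (Fin d) (Fin d') Λ,
        act' ((Top.unitRoot χ σ₀ φF PR.rep ^ 2 - 1) ^ (d' + 1)) = U₁ * k₁ + U₂ * k₂ := by
  classical
  obtain ⟨c, hc⟩ := H.exists_inv_cyclo hχ hunit
  obtain ⟨U₀, hU⟩ := H.exists_rootLevels hA c σ₀ φF
  obtain ⟨D, hnew⟩ := H.exists_degenCore H' hsΛ (α := α) hA hA' hpM hPl hinertia hσ₀ hφ hc hU
  have hQ : ∀ q ∈ Q, q.Prime ∧ q ∣ M ∧ ¬ q * q ∣ M := hA.aux
  have : NeZero (M * ∏ q ∈ Q, q) := ⟨mul_ne_zero (NeZero.ne M)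
    (Finset.prod_ne_zero_iff.mpr fun q hq => (hQ q hq).1.ne_zero)⟩
  have hSig₀ : ∀ ℓ : ℕ, ℓ.Prime → ℓ ∣ M * (∏ q ∈ Q, q) * p → ℓ ∈ Sig := fun ℓ hℓ h =>
    hSig ℓ hℓ (h.trans (mul_dvd_mul_right (mul_dvd_mul_right (dvd_mul_left M p) _) p))
  obtain ⟨hα, hX⟩ := H.act_heckeP hsΛ hplace hA hpM hSig₀ PR hd hact hPl hinertia hχ hσ₀ hunit hφ
  have hrootM := H.act_unitRoot hsΛ hplace hA hSig₀ PR hd hact hχ hc (hU Q subset_rfl _ (Or.inl rfl))
  have hcomm := H'.act_commute hsΛ hplace' hA' (dvd_mul_left M p) (fun q hq => (hQ q hq).2.1)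
    (H.three_level hA)
    (lamIdeal_le_relMonoid hsΛ S lam L₀.Sigma α hA.sub) hSig PR hd hd' hact hact'
  set r := Top.unitRoot χ σ₀ φF PR.rep with hr
  obtain ⟨ri, hri⟩ := hα.exists_left_inv
  set a : HeckePoly Λ := algebraMap Λ (HeckePoly Λ)
    (charProd (fun q => (ψ q).comp invMonoidHom) Q p) * MvPolynomial.X ⟨p, Fact.out⟩ with ha
  have hXa : opHom b a = act (ri * (r ^ 2 + (p : PR.R))) := by
    rw [map_mul act, ← hX, ← mul_assoc, ← map_mul act, hri, map_one, one_mul]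
  let K : ℤˣ → PR.R := fun ε => (p : PR.R) + 1 + signCast ε * (ri * (r ^ 2 + (p : PR.R)))
  have hbr : ∀ ε : ℤˣ, act (K ε) = opHom b ((p : HeckePoly Λ) + 1 + signCast ε * a) := fun ε => by
    simp only [K, signCast, map_add, map_mul, map_natCast, map_one, map_intCast, hXa]
  have hsm : ∀ (ε : ℤˣ)
      (z : CohLoc (relMonoid hsΛ S lam L₀.Sigma α) (scalarRep (charSq ψ Q M) Λ)),
      ((p : HeckePoly Λ) + 1 + signCast ε * a) • z = ((p : Λ) + 1) • z +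
        (signCast ε : Λ) • (charProd (fun q => (ψ q).comp invMonoidHom) Q p •
          (MvPolynomial.X ⟨p, Fact.out⟩ : HeckePoly Λ) • z) := fun ε z =>
    add_signCast_mul_smul p ε _ _ z
  have hDU₁ : ∀ ε, LinearMap.toMatrix b' b (D.down ε) * LinearMap.toMatrix b b' D.up₁ =
      act (K ε) := fun ε => by
    rw [← LinearMap.toMatrix_comp b b' b, hbr]
    refine toMatrix_lsmul b _ _ fun z => ?_
    rw [LinearMap.comp_apply, D.down_up₁, hsm]
  have hDU₂ : ∀ ε, LinearMap.toMatrix b' b (D.down ε) * LinearMap.toMatrix b b' D.up₂ =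
      act (signCast ε * K ε) := fun ε => by
    rw [← LinearMap.toMatrix_comp b b' b, map_mul, hbr,
      show act (signCast ε) = opHom b (signCast ε) by rw [signCast, signCast, map_intCast,
        map_intCast], ← map_mul]
    refine toMatrix_lsmul b _ _ fun z => ?_
    rw [LinearMap.comp_apply, D.down_up₂, mul_smul, hsm, signCast, signCast,
      ← map_intCast (algebraMap Λ (HeckePoly Λ)), algebraMap_smul]
  -- the algebra in the level ring
  have hloc := PR.instIsLocalHom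
  have hp' : (p : PR.R) ∈ maximalIdeal PR.R := by
    rw [← map_natCast (algebraMap O PR.R)]
    exact map_nonunit (algebraMap O PR.R) _ H.p_mem
  have h2 : IsUnit (2 : PR.R) := by
    have h := H.two.map (algebraMap O PR.R)
    rwa [map_ofNat] at h
  have hs : ∀ ε : ℤˣ, (signCast ε : PR.R) * signCast ε = 1 := fun ε => by
    rw [signCast, ← Int.cast_mul, ← Units.val_mul, Int.units_mul_self, Units.val_one, Int.cast_one]
  have hrK : ∀ ε, r * K ε = signCast ε * (r + signCast ε) * (r + signCast ε * p) := fun ε => by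
    simp only [K]
    linear_combination (signCast ε * (r ^ 2 + (p : PR.R))) * hri -
      (r * ((p : PR.R) + 1) + signCast ε * (p : PR.R)) * hs ε
  have hy : ∀ ε : ℤˣ, ∃ y, K ε * y = r ^ 2 - 1 := fun ε => by
    have hu : IsUnit (r + signCast ε * (p : PR.R)) := by
      by_contra hnu
      have h := sub_mem (show r + signCast ε * (p : PR.R) ∈ maximalIdeal PR.R from hnu)
        (Ideal.mul_mem_left _ (signCast ε : PR.R) hp')
      rw [add_sub_cancel_right] at h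
      exact h hα
    obtain ⟨w, hw⟩ := hu.exists_right_inv
    exact ⟨signCast ε * r * (r - signCast ε) * w, by
      linear_combination (signCast ε * (r - signCast ε) * w) * hrK ε +
        (signCast ε * signCast ε * (r ^ 2 - signCast ε * signCast ε)) * hw +
        (r ^ 2 - signCast ε * signCast ε - 1) * hs ε⟩
  refine ⟨LinearMap.toMatrix b b' D.up₁, LinearMap.toMatrix b b' D.up₂,
    fun ε => LinearMap.toMatrix b' b (D.down ε),
    hcomm.1 _ fun X => opMat_mul_toMatrix b b' D.up₁ _ (D.up₁_smul X),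
    hcomm.1 _ fun X => opMat_mul_toMatrix b b' D.up₂ _ (D.up₂_smul X),
    fun ε => hcomm.2 _ fun X => opMat_mul_toMatrix b' b (D.down ε) _ (D.down_smul ε X),
    (D.matrix_split b b').1, (D.matrix_split b b').2, ?_, ?_⟩
  · intro ε hε
    have hu : IsUnit (r - signCast ε) := by
      by_contra hnu
      have h := sub_mem hε (show r - signCast ε ∈ maximalIdeal PR.R from hnu)
      rw [show r + signCast ε - (r - signCast ε) = (2 : PR.R) * signCast ε by ring] at h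
      exact h (h2.mul (IsUnit.of_mul_eq_one _ (hs ε)))
    obtain ⟨v, hv⟩ := hu.exists_right_inv
    have hK : K ε = (r ^ 2 - 1) * (signCast ε * ri * (r + signCast ε * (p : PR.R)) * v) := by
      linear_combination ri * hrK ε - K ε * hri -
        signCast ε * ri * (r + signCast ε * (p : PR.R)) * (r + signCast ε) * hv -
        signCast ε * ri * (r + signCast ε * (p : PR.R)) * v * hs ε
    refine ⟨_, (hDU₁ ε).trans (congrArg act hK), (hDU₂ ε).trans (congrArg act ?_)⟩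
    rw [hK, mul_left_comm]
  · set E := awayIncl Λ (↑S : Set ℕ) (twistPoly (invChar ψ Q S)
      (MvPolynomial.map ((algebraMap O Λ).comp ι₀) (U₀ ^ 2 - 1))) with hE
    have hactE : act (r ^ 2 - 1) = opHom b E := by
      simp only [hE, map_pow, map_sub, map_one, hrootM]
    have hadj : ∀ (ε : ℤˣ)
        (z : CohLoc (relMonoid hsΛ S lam L₀.Sigma α) (scalarRep (charSq ψ Q M) Λ)),
        ∃ u, D.down ε (D.up₁ u) = E • z := fun ε z => by
      obtain ⟨y, hy⟩ := hy ε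
      refine ⟨Matrix.toLin b b (act y) z, ?_⟩
      have h : LinearMap.toMatrix b b ((D.down ε).comp (D.up₁.comp (Matrix.toLin b b (act y)))) =
          opHom b E := by
        rw [LinearMap.toMatrix_comp b b' b, LinearMap.toMatrix_comp b b b',
          LinearMap.toMatrix_toLin, ← Matrix.mul_assoc, hDU₁, ← map_mul, hy, hactE]
      rw [← toMatrix_lsmul b E (Algebra.lsmul Λ Λ _ (A := HeckePoly Λ) E) fun _ => rfl] at h
      exact LinearMap.congr_fun ((LinearMap.toMatrix b b).injective h) z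
    have hfin : Module.finrank Λ
        (CohLoc (relMonoid hsΛ S lam L₀.Sigma α) (scalarRep (charSq ψ Q (p * M)) Λ)) ≤ d' := by
      rw [Module.finrank_eq_card_basis b', Fintype.card_fin]
    rw [H'.act_defect_pow hsΛ PR hplace' hA' hSig hd' hact' hχ hc hU, ← hE]
    exact D.matrix_range b b' _ (hnew hadj d' hfin)

/-- **Without classes of level `M`, a power of `α² - 1` acts as zero at level `p M`.** -/
theorem BaseSetting.pow_act_eq_zero_of_new (hplace' : TopPlaceHyp p ι₀ (p * N₀) lam L₀)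
    (hA : LevelArith p N₀ L₀ S Q M ψ)
    (hA' : LevelArith p (p * N₀) L₀ S Q (p * M) ψ) (hpM : ¬ p ∣ M)
    [Subsingleton (CohLoc (relMonoid hsΛ S lam L₀.Sigma α) (scalarRep (charSq ψ Q M) Λ))]
    (hSig : ∀ ℓ : ℕ, ℓ.Prime → ℓ ∣ p * M * (∏ q ∈ Q, q) * p → ℓ ∈ Sig)
    (hact' : IsLevelAct ι₀ hsΛ S lam ψ Q (p * M) PR b' act') (hPl : A.LiesOverPrime p)
    (hinertia : ∀ σ ∈ A.inertiaSubgroupIn ℚ, (L₀.D.rbar σ).trace = 1 + (L₀.D.rbar σ).det)
    (hχ : ∀ σ, χ σ = ι₀ (epsilonPadic p σ : ℤ_[p])) (hσ₀ : σ₀ ∈ A.inertiaSubgroupIn ℚ)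
    (hunit : IsUnit (χ σ₀ - 1)) (hφ : A.IsFrobeniusAt φF p) :
    act' ((Top.unitRoot χ σ₀ φF PR.rep ^ 2 - 1) ^ (d' + 1)) = 0 := by
  rcases eq_or_ne d' 0 with rfl | hd'
  · exact Subsingleton.elim _ _
  obtain ⟨c, hc⟩ := H.exists_inv_cyclo hχ hunit
  obtain ⟨U₀, hU⟩ := H.exists_rootLevels hA c σ₀ φF
  obtain ⟨D, hnew⟩ := H.exists_degenCore H' hsΛ (α := α) hA hA' hpM hPl hinertia hσ₀ hφ hc hU
  rw [H'.act_defect_pow hsΛ PR hplace' hA' hSig hd' hact' hχ hc hU,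
    ← map_zero (LinearMap.toMatrix b' b')]
  refine (toMatrix_lsmul b' _ _ fun z => ?_).symm
  obtain ⟨a₁, a₂, h⟩ := hnew (fun ε z => ⟨0, Subsingleton.elim _ _⟩) d'
    (by rw [Module.finrank_eq_card_basis b', Fintype.card_fin]) z
  rw [LinearMap.zero_apply, h, Subsingleton.elim a₁ 0, Subsingleton.elim a₂ 0, map_zero, map_zero,
    add_zero]

end Fermat.Agent.Engine
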