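import Fermat.Agent.Engine.Lifting.Degeneracy
import Fermat.Agent.Engine.Lifting.NewPartP

/-!
# The degeneracy matrices between the levels `M` and `p M`

With `α` the unit root of the level ring, the composites are `(p + 1) + ε (α² + p)/α`, and a power of
`α² - 1` maps the classes of level `p M` to those coming from level `M`; it kills them when there
are none of level `M`.
-/

set_option linter.unusedSectionVars false

noncomputable section

namespace Fermat.Agent.Engine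

open EigenRep HeckeModule IsLocalRing DefRing Deform EigenSystems TRep TwoAdic Lifting

local notation "Qbar" => AlgebraicClosure ℚ

variable {p : ℕ} [Fact p.Prime] {O : Type} [CommRing O] [IsDomain O]
  [IsDiscreteValuationRing O] [IsAdicComplete (maximalIdeal O) O] [Finite (ResidueField O)]
  [CharZero O] {ι₀ : ℤ_[p] →+* O} {N₀ : ℕ} {lam : ℕ → O} {L₀ : LevelData O}
  (H : BaseSetting p ι₀ N₀ lam L₀)
  {Λ : Type} [CommRing Λ] [IsLocalRing Λ] [IsNoetherianRing Λ]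
  [IsAdicComplete (maximalIdeal Λ) Λ] [Algebra O Λ] [IsLocalHom (algebraMap O Λ)]
  [Module.Finite O Λ] [IsReduced Λ] [Module.IsTorsionFree ℤ Λ]
  (hsΛ : Function.Surjective (residue Λ ∘ algebraMap O Λ))
  {S Q : Finset ℕ} {ψ : ∀ q : ℕ, (ZMod q)ˣ →* Λ} {M : ℕ} [NeZero M] {α : ℕ → O}

include H

/-- The residue characteristic of the base ring. -/
theorem BaseSetting.charP_residue_base : CharP (ResidueField O) p :=
  H.charP_residue (Λ := O)

/-- An inverse of `ε σ₀ - 1`. -/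
theorem BaseSetting.exists_inv_cyclo {χ : GQ → O} (hχ : ∀ σ, χ σ = ι₀ (epsilonPadic p σ : ℤ_[p]))
    {σ₀ : GQ} (hunit : IsUnit (χ σ₀ - 1)) :
    ∃ c : ℤ_[p], c * ((epsilonPadic p σ₀ : ℤ_[p]) - 1) = 1 :=
  have := H.charP_residue_base
  exists_mul_epsilon_sub_one ι₀ hχ hunit

variable {P : Submonoid (HeckePoly Λ)} {Sig : Finset ℕ} {d : ℕ}

/-- An action of the level ring through the classified representation of the level. -/
theorem BaseSetting.exists_classified (hplace : TopPlaceHyp p ι₀ N₀ lam L₀)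
    (hA : LevelArith p N₀ L₀ S Q M ψ)
    (hSig : ∀ ℓ : ℕ, ℓ.Prime → ℓ ∣ M * (∏ q ∈ Q, q) * p → ℓ ∈ Sig)
    (PR : (L₀.withSigma Sig).RepRing) (hd : d ≠ 0)
    {b : Module.Basis (Fin d) Λ (CohLoc P (scalarRep (charSq ψ Q M) Λ))}
    {act : PR.R →+* Matrix (Fin d) (Fin d) Λ} (hact : IsLevelAct ι₀ hsΛ S lam ψ Q M PR b act) :
    Nontrivial (TwAlg hsΛ S lam ψ Q fun _ : Unit => M) ∧
    ∃ (φ : PR.R →ₐ[O] TwAlg hsΛ S lam ψ Q fun _ : Unit => M)
      (G : TwAlg hsΛ S lam ψ Q (fun _ : Unit => M) →ₐ[Λ] Matrix (Fin d) (Fin d) Λ),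
      IsLocalHom (φ : PR.R →+* TwAlg hsΛ S lam ψ Q fun _ : Unit => M) ∧
      (∀ [NeZero (M * ∏ q ∈ Q, q)] (hes : EichlerShimuraRelations (M * ∏ q ∈ Q, q) p) (g : GQ)
        (X : AwayPoly Λ (↑S : Set ℕ)),
        latHom (stdInputs hes) ((algebraMap O Λ).comp ι₀) S X =
            latTrace (stdInputs hes) ((algebraMap O Λ).comp ι₀) S g →
          (mapRep (φ : PR.R →+* _) PR.rep g).trace =
            twClass hsΛ S lam ψ Q (fun _ : Unit => M) (twistPoly (invChar ψ Q S) X)) ∧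
      (∀ X, G (twClass hsΛ S lam ψ Q (fun _ : Unit => M) X) =
        opMat b (awayIncl Λ (↑S : Set ℕ) X)) ∧
      ∀ x, act x = G (φ x) := by
  obtain ⟨φa, G, hla, hfa, hG, hxa⟩ := hact.family
  have : NeZero d := ⟨hd⟩
  have : Nontrivial (TwAlg hsΛ S lam ψ Q fun _ : Unit => M) :=
    (G : _ →+* Matrix (Fin d) (Fin d) Λ).domain_nontrivial
  refine ⟨inferInstance, ?_⟩
  obtain ⟨φ, hφl, hfrob, -, -, hlat⟩ := H.exists_familyAct hsΛ hA
    (M := fun _ : Unit => M) (fun _ => dvd_rfl) (fun _ q hq => (hA.aux q hq).2.1)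
    (fun _ => H.three_level hA) hplace hSig PR
  refine ⟨φ, G, hφl, fun {_} hes g X hX => ?_, hG, fun x => ?_⟩
  · rw [mapRep_apply, ← hlat hes g X hX]
    exact (AddMonoidHom.map_trace φ.toRingHom.toAddMonoidHom _).symm
  · have h := eq_of_frobenius hsΛ hsΛ hsΛ lam hd (AlgHom.id O Λ) (AlgHom.id O Λ)
      Function.surjective_id subset_rfl G G (fun l hl => rfl) (L₀.withSigma Sig) PR H.span φa hla φ
      hφl S (fun ℓ hℓ hℓS A hA τ hτ => by
        rw [hfa ℓ hℓ hℓS A hA τ hτ, hfrob ℓ hℓ hℓS A hA τ hτ]) x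
    simpa [hxa] using h

/-- The action of the unit root. -/
theorem BaseSetting.act_unitRoot (hplace : TopPlaceHyp p ι₀ N₀ lam L₀)
    (hA : LevelArith p N₀ L₀ S Q M ψ) [NeZero (M * ∏ q ∈ Q, q)]
    (hSig : ∀ ℓ : ℕ, ℓ.Prime → ℓ ∣ M * (∏ q ∈ Q, q) * p → ℓ ∈ Sig)
    (PR : (L₀.withSigma Sig).RepRing) (hd : d ≠ 0)
    {b : Module.Basis (Fin d) Λ (CohLoc P (scalarRep (charSq ψ Q M) Λ))}
    {act : PR.R →+* Matrix (Fin d) (Fin d) Λ} (hact : IsLevelAct ι₀ hsΛ S lam ψ Q M PR b act)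
    {χ : GQ → O} (hχ : ∀ σ, χ σ = ι₀ (epsilonPadic p σ : ℤ_[p])) {σ₀ φF : GQ} {c : ℤ_[p]}
    (hc : c * ((epsilonPadic p σ₀ : ℤ_[p]) - 1) = 1) {U₀ : AwayPoly ℤ_[p] (↑S : Set ℕ)}
    (hU : polyMat (stdInputs (eichlerShimuraRelations (N := M * ∏ q ∈ Q, q) (p := p))) S U₀ =
      rootMat (stdInputs (eichlerShimuraRelations (N := M * ∏ q ∈ Q, q) (p := p))) c σ₀ φF) :
    act (Top.unitRoot χ σ₀ φF PR.rep) = opHom b (awayIncl Λ (↑S : Set ℕ)
      (twistPoly (invChar ψ Q S) (MvPolynomial.map ((algebraMap O Λ).comp ι₀) U₀))) := by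
  have := H.charP_residue_base
  obtain ⟨hnt, φ, G, -, hlat, hG, hx⟩ := H.exists_classified hsΛ hplace hA hSig PR hd hact
  rw [hx, Top.map_unitRoot, unitRoot_eq_twClass hsΛ ι₀
    (H.twistData_family hA (M := fun _ : Unit => M) (fun _ => dvd_rfl) (fun _ q hq =>
      (hA.aux q hq).2.1) fun _ => H.three_level hA) _ hχ hc _ (hlat _) hU, hG, opMat_eq]

/-- **At a level prime to `p` the unit root is a unit, and `α (ψ(p)⁻¹ X_p) = α² + p`.** -/
theorem BaseSetting.act_heckeP (hplace : TopPlaceHyp p ι₀ N₀ lam L₀)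
    (hA : LevelArith p N₀ L₀ S Q M ψ) (hpM : ¬ p ∣ M)
    (hSig : ∀ ℓ : ℕ, ℓ.Prime → ℓ ∣ M * (∏ q ∈ Q, q) * p → ℓ ∈ Sig)
    (PR : (L₀.withSigma Sig).RepRing) (hd : d ≠ 0)
    {b : Module.Basis (Fin d) Λ
      (CohLoc (relMonoid hsΛ S lam L₀.Sigma α) (scalarRep (charSq ψ Q M) Λ))}
    {act : PR.R →+* Matrix (Fin d) (Fin d) Λ} (hact : IsLevelAct ι₀ hsΛ S lam ψ Q M PR b act)
    {A : ValuationSubring Qbar} (hPl : A.LiesOverPrime p)
    (hinertia : ∀ σ ∈ A.inertiaSubgroupIn ℚ, (L₀.D.rbar σ).trace = 1 + (L₀.D.rbar σ).det)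
    {χ : GQ → O} (hχ : ∀ σ, χ σ = ι₀ (epsilonPadic p σ : ℤ_[p])) {σ₀ φF : GQ}
    (hσ₀ : σ₀ ∈ A.inertiaSubgroupIn ℚ) (hunit : IsUnit (χ σ₀ - 1))
    (hφ : A.IsFrobeniusAt φF p) :
    IsUnit (Top.unitRoot χ σ₀ φF PR.rep) ∧
      act (Top.unitRoot χ σ₀ φF PR.rep) * opHom b
          (algebraMap Λ (HeckePoly Λ) (charProd (fun q => (ψ q).comp invMonoidHom) Q p) *
            MvPolynomial.X ⟨p, Fact.out⟩) =
        act (Top.unitRoot χ σ₀ φF PR.rep ^ 2 + (p : PR.R)) := by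
  have := H.charP_residue_base
  have : NeZero (M * ∏ q ∈ Q, q) := ⟨mul_ne_zero (NeZero.ne M)
    (Finset.prod_ne_zero_iff.mpr fun q hq => (hA.aux q hq).1.ne_zero)⟩
  have hp : p.Prime := Fact.out
  have hpT : ¬ p ∣ M * ∏ q ∈ Q, q :=
    not_dvd_mul_prod hp (fun q hq => ⟨(hA.aux q hq).1, (hA.aux q hq).2.1⟩) hpM
  obtain ⟨hnt, φ, G, hφl, hlat, hG, hx⟩ := H.exists_classified hsΛ hplace hA hSig PR hd hact
  obtain ⟨c, hc⟩ := H.exists_inv_cyclo hχ hunit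
  obtain ⟨U₀, hU₀⟩ := exists_poly_root (fun _ : Unit => M * ∏ q ∈ Q, q)
    (fun _ => stdInputs (eichlerShimuraRelations (N := M * ∏ q ∈ Q, q) (p := p))) S c σ₀ φF
  have HT : TwistData p S lam ψ Q (fun _ : Unit => M) (M * ∏ q ∈ Q, q) :=
    H.twistData_family hA (fun _ => dvd_rfl) (fun _ q hq => (hA.aux q hq).2.1)
      fun _ => H.three_level hA
  obtain ⟨h1, h2⟩ := HT.heckeP_eq hsΛ (eichlerShimuraRelations (N := M * ∏ q ∈ Q, q) (p := p)) ι₀
    hpT L₀.D.rbar H.span H.cont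
    (fun ℓ hℓ hℓS => H.trace_frob ℓ hℓ fun h => hℓS (hA.sub h)) H.detbar hPl hinertia hχ hσ₀ hunit
    hφ _ (hlat _)
  rw [unitRoot_eq_twClass hsΛ ι₀ HT _ hχ hc _ (hlat _) (hU₀ ())] at h2
  rw [← Top.map_unitRoot] at h1
  refine ⟨hφl.map_nonunit _ h1, ?_⟩
  set U := twistPoly (invChar ψ Q S) (MvPolynomial.map ((algebraMap O Λ).comp ι₀) U₀)
  rw [map_add, map_pow, map_natCast, H.act_unitRoot hsΛ hplace hA hSig PR hd hact hχ hc (hU₀ ()),
    pow_two, ← map_mul, ← map_mul, ← map_natCast (opHom b), ← map_add]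
  set a : HeckePoly Λ := algebraMap Λ (HeckePoly Λ)
    (charProd (fun q => (ψ q).comp invMonoidHom) Q p) * MvPolynomial.X ⟨p, Fact.out⟩
  have h3 : ∀ u : LevelCoh hsΛ S lam ψ Q (fun _ : Unit => M) (),
      (awayIncl Λ (↑S : Set ℕ) U * a) • u =
        (awayIncl Λ (↑S : Set ℕ) U * awayIncl Λ (↑S : Set ℕ) U + (p : HeckePoly Λ)) • u := by
    intro u
    have h := h2 () u
    rw [← map_natCast (twClass hsΛ S lam ψ Q fun _ : Unit => M), ← map_mul, ← map_add,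
      twClass_apply, twClass_apply, map_add, map_mul, map_natCast] at h
    rw [mul_smul]
    exact h
  have hn : (maximalIdeal Λ).map (algebraMap Λ (AwayPoly Λ (↑L₀.Sigma : Set ℕ))) ≤
      relaxIdeal (lamIdeal hsΛ S lam) (↑L₀.Sigma : Set ℕ) fun x => algebraMap O Λ (α x) :=
    le_relaxIdeal _ _ (maximalIdeal_le_lamIdeal hsΛ S lam)
  have hnm : awayMonoid (lamIdeal hsΛ S lam) ≤ awayMonoid
      (relaxIdeal (lamIdeal hsΛ S lam) (↑L₀.Sigma : Set ℕ) fun x => algebraMap O Λ (α x)) :=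
    lamIdeal_le_relMonoid hsΛ S lam L₀.Sigma α hA.sub
  have : Module.Finite Λ (CohLoc (awayMonoid (lamIdeal hsΛ S lam))
      (scalarRep (charSq ψ Q M) Λ)) := finite_cohLoc _ _ (maximalIdeal_le_lamIdeal hsΛ S lam)
  have h4 : ∀ z : CohLoc (awayMonoid (relaxIdeal (lamIdeal hsΛ S lam) (↑L₀.Sigma : Set ℕ)
        fun x => algebraMap O Λ (α x))) (scalarRep (charSq ψ Q M) Λ),
      (awayIncl Λ (↑S : Set ℕ) U * a) • z =
        (awayIncl Λ (↑S : Set ℕ) U * awayIncl Λ (↑S : Set ℕ) U + (p : HeckePoly Λ)) • z := by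
    intro z
    conv_lhs => rw [← locMono_relIncl hn hnm z, ← map_smul, h3, map_smul, locMono_relIncl]
  exact (toMatrix_lsmul b _ (Algebra.lsmul Λ Λ _ (A := HeckePoly Λ)
    (awayIncl Λ (↑S : Set ℕ) U * a)) h4)

end Fermat.Agent.Engine
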