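import Fermat.Agent.Engine.Lifting.RaiseDegen
import Fermat.Agent.Engine.Lifting.Main
import Fermat.Agent.Engine.LiftingRaising
import Fermat.Agent.Engine.TWCrys.AuxLevels

/-!
# The raising data at `p` for the lifting families

`LevelSetting.exists_raisingData`: between the families over `N₀` and `p N₀`, with `e = α² - 1`.
`LevelSetting.exists_pow_act_eq_zero`: without classes at the levels prime to `p` a power of `e`
kills the family with `p`.
-/

set_option linter.unusedSectionVars false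

noncomputable section

namespace Fermat.Agent.Engine

open EigenRep HeckeModule IsLocalRing DefRing Deform EigenSystems TRep Lifting

local notation "Qbar" => AlgebraicClosure ℚ

variable {p : ℕ} [Fact p.Prime] {O : Type} [CommRing O] [IsDomain O]
  [IsDiscreteValuationRing O] [IsAdicComplete (maximalIdeal O) O] [Finite (ResidueField O)]
  [CharZero O] [Fact ((p : O) ∈ maximalIdeal O)] {ι₀ : ℤ_[p] →+* O} {N₀ : ℕ} {lam : ℕ → O}
  {T : Type} [Fintype T] {qv : T → ℕ} {L₀ : LevelData O} {frob tame : T → GQ}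
  {r : ℕ} {r₀ : T} {Φ₀ : T → Matrix (Fin 2) (Fin 2) O} {PB : L₀.RepRing}
  {X : AuxLevels r r₀ frob tame Φ₀ L₀ PB} {Q : ℕ → Fin r → ℕ}

/-- The modules of a lifting family are non-zero at every `L`. -/
theorem LiftingLevels.rank_ne_zero_all (B : LiftingLevels p qv X) (L : Finset T) :
    B.rank L ≠ 0 := by
  classical
  induction L using Finset.induction_on with
  | empty => exact B.rank_ne_zero
  | insert v L hv ih =>
    intro h
    obtain ⟨l₁, l₂, h1, -⟩ := B.split L v (insert v L) hv (fun w => Finset.mem_insert) 0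
    have : IsEmpty (Fin (B.rank (insert v L))) := by rw [h]; infer_instance
    have : NeZero (B.rank L) := ⟨ih⟩
    have h2 := congrFun (congrFun h1 0) 0
    rw [Matrix.mul_apply, Fintype.sum_empty, Matrix.one_apply_eq] at h2
    exact zero_ne_one h2

/-- Below a level setting with `p` in the base level. -/
theorem LevelSetting.levelOK_below (S' : LevelSetting p ι₀ (p * N₀) lam qv L₀ frob tame)
    (L : Finset T) : LevelOK p N₀ L₀ (liftLevel N₀ qv L) := by
  have h := S'.levelOK L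
  have hp : p.Prime := Fact.out
  have e : liftLevel (p * N₀) qv L = p * liftLevel N₀ qv L := mul_assoc _ _ _
  rw [e] at h
  refine ⟨right_ne_zero_of_mul h.ne_zero, dvd_mul_right _ _, fun hd => h.p_not_dvd ?_,
    fun ℓ hℓ hd => h.mem ℓ hℓ (hd.trans (mul_dvd_mul_right (dvd_mul_left _ p) p)),
    fun q hq hd => h.smin q hq (hd.trans (dvd_mul_left _ p))⟩
  rwa [Nat.mul_div_mul_left _ _ hp.pos]

/-- The base hypotheses below a level setting with `p` in the base level. -/
theorem LevelSetting.baseSetting_below (S' : LevelSetting p ι₀ (p * N₀) lam qv L₀ frob tame) :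
    BaseSetting p ι₀ N₀ lam L₀ :=
  { S'.toBaseSetting with
    three := S'.three.of_self_mul Fact.out
    sigma := fun ℓ hℓ hd => S'.sigma ℓ hℓ (hd.trans (mul_dvd_mul_right (dvd_mul_left _ p) p))
    smin := fun q hq => ⟨(S'.smin q hq).1, (S'.smin q hq).2.1,
      fun hd => (S'.smin q hq).2.2.1 (hd.trans (dvd_mul_left _ p)), (S'.smin q hq).2.2.2⟩ }

/-- The arithmetic of the levels `M` and `p M` of the two families. -/
theorem LevelSetting.arith_pair (S' : LevelSetting p ι₀ (p * N₀) lam qv L₀ frob tame)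
    (hpN : ¬ p ∣ N₀) (hX : AuxPrimes p X Q) {α : ℕ → ℕ → O}
    {ψ : ∀ n q : ℕ, (ZMod q)ˣ →* TwQuot O p r n} (hTW : TWData p lam Q X.tw α ψ)
    (L : Finset T) (n : ℕ) :
    let M := liftLevel N₀ qv L * ∏ q ∈ Finset.univ.image (Q n), q
    LevelArith p N₀ L₀ (X.Sigma n) (Finset.univ.image (Q n)) M (ψ n) ∧
      LevelArith p (p * N₀) L₀ (X.Sigma n) (Finset.univ.image (Q n)) (p * M) (ψ n) ∧ ¬ p ∣ M := by
  intro M
  have hp : p.Prime := Fact.out
  have hQ : ∀ q ∈ Finset.univ.image (Q n), q.Prime ∧ q ≠ p ∧ q ∉ L₀.Sigma := fun q hq =>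
    ⟨(hX.mem_image n q hq).1, (hX.mem_image n q hq).2.1, (hX.mem_image n q hq).2.2.1⟩
  have hsmin : ∀ q ∈ L₀.Smin, q.Prime ∧ q ∈ L₀.Sigma :=
    fun q hq => ⟨(S'.smin q hq).1, (S'.smin q hq).2.2.2⟩
  have e : p * M = liftLevel (p * N₀) qv L * ∏ q ∈ Finset.univ.image (Q n), q := by
    simp only [M, liftLevel, mul_assoc]
  refine ⟨(S'.levelOK_below L).arith hp S'.toBaseSetting.p_mem_sigma (hX.sigma_eq n)
      (fun q hq => ⟨(hQ q hq).1, (hQ q hq).2.2⟩) hsmin fun q _ => hTW.pow_one n q,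
    e ▸ (S'.levelOK L).arith hp S'.toBaseSetting.p_mem_sigma (hX.sigma_eq n)
      (fun q hq => ⟨(hQ q hq).1, (hQ q hq).2.2⟩) hsmin fun q _ => hTW.pow_one n q, fun h => ?_⟩
  rcases hp.dvd_mul.mp h with h | h
  · rcases hp.dvd_mul.mp h with h | h
    · exact hpN h
    · obtain ⟨v, -, hv⟩ := (Prime.dvd_finsetProd_iff hp.prime _).mp h
      exact S'.framed.ne_p v ((Nat.prime_dvd_prime_iff_eq hp (S'.framed.prime v)).mp hv).symm
  · obtain ⟨q, hq, hd⟩ := (Prime.dvd_finsetProd_iff hp.prime _).mp h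
    exact (hQ q hq).2.1 ((Nat.prime_dvd_prime_iff_eq hp (hQ q hq).1).mp hd).symm

variable {A : ValuationSubring Qbar} (hPl : A.LiesOverPrime p)
  (hinertia : ∀ σ ∈ A.inertiaSubgroupIn ℚ, (L₀.D.rbar σ).trace = 1 + (L₀.D.rbar σ).det)
  {χ : GQ → O} (hχ : ∀ σ, χ σ = ι₀ (epsilonPadic p σ : ℤ_[p])) {σ₀ φF : GQ}
  (hσ₀ : σ₀ ∈ A.inertiaSubgroupIn ℚ) (hunit : IsUnit (χ σ₀ - 1)) (hφ : A.IsFrobeniusAt φF p)
  {e : ∀ n, (X.P n).R} (he : ∀ n, e n = Top.unitRoot χ σ₀ φF (X.P n).rep ^ 2 - 1)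
  (hX : AuxPrimes p X Q) {α : ℕ → ℕ → O} {ψ : ∀ n q : ℕ, (ZMod q)ˣ →* TwQuot O p r n}
  (hTW : TWData p lam Q X.tw α ψ) (hpN : ¬ p ∣ N₀)

include hPl hinertia hχ hσ₀ hunit hφ he hX hTW hpN

/-- **The raising data at `p`.** -/
theorem LevelSetting.exists_raisingData (S : LevelSetting p ι₀ N₀ lam qv L₀ frob tame)
    (S' : LevelSetting p ι₀ (p * N₀) lam qv L₀ frob tame)
    (hplace : TopPlaceHyp p ι₀ N₀ lam L₀) (hplace' : TopPlaceHyp p ι₀ (p * N₀) lam L₀)
    (B B' : LiftingLevels p qv X)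
    (hB : ∀ (L : Finset T) (n : ℕ) (M : ℕ) [NeZero M],
      M = liftLevel N₀ qv L * ∏ q ∈ Finset.univ.image (Q n), q →
      ∃ b : Module.Basis (Fin (B.rank L)) (TwQuot O p r n) (CohLoc
          (relMonoid (surjective_residue_twQuot O p r n) (X.Sigma n) lam L₀.Sigma (α n))
          (scalarRep (charSq (ψ n) (Finset.univ.image (Q n)) M) (TwQuot O p r n))),
        IsLevelAct ι₀ (surjective_residue_twQuot O p r n) (X.Sigma n) lam (ψ n)
          (Finset.univ.image (Q n)) M (X.P n) b (B.act L n))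
    (hB' : ∀ (L : Finset T) (n : ℕ) (M : ℕ) [NeZero M],
      M = liftLevel (p * N₀) qv L * ∏ q ∈ Finset.univ.image (Q n), q →
      ∃ b : Module.Basis (Fin (B'.rank L)) (TwQuot O p r n) (CohLoc
          (relMonoid (surjective_residue_twQuot O p r n) (X.Sigma n) lam L₀.Sigma (α n))
          (scalarRep (charSq (ψ n) (Finset.univ.image (Q n)) M) (TwQuot O p r n))),
        IsLevelAct ι₀ (surjective_residue_twQuot O p r n) (X.Sigma n) lam (ψ n)
          (Finset.univ.image (Q n)) M (X.P n) b (B'.act L n))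
    (ε : ℤˣ) (hsign : Top.unitRoot χ σ₀ φF L₀.D.rbar + signCast ε = 0) (L : Finset T) :
    Nonempty (LiftingLevels.RaisingData B B' L e) := by
  classical
  have hmem : ∀ n, Top.unitRoot χ σ₀ φF (X.P n).rep + signCast ε ∈ maximalIdeal (X.P n).R :=
    fun n => mem_maximalIdeal_of_natural (X.P n)
      (fun {A : Type} [CommRing A] [Algebra O A] (N : MRep A) =>
        Top.unitRoot χ σ₀ φF N + (signCast ε : A))
      (fun f N => by rw [map_add, Top.map_unitRoot, signCast, signCast, map_intCast]) hsign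
  have hdeg : ∀ n, ∃ (U₁ U₂ : Matrix (Fin (B'.rank L)) (Fin (B.rank L)) (TwQuot O p r n))
      (D : Matrix (Fin (B.rank L)) (Fin (B'.rank L)) (TwQuot O p r n)),
      (∀ x, B'.act L n x * U₁ = U₁ * B.act L n x) ∧ (∀ x, B'.act L n x * U₂ = U₂ * B.act L n x) ∧
      (∀ x, B.act L n x * D = D * B'.act L n x) ∧
      (∃ l₁ l₂ : Matrix (Fin (B.rank L)) (Fin (B'.rank L)) (TwQuot O p r n),
        l₁ * U₁ = 1 ∧ l₁ * U₂ = 0 ∧ l₂ * U₁ = 0 ∧ l₂ * U₂ = 1) ∧
      (∃ s : Matrix (Fin (B'.rank L)) (Fin (B.rank L)) (TwQuot O p r n), D * s = 1) ∧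
      (∃ K₁ K₂ : Matrix (Fin (B.rank L)) (Fin (B.rank L)) (TwQuot O p r n),
        D * U₁ = B.act L n (e n) * K₁ ∧ D * U₂ = B.act L n (e n) * K₂) ∧
      ∃ J₁ J₂ : Matrix (Fin (B.rank L)) (Fin (B'.rank L)) (TwQuot O p r n),
        B'.act L n (e n ^ (B'.rank L + 1)) = U₁ * J₁ + U₂ * J₂ := by
    intro n
    obtain ⟨hA, hA', hpM⟩ := S'.arith_pair hpN hX hTW L n
    set M := liftLevel N₀ qv L * ∏ q ∈ Finset.univ.image (Q n), q with hM
    have : NeZero M := ⟨mul_ne_zero (S.levelOK L).ne_zero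
      (Finset.prod_ne_zero_iff.mpr fun q hq => (hA.aux q hq).1.ne_zero)⟩
    have : NeZero (p * M) := ⟨mul_ne_zero (Fact.out : p.Prime).ne_zero (NeZero.ne M)⟩
    obtain ⟨b, hb⟩ := hB L n M rfl
    obtain ⟨b', hb'⟩ := hB' L n (p * M) (by simp only [hM, liftLevel, mul_assoc])
    obtain ⟨U₁, U₂, D, h1, h2, h3, h4, h5, h6, h7⟩ :=
      S.toBaseSetting.exists_degeneracyP S'.toBaseSetting (surjective_residue_twQuot O p r n)
        (X.P n) hplace hplace' hA hA' hpM hA'.mem_S (B.rank_ne_zero_all L) (B'.rank_ne_zero_all L)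
        hb hb' hPl hinertia hχ hσ₀ hunit hφ
    obtain ⟨K, hK₁, hK₂⟩ := h6 ε (hmem n)
    rw [← he n] at hK₁ hK₂ h7
    exact ⟨U₁, U₂, D ε, h1, h2, h3 ε, h4, h5 ε, ⟨B.act L n K, B.act L n (signCast ε * K),
      hK₁.trans (map_mul _ _ _), hK₂.trans (map_mul _ _ _)⟩, h7⟩
  choose U₁ U₂ D h1 h2 h3 h4 h5 h6 h7 using hdeg
  exact ⟨{ up₁ := U₁, up₂ := U₂, down := D, up₁_comm := h1, up₂_comm := h2, down_comm := h3,
           split := h4, down_section := h5, down_up := h6, new_part := ⟨B'.rank L + 1, h7⟩ }⟩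

/-- **Without classes prime to `p`, a power of `e` kills the family with `p`.** -/
theorem LevelSetting.exists_pow_act_eq_zero
    (S' : LevelSetting p ι₀ (p * N₀) lam qv L₀ frob tame) (hplace : TopPlaceHyp p ι₀ N₀ lam L₀)
    (hplace' : TopPlaceHyp p ι₀ (p * N₀) lam L₀) (B' : LiftingLevels p qv X)
    (hB' : ∀ (L : Finset T) (n : ℕ) (M : ℕ) [NeZero M],
      M = liftLevel (p * N₀) qv L * ∏ q ∈ Finset.univ.image (Q n), q →
      ∃ b : Module.Basis (Fin (B'.rank L)) (TwQuot O p r n) (CohLoc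
          (relMonoid (surjective_residue_twQuot O p r n) (X.Sigma n) lam L₀.Sigma (α n))
          (scalarRep (charSq (ψ n) (Finset.univ.image (Q n)) M) (TwQuot O p r n))),
        IsLevelAct ι₀ (surjective_residue_twQuot O p r n) (X.Sigma n) lam (ψ n)
          (Finset.univ.image (Q n)) M (X.P n) b (B'.act L n))
    (L : Finset T) [Subsingleton (CohLoc
      (awayMonoid (lamIdeal (Λ := O) (residue_surjective (R := O)) L₀.Sigma lam))
      (scalarRep (1 : (ZMod (liftLevel N₀ qv L))ˣ →* O) O))] :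
    ∃ k : ℕ, ∀ n, B'.act L n (e n ^ k) = 0 := by
  classical
  refine ⟨B'.rank L + 1, fun n => ?_⟩
  obtain ⟨hA, hA', hpM⟩ := S'.arith_pair hpN hX hTW L n
  have H := S'.baseSetting_below
  have hN := S'.levelOK_below L
  have : NeZero (liftLevel N₀ qv L) := ⟨hN.ne_zero⟩
  set M := liftLevel N₀ qv L * ∏ q ∈ Finset.univ.image (Q n), q with hM
  have : NeZero M := ⟨mul_ne_zero hN.ne_zero
    (Finset.prod_ne_zero_iff.mpr fun q hq => (hA.aux q hq).1.ne_zero)⟩
  have : NeZero (p * M) := ⟨mul_ne_zero (Fact.out : p.Prime).ne_zero (NeZero.ne M)⟩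
  obtain ⟨b', hb'⟩ := hB' L n (p * M) (by simp only [hM, liftLevel, mul_assoc])
  -- no classes of level `M`
  set Qn := Finset.univ.image (Q n) with hQn
  have hQ : ∀ q ∈ Qn, q.Prime ∧ q ≠ p ∧ q ∉ L₀.Sigma ∧ p ∣ q - 1 := hX.mem_image n
  have hroots : ∀ q ∈ Qn, ∃ β : O, α n q + β - lam q ∈ maximalIdeal O ∧
      α n q * β - q ∈ maximalIdeal O ∧ IsUnit (α n q - β) ∧ IsUnit (α n q * α n q - 1) ∧
      IsUnit (((q : O) + 1) * ((q : O) + 1) - (α n q + β) * (α n q + β)) := fun q hq => by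
    obtain ⟨i, -, rfl⟩ := Finset.mem_image.mp hq
    exact hTW.roots n i
  choose β' hβ' using hroots
  obtain ⟨c, -⟩ := (H.ofLevel hN).exists_levelBasis_of_roots (hplace.ofLevel hN) (X.P n) Qn hQ
    (α n) (fun q => if h : q ∈ Qn then β' q h else 0)
    (fun q hq => by rw [dif_pos hq]; exact hβ' q hq) (hX.sigma_eq n).ge M (mul_comm _ _)
    (Module.Basis.empty _ : Module.Basis (Fin 0) O (CohLoc
      (awayMonoid (lamIdeal (Λ := O) (residue_surjective (R := O)) L₀.Sigma lam))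
      (scalarRep (1 : (ZMod (liftLevel N₀ qv L))ˣ →* O) O)))
  rw [← hX.sigma_eq n] at c
  have hσ1 : ∀ u, twAugAlg O p r n (charSq (ψ n) Qn M u) = (1 : (ZMod M)ˣ →* O) u :=
    map_charSq_eq_one (twAugAlg O p r n : TwQuot O p r n →* O) (fun q hq v => by
      obtain ⟨i, -, rfl⟩ := Finset.mem_image.mp hq
      exact hTW.aug n i v) M
  have hσl : IsLocalHom (twAugAlg O p r n : TwQuot O p r n →+* O) :=
    isLocalHom_of_surjective' (twAugAlg O p r n : TwQuot O p r n →+* O)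
      (twAugAlg_surjective O p r n)
  obtain ⟨b, -⟩ := exists_liftBasis (surjective_residue_twQuot O p r n)
    (residue_surjective (R := O)) (twAugAlg O p r n) hσl (twAugAlg_surjective O p r n) (X.Sigma n)
    lam L₀.Sigma (α n) hσ1
    (exactHyp_relMonoid (surjective_residue_twQuot O p r n) _ lam _ (α n) hA.sub
      (H.exactHyp_member (surjective_residue_twQuot O p r n) hA (fun _ : Unit => dvd_rfl)
        (fun _ q hq => (hA.aux q hq).2.1) (fun _ => H.three_level hA) ())) c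
  have : Subsingleton (CohLoc
      (relMonoid (surjective_residue_twQuot O p r n) (X.Sigma n) lam L₀.Sigma (α n))
      (scalarRep (charSq (ψ n) Qn M) (TwQuot O p r n))) := b.repr.injective.subsingleton
  rw [he n]
  exact H.pow_act_eq_zero_of_new S'.toBaseSetting (surjective_residue_twQuot O p r n) (X.P n)
    hplace' hA hA' hpM hA'.mem_S hb' hPl hinertia hχ hσ₀ hunit hφ

end Fermat.Agent.Engine
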