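import Fermat.Agent.Engine.OrdTop.NewRoot
import Fermat.Agent.Engine.Lifting.NormMat
import Fermat.Agent.Engine.Lifting.CommonPoly
import Fermat.Agent.Engine.Lifting.HeckeP
import Fermat.Agent.Engine.Lifting.PolyMat

/-!
# The unit root on the lattices at `v = p`

For a residual system with unit root, some polynomial outside its ideal times `u ^ 2 - 1` kills the
common kernel of the two norms from level `M p`, and the vectors of level `M` on which `T_p ^ 2` is
`(p + 1) ^ 2`; also over fields of characteristic zero.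
-/

set_option linter.unusedSectionVars false

noncomputable section

namespace Fermat.Agent.Engine.Lifting

open EigenRep HeckeModule TRep Matrix ModularCurve IsLocalRing SemistableRed

local notation "GQ" => AlgebraicClosure ℚ ≃ₐ[ℚ] AlgebraicClosure ℚ

section Generic

variable {N p : ℕ} [NeZero N] [Fact p.Prime] (I : RepInputs N p) (S : Finset ℕ)

/-- A Hecke matrix commutes with the polynomials. -/
theorem polyMat_commute (l : Nat.Primes) (P : AwayPoly ℤ_[p] (↑S : Set ℕ)) :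
    Commute (heckeMat I.model l) (polyMat I S P) := by
  induction P using MvPolynomial.induction_on with
  | C c => rw [polyMat_C]; exact (Commute.one_right _).smul_right c
  | add P Q hP hQ => rw [map_add]; exact hP.add_right hQ
  | mul_X P l' hP =>
    rw [map_mul, polyMat_X]
    exact hP.mul_right (OrdTop.heckeMat_commute I l _)

end Generic

variable {p : ℕ} [Fact p.Prime] (S : Finset ℕ) {k : Type} [Field k] [Finite k] [CharP k p]
  (lam₀ : AwayPoly ℤ_[p] (↑S : Set ℕ) →+* k)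

/-- A residual system with its representation, at the prime of a place. -/
structure RootData (A : ValuationSubring (AlgebraicClosure ℚ)) (σ₀ φ : GQ) (c : ℤ_[p]) : Prop where
  three_le : 3 ≤ p
  exists_rbar : ∃ ρbar : GQ →* Matrix (Fin 2) (Fin 2) k,
    (∃ L : IntermediateField ℚ (AlgebraicClosure ℚ), FiniteDimensional ℚ L ∧
      ∀ σ : GQ, (∀ a ∈ L, σ a = a) → ρbar σ = 1) ∧
    Submodule.span k (Set.range ρbar) = ⊤ ∧
    (∀ (ℓ : ℕ) (hℓ : ℓ.Prime) (hS : ℓ ∉ S), ∀ B : ValuationSubring (AlgebraicClosure ℚ),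
      B.LiesOverPrime ℓ → ∀ σ : GQ, B.IsFrobeniusAt σ ℓ →
        (ρbar σ).trace = lam₀ (MvPolynomial.X ⟨⟨ℓ, hℓ⟩, hS⟩)) ∧
    (∀ g, (ρbar g).det = lam₀ (MvPolynomial.C (epsilonPadic p g : ℤ_[p]))) ∧
    ∀ σ ∈ A.inertiaSubgroupIn ℚ, (ρbar σ).trace = 1 + (ρbar σ).det
  above : A.LiesOverPrime p
  inertia : σ₀ ∈ A.inertiaSubgroupIn ℚ
  frob : A.IsFrobeniusAt φ p
  inv : c * ((epsilonPadic p σ₀ : ℤ_[p]) - 1) = 1

/-- The matrix of the unit root. -/
def rootMat {N : ℕ} [NeZero N] (I : RepInputs N p) (c : ℤ_[p]) (σ₀ φ : GQ) :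
    Matrix (Fin I.model.d) (Fin I.model.d) ℤ_[p] :=
  c • ((epsilonPadic p σ₀ : ℤ_[p]) • tMat I φ - tMat I (σ₀ * φ))

/-- The unit root of the away algebra has matrix `rootMat`. -/
theorem coe_awayRoot {N : ℕ} [NeZero N] (I : RepInputs N p) (c : ℤ_[p]) (σ₀ φ : GQ) :
    (OrdTop.awayRoot I S c σ₀ φ : Matrix (Fin I.model.d) (Fin I.model.d) ℤ_[p]) =
      rootMat I c σ₀ φ := by
  rw [rootMat, Algebra.smul_def, Algebra.smul_def]
  rfl

variable {A : ValuationSubring (AlgebraicClosure ℚ)} {σ₀ φ : GQ} {c : ℤ_[p]}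

/-- What the residual system gives at a level where it occurs. -/
theorem exists_residual_data (H : RootData S lam₀ A σ₀ φ c) {N : ℕ} [NeZero N] (I : RepInputs N p)
    (hNS : ∀ q : ℕ, q.Prime → q ∣ N * p → q ∈ S)
    (hker : RingHom.ker (latHom I (RingHom.id ℤ_[p]) S) ≤ RingHom.ker lam₀) :
    haveI := RingHom.ker_isPrime lam₀
    ∃ (res : TLoc I (RingHom.id ℤ_[p]) S (RingHom.ker lam₀) →+* k)
      (ρbar : GQ →* Matrix (Fin 2) (Fin 2) k),
      (∀ P, res (tHom I (RingHom.id ℤ_[p]) S (RingHom.ker lam₀) P) = lam₀ P) ∧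
      (∀ g, res (tTrace I (RingHom.id ℤ_[p]) S (RingHom.ker lam₀) g) = (ρbar g).trace) ∧
      (∀ g, res (tInt I (RingHom.id ℤ_[p]) S (RingHom.ker lam₀) (epsilonPadic p g : ℤ_[p])) =
        (ρbar g).det) ∧
      Submodule.span k (Set.range ρbar) = ⊤ ∧
      (∀ σ ∈ A.inertiaSubgroupIn ℚ, (ρbar σ).trace = 1 + (ρbar σ).det) := by
  have := RingHom.ker_isPrime lam₀
  obtain ⟨ρbar, hfin, hspan, htr, hdet, hinertia⟩ := H.exists_rbar
  obtain ⟨res, hres⟩ := exists_residual I (RingHom.id ℤ_[p]) S (RingHom.ker lam₀) lam₀ hker rfl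
  refine ⟨res, ρbar, hres, residual_trace I _ S _ lam₀ hNS res hres (CharP.cast_eq_zero k p) ρbar
    hfin htr, fun g => ?_, hspan, hinertia⟩
  have h := hres (algebraMap ℤ_[p] _ (epsilonPadic p g : ℤ_[p]))
  rw [AlgHom.commutes, MvPolynomial.algebraMap_eq] at h
  rw [hdet, ← h]
  rfl

/-- The unit root is not in the ideal. -/
theorem rootPoly_not_mem (H : RootData S lam₀ A σ₀ φ c) {N : ℕ} [NeZero N] (I : RepInputs N p)
    (hNS : ∀ q : ℕ, q.Prime → q ∣ N * p → q ∈ S)
    (hker : RingHom.ker (latHom I (RingHom.id ℤ_[p]) S) ≤ RingHom.ker lam₀)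
    {U : AwayPoly ℤ_[p] (↑S : Set ℕ)} (hU : polyMat I S U = rootMat I c σ₀ φ) : lam₀ U ≠ 0 := by
  have := RingHom.ker_isPrime lam₀
  obtain ⟨res, ρbar, hres, htr, hdet, hspan, hinertia⟩ := exists_residual_data S lam₀ H I hNS hker
  obtain ⟨Xφ, hXφ⟩ := latHom_surjective I (RingHom.id ℤ_[p]) S (latTrace I _ S φ)
  obtain ⟨Xψ, hXψ⟩ := latHom_surjective I (RingHom.id ℤ_[p]) S (latTrace I _ S (σ₀ * φ))
  have hX : ∀ g X, latHom I (RingHom.id ℤ_[p]) S X = latTrace I (RingHom.id ℤ_[p]) S g →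
      lam₀ X = (ρbar g).trace := fun g X hX => by
    rw [← hres, ← htr]
    exact congrArg (fun y => res (algebraMap (LatAlg I (RingHom.id ℤ_[p]) S)
      (TLoc I (RingHom.id ℤ_[p]) S (RingHom.ker lam₀)) y)) hX
  set U' : AwayPoly ℤ_[p] (↑S : Set ℕ) :=
    MvPolynomial.C c * (MvPolynomial.C (epsilonPadic p σ₀ : ℤ_[p]) * Xφ - Xψ) with hU'
  have hUU : lam₀ U = lam₀ U' := by
    rw [← sub_eq_zero, ← map_sub]
    refine RingHom.mem_ker.mp (hker ?_)
    rw [RingHom.mem_ker]
    refine Subtype.ext ?_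
    rw [← matEnd_polyMat, map_sub (polyMat I S), hU, hU', map_mul (polyMat I S),
      map_sub (polyMat I S), map_mul (polyMat I S), polyMat_C, polyMat_C,
      polyMat_eq I S (congrArg Subtype.val hXφ), polyMat_eq I S (congrArg Subtype.val hXψ),
      smul_mul_assoc, smul_mul_assoc, one_mul, one_mul]
    show matEnd I _ (rootMat I c σ₀ φ - rootMat I c σ₀ φ) = (0 : LatAlg I _ S).1
    rw [sub_self, map_zero]
    rfl
  rw [hUU, hU', map_mul, map_sub, map_mul, hX φ Xφ hXφ, hX _ Xψ hXψ]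
  have hc := congrArg (fun x => lam₀ (MvPolynomial.C x)) H.inv
  simp only [map_mul, map_sub, map_one] at hc
  have hedet : ∀ g, lam₀ (MvPolynomial.C (epsilonPadic p g : ℤ_[p])) = (ρbar g).det := fun g => by
    rw [← hres, ← hdet, ← MvPolynomial.algebraMap_eq, AlgHom.commutes]
    rfl
  rw [hedet] at hc ⊢
  refine mul_ne_zero (left_ne_zero_of_mul (hc.trans_ne one_ne_zero))
    (unitRoot_residual_ne_zero ρbar (hinertia σ₀ H.inertia) ?_ fun h => by
      rw [h, sub_self, mul_zero] at hc; exact zero_ne_one hc)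
  rw [hinertia _ (mul_mem H.inertia (conj_mem_inertia H.frob.mem_decompositionSubgroup H.inertia)),
    map_mul, Matrix.det_mul, map_mul, map_mul, Matrix.det_mul, Matrix.det_mul,
    mul_comm (ρbar φ).det, mul_assoc (ρbar σ₀).det, ← Matrix.det_mul (ρbar φ), ← map_mul,
    mul_inv_cancel, map_one, Matrix.det_one, mul_one]

/-- A polynomial killing the lattice makes every statement trivial. -/
theorem exists_ker_not_mem {N : ℕ} [NeZero N] (I : RepInputs N p)
    (hker : ¬ RingHom.ker (latHom I (RingHom.id ℤ_[p]) S) ≤ RingHom.ker lam₀) :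
    ∃ a, lam₀ a ≠ 0 ∧ polyMat I S a = 0 := by
  obtain ⟨a, ha, hne⟩ := SetLike.not_le_iff_exists.mp hker
  refine ⟨a, fun h => hne (RingHom.mem_ker.mpr h), polyMat_eq I S ?_⟩
  rw [show latHom I (RingHom.id ℤ_[p]) S a = 0 from RingHom.mem_ker.mp ha, map_zero]
  rfl

/-- **Level `M`**: a multiple of `u ^ 2 - 1` kills where `T_p ^ 2 = (p + 1) ^ 2`. -/
theorem exists_old_killer (H : RootData S lam₀ A σ₀ φ c) {N : ℕ} [NeZero N] (I : RepInputs N p)
    (hpN : ¬ p ∣ N) (hNS : ∀ q : ℕ, q.Prime → q ∣ N * p → q ∈ S)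
    {U : AwayPoly ℤ_[p] (↑S : Set ℕ)} (hU : polyMat I S U = rootMat I c σ₀ φ) :
    ∃ a, lam₀ a ≠ 0 ∧ ∀ (K : Type) [Field K] (ι : ℤ_[p] →+* K) (x : Lat I K),
      matEnd I ι (heckeMat I.model (⟨p, Fact.out⟩ : Nat.Primes))
          (matEnd I ι (heckeMat I.model (⟨p, Fact.out⟩ : Nat.Primes)) x) = ((p : K) + 1) ^ 2 • x →
        matEnd I ι (polyMat I S (a * (U ^ 2 - 1))) x = 0 := by
  classical
  have := RingHom.ker_isPrime lam₀
  by_cases hker : RingHom.ker (latHom I (RingHom.id ℤ_[p]) S) ≤ RingHom.ker lam₀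
  swap
  · obtain ⟨a, ha, ha0⟩ := exists_ker_not_mem S lam₀ I hker
    exact ⟨a, ha, fun K _ ι x _ => by rw [map_mul (polyMat I S), ha0, zero_mul, map_zero]; rfl⟩
  have := isLocalRing_tLoc I (RingHom.id ℤ_[p]) S (RingHom.ker lam₀) hker
  obtain ⟨res, ρbar, hres, htr, hdet, hspan, hinertia⟩ := exists_residual_data S lam₀ H I hNS hker
  obtain ⟨a₀, ha₀, h₀⟩ := exists_heckeP_eq I (RingHom.id ℤ_[p]) S (RingHom.ker lam₀) res H.three_le
    hpN hNS (fun b hb => (hres b).trans (RingHom.mem_ker.mp hb)) ρbar htr hdet hspan H.above hinertia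
    H.inertia H.frob H.inv
  have hUn := rootPoly_not_mem S lam₀ H I hNS hker hU
  refine ⟨a₀ * a₀ * (U ^ 2 - MvPolynomial.C ((p : ℤ_[p]) ^ 2)), ?_, fun K _ ι x hx => ?_⟩
  · rw [map_mul, map_mul, map_sub, map_pow, map_pow, map_natCast, map_pow, map_natCast,
      CharP.cast_eq_zero, zero_pow two_ne_zero, sub_zero]
    have h : lam₀ a₀ ≠ 0 := fun h => ha₀ (RingHom.mem_ker.mpr h)
    exact mul_ne_zero (mul_ne_zero h h) (pow_ne_zero 2 hUn)
  set T := heckeMat I.model (⟨p, Fact.out⟩ : Nat.Primes)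
  set a := polyMat I S a₀
  set u := polyMat I S U
  have h1 : a * (u * T - (u * u + (p : ℤ_[p]) • 1)) = 0 := by
    refine matEnd_id_injective I ?_
    rw [map_zero, map_mul, map_sub, map_mul, map_add, map_mul, matEnd_smul, map_one,
      matEnd_polyMat, matEnd_polyMat]
    refine Eq.trans ?_ (h₀ (latHom I (RingHom.id ℤ_[p]) S U) (Subtype.ext ?_))
    · simp [Nat.cast_smul_eq_nsmul]
    · rw [← matEnd_polyMat]
      change matEnd I (RingHom.id ℤ_[p]) u = _
      rw [hU, rootMat, Subalgebra.coe_mul, Subalgebra.coe_sub, Subalgebra.coe_mul,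
        Subalgebra.coe_algebraMap, Subalgebra.coe_algebraMap]
      simp only [Algebra.algebraMap_eq_smul_one, matEnd_smul, map_sub, smul_mul_assoc, one_mul]
      rfl
  have hTa : Commute T a := polyMat_commute I S _ a₀
  have hTu : Commute T u := polyMat_commute I S _ U
  have hau : Commute a u := (Commute.all a₀ U).map (polyMat I S)
  have h2 : a * u * T = a * (u * u + (p : ℤ_[p]) • 1) := by
    rwa [mul_sub, sub_eq_zero, ← mul_assoc] at h1
  have hsq : (a * u * T) * (a * u * T) = a * a * u * u * (T * T) := by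
    rw [show a * u * T * (a * u * T) = a * u * (T * (a * u)) * T by simp only [mul_assoc],
      (hTa.mul_right hTu).eq, show a * u * (a * u * T) * T = a * (u * a) * u * (T * T) by
        simp only [mul_assoc], ← hau.eq]
    simp only [mul_assoc]
  have hgoal : polyMat I S (a₀ * a₀ * (U ^ 2 - MvPolynomial.C ((p : ℤ_[p]) ^ 2)) * (U ^ 2 - 1)) =
      a * a * u * u * (T * T) - ((p : ℤ_[p]) + 1) ^ 2 • (a * a * u * u) := by
    rw [← hsq, h2, ← polyMat_C I S (p : ℤ_[p]), ← map_mul, ← map_add, ← map_mul, ← map_mul,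
      ← map_mul, ← map_mul, ← map_mul, ← one_mul (polyMat I S (a₀ * a₀ * U * U)),
      ← smul_mul_assoc, ← polyMat_C I S, ← map_mul, ← map_sub]
    refine congrArg _ ?_
    simp only [map_pow, map_add, map_one]
    ring
  rw [hgoal, map_sub, LinearMap.sub_apply, map_mul, Module.End.mul_apply, map_mul (matEnd I ι) T T,
    Module.End.mul_apply, hx, matEnd_smul, LinearMap.smul_apply, map_smul, map_pow, map_add, map_one,
    map_natCast, sub_self]

/-- A vector sent into every power of `p` after elements outside the ideal is killed by one. -/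
theorem exists_killer_vec {N : ℕ} [NeZero N] (I : RepInputs N p) (m : Ideal (AwayPoly ℤ_[p] (↑S : Set ℕ)))
    [m.IsPrime] [IsLocalRing (TLoc I (RingHom.id ℤ_[p]) S m)]
    (hp : ¬ IsUnit (p : TLoc I (RingHom.id ℤ_[p]) S m)) (v : Lat I ℤ_[p])
    (h : ∀ n : ℕ, ∃ s ∈ latMonoid I (RingHom.id ℤ_[p]) S m, ∃ w : Lat I ℤ_[p],
      (s : Module.End ℤ_[p] (Lat I ℤ_[p])) v = (p : ℤ_[p]) ^ n • w) :
    ∃ a, a ∉ m ∧ matEnd I (RingHom.id ℤ_[p]) (polyMat I S a) v = 0 := by
  set ι := RingHom.id ℤ_[p]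
  have hz : LocalizedModule.mk v (1 : latMonoid I ι S m) = 0 := by
    have hbot := Ideal.iInf_pow_smul_eq_bot_of_isLocalRing (R := TLoc I ι S m)
      (M := VLoc I ι S m) (pIdeal I ι S m) (by rwa [Ne, Ideal.span_singleton_eq_top])
    refine (Submodule.eq_bot_iff _).mp hbot _ ((Submodule.mem_iInf _).mpr fun n => ?_)
    obtain ⟨s, hs, w, hw⟩ := h n
    obtain ⟨a, ha⟩ := IsLocalization.map_units (TLoc I ι S m) (⟨s, hs⟩ : latMonoid I ι S m)
    have hmem : (a : TLoc I ι S m) • LocalizedModule.mk v (1 : latMonoid I ι S m) ∈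
        pIdeal I ι S m ^ n • (⊤ : Submodule (TLoc I ι S m) (VLoc I ι S m)) := by
      rw [ha, algebraMap_smul, LocalizedModule.smul'_mk]
      show LocalizedModule.mk ((s : Module.End ℤ_[p] (Lat I ℤ_[p])) v) _ ∈ _
      rw [hw, ← scalar_smul_mk I ι S m, show algebraMap ℤ_[p] (TLoc I ι S m) ((p : ℤ_[p]) ^ n) =
        (p : TLoc I ι S m) ^ n from algebraMap_iota_pow I ι S m n]
      exact Submodule.smul_mem_smul (Ideal.pow_mem_pow (Ideal.mem_span_singleton_self _) _)
        Submodule.mem_top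
    have h3 := Submodule.smul_mem _ (↑a⁻¹ : TLoc I ι S m) hmem
    rwa [smul_smul, Units.inv_mul, one_smul] at h3
  rw [← LocalizedModule.zero_mk (1 : latMonoid I ι S m), LocalizedModule.mk_eq] at hz
  obtain ⟨⟨t, a, ha, hat⟩, hs⟩ := hz
  refine ⟨a, ha, ?_⟩
  rw [matEnd_polyMat, show latHom I ι S a = t from hat]
  exact hs.trans (map_zero (t : Module.End ℤ_[p] (Lat I ℤ_[p])))

/-- **Level `M p`**: a multiple of `u ^ 2 - 1` kills the common kernel of the norms. -/
theorem exists_new_killer (H : RootData S lam₀ A σ₀ φ c) {M N : ℕ} [NeZero M] [NeZero N]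
    (hN : N = M * p) (R : RepInputs N p) (R' : RepInputs M p) (hpM : ¬ p ∣ M)
    (hNS : ∀ q : ℕ, q.Prime → q ∣ N * p → q ∈ S)
    {U : AwayPoly ℤ_[p] (↑S : Set ℕ)} (hU : polyMat R S U = rootMat R c σ₀ φ) :
    ∃ (B : Bool → Matrix (Fin R'.model.d) (Fin R.model.d) ℤ_[p]) (a : AwayPoly ℤ_[p] (↑S : Set ℕ)),
      lam₀ a ≠ 0 ∧
      (∀ b l, ¬ (l : Nat.Primes).1 ∣ N * p →
        B b * heckeMat R.model l = heckeMat R'.model l * B b) ∧
      ∀ (K : Type) [Field K] [CharZero K] (ι : ℤ_[p] →+* K) (x : Lat R K),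
        (∀ b, (B b).map ι *ᵥ x = 0) → matEnd R ι (polyMat R S (a * (U ^ 2 - 1))) x = 0 := by
  classical
  subst hN
  have hp : p.Prime := Fact.out
  have : NeZero p := ⟨hp.ne_zero⟩
  have := RingHom.ker_isPrime lam₀
  refine ⟨normPadic R R', ?_⟩
  suffices hint : ∃ a, lam₀ a ≠ 0 ∧ ∀ v : Lat R ℤ_[p], (∀ b, normPadic R R' b *ᵥ v = 0) →
      polyMat R S (a * (U ^ 2 - 1)) *ᵥ v = 0 by
    obtain ⟨a, ha, hav⟩ := hint
    refine ⟨a, ha, fun b l h => normPadic_mul_heckeMat R R' b l.2 h, fun K _ _ ι x hx => ?_⟩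
    let A₂ : Matrix (Bool × Fin R'.model.d) (Fin R.model.d) ℤ_[p] :=
      Matrix.of fun z j => normPadic R R' z.1 z.2 j
    obtain ⟨s, X, hs, hX⟩ := exists_smul_eq_mul A₂ (polyMat R S (a * (U ^ 2 - 1))) fun w hw =>
      hav w fun b => funext fun i => congrFun hw (b, i)
    have hv' : A₂.map ι *ᵥ x = 0 := funext fun z => congrFun (hx z.1) z.2
    have h := congrArg (fun Y => Y.map ι *ᵥ x) hX
    simp only [Matrix.map_mul, ← mulVec_mulVec, hv', mulVec_zero,
      Matrix.map_smul' ι _ _ (map_mul ι), Matrix.smul_mulVec] at h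
    rw [matEnd_apply]
    exact (smul_eq_zero.mp h).resolve_left fun h0 =>
      hs (padicInt_hom_injective ι (h0.trans (map_zero ι).symm))
  by_cases hker : RingHom.ker (latHom R (RingHom.id ℤ_[p]) S) ≤ RingHom.ker lam₀
  swap
  · obtain ⟨a, ha, ha0⟩ := exists_ker_not_mem S lam₀ R hker
    exact ⟨a, ha, fun v _ => by rw [map_mul (polyMat R S), ha0, zero_mul, zero_mulVec]⟩
  set ι₁ := RingHom.id ℤ_[p]
  set m := RingHom.ker lam₀
  have := isLocalRing_tLoc R ι₁ S m hker
  obtain ⟨res, ρbar, hres, htr, hdet, hspan, hinertia⟩ := exists_residual_data S lam₀ H R hNS hker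
  have := Reduction.charP_residueField (A := A) H.above
  have : IsAlgClosed (ResidueField A) := Reduction.isAlgClosed_residueField
  have hmax : (RingHom.ker (matRes R ι₁ S m res)).IsMaximal := by
    have : Finite (matRes R ι₁ S m res).range := Subtype.finite
    have : Finite (matAway R S ⧸ RingHom.ker (matRes R ι₁ S m res)) :=
      Finite.of_injective _ (RingHom.kerLift_injective (matRes R ι₁ S m res))
    have : (RingHom.ker (matRes R ι₁ S m res)).IsPrime := RingHom.ker_isPrime _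
    exact Ideal.Quotient.maximal_of_isField _ (Finite.isField_of_domain _)
  have hpu : ¬ IsUnit (p : TLoc R ι₁ S m) := fun hu => by
    have := (hu.map res).ne_zero
    rw [map_natCast, CharP.cast_eq_zero] at this
    exact this rfl
  set X := polyMat R S (U ^ 2 - 1) with hX
  have hone : ∀ v : Lat R ℤ_[p], (∀ b, normPadic R R' b *ᵥ v = 0) →
      ∃ a, lam₀ a ≠ 0 ∧ polyMat R S a *ᵥ (X *ᵥ v) = 0 := by
    intro v hv
    obtain ⟨a, ha, hav⟩ := exists_killer_vec S R m hpu (X *ᵥ v) fun n => by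
      obtain ⟨E, hE, hEy⟩ := OrdTop.exists_root_sq_multiplier R S (matRes R ι₁ S m res) ρbar
        (fun g => (matRes_awayTrace R ι₁ S m res g).trans (htr g))
        (fun g => (matRes_awayEps R ι₁ S m res g).trans (hdet g)) hspan hinertia hmax H.above
        H.three_le hpM hNS H.inertia H.frob H.inv n
      obtain ⟨a', ha'⟩ := latHom_surjective R ι₁ S ⟨matEnd R ι₁ E, matEnd_mem R ι₁ S E.2⟩
      refine ⟨latHom R ι₁ S a', ⟨a', fun ham => hE ?_, rfl⟩, ?_⟩
      · refine Eq.trans ?_ ((hres a').trans (RingHom.mem_ker.mp ham))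
        show res (algebraMap (LatAlg R ι₁ S) (TLoc R ι₁ S m) ⟨matEnd R ι₁ E, matEnd_mem R ι₁ S E.2⟩) =
          res (algebraMap (LatAlg R ι₁ S) (TLoc R ι₁ S m) (latHom R ι₁ S a'))
        rw [ha']
      · let y : OrdTop.Vec R n := PadicInt.toZModPow n ∘ v
        have hy : ∀ b, normMaps M p b (OrdTop.point R n y) = 0 := fun b => by
          obtain ⟨z, hz⟩ := (R.model.e n).surjective y
          have h1 : mapMat R.model R'.model (normMaps M p b) n *ᵥ y = 0 := by
            funext i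
            rw [← mapPadic_mod, ← RingHom.map_mulVec,
              show mapPadic R.model R'.model (normMaps M p b) *ᵥ v = 0 from hv b]
            exact map_zero _
          rw [← hz, mapMat_mulVec] at h1
          rw [← hz]
          show normMaps M p b (((R.model.e n).symm (R.model.e n z) : _) : JZero (M * p)) = 0
          rw [AddEquiv.symm_apply_apply]
          exact congrArg Subtype.val ((R'.model.e n).injective (h1.trans (map_zero _).symm))
        have h2 := hEy y hy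
        rw [OrdTop.smul_vec_def] at h2
        have hcoe : ((E * (OrdTop.awayRoot R S c σ₀ φ * OrdTop.awayRoot R S c σ₀ φ - 1) : matAway R S) :
            Matrix (Fin R.model.d) (Fin R.model.d) ℤ_[p]) = (E : Matrix _ _ ℤ_[p]) * X := by
          rw [hX, map_sub, map_pow, map_one, hU, sq]
          push_cast [coe_awayRoot]
          rfl
        change matMod p R.model.d n ((E * (OrdTop.awayRoot R S c σ₀ φ *
          OrdTop.awayRoot R S c σ₀ φ - 1) : matAway R S) : Matrix _ _ ℤ_[p]) *ᵥ y = 0 at h2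
        rw [hcoe] at h2
        have hdvd : ∀ i, ∃ w,
            (((E : Matrix _ _ ℤ_[p]) * X) *ᵥ v) i = (p : ℤ_[p]) ^ n * w := fun i => by
          have h3 := congrFun h2 i
          rw [show (matMod p R.model.d n ((E : Matrix _ _ ℤ_[p]) * X) *ᵥ y) i =
              PadicInt.toZModPow n ((((E : Matrix _ _ ℤ_[p]) * X) *ᵥ v) i) from
                (RingHom.map_mulVec _ _ _ i).symm, Pi.zero_apply, ← RingHom.mem_ker,
            PadicInt.ker_toZModPow, Ideal.mem_span_singleton] at h3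
          obtain ⟨w, hw⟩ := h3
          exact ⟨w, hw⟩
        choose w hw using hdvd
        refine ⟨w, ?_⟩
        rw [ha']
        show matEnd R ι₁ E (X *ᵥ v) = _
        rw [matEnd_apply, RingHom.coe_id, Matrix.map_id, mulVec_mulVec]
        exact funext hw
    refine ⟨a, fun h => ha (RingHom.mem_ker.mpr h), ?_⟩
    rwa [matEnd_apply, RingHom.coe_id, Matrix.map_id] at hav
  let Ker : Submodule ℤ_[p] (Lat R ℤ_[p]) :=
    ⨅ b, LinearMap.ker (normPadic R R' b).mulVecLin
  have hKer : ∀ {v}, v ∈ Ker ↔ ∀ b, normPadic R R' b *ᵥ v = 0 := fun {v} => by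
    simp [Ker, Submodule.mem_iInf, LinearMap.mem_ker]
  obtain ⟨t, ht⟩ := IsNoetherian.noetherian Ker
  choose! a ha hav using fun v (hv : v ∈ t) => hone v (hKer.mp (ht ▸ Submodule.subset_span hv))
  refine ⟨∏ v ∈ t, a v, by rw [map_prod]; exact Finset.prod_ne_zero_iff.mpr ha, fun v hv => ?_⟩
  rw [map_mul (polyMat R S), ← mulVec_mulVec]
  show polyMat R S (∏ v ∈ t, a v) *ᵥ (X *ᵥ v) = 0
  have hle : Submodule.span ℤ_[p] (↑t : Set (Lat R ℤ_[p])) ≤
      LinearMap.ker ((polyMat R S (∏ v ∈ t, a v)).mulVecLin ∘ₗ X.mulVecLin) :=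
    Submodule.span_le.mpr fun w hw => by
      show polyMat R S (∏ v ∈ t, a v) *ᵥ (X *ᵥ w) = 0
      rw [← Finset.prod_erase_mul _ _ hw, map_mul, ← mulVec_mulVec, hav w hw, mulVec_zero]
  exact hle (ht.symm ▸ hKer.mpr hv)

end Fermat.Agent.Engine.Lifting
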