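import Fermat.Agent.Engine.LoweringLocal
import Fermat.Agent.Engine.Lifting.IharaPrime
import Fermat.Agent.HeckeModule.LevelModP

/-!
# The modular hypotheses for lifting

`LevelSetting`: the base level `N₀`, prime to the framed primes `qv v`, with non-zero localised
classes.  `LevelOK`: the levels `N` reached from `N₀` by adding primes of `Sigma`.  Ihara primes,
liftability and exactness at the auxiliary levels.
-/

set_option linter.unusedSectionVars false

noncomputable section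

namespace Fermat.Agent.Engine

open EigenRep HeckeModule IsLocalRing DefRing Deform EigenSystems TRep

local notation "Qbar" => AlgebraicClosure ℚ

/-- The hypotheses at the base level for lifting. -/
structure LevelSetting {O : Type} [CommRing O] [IsLocalRing O] [IsNoetherianRing O]
    [IsAdicComplete (maximalIdeal O) O] (p : ℕ) [Fact p.Prime] (ι₀ : ℤ_[p] →+* O) (N₀ : ℕ)
    (lam : ℕ → O) {T : Type} (qv : T → ℕ) (L₀ : LevelData O) (frob tame : T → GQ) : Prop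
    extends BaseSetting p ι₀ N₀ lam L₀ where
  qv_inj : Function.Injective qv
  framed : FramedPrimes p L₀ qv frob tame
  not_dvd : ∀ v, ¬ qv v ∣ N₀
  sigma_qv : ∀ v, qv v ∈ L₀.Sigma
  ne_zero : N₀ ≠ 0
  base : Nontrivial (CohLoc
    (awayMonoid (lamIdeal (Λ := O) (residue_surjective (R := O)) L₀.Sigma lam))
    (scalarRep (1 : (ZMod N₀)ˣ →* O) O))

namespace Lifting

/-- A level over the base level, by primes of `Sigma`. -/
structure LevelOK {O : Type} [CommRing O] [IsLocalRing O] (p N₀ : ℕ) (L₀ : LevelData O) (N : ℕ) :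
    Prop where
  ne_zero : N ≠ 0
  dvd : N₀ ∣ N
  p_not_dvd : ¬ p ∣ N / N₀
  mem : ∀ ℓ : ℕ, ℓ.Prime → ℓ ∣ N * p → ℓ ∈ L₀.Sigma
  smin : ∀ q ∈ L₀.Smin, ¬ q * q ∣ N

/-- The level with the primes `qv v`, `v ∈ L`. -/
def liftLevel {T : Type} (N₀ : ℕ) (qv : T → ℕ) (L : Finset T) : ℕ := N₀ * ∏ v ∈ L, qv v

/-- A map trivial on the values of the characters is trivial on those of `charSq`. -/
theorem map_charSq_eq_one {R R' : Type} [CommRing R] [CommRing R'] (σ : R →* R')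
    {ψ : ∀ q : ℕ, (ZMod q)ˣ →* R} {Q : Finset ℕ} (h : ∀ q ∈ Q, ∀ u, σ (ψ q u) = 1) (M : ℕ)
    (u : (ZMod M)ˣ) : σ (charSq ψ Q M u) = 1 := by
  rw [charSq_apply, map_prod]
  refine Finset.prod_eq_one fun q hq => ?_
  unfold charOn
  split
  · rw [MonoidHom.comp_apply, map_pow, h q hq, one_pow]
  · rw [MonoidHom.one_apply, map_pow, map_one, one_pow]

variable {O : Type} [CommRing O] [IsLocalRing O] {p N₀ : ℕ} {L₀ : LevelData O}

/-- Adding a prime of `Sigma` to a level. -/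
theorem LevelOK.mul_prime {N v : ℕ} (h : LevelOK p N₀ L₀ N) (hp : p.Prime) (hv : v.Prime)
    (hvN : ¬ v ∣ N) (hvp : v ≠ p) (hvS : v ∈ L₀.Sigma) (hsmin : ∀ q ∈ L₀.Smin, q.Prime) :
    LevelOK p N₀ L₀ (v * N) where
  ne_zero := mul_ne_zero hv.ne_zero h.ne_zero
  dvd := h.dvd.mul_left v
  p_not_dvd hd := by
    obtain ⟨c, rfl⟩ := h.dvd
    have hN₀ : 0 < N₀ := Nat.pos_of_ne_zero (left_ne_zero_of_mul h.ne_zero)
    have h' := h.p_not_dvd
    rw [Nat.mul_div_cancel_left _ hN₀] at h'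
    rw [show v * (N₀ * c) = N₀ * (v * c) by ring, Nat.mul_div_cancel_left _ hN₀] at hd
    exact (hp.dvd_mul.mp hd).elim (fun h => hvp ((Nat.prime_dvd_prime_iff_eq hp hv).mp h).symm) h'
  mem ℓ hℓ hd := by
    rcases hℓ.dvd_mul.mp hd with h1 | h1
    · rcases hℓ.dvd_mul.mp h1 with h2 | h2
      · rwa [(Nat.prime_dvd_prime_iff_eq hℓ hv).mp h2]
      · exact h.mem ℓ hℓ (h2.mul_right p)
    · exact h.mem ℓ hℓ (h1.mul_left N)
  smin q hq hd := by
    have hqp := hsmin q hq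
    by_cases hqv : q = v
    · subst hqv
      exact hvN ((Nat.mul_dvd_mul_iff_left hqp.pos).mp hd)
    · exact h.smin q hq ((((Nat.coprime_primes hqp hv).mpr hqv).mul_left
        ((Nat.coprime_primes hqp hv).mpr hqv)).dvd_of_dvd_mul_left hd)

/-- A level with auxiliary primes and characters. -/
theorem LevelOK.arith {N : ℕ} (h : LevelOK p N₀ L₀ N) (hp : p.Prime) (hpS : p ∈ L₀.Sigma)
    {S Q : Finset ℕ} (hS : S = L₀.Sigma ∪ Q) (hQ : ∀ q ∈ Q, q.Prime ∧ q ∉ L₀.Sigma)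
    (hsmin : ∀ q ∈ L₀.Smin, q.Prime ∧ q ∈ L₀.Sigma) {Λ : Type} [CommRing Λ]
    {ψ : ∀ q : ℕ, (ZMod q)ˣ →* Λ} (hψ : ∀ q ∈ Q, ∀ u, ∃ k : ℕ, ψ q u ^ p ^ k = 1) :
    LevelArith p N₀ L₀ S Q (N * ∏ q ∈ Q, q) ψ := by
  have hcop : ∀ ℓ : ℕ, ℓ.Prime → ℓ ∈ L₀.Sigma → ¬ ℓ ∣ ∏ q ∈ Q, q := fun ℓ hℓ hℓS hd => by
    obtain ⟨q, hq, hd'⟩ := (Prime.dvd_finsetProd_iff hℓ.prime _).mp hd
    exact (hQ q hq).2 ((Nat.prime_dvd_prime_iff_eq hℓ (hQ q hq).1).mp hd' ▸ hℓS)
  have hnot : ∀ q ∈ Q, ¬ q ∣ N := fun q hq hd =>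
    (hQ q hq).2 (h.mem q (hQ q hq).1 (hd.mul_right p))
  refine ⟨(h.dvd.mul_right _).mul_right _, fun hd => ?_, fun q hq => ⟨(hQ q hq).1,
    (Finset.dvd_prod_of_mem _ hq).mul_left N, fun hd => ?_⟩, hS ▸ Finset.subset_union_left,
    fun ℓ hℓ hd => ?_, fun q hq hd => ?_, hψ⟩
  · obtain ⟨c, rfl⟩ := h.dvd
    have hN₀ : 0 < N₀ := Nat.pos_of_ne_zero (left_ne_zero_of_mul h.ne_zero)
    have h' := h.p_not_dvd
    rw [Nat.mul_div_cancel_left _ hN₀] at h'
    rw [mul_assoc, mul_assoc, Nat.mul_div_cancel_left _ hN₀] at hd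
    rcases hp.dvd_mul.mp hd with h1 | h1
    · exact h' h1
    · exact (hp.dvd_mul.mp h1).elim (hcop p hp hpS) (hcop p hp hpS)
  · rw [← Finset.mul_prod_erase Q _ hq, mul_left_comm] at hd
    have hd' := (Nat.mul_dvd_mul_iff_left (hQ q hq).1.pos).mp hd
    rcases (hQ q hq).1.dvd_mul.mp hd' with h1 | h1
    · exact hnot q hq h1
    · obtain ⟨x, hx, hd''⟩ := (Prime.dvd_finsetProd_iff (hQ q hq).1.prime _).mp h1
      exact Finset.ne_of_mem_erase hx ((Nat.prime_dvd_prime_iff_eq (hQ q hq).1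
        (hQ x (Finset.mem_of_mem_erase hx)).1).mp hd'').symm
  · rw [hS, Finset.mem_union]
    rcases hℓ.dvd_mul.mp hd with h1 | h1
    · rcases hℓ.dvd_mul.mp h1 with h2 | h2
      · rcases hℓ.dvd_mul.mp h2 with h3 | h3
        · exact Or.inl (h.mem ℓ hℓ (h3.mul_right p))
        · obtain ⟨q, hq, hd'⟩ := (Prime.dvd_finsetProd_iff hℓ.prime _).mp h3
          exact Or.inr ((Nat.prime_dvd_prime_iff_eq hℓ (hQ q hq).1).mp hd' ▸ hq)
      · obtain ⟨q, hq, hd'⟩ := (Prime.dvd_finsetProd_iff hℓ.prime _).mp h2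
        exact Or.inr ((Nat.prime_dvd_prime_iff_eq hℓ (hQ q hq).1).mp hd' ▸ hq)
    · exact Or.inl (h.mem ℓ hℓ (h1.mul_left N))
  · obtain ⟨hqp, hqS⟩ := hsmin q hq
    have hc : Nat.Coprime q (∏ x ∈ Q, x) := hqp.coprime_iff_not_dvd.mpr (hcop q hqp hqS)
    exact h.smin q hq ((hc.mul_left hc).dvd_of_dvd_mul_right
      ((hc.mul_left hc).dvd_of_dvd_mul_right hd))

/-- The level with one more prime. -/
theorem liftLevel_insert {T : Type} [DecidableEq T] (N₀ : ℕ) (qv : T → ℕ) {L : Finset T} {v : T}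
    (hv : v ∉ L) : liftLevel N₀ qv (insert v L) = qv v * liftLevel N₀ qv L := by
  rw [liftLevel, liftLevel, Finset.prod_insert hv]
  ring

/-- A prime not in `L` does not divide the level of `L`. -/
theorem not_dvd_liftLevel {T : Type} {N₀ : ℕ} {qv : T → ℕ} (hprime : ∀ v, (qv v).Prime)
    (hinj : Function.Injective qv) (hnot : ∀ v, ¬ qv v ∣ N₀) {L : Finset T} {v : T} (hv : v ∉ L) :
    ¬ qv v ∣ liftLevel N₀ qv L := fun hd => by
  rcases (hprime v).dvd_mul.mp hd with h | h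
  · exact hnot v h
  · obtain ⟨w, hw, hd'⟩ := (Prime.dvd_finsetProd_iff (hprime v).prime _).mp h
    exact hv (hinj ((Nat.prime_dvd_prime_iff_eq (hprime v) (hprime w)).mp hd') ▸ hw)

end Lifting

namespace LevelSetting

variable {O : Type} [CommRing O] [IsLocalRing O] [IsNoetherianRing O]
  [IsAdicComplete (maximalIdeal O) O] {p : ℕ} [Fact p.Prime] {ι₀ : ℤ_[p] →+* O} {N₀ : ℕ}
  {lam : ℕ → O} {T : Type} {qv : T → ℕ} {L₀ : LevelData O} {frob tame : T → GQ}
  (H : LevelSetting p ι₀ N₀ lam qv L₀ frob tame)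

include H

/-- The base level is a level. -/
theorem levelOK_base : Lifting.LevelOK p N₀ L₀ N₀ :=
  ⟨H.ne_zero, dvd_rfl, by
    rw [Nat.div_self (Nat.pos_of_ne_zero H.ne_zero)]
    exact (Fact.out : p.Prime).not_dvd_one, H.sigma, fun q hq => (H.smin q hq).2.2.1⟩

/-- Every `liftLevel` is a level. -/
theorem levelOK (L : Finset T) : Lifting.LevelOK p N₀ L₀ (Lifting.liftLevel N₀ qv L) := by
  classical
  induction L using Finset.induction_on with
  | empty => simpa [Lifting.liftLevel] using H.levelOK_base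
  | insert v L hv ih =>
    rw [Lifting.liftLevel_insert _ _ hv]
    exact ih.mul_prime Fact.out (H.framed.prime v)
      (Lifting.not_dvd_liftLevel H.framed.prime H.qv_inj H.not_dvd hv) (H.framed.ne_p v)
      (H.sigma_qv v) fun q hq => (H.smin q hq).1

end LevelSetting

namespace BaseSetting

variable {p : ℕ} [Fact p.Prime] {O : Type} [CommRing O] [IsLocalRing O] {ι₀ : ℤ_[p] →+* O}
  {N₀ : ℕ} {lam : ℕ → O} {L₀ : LevelData O} (H : BaseSetting p ι₀ N₀ lam L₀)
  {Λ : Type} [CommRing Λ] [IsLocalRing Λ] [IsNoetherianRing Λ]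
  [IsAdicComplete (maximalIdeal Λ) Λ] [Algebra O Λ] [IsLocalHom (algebraMap O Λ)]
  (hsΛ : Function.Surjective (residue Λ ∘ algebraMap O Λ))

include H

/-- `p` lies in the maximal ideal of `Λ`. -/
theorem p_mem_algebra : (p : Λ) ∈ maximalIdeal Λ := by
  rw [← map_natCast (algebraMap O Λ)]
  exact fun h => H.p_mem ((inferInstance : IsLocalHom (algebraMap O Λ)).map_nonunit _ h)

/-- The residue characteristic of `Λ`. -/
theorem charP_residue : CharP (ResidueField Λ) p :=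
    (CharP.charP_iff_prime_eq_zero (Fact.out : p.Prime)).mpr (by
      rw [← map_natCast (residue Λ)]
      exact (residue_eq_zero_iff _).mpr H.p_mem_algebra)

/-- Liftability to the residue field of `Λ`. -/
theorem liftable_residue {M : ℕ} (hM : ThreeOK p M) : Liftable (ResidueField Λ) M :=
  letI : Algebra O (ResidueField Λ) := ((residue Λ).comp (algebraMap O Λ)).toAlgebra
  H.liftable hM _

/-- Ihara primes for any level and prime. -/
theorem exists_iharaPrimes {S : Finset ℕ} (hS : L₀.Sigma ⊆ S) (M v : ℕ) [NeZero M] :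
    Nonempty (IharaPrimes (awayMonoid (lamIdeal hsΛ S lam)) M v p) := by
  obtain ⟨r, hr, hr1, -, hrS, hne⟩ := H.exists_nonEisenstein S hS (Nat.pos_of_ne_zero (NeZero.ne M))
  have : Fact r.Prime := ⟨hr⟩
  have h2 : (2 : ResidueField O) ≠ 0 := by
    have h := H.two.map (residue O)
    rw [map_ofNat] at h
    exact h.ne_zero
  have hdet : ∀ ℓ : ℕ, ℓ.Prime → ℓ ∉ S → ∀ A : ValuationSubring Qbar, A.LiesOverPrime ℓ →
      ∀ σ : GQ, A.IsFrobeniusAt σ ℓ → (L₀.D.rbar σ).det = (ℓ : ResidueField O) :=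
    fun ℓ hℓ hℓS A hA σ hσ => H.detbar_frob hℓ (fun h => hℓS (hS (h ▸ H.p_mem_sigma))) hA hσ
  obtain ⟨ℓ, hℓ, hℓS, hℓB, A, hA, σ, hσ, hne'⟩ := Lifting.exists_prime_sq_trace_ne (Field.toIsField _)
    h2 L₀.D.rbar H.cont.finite_level H.span S hdet (M + v + 2)
  have : Fact ℓ.Prime := ⟨hℓ⟩
  rw [H.trace_frob ℓ hℓ (fun h => hℓS (hS h)) A hA σ hσ] at hne'
  refine ⟨{ ℓ := ℓ, r := r, lt := by omega, ne_p := fun h => hℓS (hS (h ▸ H.p_mem_sigma)),
            ne_q := by omega, ne_two := by omega, r_eq := hr1, ihara_mem := ?_, eisen_mem :=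
              eisen_mem_awayMonoid (show r ∉ (↑S : Set ℕ) from hrS) fun h => hne ?_ }⟩
  · refine ⟨MvPolynomial.X ⟨⟨ℓ, hℓ⟩, hℓS⟩ ^ 2 - MvPolynomial.C (((ℓ : Λ) + 1) ^ 2), fun h => hne' ?_,
      ?_⟩
    · have h' : lamHom O Λ hsΛ S lam _ = 0 := h
      rw [map_sub, map_pow, lamHom_X, lamHom_C, map_pow, map_add, map_natCast, map_one,
        sub_eq_zero] at h'
      exact h'
    · show awayIncl Λ _ _ = _
      rw [map_sub, map_pow, awayIncl_X, ← MvPolynomial.algebraMap_eq, AlgHom.commutes]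
      rfl
  · have h' : lamHom O Λ hsΛ S lam _ = 0 := h
    rw [awayX, map_sub, lamHom_X, lamHom_C, map_add, map_natCast, map_one, sub_eq_zero] at h'
    exact h'

end BaseSetting

end Fermat.Agent.Engine
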