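import Fermat.Agent.Engine.TRep.TwistChain
import Fermat.Agent.HeckeModule.Compose
import Fermat.Agent.HeckeModule.MatData
import Fermat.Agent.HeckeModule.LevelFree

/-!
# The trace at a prime commutes with twists at other primes

The representatives `traceMat` lie in `Γ₀` of the upper level with upper left entry one, so moving a
translation by `b / s` across one of them keeps `b`.
-/

noncomputable section

open CongruenceSubgroup
open scoped MatrixGroups

namespace Fermat.Agent.Engine.Lifting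

open HeckeJ0 LevelRaising HeckeModule EigenSystems TRep

variable {K : Type} [Field K] [CharZero K] {M M' v s : ℕ} [hv : Fact v.Prime] [hs : Fact s.Prime]
  {χ : (ZMod M)ˣ →* K} {χ' : (ZMod M')ˣ →* K} {ψ : (ZMod s)ˣ →* K}
  {hq : s ∣ M} {hM : M * s ∣ M'}

omit [CharZero K] hv in
/-- The twist hypothesis at the levels times `v`. -/
theorem twistChar_up (hχ : TwistChar χ χ' ψ hq hM) :
    TwistChar (upChar v χ) (upChar v χ') ψ (hq.trans (dvd_mul_left M v))
      (show v * M * s ∣ v * M' by rw [mul_assoc]; exact mul_dvd_mul_left v hM) := fun u => by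
  have h := hχ (ZMod.unitsMap (dvd_mul_left M' v) u)
  show χ (ZMod.unitsMap (dvd_mul_left M v) (ZMod.unitsMap _ u)) =
    χ' (ZMod.unitsMap (dvd_mul_left M' v) u) * ψ (ZMod.unitsMap _ u) ^ 2
  have e : ∀ {a b c : ℕ} (hab : a ∣ b) (hbc : b ∣ c) (x : (ZMod c)ˣ),
      ZMod.unitsMap hab (ZMod.unitsMap hbc x) = ZMod.unitsMap (hab.trans hbc) x := fun hab hbc x =>
    DFunLike.congr_fun (ZMod.unitsMap_comp hab hbc) x
  rw [e, e] at h
  rw [e]
  exact h

omit [CharZero K] in
/-- **The trace at `v` commutes with the twist at `s`.** -/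
theorem trace_twist (hχ : TwistChar χ χ' ψ hq hM) (hvM : ¬ v ∣ M) (hvM' : ¬ v ∣ M')
    (u : Coh1 (pullRep (scalarRep χ K) (dvd_mul_left M v))) :
    trace (scalarRep χ' K) hvM' (twist K (twistChar_up (v := v) hχ) u) =
      twist K hχ (trace (scalarRep χ K) hvM u) := by
  classical
  have hMM' : M ∣ M' := dvd_of_mul_right_dvd hM
  let γ : Option (Fin v) → Gamma0 M' := fun i =>
    lvlElt (M := (traceMat M' v i)) (by
      simpa using (fact_traceMat' hvM').mem 1 (one_mem_lvl _) i)
  have hγ : ∀ i, ((γ i : SL(2, ℤ)) : Mat) = traceMat M' v i := fun i => rfl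
  have hdγ : ∀ i, dUnit M' (γ i) = 1 := fun i => by
    refine Units.ext ?_
    have h := gamma0_diag (γ i)
    rw [show ((γ i : SL(2, ℤ)) 0 0 : ℤ) = traceMat M' v i 0 0 from rfl,
      (traceMat_apply_zero i).1, one_mul] at h
    exact h
  have hperm : ∀ (b : (ZMod s)ˣ) i,
      twistPerm (hq.trans (dvd_of_mul_right_dvd hM)) (γ i) b = b := fun b i => by
    rw [twistPerm, hdγ, map_one, one_pow, mul_one]
  choose g hg hgd hg10 using fun (b : (ZMod s)ˣ) i => exists_twist_mul hq hM b (γ i)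
  simp only [hperm] at hg
  have hgd' : ∀ b i, dUnit M (g b i) = 1 := fun b i => by rw [hgd, hdγ, map_one]
  choose j y hy hgy using fun (b : (ZMod s)ˣ) i =>
    (fact_traceMat' hvM).fact _ (coe_mem_lvl (g b i))
  have hdy : ∀ b i, ZMod.unitsMap (dvd_mul_left M v) (dUnit (v * M) (lvlElt (hy b i))) = 1 := by
    intro b i
    have h00 : (((g b i : SL(2, ℤ)) : Mat) 0 0 : ZMod M) = 1 := by
      have h := gamma0_diag (g b i)
      rwa [hgd' b i, Units.val_one, mul_one] at h
    refine (dUnit_eq_of_mul_eq (dvd_mul_left M v) (γ := (1 : Gamma0 M)) h00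
      (traceMat_apply_zero (j b i)).1 (traceMat_apply_zero (j b i)).2 ?_).trans (map_one _)
    rw [OneMemClass.coe_one, Matrix.SpecialLinearGroup.coe_one, mul_one]
    exact hgy b i
  let e : (ZMod s)ˣ × Option (Fin v) → Option (Fin v) × (ZMod s)ˣ := fun p => (j p.1 p.2, p.1)
  have he : Function.Bijective e := by
    refine (Fintype.bijective_iff_injective_and_card e).mpr
      ⟨fun p p' h => ?_, by simp only [Fintype.card_prod]; exact mul_comm _ _⟩
    obtain ⟨b, i⟩ := p
    obtain ⟨b', i'⟩ := p'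
    simp only [e, Prod.mk.injEq] at h
    obtain ⟨hj, rfl⟩ := h
    have h1 : g b i * (g b i')⁻¹ ∈ (Gamma0 (v * M)).subgroupOf (Gamma0 M) := by
      rw [Subgroup.mem_subgroupOf]
      have e1 : ((lvlElt (hy b i) * (lvlElt (hy b i'))⁻¹ : Gamma0 (v * M)) : SL(2, ℤ)) =
          ((g b i * (g b i')⁻¹ : Gamma0 M) : SL(2, ℤ)) := by
        let B : Option (Fin v) → SL(2, ℤ) := fun k =>
          ⟨traceMat M v k, det_traceMat hv.out hvM k⟩
        have e2 : ∀ k, ((lvlElt (hy b k) : Gamma0 (v * M)) : SL(2, ℤ)) * B (j b k) =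
            (g b k : SL(2, ℤ)) := fun k => Subtype.ext (hgy b k).symm
        rw [Subgroup.coe_mul, Subgroup.coe_inv, Subgroup.coe_mul, Subgroup.coe_inv, ← e2 i, ← e2 i',
          hj, mul_inv_rev, ← mul_assoc, mul_assoc (lvlElt (hy b i) : SL(2, ℤ)), mul_inv_cancel,
          mul_one]
      rw [← e1]
      exact (lvlElt (hy b i) * (lvlElt (hy b i'))⁻¹).2
    rw [Subgroup.mem_subgroupOf, mem_Gamma0_iff_dvd] at h1
    obtain ⟨g', hg', -, hg'10⟩ := exists_twist_mul hq hM b (γ i * (γ i')⁻¹)
    have hperm' : twistPerm (hq.trans (dvd_of_mul_right_dvd hM)) (γ i * (γ i')⁻¹) b = b := by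
      rw [twistPerm, map_mul, map_inv, hdγ, hdγ, inv_one, one_mul, map_one, one_pow, mul_one]
    rw [hperm'] at hg'
    have hgg : g' = g b i * (g b i')⁻¹ := toGL_injective (mul_right_cancel (hg'.symm.trans (by
      rw [map_mul, map_inv, map_mul, map_inv, ← mul_assoc, hg b i, mul_assoc, mul_assoc]
      congr 1
      rw [eq_inv_mul_iff_mul_eq, ← mul_assoc, ← hg b i', mul_inv_cancel_right])))
    rw [← hgg, hg'10] at h1
    have hcop : Nat.Coprime v M' := (Nat.Prime.coprime_iff_not_dvd hv.out).mpr hvM'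
    have hmem : ((γ i * (γ i')⁻¹ : Gamma0 M') : SL(2, ℤ)) ∈ Gamma0 (v * M') := by
      rw [mem_Gamma0_iff_dvd, Nat.cast_mul]
      refine (Int.isCoprime_iff_gcd_eq_one.mpr (by simpa [Int.gcd_natCast_natCast] using hcop)).mul_dvd
        (dvd_trans ⟨(M : ℤ), by push_cast; ring⟩ h1)
        ((mem_Gamma0_iff_dvd _).mp (γ i * (γ i')⁻¹).2)
    refine Prod.ext rfl ((fact_traceMat' hvM').unique (one_mem_lvl _) (coe_mem_lvl ⟨_, hmem⟩) ?_)
    rw [one_mul, ← hγ i, ← hγ i', Subgroup.coe_mul, Subgroup.coe_inv,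
      ← Matrix.SpecialLinearGroup.coe_mul, inv_mul_cancel_right]
  refine Data.comp_eq_comp toGL_injective toGL_injective toGL_injective
    (twistData K (twistChar_up (v := v) hχ)) (traceData (scalarRep χ' K) hvM')
    (traceData (scalarRep χ K) hvM) (twistData K hχ) (Equiv.ofBijective e he)
    (fun p => lvlElt (hy p.1 p.2)) (fun p => ?_) (fun p => ?_) u
  · obtain ⟨b, i⟩ := p
    have eγ : matGL (traceMat M' v i) ((fact_traceMat' hvM').det_ne_zero i) = toGL M' (γ i) :=
      Units.ext (by rw [val_matGL, val_toGL]; rfl)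
    show twistMat s (twistVal b) * matGL (traceMat M' v i) ((fact_traceMat' hvM').det_ne_zero i) =
      toGL (v * M) (lvlElt (hy b i)) *
        (matGL (traceMat M v (j b i)) ((fact_traceMat' hvM).det_ne_zero _) *
          twistMat s (twistVal b))
    rw [eγ, hg b i, ← mul_assoc]
    congr 1
    refine Units.ext ?_
    rw [Units.val_mul, val_toGL, val_toGL, val_matGL, ← Matrix.map_mul_intCast, hgy b i]
    rfl
  · obtain ⟨b, i⟩ := p
    refine LinearMap.ext fun a => ?_
    show ψ b • upChar v χ (dUnit (v * M) (lvlElt (hy b i))) • a = ψ b • a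
    rw [upChar, MonoidHom.comp_apply, hdy, map_one, one_smul]

end Fermat.Agent.Engine.Lifting
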