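import Fermat.Agent.Engine.Lifting.NormMat
import Fermat.Agent.Engine.Lifting.Counting
import Fermat.Agent.Engine.Lifting.CommonPoly
import Fermat.Agent.Engine.Lifting.LatticeClasses
import Fermat.Agent.HeckeModule.LocLift
import Fermat.Agent.HeckeModule.TraceComp
import Fermat.Agent.HeckeModule.TraceHecke
import Fermat.Agent.TwoAdic.Modules.TWRelations

/-!
# The two norms and Hecke polynomials on lattice coordinates

`exists_normMat`: the norm matrices from level `M v`, on whose common kernel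
`t² = (v + 1)²`, `t` the trace of Frobenius at `v`; `latHom_sqPoly`: the polynomial
`t² - (v + 1)²` on coordinates.
-/

noncomputable section

open CongruenceSubgroup Matrix
open scoped MatrixGroups

namespace Fermat.Agent.Engine.Lifting

open EigenRep HeckeModule EigenSystems TRep

local notation "Qbar" => AlgebraicClosure ℚ

section Scalar

variable {K : Type} [Field K] [CharZero K] {M v : ℕ} [hv : Fact v.Prime]

omit [CharZero K] hv in
/-- The trivial character gives the trivial representation. -/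
theorem scalarRep_one : scalarRep (1 : (ZMod M)ˣ →* K) K = trivRep M K K :=
  MonoidHom.ext fun u => LinearMap.ext fun a => by
    rw [scalarRep_apply, MonoidHom.one_apply, one_smul]; rfl

/-- A class killed by the trace, also after `U_v`, is killed by the twisted trace. -/
theorem traceTwist_eq_zero (hvM : ¬ v ∣ M) (ρ : Representation K (ZMod M)ˣ K)
    (hρ : ρ = trivRep M K K) (u : Coh1 (pullRep ρ (dvd_mul_left M v))) (h : trace ρ hvM u = 0)
    (h' : trace ρ hvM (heckeOp _ v u) = 0) : traceTwist ρ hvM u = 0 := by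
  obtain rfl : ρ = scalarRep (TwoAdic.levelChar (one_dvd M) (1 : (ZMod 1)ˣ →* K)) K :=
    hρ.trans scalarRep_one.symm
  generalize hχ : (1 : (ZMod 1)ˣ →* K) = χ at *
  have hw := ((TwoAdic.castCoh (TwoAdic.pullRep_scalarRep K (one_dvd M) χ
    (dvd_mul_left M v))).symm_apply_apply u).symm
  generalize (TwoAdic.castCoh (TwoAdic.pullRep_scalarRep K (one_dvd M) χ
    (dvd_mul_left M v))) u = w at hw
  subst hw
  rw [← TwoAdic.charTrace_eq] at h
  rw [← TwoAdic.castCoh_symm_heckeOp, ← TwoAdic.charTrace_eq] at h'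
  rw [← TwoAdic.charTraceTwist_eq]
  have h1 := congrArg (TwoAdic.charTrace K (one_dvd M) χ hvM (one_dvd (v * M)))
    (TwoAdic.heckeOp_add_wSelf hvM (one_dvd M) (one_dvd (v * M)) χ hχ.symm w)
  have h2 := TwoAdic.charTrace_eq_wSelf hvM (one_dvd M) (one_dvd (v * M)) χ hχ.symm
    (TwoAdic.wSelf K hvM (one_dvd M) (one_dvd (v * M)) χ w)
  rw [TwoAdic.alOp_alOp (TwoAdic.isALPrimes_self hvM) (Finset.mem_singleton_self v)
    (one_dvd (v * M)) χ (TwoAdic.coprime_self hvM (one_dvd M)) (1 : K) (by simp [← hχ])] at h2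
  rw [map_add, h', zero_add, TwoAdic.charTrace_charDegen_one, ← h2, add_smul, one_smul] at h1
  exact (smul_eq_zero.mp (add_eq_right.mp h1.symm)).resolve_left
    (Nat.cast_ne_zero.mpr hv.out.ne_zero)

end Scalar

variable {p : ℕ} [Fact p.Prime]

/-- The norm matrices to level `M` from a level equal to `M v`. -/
theorem exists_normMat (hfacts : SemistableRed.GoodReductionFacts) {M N v : ℕ} [NeZero M]
    [NeZero N] [hv : Fact v.Prime] (hN : N = M * v) (R : RepInputs N p) (R' : RepInputs M p)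
    (hvM : ¬ v ∣ M) (hvp : v ≠ p) {A : ValuationSubring Qbar} (hA : A.LiesOverPrime v)
    {φ : Qbar ≃ₐ[ℚ] Qbar} (hφ : A.IsFrobeniusAt φ v) :
    ∃ B : Bool → Matrix (Fin R'.model.d) (Fin R.model.d) ℤ_[p],
      (∀ b l, ¬ (l : Nat.Primes).1 ∣ N * p →
        B b * heckeMat R.model l = heckeMat R'.model l * B b) ∧
      ∀ (K : Type) [Field K] [CharZero K] (ι : ℤ_[p] →+* K) (x : Fin R.model.d → K),
        (∀ b, (B b).map ι *ᵥ x = 0) →
          (tMat R φ * tMat R φ - ((v : ℤ_[p]) + 1) ^ 2 • 1).map ι *ᵥ x = 0 := by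
  subst hN
  have : NeZero v := ⟨hv.out.ne_zero⟩
  exact ⟨normPadic R R', fun b l h => normPadic_mul_heckeMat R R' b l.2 h,
    fun K _ _ ι x h => sq_tMat_mulVec_eq_zero_field R R' hfacts hvM hvp hA hφ ι h⟩

section Poly

variable {K : Type} [Field K] [CharZero K] (ι : ℤ_[p] →+* K) (S : Finset ℕ)

omit [CharZero K] in
/-- An intertwiner of the Hecke matrices intertwines the lattice algebras. -/
theorem mulVec_latHom {M N : ℕ} [NeZero M] [NeZero N] (R : RepInputs N p) (R' : RepInputs M p)
    (B : Matrix (Fin R'.model.d) (Fin R.model.d) ℤ_[p])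
    (hB : ∀ l : AwayIndex (↑S : Set ℕ),
      B * heckeMat R.model (l : Nat.Primes) = heckeMat R'.model (l : Nat.Primes) * B)
    (P : AwayPoly K (↑S : Set ℕ)) (x : Fin R.model.d → K) :
    B.map ι *ᵥ ((latHom R ι S P : Module.End K (Lat R K)) x) =
      (latHom R' ι S P : Module.End K (Lat R' K)) (B.map ι *ᵥ x) := by
  induction P using MvPolynomial.induction_on generalizing x with
  | C c =>
    rw [← MvPolynomial.algebraMap_eq, AlgHom.commutes, AlgHom.commutes]
    exact mulVec_smul _ c x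
  | add P Q hP hQ =>
    rw [map_add, map_add, Subalgebra.coe_add, Subalgebra.coe_add, LinearMap.add_apply,
      LinearMap.add_apply, mulVec_add, hP, hQ]
  | mul_X P l hP =>
    rw [map_mul, map_mul, Subalgebra.coe_mul, Subalgebra.coe_mul, Module.End.mul_apply,
      Module.End.mul_apply, hP, latHom_X, latHom_X, latOp, latOp, matEnd_apply, matEnd_apply,
      mulVec_mulVec, mulVec_mulVec, ← Matrix.map_mul, hB, Matrix.map_mul]

omit [CharZero K] in
/-- The Hecke matrices on coordinates. -/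
theorem matEnd_heckeMat {N : ℕ} [NeZero N] (hes : EichlerShimuraRelations N p) (l : Nat.Primes)
    (a : Fin (HeckeJ0.rk N) → K) :
    matEnd (stdInputs hes) ι (heckeMat (stdInputs hes).model l) a =
      intAct (HeckeJ0.heckeMatAt N l) a := by
  funext i
  show ∑ k, ι ((((stdInputs hes).model.T l) i k : ℤ) : ℤ_[p]) * a k = _
  refine Finset.sum_congr rfl fun k _ => ?_
  rw [map_intCast, stdInputs_T, zsmul_eq_mul]

/-- `(t² - (v + 1)²)` with coefficients in `K`. -/
def sqPoly {R : Type} [CommRing R] (S : Finset ℕ) (v : ℕ) (P : AwayPoly R (↑S : Set ℕ)) :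
    AwayPoly R (↑S : Set ℕ) :=
  P ^ 2 - MvPolynomial.C (((v : R) + 1) ^ 2)

/-- `sqPoly` commutes with change of coefficients. -/
theorem sqPoly_map {R R' : Type} [CommRing R] [CommRing R'] (θ : R →+* R') (S : Finset ℕ) (v : ℕ)
    (P : AwayPoly R (↑S : Set ℕ)) :
    MvPolynomial.map θ (sqPoly S v P) = sqPoly S v (MvPolynomial.map θ P) := by
  rw [sqPoly, sqPoly, map_sub, map_pow, MvPolynomial.map_C, map_pow, map_add, map_one, map_natCast]

variable {L : ℕ} [NeZero L] (h : EichlerShimuraRelations L p) {φ : Qbar ≃ₐ[ℚ] Qbar}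
  {P₀ : AwayPoly ℤ_[p] (↑S : Set ℕ)} {v : ℕ} {r : ℕ} [Fact r.Prime]

omit [CharZero K] [Fact r.Prime] in
/-- The polynomial on coordinates. -/
theorem latHom_sqPoly
    (hL : (latHom (stdInputs h) (RingHom.id ℤ_[p]) S P₀ :
        Module.End ℤ_[p] (Lat (stdInputs h) ℤ_[p])) =
          matEnd (stdInputs h) (RingHom.id ℤ_[p]) (tMat (stdInputs h) φ))
    (x : Lat (stdInputs h) K) :
    (latHom (stdInputs h) ι S (sqPoly S v (MvPolynomial.map ι P₀)) :
        Module.End K (Lat (stdInputs h) K)) x =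
      (tMat (stdInputs h) φ * tMat (stdInputs h) φ - ((v : ℤ_[p]) + 1) ^ 2 • 1).map ι *ᵥ x := by
  rw [sqPoly, ← matEnd_apply, map_sub, map_pow, Subalgebra.coe_sub, Subalgebra.coe_pow,
    latHom_tMat (stdInputs h) ι S hL, ← MvPolynomial.algebraMap_eq, AlgHom.commutes, map_sub,
    sq, map_mul, matEnd_smul, map_one, Algebra.algebraMap_eq_smul_one]
  simp

omit [CharZero K] in
/-- An Eisenstein multiple with coordinates killed by a polynomial. -/
theorem smul_eq_zero_of_coords (hp2 : p ≠ 2) (hp3 : ThreeOK p L) (hr1 : (r : ZMod L) = 1)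
    (hrp : r ≠ p)
    (G : AwayPoly K (↑S : Set ℕ)) (x : Coh1 (trivRep L K K))
    (hx : (latHom (stdInputs h) ι S G : Module.End K (Lat (stdInputs h) K))
        (classCoords (eisen K r • x)) = 0) :
    (awayIncl K (↑S : Set ℕ) G * eisen K r) • x = 0 := by
  rw [mul_comm, mul_smul]
  refine eisen_smul_eq_zero hp2 hp3 hr1 hrp ?_ ι
  rw [smul_comm, classCoords_smul_self h ι S hp2 hp3 hr1 hrp]
  exact hx

omit [NeZero L] in
/-- `(t² - (v + 1)²) · η_r` as one polynomial away from `S`. -/
theorem awayIncl_mul_eisen {O : Type} [CommRing O] (G : AwayPoly O (↑S : Set ℕ)) (hrS : r ∉ S) :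
    awayIncl O (↑S : Set ℕ) (G * (awayX O Fact.out (show r ∉ (↑S : Set ℕ) from hrS) -
      MvPolynomial.C ((r : O) + 1))) = awayIncl O (↑S : Set ℕ) G * eisen O r := by
  rw [map_mul, map_sub, awayX, awayIncl_X, ← MvPolynomial.algebraMap_eq, AlgHom.commutes,
    MvPolynomial.algebraMap_eq]
  rfl

end Poly

end Fermat.Agent.Engine.Lifting
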